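import Mathlib
import Fermat.Prelude.Def_AlgebraicCurve_BaseChangeGalois
import Fermat.Agent.S18.NonSpecial

/-!
# S17 (project H, scratch stock): the reduced representative of a divisor class (Part B, B.6)

`K F` a function field with Riemann's theorem `RiemannHyp K F g` and principal divisors, `oo` a
base place.  For a class `x : Pic0 K F` let `redDeg x` be the least `r` such that
`x = [D - r oo]` with `D ≥ 0` of degree `r`.  Then `r ≤ g`, such a `D` is unique (`redDiv x`),
`ℓ(redDiv x) = 1`, `oo ∉ redDiv x`, and `redDiv` is equivariant under every semilinear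
automorphism fixing `oo`; in particular `redDiv x` is stable if `x` is fixed.
-/

set_option autoImplicit false

noncomputable section

namespace Fermat.Agent.S17.Model.Reduced

open AlgebraicCurve Fermat.Agent.S18.NonSpecial

universe u v

variable {K : Type u} {F : Type v} [Field K] [Field F] [Algebra K F]

/-- two classes are equal iff the difference of the divisors is principal -/
theorem mk_eq_mk_iff (A B : Divisor.degZero (K := K) (F := F)) :
    Pic0.mk A = Pic0.mk B ↔ Divisor.IsPrincipal ((A : Divisor K F) - (B : Divisor K F)) := by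
  unfold Pic0.mk
  rw [QuotientAddGroup.eq, AddSubgroup.mem_addSubgroupOf, ← Divisor.mem_principal]
  have : ((-A + B : Divisor.degZero (K := K) (F := F)) : Divisor K F) =
      -((A : Divisor K F) - (B : Divisor K F)) := by
    simp only [AddSubgroup.coe_add, AddSubgroup.coe_neg]
    abel
  rw [this, neg_mem_iff]

/-- the divisor `D - r oo` -/
def shift (oo : Place K F) (r : ℕ) (D : Divisor K F) : Divisor K F :=
  D - Finsupp.single oo (r : ℤ)

theorem degree_shift {oo : Place K F} (hoo : oo.deg = 1) (r : ℕ) (D : Divisor K F) :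
    Divisor.degree (shift oo r D) = Divisor.degree D - r := by
  simp [shift, map_sub, Divisor.degree_single, hoo]

/-- `D` is an effective divisor of degree `r` with `x = [D - r oo]`. -/
structure IsRep (oo : Place K F) (x : Pic0 K F) (r : ℕ) (D : Divisor K F) : Prop where
  nonneg : 0 ≤ D
  degree_eq : Divisor.degree D = r
  class_eq : ∃ h : shift oo r D ∈ Divisor.degZero (K := K) (F := F), Pic0.mk ⟨_, h⟩ = x

theorem isRep_iff {oo : Place K F} (hoo : oo.deg = 1) (X : Divisor.degZero (K := K) (F := F))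
    (r : ℕ) (D : Divisor K F) :
    IsRep oo (Pic0.mk X) r D ↔
      0 ≤ D ∧ Divisor.degree D = r ∧ Divisor.IsPrincipal (shift oo r D - (X : Divisor K F)) := by
  constructor
  · rintro ⟨h1, h2, h3, h4⟩
    exact ⟨h1, h2, (mk_eq_mk_iff ⟨_, h3⟩ X).mp h4⟩
  · rintro ⟨h1, h2, h3⟩
    have hmem : shift oo r D ∈ Divisor.degZero (K := K) (F := F) := by
      rw [Divisor.mem_degZero, degree_shift hoo, h2, sub_self]
    exact ⟨h1, h2, hmem, (mk_eq_mk_iff ⟨_, hmem⟩ X).mpr h3⟩

/-! ### Elementary facts on divisors -/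

theorem isPrincipal_degree [HasPrincipalDivisors K F] {P : Divisor K F}
    (hP : Divisor.IsPrincipal P) : Divisor.degree P = 0 := by
  obtain ⟨f, hf, hPf⟩ := hP
  obtain ⟨D, hD, hdeg⟩ := HasPrincipalDivisors.exists_divisor (K := K) f hf
  have : P = D := by
    ext v; rw [hPf v, hD v]
  rw [this, hdeg]

theorem isPrincipal_add' {P Q : Divisor K F} (hP : Divisor.IsPrincipal P)
    (hQ : Divisor.IsPrincipal Q) : Divisor.IsPrincipal (P + Q) :=
  (Divisor.principal (K := K) (F := F)).add_mem hP hQ

theorem isPrincipal_sub' {P Q : Divisor K F} (hP : Divisor.IsPrincipal P)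
    (hQ : Divisor.IsPrincipal Q) : Divisor.IsPrincipal (P - Q) :=
  (Divisor.principal (K := K) (F := F)).sub_mem hP hQ

theorem isPrincipal_neg' {P : Divisor K F} (hP : Divisor.IsPrincipal P) :
    Divisor.IsPrincipal (-P) :=
  (Divisor.principal (K := K) (F := F)).neg_mem hP

theorem degree_eq_sum (hdeg : ∀ v : Place K F, v.deg = 1) (D : Divisor K F) :
    Divisor.degree D = D.sum fun _ n => n := by
  induction D using Finsupp.induction with
  | zero => simp
  | single_add v n D hv hn ih =>
    rw [map_add, ih, Divisor.degree_single, hdeg v, Finsupp.sum_add_index' (by simp)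
      (by intros; rfl), Finsupp.sum_single_index (by rfl)]
    simp

theorem degree_nonneg (hdeg : ∀ v : Place K F, v.deg = 1) {D : Divisor K F} (hD : 0 ≤ D) :
    0 ≤ Divisor.degree D := by
  rw [degree_eq_sum hdeg]
  exact Finset.sum_nonneg fun v _ => by
    have := Finsupp.le_def.mp hD v
    simpa using this

theorem le_degree_of_nonneg (hdeg : ∀ v : Place K F, v.deg = 1) {D : Divisor K F} (hD : 0 ≤ D)
    (v : Place K F) : D v ≤ Divisor.degree D := by
  classical
  have h1 : 0 ≤ D - Finsupp.single v (D v) := by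
    rw [Finsupp.le_def]
    intro w
    have := Finsupp.le_def.mp hD w
    rw [Finsupp.sub_apply, Finsupp.single_apply]
    split_ifs with hvw
    · subst hvw; simp
    · simpa using this
  have h2 := degree_nonneg hdeg h1
  rw [map_sub, Divisor.degree_single, hdeg v] at h2
  simpa using h2

theorem eq_zero_of_nonneg_of_degree_eq_zero (hdeg : ∀ v : Place K F, v.deg = 1)
    {D : Divisor K F} (hD : 0 ≤ D) (h0 : Divisor.degree D = 0) : D = 0 := by
  ext v
  have h1 := le_degree_of_nonneg hdeg hD v
  have h2 := Finsupp.le_def.mp hD v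
  rw [h0] at h1
  simp only [Finsupp.coe_zero, Pi.zero_apply] at h2 ⊢
  omega

/-! ### Existence, the reduced degree -/

section Main

variable {g : ℕ} (hR : RiemannHyp K F g) [HasPrincipalDivisors K F] (oo : Place K F)

include hR in
theorem exists_isRep_genus (x : Pic0 K F) : ∃ D, IsRep oo x g D := by
  obtain ⟨X, rfl⟩ := Pic0.mk_surjective x
  have hoo := hR.deg_one oo
  set D0 : Divisor K F := (X : Divisor K F) + Finsupp.single oo (g : ℤ) with hD0
  have hX : Divisor.degree (X : Divisor K F) = 0 := X.2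
  have hdeg0 : Divisor.degree D0 = g := by
    rw [hD0, map_add, hX, Divisor.degree_single, hoo]; simp
  obtain ⟨E, hE, hprin⟩ := exists_effective hR (D := D0) (by rw [hdeg0])
  refine ⟨E, (isRep_iff hoo X g E).mpr ⟨hE, ?_, ?_⟩⟩
  · have := isPrincipal_degree hprin
    rw [map_sub, hdeg0] at this
    linarith
  · have : shift oo g E - (X : Divisor K F) = E - D0 := by
      rw [shift, hD0]; abel
    rwa [this]

/-- the least `r` such that `x = [D - r oo]` with `D ≥ 0` of degree `r` -/
def redDeg (x : Pic0 K F) : ℕ :=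
  haveI := Classical.decPred fun r => ∃ D, IsRep oo x r D
  Nat.find (⟨g, exists_isRep_genus hR oo x⟩ : ∃ r, ∃ D, IsRep oo x r D)

theorem redDeg_le (x : Pic0 K F) : redDeg hR oo x ≤ g := by
  classical
  unfold redDeg
  exact Nat.find_min' _ (exists_isRep_genus hR oo x)

theorem exists_isRep_redDeg (x : Pic0 K F) : ∃ D, IsRep oo x (redDeg hR oo x) D := by
  classical
  unfold redDeg
  exact Nat.find_spec (⟨g, exists_isRep_genus hR oo x⟩ : ∃ r, ∃ D, IsRep oo x r D)

theorem redDeg_le_of_isRep {x : Pic0 K F} {r : ℕ} {D : Divisor K F} (h : IsRep oo x r D) :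
    redDeg hR oo x ≤ r := by
  classical
  unfold redDeg
  exact Nat.find_min' _ ⟨D, h⟩

/-- the reduced representative -/
def redDiv (x : Pic0 K F) : Divisor K F := (exists_isRep_redDeg hR oo x).choose

theorem isRep_redDiv (x : Pic0 K F) : IsRep oo x (redDeg hR oo x) (redDiv hR oo x) :=
  (exists_isRep_redDeg hR oo x).choose_spec

include hR in
/-- lowering: from a nonzero `f ∈ L(D - oo)` one gets a representative of degree `r - 1`. -/
theorem IsRep.lower {x : Pic0 K F} {r : ℕ} {D : Divisor K F} (h : IsRep oo x r D) {f : F}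
    (hf0 : f ≠ 0) (hf : f ∈ riemannRochSpace (D - Finsupp.single oo (1 : ℤ))) :
    ∃ E, 1 ≤ r ∧ IsRep oo x (r - 1) E := by
  obtain ⟨X, rfl⟩ := Pic0.mk_surjective x
  have hoo := hR.deg_one oo
  obtain ⟨h1, h2, h3⟩ := (isRep_iff hoo X r D).mp h
  obtain ⟨P, hP, hPdeg⟩ := HasPrincipalDivisors.exists_divisor (K := K) f hf0
  have hPprin : Divisor.IsPrincipal P := ⟨f, hf0, hP⟩
  set E : Divisor K F := D - Finsupp.single oo (1 : ℤ) + P with hE
  have hE0 : 0 ≤ E := by
    rw [Finsupp.le_def]
    intro v
    have := ((mem_riemannRochSpace_iff.mp hf) v).resolve_left hf0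
    rw [hE, Finsupp.add_apply, hP v]
    simp only [Finsupp.coe_zero, Pi.zero_apply]
    omega
  have hEdeg : Divisor.degree E = (r : ℤ) - 1 := by
    rw [hE, map_add, map_sub, h2, Divisor.degree_single, hoo, hPdeg]; simp
  have hr : 1 ≤ r := by
    have := degree_nonneg hR.deg_one hE0
    rw [hEdeg] at this
    omega
  refine ⟨E, hr, (isRep_iff hoo X (r - 1) E).mpr ⟨hE0, ?_, ?_⟩⟩
  · rw [hEdeg]; push_cast [hr]; ring
  · have : shift oo (r - 1) E - (X : Divisor K F) = (shift oo r D - (X : Divisor K F)) + P := by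
      rw [shift, shift, hE]
      have : (Finsupp.single oo (r : ℤ) : Divisor K F) =
          Finsupp.single oo (((r - 1 : ℕ) : ℤ)) + Finsupp.single oo (1 : ℤ) := by
        rw [← Finsupp.single_add]; congr 1; push_cast [hr]; ring
      rw [this]; abel
    rw [this]
    exact isPrincipal_add' h3 hPprin

/-- **`ℓ(D_x) = 1`** for a representative of minimal degree. -/
theorem IsRep.ell_eq_one {x : Pic0 K F} {D : Divisor K F} (h : IsRep oo x (redDeg hR oo x) D) :
    ell D = 1 := by
  have hfinD := hR.finite D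
  have hpos : 1 ≤ ell D := by
    have h1 := one_mem_riemannRochSpace h.nonneg
    have : Nontrivial (riemannRochSpace D) :=
      ⟨⟨⟨1, h1⟩, 0, fun h0 => one_ne_zero (congrArg Subtype.val h0)⟩⟩
    exact Module.finrank_pos
  by_contra hne
  have h2 : 2 ≤ ell D := by omega
  -- `ℓ(D - oo) ≥ 1`
  have hstep := ell_add_single_le hR.finite (D - Finsupp.single oo (1 : ℤ)) (hR.deg_one oo)
  rw [sub_add_cancel] at hstep
  have h3 : 0 < ell (D - Finsupp.single oo (1 : ℤ)) := by omega
  have := hR.finite (D - Finsupp.single oo (1 : ℤ))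
  have hnt : Nontrivial (riemannRochSpace (D - Finsupp.single oo (1 : ℤ))) :=
    Module.nontrivial_of_finrank_pos h3
  obtain ⟨f, hf⟩ := exists_ne (0 : riemannRochSpace (D - Finsupp.single oo (1 : ℤ)))
  have hf0 : (f : F) ≠ 0 := fun h0 => hf (Subtype.ext h0)
  obtain ⟨E, hr, hE⟩ := h.lower hR oo hf0 f.2
  have := redDeg_le_of_isRep hR oo hE
  omega

/-- **uniqueness** of the representative of minimal degree -/
theorem IsRep.eq_redDiv {x : Pic0 K F} {D : Divisor K F} (h : IsRep oo x (redDeg hR oo x) D) :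
    D = redDiv hR oo x := by
  have h' := isRep_redDiv hR oo x
  obtain ⟨X, rfl⟩ := Pic0.mk_surjective x
  have hoo := hR.deg_one oo
  obtain ⟨h1, -, h3⟩ := (isRep_iff hoo X _ D).mp h
  obtain ⟨h1', -, h3'⟩ := (isRep_iff hoo X _ _).mp h'
  refine eq_of_effective_of_isPrincipal_sub h1' (h'.ell_eq_one hR oo) h1 ?_
  have : D - redDiv hR oo (Pic0.mk X) =
      (shift oo (redDeg hR oo (Pic0.mk X)) D - (X : Divisor K F)) -
      (shift oo (redDeg hR oo (Pic0.mk X)) (redDiv hR oo (Pic0.mk X)) - (X : Divisor K F)) := by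
    rw [shift, shift]; abel
  rw [this]
  exact isPrincipal_sub' h3 h3'

theorem ell_redDiv (x : Pic0 K F) : ell (redDiv hR oo x) = 1 :=
  (isRep_redDiv hR oo x).ell_eq_one hR oo

/-- `oo` does not occur in the reduced representative -/
theorem redDiv_apply_oo (x : Pic0 K F) : redDiv hR oo x oo = 0 := by
  have h := isRep_redDiv hR oo x
  have hge : 0 ≤ redDiv hR oo x oo := by
    have := Finsupp.le_def.mp h.nonneg oo
    simpa using this
  by_contra hne
  have hpos : 1 ≤ redDiv hR oo x oo := by omega
  -- `1 ∈ L(D - oo)`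
  have hmem : (1 : F) ∈ riemannRochSpace (redDiv hR oo x - Finsupp.single oo (1 : ℤ)) := by
    apply one_mem_riemannRochSpace
    classical
    rw [Finsupp.le_def]
    intro v
    have := Finsupp.le_def.mp h.nonneg v
    rw [Finsupp.sub_apply, Finsupp.single_apply]
    simp only [Finsupp.coe_zero, Pi.zero_apply] at this ⊢
    split_ifs with hv
    · subst hv; omega
    · omega
  obtain ⟨E, hr, hE⟩ := h.lower hR oo one_ne_zero hmem
  have := redDeg_le_of_isRep hR oo hE
  omega

end Main

/-! ### Equivariance -/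

section Equivariance

variable {g : ℕ} (hR : RiemannHyp K F g) [HasPrincipalDivisors K F] (oo : Place K F)

omit [HasPrincipalDivisors K F] in
theorem smul_shift (σ : SemilinearAut K F) (r : ℕ) (D : Divisor K F) :
    σ • shift oo r D = shift (σ • oo) r (σ • D) := by
  rw [shift, shift, smul_sub, SemilinearAut.smul_single]

omit [HasPrincipalDivisors K F] in
theorem smul_nonneg' (σ : SemilinearAut K F) {D : Divisor K F} (hD : 0 ≤ D) : 0 ≤ σ • D := by
  rw [Finsupp.le_def]
  intro w
  rw [SemilinearAut.divisor_smul_apply]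
  exact Finsupp.le_def.mp hD _

omit [HasPrincipalDivisors K F] in
theorem IsRep.smul (σ : SemilinearAut K F) {x : Pic0 K F} {r : ℕ} {D : Divisor K F}
    (h : IsRep oo x r D) : IsRep (σ • oo) (σ • x) r (σ • D) := by
  obtain ⟨h1, h2, hmem, hx⟩ := h
  refine ⟨smul_nonneg' σ h1, by rw [SemilinearAut.degree_smul, h2], ?_, ?_⟩
  · rw [← smul_shift]
    exact SemilinearAut.smul_mem_degZero σ hmem
  · rw [← hx, SemilinearAut.pic0_smul_mk]
    exact congrArg Pic0.mk (Subtype.ext (by
      rw [SemilinearAut.coe_degZeroSMulHom]; exact (smul_shift oo σ r D).symm))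

theorem redDeg_smul (σ : SemilinearAut K F) (hoo : σ • oo = oo) (x : Pic0 K F) :
    redDeg hR oo (σ • x) = redDeg hR oo x := by
  have key : ∀ (τ : SemilinearAut K F), τ • oo = oo → ∀ y : Pic0 K F,
      redDeg hR oo (τ • y) ≤ redDeg hR oo y := by
    intro τ hτ y
    have h := (isRep_redDiv hR oo y).smul oo τ
    rw [hτ] at h
    exact redDeg_le_of_isRep hR oo h
  refine le_antisymm (key σ hoo x) ?_
  have hinv : σ⁻¹ • oo = oo := by
    rw [inv_smul_eq_iff, hoo]
  have := key σ⁻¹ hinv (σ • x)
  rwa [inv_smul_smul] at this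

/-- **equivariance of the reduced representative** -/
theorem redDiv_smul (σ : SemilinearAut K F) (hoo : σ • oo = oo) (x : Pic0 K F) :
    redDiv hR oo (σ • x) = σ • redDiv hR oo x := by
  have h := (isRep_redDiv hR oo x).smul oo σ
  rw [hoo, ← redDeg_smul hR oo σ hoo x] at h
  exact (h.eq_redDiv hR oo).symm

/-- the reduced representative of a fixed class is stable -/
theorem smul_redDiv_of_fixed (σ : SemilinearAut K F) (hoo : σ • oo = oo) {x : Pic0 K F}
    (hx : σ • x = x) : σ • redDiv hR oo x = redDiv hR oo x := by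
  rw [← redDiv_smul hR oo σ hoo x, hx]

end Equivariance

/-! ### The linear equivalences used for the parallelogram law -/

section Sums

variable {g : ℕ} (hR : RiemannHyp K F g) (oo : Place K F)

include hR in
theorem isPrincipal_add {x y : Pic0 K F} {r s t : ℕ} {D E W : Divisor K F}
    (hx : IsRep oo x r D) (hy : IsRep oo y s E) (hxy : IsRep oo (x + y) t W) :
    Divisor.IsPrincipal ((D + E + Finsupp.single oo (t : ℤ)) -
      (W + Finsupp.single oo ((r + s : ℕ) : ℤ))) := by
  obtain ⟨X, rfl⟩ := Pic0.mk_surjective x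
  obtain ⟨Y, rfl⟩ := Pic0.mk_surjective y
  have hoo := hR.deg_one oo
  obtain ⟨-, -, h1⟩ := (isRep_iff hoo X r D).mp hx
  obtain ⟨-, -, h2⟩ := (isRep_iff hoo Y s E).mp hy
  rw [← Pic0.mk_add] at hxy
  obtain ⟨-, -, h3⟩ := (isRep_iff hoo (X + Y) t W).mp hxy
  have : (D + E + Finsupp.single oo (t : ℤ)) - (W + Finsupp.single oo ((r + s : ℕ) : ℤ)) =
      (shift oo r D - (X : Divisor K F)) + (shift oo s E - (Y : Divisor K F)) -
      (shift oo t W - ((X + Y : Divisor.degZero (K := K) (F := F)) : Divisor K F)) := by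
    rw [shift, shift, shift, AddSubgroup.coe_add, Nat.cast_add, Finsupp.single_add]
    abel
  rw [this]
  exact isPrincipal_sub' (isPrincipal_add' h1 h2) h3

include hR in
theorem isPrincipal_sub {x y : Pic0 K F} {r s t : ℕ} {D E W : Divisor K F}
    (hx : IsRep oo x r D) (hy : IsRep oo y s E) (hxy : IsRep oo (x - y) t W) :
    Divisor.IsPrincipal ((D + Finsupp.single oo ((s + t : ℕ) : ℤ)) -
      (W + E + Finsupp.single oo (r : ℤ))) := by
  have h := isPrincipal_add hR oo hxy hy (by rwa [sub_add_cancel])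
  have : (D + Finsupp.single oo ((s + t : ℕ) : ℤ)) - (W + E + Finsupp.single oo (r : ℤ)) =
      -((W + E + Finsupp.single oo (r : ℤ)) - (D + Finsupp.single oo ((t + s : ℕ) : ℤ))) := by
    rw [Nat.add_comm s t]; abel
  rw [this]
  exact isPrincipal_neg' h

include hR in
/-- for an effective divisor the `ℓ¹`-norm is the degree -/
theorem sum_abs_eq_degree {D : Divisor K F} (hD : 0 ≤ D) :
    (∑ v ∈ D.support, |D v| : ℤ) = Divisor.degree D := by
  rw [degree_eq_sum hR.deg_one, Finsupp.sum]
  refine Finset.sum_congr rfl fun v _ => abs_of_nonneg ?_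
  have := Finsupp.le_def.mp hD v
  simpa using this

end Sums

end Fermat.Agent.S17.Model.Reduced
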