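import Mathlib
import Fermat.Agent.S17.Model.Reduced
import Fermat.Agent.S36.K0DescentX0

/-!
# S17 (project H): the reduced representative `D_x` on `X₀(N)` (Part B, B.6 / H0.15, instantiated)

`F = ℚ̄(X₀(N)) = modularFunctionFieldBar N`, base place `oo N` = the cusp `∞` (the place of the
`q`-expansion order, main's `S36.K0DescentLaurent.cuspPlace`), Galois action
`galAut N σ := arithmeticGalois (modularFunctionFieldFull N) σ`.

* `oo N` is fixed by the whole Galois group (`galAut_smul_oo`).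
* `Dx hR x := redDiv hR (oo N) x`, `rx hR x := redDeg hR (oo N) x ≤ g`;
  `Dx hR (σ • x) = galAut N σ • Dx hR x`; for a rational point `x ∈ J₀(N)(ℚ̄)^{G_ℚ}` the divisor
  `Dx hR x` is `G_ℚ`-stable (`galAut_smul_Dx_of_mem`).
* the linear equivalences behind the parallelogram law for the points of `Γ`.
-/

set_option autoImplicit false
set_option linter.unusedSectionVars false

noncomputable section

namespace Fermat.Agent.S17.Model.ReducedX0

open AlgebraicCurve ModularCurve Fermat.Agent.S18.NonSpecial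
open Fermat.Agent.S17.Model.Reduced

local notation "Kb" => AlgebraicClosure ℚ
local notation "GQ" => (AlgebraicClosure ℚ ≃ₐ[ℚ] AlgebraicClosure ℚ)

variable (N : ℕ) [NeZero N]

/-- the Galois action on `ℚ̄(X₀(N))` (coefficientwise on `q`-expansions) -/
abbrev galAut (σ : GQ) : SemilinearAut Kb (modularFunctionFieldBar N) :=
  arithmeticGalois (modularFunctionFieldFull N) σ

/-- the group of rational points `J₀(N)(ℚ)` -/
abbrev Gam : AddSubgroup (JZero N) := FixedPoints.addSubgroup GQ (JZero N)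

/-- the cusp `∞` of `X₀(N)` -/
def oo : Place Kb (modularFunctionFieldBar N) :=
  Fermat.Agent.S36.K0DescentLaurent.cuspPlace (modularFunctionFieldFull N)
    (Fermat.Agent.S36.K0DescentX0.exists_pole N)

theorem galAut_smul_oo (σ : GQ) : galAut N σ • oo N = oo N :=
  Fermat.Agent.S36.K0DescentLaurent.arithmeticGalois_smul_cuspPlace _ _ σ

theorem deg_oo : (oo N).deg = 1 := Fermat.Agent.S18.A.Instances.deg_one_bar N (oo N)

theorem mem_oo_iff (f : modularFunctionFieldBar N) :
    f ∈ (oo N).toValuationSubring ↔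
      0 ≤ Fermat.Agent.S36.K0DescentLaurent.qOrd (modularFunctionFieldFull N) f :=
  Iff.rfl

theorem galois_smul_eq (σ : GQ) (x : JZero N) : σ • x = galAut N σ • x := rfl

theorem mem_Gam_iff (x : JZero N) : x ∈ Gam N ↔ ∀ σ : GQ, galAut N σ • x = x := Iff.rfl

attribute [local instance] Fermat.Agent.S18.A.Instances.hasPrincipalDivisors_bar

variable {N}
variable {g : ℕ} (hR : RiemannHyp Kb (modularFunctionFieldBar N) g)

/-- the degree of the reduced representative -/
def rx (x : JZero N) : ℕ := redDeg hR (oo N) x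

/-- the reduced representative `D_x` -/
def Dx (x : JZero N) : Divisor Kb (modularFunctionFieldBar N) := redDiv hR (oo N) x

theorem rx_le (x : JZero N) : rx hR x ≤ g := redDeg_le hR (oo N) x

theorem isRep_Dx (x : JZero N) : IsRep (oo N) x (rx hR x) (Dx hR x) := isRep_redDiv hR (oo N) x

theorem Dx_nonneg (x : JZero N) : 0 ≤ Dx hR x := (isRep_Dx hR x).nonneg

theorem degree_Dx (x : JZero N) : Divisor.degree (Dx hR x) = rx hR x := (isRep_Dx hR x).degree_eq

theorem ell_Dx (x : JZero N) : ell (Dx hR x) = 1 := ell_redDiv hR (oo N) x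

theorem Dx_apply_oo (x : JZero N) : Dx hR x (oo N) = 0 := redDiv_apply_oo hR (oo N) x

theorem eq_Dx {x : JZero N} {D : Divisor Kb (modularFunctionFieldBar N)}
    (h : IsRep (oo N) x (rx hR x) D) : D = Dx hR x := h.eq_redDiv hR (oo N)

/-- `x = [D_x - r(x) ∞]` -/
theorem mk_Dx (x : JZero N) :
    ∃ h : Dx hR x - Finsupp.single (oo N) (rx hR x : ℤ) ∈
        Divisor.degZero (K := Kb) (F := modularFunctionFieldBar N),
      Pic0.mk ⟨_, h⟩ = x :=
  (isRep_Dx hR x).class_eq

theorem rx_smul (σ : GQ) (x : JZero N) : rx hR (σ • x) = rx hR x :=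
  redDeg_smul hR (oo N) (galAut N σ) (galAut_smul_oo N σ) x

theorem Dx_smul (σ : GQ) (x : JZero N) : Dx hR (σ • x) = galAut N σ • Dx hR x :=
  redDiv_smul hR (oo N) (galAut N σ) (galAut_smul_oo N σ) x

/-- **`D_x` is `G_ℚ`-stable for a rational point `x`.** -/
theorem galAut_smul_Dx_of_mem {x : JZero N} (hx : x ∈ Gam N) (σ : GQ) :
    galAut N σ • Dx hR x = Dx hR x :=
  smul_redDiv_of_fixed hR (oo N) (galAut N σ) (galAut_smul_oo N σ) (hx σ)

/-- the multiplicity function of `D_x` is constant on Galois orbits -/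
theorem Dx_galAut_smul_apply {x : JZero N} (hx : x ∈ Gam N) (σ : GQ)
    (P : Place Kb (modularFunctionFieldBar N)) : Dx hR x (galAut N σ • P) = Dx hR x P := by
  have h := galAut_smul_Dx_of_mem hR hx σ⁻¹
  have h2 := congrArg (fun D : Divisor Kb (modularFunctionFieldBar N) => D P) h
  simp only [SemilinearAut.divisor_smul_apply] at h2
  rw [← h2]
  show Dx hR x (galAut N σ • P) = Dx hR x ((arithmeticGalois (modularFunctionFieldFull N) σ⁻¹)⁻¹ • P)
  rw [map_inv, inv_inv]

/-- the support of `D_x` is Galois stable -/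
theorem galAut_smul_mem_support {x : JZero N} (hx : x ∈ Gam N) (σ : GQ)
    {P : Place Kb (modularFunctionFieldBar N)} (hP : P ∈ (Dx hR x).support) :
    galAut N σ • P ∈ (Dx hR x).support := by
  rw [Finsupp.mem_support_iff] at hP ⊢
  rwa [Dx_galAut_smul_apply hR hx σ P]

theorem oo_notMem_support (x : JZero N) : oo N ∉ (Dx hR x).support := by
  rw [Finsupp.notMem_support_iff]
  exact Dx_apply_oo hR x

/-- `‖D_x‖₁ = r(x)` -/
theorem sum_abs_Dx (x : JZero N) : ∑ v ∈ (Dx hR x).support, |Dx hR x v| = rx hR x := by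
  rw [sum_abs_eq_degree hR (Dx_nonneg hR x), degree_Dx]

/-- `A = D_x + D_y + r(x+y) ∞ ∼ A' = D_{x+y} + (r(x) + r(y)) ∞` -/
theorem isPrincipal_Dx_add (x y : JZero N) :
    Divisor.IsPrincipal
      ((Dx hR x + Dx hR y + Finsupp.single (oo N) (rx hR (x + y) : ℤ)) -
        (Dx hR (x + y) + Finsupp.single (oo N) ((rx hR x + rx hR y : ℕ) : ℤ))) :=
  isPrincipal_add hR (oo N) (isRep_Dx hR x) (isRep_Dx hR y) (isRep_Dx hR (x + y))

/-- `D_x + (r(y) + r(x-y)) ∞ ∼ D_{x-y} + D_y + r(x) ∞` -/
theorem isPrincipal_Dx_sub (x y : JZero N) :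
    Divisor.IsPrincipal
      ((Dx hR x + Finsupp.single (oo N) ((rx hR y + rx hR (x - y) : ℕ) : ℤ)) -
        (Dx hR (x - y) + Dx hR y + Finsupp.single (oo N) (rx hR x : ℤ))) :=
  isPrincipal_sub hR (oo N) (isRep_Dx hR x) (isRep_Dx hR y) (isRep_Dx hR (x - y))

/-- `D_0 = 0` -/
theorem rx_zero : rx hR (0 : JZero N) = 0 := by
  have h : IsRep (oo N) (0 : JZero N) 0 0 := by
    refine ⟨le_rfl, by simp, ?_⟩
    have hmem : shift (oo N) 0 (0 : Divisor Kb (modularFunctionFieldBar N)) ∈
        Divisor.degZero (K := Kb) (F := modularFunctionFieldBar N) := by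
      simp [shift]
    refine ⟨hmem, ?_⟩
    have : (⟨_, hmem⟩ : Divisor.degZero (K := Kb) (F := modularFunctionFieldBar N)) = 0 := by
      apply Subtype.ext
      simp [shift]
    rw [this]
    exact map_zero (QuotientAddGroup.mk' _)
  exact Nat.le_zero.mp (redDeg_le_of_isRep hR (oo N) h)

theorem Dx_zero : Dx hR (0 : JZero N) = 0 := by
  have h0 := degree_Dx hR (0 : JZero N)
  rw [rx_zero] at h0
  exact eq_zero_of_nonneg_of_degree_eq_zero hR.deg_one (Dx_nonneg hR 0) (by simpa using h0)

end Fermat.Agent.S17.Model.ReducedX0
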