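import Mathlib
import Fermat.Agent.S18.C.PlaceEval

/-!
# PROJECT H (S17), seam S-3 (dictionary), part 1: total residue map and projective lifts

Setting = main's abstract function-field frame: `K` algebraically closed, `F/K` a function field
(`hx : S24.FF.IsFF K x`), `f : Fin (n+1) → F` nonzero coordinate functions.

* `ev hx v g`          : the value of `g` at the place `v` (`0` if `g` is not regular at `v`);
* `Admissible f v i`   : `ord_v (f i)` is minimal among the `ord_v (f j)`;
* `zvec hx f v i`      : the projective coordinate vector `(f j / f i)(v)` of the place `v`.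
-/

set_option autoImplicit false

namespace Fermat.Agent.S17.Model.Lift

open AlgebraicCurve Fermat.Agent.S24.FF Fermat.Agent.S24.Ord Fermat.Agent.S18.C.PlaceEval

universe u w

variable {K : Type w} {F : Type u} [Field K] [Field F] [Algebra K F] [IsAlgClosed K] {x : F}

/-! ### the total residue map -/

open Classical in
/-- the value of `g` at `v`; by convention `0` when `g` has a pole at `v` -/
noncomputable def ev (hx : IsFF K x) (v : Place K F) (g : F) : K :=
  if h : g ∈ v.toValuationSubring then evalAt hx v ⟨g, h⟩ else 0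

variable (hx : IsFF K x) (v : Place K F)

theorem ev_of_mem {g : F} (h : g ∈ v.toValuationSubring) : ev hx v g = evalAt hx v ⟨g, h⟩ := by
  unfold ev
  exact dif_pos h

theorem ev_of_not_mem {g : F} (h : g ∉ v.toValuationSubring) : ev hx v g = 0 := by
  unfold ev
  exact dif_neg h

theorem ev_add {g g' : F} (h : g ∈ v.toValuationSubring) (h' : g' ∈ v.toValuationSubring) :
    ev hx v (g + g') = ev hx v g + ev hx v g' := by
  rw [ev_of_mem hx v h, ev_of_mem hx v h', ev_of_mem hx v (add_mem h h'), ← map_add]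
  rfl

theorem ev_mul {g g' : F} (h : g ∈ v.toValuationSubring) (h' : g' ∈ v.toValuationSubring) :
    ev hx v (g * g') = ev hx v g * ev hx v g' := by
  rw [ev_of_mem hx v h, ev_of_mem hx v h', ev_of_mem hx v (mul_mem h h'), ← map_mul]
  rfl

theorem ev_algebraMap (c : K) : ev hx v (algebraMap K F c) = c := by
  rw [ev_of_mem hx v (v.algebraMap_mem' c)]
  have : (⟨algebraMap K F c, v.algebraMap_mem' c⟩ : v.toValuationSubring)
      = algebraMap K v.toValuationSubring c := rfl
  rw [this, AlgHom.commutes]
  rfl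

@[simp] theorem ev_zero : ev hx v (0 : F) = 0 := by
  simpa using ev_algebraMap hx v (0 : K)

@[simp] theorem ev_one : ev hx v (1 : F) = 1 := by
  simpa using ev_algebraMap hx v (1 : K)

theorem ev_neg {g : F} (h : g ∈ v.toValuationSubring) : ev hx v (-g) = -ev hx v g := by
  rw [ev_of_mem hx v h, ev_of_mem hx v (neg_mem h), ← map_neg]
  rfl

theorem ev_sub {g g' : F} (h : g ∈ v.toValuationSubring) (h' : g' ∈ v.toValuationSubring) :
    ev hx v (g - g') = ev hx v g - ev hx v g' := by
  rw [sub_eq_add_neg, ev_add hx v h (neg_mem h'), ev_neg hx v h', sub_eq_add_neg]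

theorem ev_pow {g : F} (h : g ∈ v.toValuationSubring) (k : ℕ) :
    ev hx v (g ^ k) = ev hx v g ^ k := by
  rw [ev_of_mem hx v h, ev_of_mem hx v (pow_mem h k), ← map_pow]
  rfl

theorem ev_smul {g : F} (h : g ∈ v.toValuationSubring) (c : K) :
    ev hx v (algebraMap K F c * g) = c * ev hx v g := by
  rw [ev_mul hx v (v.algebraMap_mem' c) h, ev_algebraMap]

theorem ev_sum {ι : Type*} (s : Finset ι) (g : ι → F) (h : ∀ i ∈ s, g i ∈ v.toValuationSubring) :
    ev hx v (∑ i ∈ s, g i) = ∑ i ∈ s, ev hx v (g i) := by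
  classical
  induction s using Finset.induction_on with
  | empty => simp
  | insert a s ha ih =>
    rw [Finset.sum_insert ha, Finset.sum_insert ha,
      ev_add hx v (h a (Finset.mem_insert_self a s))
        (sum_mem fun i hi => h i (Finset.mem_insert_of_mem hi)),
      ih fun i hi => h i (Finset.mem_insert_of_mem hi)]

theorem ev_prod {ι : Type*} (s : Finset ι) (g : ι → F) (h : ∀ i ∈ s, g i ∈ v.toValuationSubring) :
    ev hx v (∏ i ∈ s, g i) = ∏ i ∈ s, ev hx v (g i) := by
  classical
  induction s using Finset.induction_on with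
  | empty => simp
  | insert a s ha ih =>
    rw [Finset.prod_insert ha, Finset.prod_insert ha,
      ev_mul hx v (h a (Finset.mem_insert_self a s))
        (prod_mem fun i hi => h i (Finset.mem_insert_of_mem hi)),
      ih fun i hi => h i (Finset.mem_insert_of_mem hi)]

theorem ev_eq_iff {g : F} (h : g ∈ v.toValuationSubring) (a : K) :
    ev hx v g = a ↔ v.adicValuation (g - algebraMap K F a) < 1 := by
  rw [ev_of_mem hx v h, evalAt_eq_iff]

theorem ev_eq_zero_iff {g : F} (h : g ∈ v.toValuationSubring) :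
    ev hx v g = 0 ↔ v.adicValuation g < 1 := by
  rw [ev_eq_iff hx v h, map_zero, sub_zero]

omit [IsAlgClosed K] in
theorem mem_iff_ord_nonneg {g : F} (hg : g ≠ 0) : g ∈ v.toValuationSubring ↔ 0 ≤ v.ord g := by
  rw [mem_iff, ord_nonneg_iff v hg]

omit [IsAlgClosed K] in
theorem mem_of_ord_nonneg {g : F} (h : 0 ≤ v.ord g) : g ∈ v.toValuationSubring := by
  rcases eq_or_ne g 0 with rfl | hg
  · exact zero_mem _
  · exact (mem_iff_ord_nonneg v hg).mpr h

/-- for a regular nonzero function, the value vanishes iff the order is positive -/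
theorem ev_eq_zero_iff_ord_pos {g : F} (hg : g ≠ 0) (h : 0 ≤ v.ord g) :
    ev hx v g = 0 ↔ 0 < v.ord g := by
  rw [ev_eq_zero_iff hx v (mem_of_ord_nonneg v h), ord_pos_iff v hg]

theorem ev_ne_zero_of_ord_eq_zero {g : F} (hg : g ≠ 0) (h : v.ord g = 0) : ev hx v g ≠ 0 := by
  intro h0
  have := (ev_eq_zero_iff_ord_pos hx v hg h.ge).mp h0
  omega

theorem ev_eq_zero_of_ord_pos {g : F} (h : 0 < v.ord g) : ev hx v g = 0 := by
  rcases eq_or_ne g 0 with rfl | hg
  · simp
  · exact (ev_eq_zero_iff_ord_pos hx v hg h.le).mpr h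

/-- polynomials commute with the residue map -/
theorem ev_aeval {σ : Type*} (p : MvPolynomial σ K) (g : σ → F)
    (hg : ∀ s, g s ∈ v.toValuationSubring) :
    MvPolynomial.aeval g p ∈ v.toValuationSubring ∧
      ev hx v (MvPolynomial.aeval g p) = MvPolynomial.eval (fun s => ev hx v (g s)) p := by
  set g' : σ → v.toValuationSubring := fun s => ⟨g s, hg s⟩ with hg'
  have h1 : ((MvPolynomial.aeval g' p : v.toValuationSubring) : F) = MvPolynomial.aeval g p := by
    have := MvPolynomial.aeval_algebraMap_apply (A := v.toValuationSubring) (B := F) g' p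
    exact this.symm
  have hmem : MvPolynomial.aeval g p ∈ v.toValuationSubring := by
    rw [← h1]; exact (MvPolynomial.aeval g' p).2
  refine ⟨hmem, ?_⟩
  rw [ev_of_mem hx v hmem]
  have h2 : (⟨MvPolynomial.aeval g p, hmem⟩ : v.toValuationSubring) = MvPolynomial.aeval g' p :=
    Subtype.ext h1.symm
  rw [h2]
  have h3 : evalAt hx v (MvPolynomial.aeval g' p)
      = MvPolynomial.aeval (fun s => evalAt hx v (g' s)) p := by
    have := MvPolynomial.comp_aeval (R := K) g' (evalAt hx v)
    exact (DFunLike.congr_fun this p)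
  rw [h3]
  have h4 : (fun s => evalAt hx v (g' s)) = fun s => ev hx v (g s) := by
    funext s
    exact (ev_of_mem hx v (hg s)).symm
  rw [h4]
  exact DFunLike.congr_fun (MvPolynomial.coe_aeval_eq_eval _) p


/-! ### projective lifts of a place -/

section Lift

variable {n : ℕ} (f : Fin (n + 1) → F)

/-- the index `i` realises the minimal order of the coordinate functions at `v` -/
def Admissible (v : Place K F) (i : Fin (n + 1)) : Prop := ∀ j, v.ord (f i) ≤ v.ord (f j)

omit [IsAlgClosed K] in
theorem exists_admissible : ∃ i, Admissible f v i := by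
  obtain ⟨i, hi⟩ := Finite.exists_min (fun j => v.ord (f j))
  exact ⟨i, hi⟩

omit [IsAlgClosed K] in
theorem Admissible.ord_eq {v : Place K F} {i i' : Fin (n + 1)} (h : Admissible f v i)
    (h' : Admissible f v i') : v.ord (f i) = v.ord (f i') :=
  le_antisymm (h i') (h' i)

variable {f}

omit [IsAlgClosed K] in
theorem ord_div (hf : ∀ j, f j ≠ 0) (j i : Fin (n + 1)) :
    v.ord (f j / f i) = v.ord (f j) - v.ord (f i) := by
  rw [div_eq_mul_inv, v.ord_mul (hf j) (inv_ne_zero (hf i)), v.ord_inv]
  ring

omit [IsAlgClosed K] in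
theorem div_mem (hf : ∀ j, f j ≠ 0) {i : Fin (n + 1)} (hi : Admissible f v i) (j : Fin (n + 1)) :
    f j / f i ∈ v.toValuationSubring := by
  apply mem_of_ord_nonneg
  rw [ord_div v hf]
  have := hi j
  omega

variable (f)

/-- the projective coordinate vector of the place `v`, normalised at the index `i` -/
noncomputable def zvec (i : Fin (n + 1)) : Fin (n + 1) → K := fun j => ev hx v (f j / f i)

variable {f}

theorem zvec_self (hf : ∀ j, f j ≠ 0) (i : Fin (n + 1)) : zvec hx v f i i = 1 := by
  unfold zvec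
  rw [div_self (hf i), ev_one]

theorem zvec_ne_zero (hf : ∀ j, f j ≠ 0) (i : Fin (n + 1)) : zvec hx v f i ≠ 0 := by
  intro h
  have := congrFun h i
  rw [zvec_self hx v hf] at this
  exact one_ne_zero this

/-- change of the normalising index: the lift is multiplied by a nonzero scalar -/
theorem zvec_change (hf : ∀ j, f j ≠ 0) {i i' : Fin (n + 1)} (hi : Admissible f v i)
    (hi' : Admissible f v i') :
    zvec hx v f i' = ev hx v (f i / f i') • zvec hx v f i ∧ ev hx v (f i / f i') ≠ 0 := by
  constructor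
  · funext j
    simp only [zvec, Pi.smul_apply, smul_eq_mul]
    rw [← ev_mul hx v (div_mem v hf hi' i) (div_mem v hf hi j)]
    congr 1
    field_simp [hf i, hf i']
  · apply ev_ne_zero_of_ord_eq_zero hx v (div_ne_zero (hf i) (hf i'))
    rw [ord_div v hf, hi.ord_eq f hi']
    ring

/-! ### tangent vectors -/

variable (f)

/-- the derivative vector of the lift with respect to the local parameter `s` -/
noncomputable def dvec (i : Fin (n + 1)) (s : F) : Fin (n + 1) → K :=
  fun j => ev hx v ((f j / f i - algebraMap K F (zvec hx v f i j)) / s)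

variable {f}

/-- `f j / f i - z_j` vanishes at `v` -/
theorem ord_sub_zvec_pos (hf : ∀ j, f j ≠ 0) {i : Fin (n + 1)} (hi : Admissible f v i)
    (j : Fin (n + 1)) (h0 : f j / f i - algebraMap K F (zvec hx v f i j) ≠ 0) :
    0 < v.ord (f j / f i - algebraMap K F (zvec hx v f i j)) := by
  rw [ord_pos_iff v h0]
  exact (ev_eq_iff hx v (div_mem v hf hi j) _).mp rfl

theorem dvec_mem (hf : ∀ j, f j ≠ 0) {i : Fin (n + 1)} (hi : Admissible f v i) {s : F}
    (hs : v.ord s = 1) (j : Fin (n + 1)) :
    (f j / f i - algebraMap K F (zvec hx v f i j)) / s ∈ v.toValuationSubring := by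
  rcases eq_or_ne (f j / f i - algebraMap K F (zvec hx v f i j)) 0 with h0 | h0
  · rw [h0, zero_div]; exact zero_mem _
  · have hs0 : s ≠ 0 := by
      rintro rfl
      simp at hs
    apply mem_of_ord_nonneg
    rw [div_eq_mul_inv, v.ord_mul h0 (inv_ne_zero hs0), v.ord_inv, hs]
    have := ord_sub_zvec_pos hx v hf hi j h0
    omega


/-! ### wedge products and the tangent vector -/

/-- the Pluecker coordinates of `u ∧ w`, indexed by all pairs -/
def wedge (u w : Fin (n + 1) → K) : Fin (n + 1) × Fin (n + 1) → K :=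
  fun p => u p.1 * w p.2 - u p.2 * w p.1

omit [IsAlgClosed K] in
theorem wedge_apply (u w : Fin (n + 1) → K) (p : Fin (n + 1) × Fin (n + 1)) :
    wedge u w p = u p.1 * w p.2 - u p.2 * w p.1 := rfl

omit [IsAlgClosed K] in
theorem wedge_self (u : Fin (n + 1) → K) : wedge u u = 0 := by
  funext p; simp [wedge, mul_comm]

omit [IsAlgClosed K] in
theorem wedge_smul_left (c : K) (u w : Fin (n + 1) → K) : wedge (c • u) w = c • wedge u w := by
  funext p; simp [wedge]; ring

omit [IsAlgClosed K] in
theorem wedge_smul_right (c : K) (u w : Fin (n + 1) → K) : wedge u (c • w) = c • wedge u w := by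
  funext p; simp [wedge]; ring

omit [IsAlgClosed K] in
theorem wedge_add_smul_right (c : K) (u w : Fin (n + 1) → K) :
    wedge u (w + c • u) = wedge u w := by
  funext p; simp [wedge]; ring

omit [IsAlgClosed K] in
theorem wedge_swap (u w : Fin (n + 1) → K) : wedge w u = -wedge u w := by
  funext p; simp [wedge]; ring

variable (f)

/-- the tangent vector `z ∧ z'` of the place `v` (lift at `i`, local parameter `s`) -/
noncomputable def tauvec (i : Fin (n + 1)) (s : F) : Fin (n + 1) × Fin (n + 1) → K :=
  wedge (zvec hx v f i) (dvec hx v f i s)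

variable {f}

omit [IsAlgClosed K] in
theorem ne_zero_of_ord_eq_one {s : F} (hs : v.ord s = 1) : s ≠ 0 := by
  rintro rfl
  simp at hs

/-- change of the local parameter: `dvec` is multiplied by the unit `(s / s')(v)` -/
theorem dvec_change_param (hf : ∀ j, f j ≠ 0) {i : Fin (n + 1)} (hi : Admissible f v i) {s s' : F}
    (hs : v.ord s = 1) (hs' : v.ord s' = 1) :
    dvec hx v f i s' = ev hx v (s / s') • dvec hx v f i s ∧ ev hx v (s / s') ≠ 0 := by
  have hs0 := ne_zero_of_ord_eq_one v hs
  have hs0' := ne_zero_of_ord_eq_one v hs'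
  have hord : v.ord (s / s') = 0 := by
    rw [div_eq_mul_inv, v.ord_mul hs0 (inv_ne_zero hs0'), v.ord_inv, hs, hs']; ring
  have hmem : s / s' ∈ v.toValuationSubring := mem_of_ord_nonneg v hord.ge
  refine ⟨?_, ev_ne_zero_of_ord_eq_zero hx v (div_ne_zero hs0 hs0') hord⟩
  funext j
  simp only [dvec, Pi.smul_apply, smul_eq_mul]
  rw [← ev_mul hx v hmem (dvec_mem hx v hf hi hs j)]
  congr 1
  field_simp

theorem tauvec_change_param (hf : ∀ j, f j ≠ 0) {i : Fin (n + 1)} (hi : Admissible f v i) {s s' : F}
    (hs : v.ord s = 1) (hs' : v.ord s' = 1) :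
    tauvec hx v f i s' = ev hx v (s / s') • tauvec hx v f i s := by
  unfold tauvec
  rw [(dvec_change_param hx v hf hi hs hs').1, wedge_smul_right]

/-- change of the normalising index: `dvec` becomes `c • dvec + κ • zvec` -/
theorem dvec_change_index (hf : ∀ j, f j ≠ 0) {i i' : Fin (n + 1)} (hi : Admissible f v i)
    (hi' : Admissible f v i') {s : F} (hs : v.ord s = 1) :
    ∃ κ : K, dvec hx v f i' s
      = ev hx v (f i / f i') • dvec hx v f i s + κ • zvec hx v f i := by
  set U : F := f i / f i' with hU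
  set c : K := ev hx v U with hc
  have hs0 := ne_zero_of_ord_eq_one v hs
  have hUmem : U ∈ v.toValuationSubring := div_mem v hf hi' i
  -- `(U - c) / s` is regular
  have hUc : (U - algebraMap K F c) / s ∈ v.toValuationSubring := by
    rcases eq_or_ne (U - algebraMap K F c) 0 with h0 | h0
    · rw [h0, zero_div]; exact zero_mem _
    · apply mem_of_ord_nonneg
      rw [div_eq_mul_inv, v.ord_mul h0 (inv_ne_zero hs0), v.ord_inv, hs]
      have : 0 < v.ord (U - algebraMap K F c) := by
        rw [ord_pos_iff v h0]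
        exact (ev_eq_iff hx v hUmem _).mp rfl
      omega
  refine ⟨ev hx v ((U - algebraMap K F c) / s), ?_⟩
  funext j
  simp only [dvec, Pi.add_apply, Pi.smul_apply, smul_eq_mul]
  have hz' : zvec hx v f i' j = c * zvec hx v f i j := by
    have := congrFun (zvec_change hx v hf hi hi').1 j
    simpa [Pi.smul_apply, smul_eq_mul] using this
  rw [hz']
  have hzmem : algebraMap K F (zvec hx v f i j) ∈ v.toValuationSubring := v.algebraMap_mem' _
  have e1 : c * ev hx v ((f j / f i - algebraMap K F (zvec hx v f i j)) / s)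
      = ev hx v (U * ((f j / f i - algebraMap K F (zvec hx v f i j)) / s)) := by
    rw [ev_mul hx v hUmem (dvec_mem hx v hf hi hs j)]
  have e2 : ev hx v ((U - algebraMap K F c) / s) * zvec hx v f i j
      = ev hx v ((U - algebraMap K F c) / s * algebraMap K F (zvec hx v f i j)) := by
    rw [ev_mul hx v hUc hzmem, ev_algebraMap]
  rw [e1, e2, ← ev_add hx v (mul_mem hUmem (dvec_mem hx v hf hi hs j)) (mul_mem hUc hzmem)]
  congr 1
  rw [map_mul]
  have hfi := hf i
  have hfi' := hf i'
  clear_value c
  rw [hU]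
  field_simp
  ring

theorem tauvec_change_index (hf : ∀ j, f j ≠ 0) {i i' : Fin (n + 1)} (hi : Admissible f v i)
    (hi' : Admissible f v i') {s : F} (hs : v.ord s = 1) :
    tauvec hx v f i' s = (ev hx v (f i / f i')) ^ 2 • tauvec hx v f i s := by
  obtain ⟨κ, hκ⟩ := dvec_change_index hx v hf hi hi' hs
  unfold tauvec
  rw [hκ, (zvec_change hx v hf hi hi').1, wedge_smul_left, wedge_add_smul_right,
    wedge_smul_right, smul_smul, pow_two]


/-! ### linear forms, multiplicities and leading coefficients -/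

variable (f)

/-- the function `F_a = ∑ a_j f_j` attached to the coefficient vector `a` -/
noncomputable def formOf (a : Fin (n + 1) → K) : F := ∑ j, algebraMap K F (a j) * f j

/-- the minimal order `ν_v` of the coordinate functions at `v` -/
noncomputable def nuAt (v : Place K F) : ℤ :=
  Finset.univ.inf' Finset.univ_nonempty fun j => v.ord (f j)

omit [IsAlgClosed K] in
theorem admissible_iff (i : Fin (n + 1)) : Admissible f v i ↔ v.ord (f i) = nuAt f v := by
  unfold Admissible nuAt
  constructor
  · intro h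
    apply le_antisymm
    · rw [Finset.le_inf'_iff]
      exact fun j _ => h j
    · exact Finset.inf'_le _ (Finset.mem_univ i)
  · intro h j
    rw [h]
    exact Finset.inf'_le _ (Finset.mem_univ j)

/-- the multiplicity of the place `v` in the zero divisor `Z(a)` of the form `F_a` -/
noncomputable def multAt (a : Fin (n + 1) → K) (v : Place K F) : ℤ :=
  v.ord (formOf f a) - nuAt f v

variable {f}

omit [IsAlgClosed K] in
theorem formOf_div (hf : ∀ j, f j ≠ 0) (a : Fin (n + 1) → K) (i : Fin (n + 1)) :
    formOf f a / f i = ∑ j, algebraMap K F (a j) * (f j / f i) := by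
  unfold formOf
  rw [Finset.sum_div]
  refine Finset.sum_congr rfl fun j _ => ?_
  rw [mul_div_assoc]

omit [IsAlgClosed K] in
theorem formOf_div_mem (hf : ∀ j, f j ≠ 0) (a : Fin (n + 1) → K) {i : Fin (n + 1)}
    (hi : Admissible f v i) : formOf f a / f i ∈ v.toValuationSubring := by
  rw [formOf_div hf]
  exact sum_mem fun j _ => mul_mem (v.algebraMap_mem' _) (div_mem v hf hi j)

/-- the value of `F_a / f_i` at `v` is `a · z_v` -/
theorem ev_formOf (hf : ∀ j, f j ≠ 0) (a : Fin (n + 1) → K) {i : Fin (n + 1)}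
    (hi : Admissible f v i) :
    ev hx v (formOf f a / f i) = ∑ j, a j * zvec hx v f i j := by
  rw [formOf_div hf, ev_sum hx v _ _ fun j _ =>
    mul_mem (v.algebraMap_mem' _) (div_mem v hf hi j)]
  refine Finset.sum_congr rfl fun j _ => ?_
  rw [ev_smul hx v (div_mem v hf hi j)]
  rfl

omit [IsAlgClosed K] in
theorem multAt_eq (hf : ∀ j, f j ≠ 0) (a : Fin (n + 1) → K) {i : Fin (n + 1)}
    (hi : Admissible f v i) (ha : formOf f a ≠ 0) :
    multAt f a v = v.ord (formOf f a / f i) := by
  unfold multAt
  rw [div_eq_mul_inv, v.ord_mul ha (inv_ne_zero (hf i)), v.ord_inv, ← (admissible_iff v f i).mp hi]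
  ring

omit [IsAlgClosed K] in
theorem multAt_nonneg (hf : ∀ j, f j ≠ 0) (a : Fin (n + 1) → K) (ha : formOf f a ≠ 0) :
    0 ≤ multAt f a v := by
  obtain ⟨i, hi⟩ := exists_admissible v f
  rw [multAt_eq v hf a hi ha]
  exact (mem_iff_ord_nonneg v (div_ne_zero ha (hf i))).mp (formOf_div_mem v hf a hi)

variable (f)

/-- the leading coefficient of `F_a` at `v` (lift at `i`, local parameter `s`) -/
noncomputable def lcAt (a : Fin (n + 1) → K) (i : Fin (n + 1)) (s : F) : K :=
  ev hx v (formOf f a / (f i * s ^ multAt f a v))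

variable {f}

omit [IsAlgClosed K] in
theorem ord_lcArg (hf : ∀ j, f j ≠ 0) (a : Fin (n + 1) → K) {i : Fin (n + 1)}
    (hi : Admissible f v i) (ha : formOf f a ≠ 0) {s : F} (hs : v.ord s = 1) :
    v.ord (formOf f a / (f i * s ^ multAt f a v)) = 0 := by
  have hs0 := ne_zero_of_ord_eq_one v hs
  have hpow : s ^ multAt f a v ≠ 0 := zpow_ne_zero _ hs0
  rw [div_eq_mul_inv, v.ord_mul ha (inv_ne_zero (mul_ne_zero (hf i) hpow)), v.ord_inv,
    v.ord_mul (hf i) hpow, v.ord_zpow, hs]
  unfold multAt
  rw [← (admissible_iff v f i).mp hi]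
  ring

theorem lcAt_ne_zero (hf : ∀ j, f j ≠ 0) (a : Fin (n + 1) → K) {i : Fin (n + 1)}
    (hi : Admissible f v i) (ha : formOf f a ≠ 0) {s : F} (hs : v.ord s = 1) :
    lcAt hx v f a i s ≠ 0 := by
  have hs0 := ne_zero_of_ord_eq_one v hs
  exact ev_ne_zero_of_ord_eq_zero hx v
    (div_ne_zero ha (mul_ne_zero (hf i) (zpow_ne_zero _ hs0))) (ord_lcArg v hf a hi ha hs)

/-- multiplicity zero: the leading coefficient is the value `a · z_v` -/
theorem lcAt_of_multAt_eq_zero (hf : ∀ j, f j ≠ 0) (a : Fin (n + 1) → K) {i : Fin (n + 1)}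
    (hi : Admissible f v i) (s : F) (h0 : multAt f a v = 0) :
    lcAt hx v f a i s = ∑ j, a j * zvec hx v f i j := by
  unfold lcAt
  rw [h0, zpow_zero, mul_one, ev_formOf hx v hf a hi]

/-- positive multiplicity: the form vanishes at the lift -/
theorem sum_mul_zvec_eq_zero (hf : ∀ j, f j ≠ 0) (a : Fin (n + 1) → K) {i : Fin (n + 1)}
    (hi : Admissible f v i) (ha : formOf f a ≠ 0) (hpos : 0 < multAt f a v) :
    ∑ j, a j * zvec hx v f i j = 0 := by
  rw [← ev_formOf hx v hf a hi]
  apply ev_eq_zero_of_ord_pos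
  rw [← multAt_eq v hf a hi ha]
  exact hpos

/-- the form does not vanish at the lift iff the multiplicity is zero -/
theorem sum_mul_zvec_ne_zero_iff (hf : ∀ j, f j ≠ 0) (a : Fin (n + 1) → K) {i : Fin (n + 1)}
    (hi : Admissible f v i) (ha : formOf f a ≠ 0) :
    ∑ j, a j * zvec hx v f i j ≠ 0 ↔ multAt f a v = 0 := by
  constructor
  · intro h
    by_contra hne
    have hpos : 0 < multAt f a v := lt_of_le_of_ne (multAt_nonneg v hf a ha) (Ne.symm hne)
    exact h (sum_mul_zvec_eq_zero hx v hf a hi ha hpos)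
  · intro h0
    rw [← ev_formOf hx v hf a hi]
    apply ev_ne_zero_of_ord_eq_zero hx v (div_ne_zero ha (hf i))
    rw [← multAt_eq v hf a hi ha, h0]

/-- the derivative of the form along the lift: `a · z'_v = ((F_a / f_i - a · z_v) / s)(v)` -/
theorem sum_mul_dvec (hf : ∀ j, f j ≠ 0) (a : Fin (n + 1) → K) {i : Fin (n + 1)}
    (hi : Admissible f v i) {s : F} (hs : v.ord s = 1) :
    ∑ j, a j * dvec hx v f i s j
      = ev hx v ((formOf f a / f i - algebraMap K F (∑ j, a j * zvec hx v f i j)) / s) := by
  have key : (formOf f a / f i - algebraMap K F (∑ j, a j * zvec hx v f i j)) / s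
      = ∑ j, algebraMap K F (a j) * ((f j / f i - algebraMap K F (zvec hx v f i j)) / s) := by
    rw [formOf_div hf, map_sum, ← Finset.sum_sub_distrib, Finset.sum_div]
    refine Finset.sum_congr rfl fun j _ => ?_
    rw [map_mul]
    ring
  rw [key, ev_sum hx v _ _ fun j _ =>
    mul_mem (v.algebraMap_mem' _) (dvec_mem hx v hf hi hs j)]
  refine Finset.sum_congr rfl fun j _ => ?_
  rw [ev_smul hx v (dvec_mem hx v hf hi hs j)]
  rfl

/-- multiplicity one: the leading coefficient is `a · z'_v` -/
theorem lcAt_of_multAt_eq_one (hf : ∀ j, f j ≠ 0) (a : Fin (n + 1) → K) {i : Fin (n + 1)}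
    (hi : Admissible f v i) (ha : formOf f a ≠ 0) {s : F} (hs : v.ord s = 1)
    (h1 : multAt f a v = 1) :
    lcAt hx v f a i s = ∑ j, a j * dvec hx v f i s j := by
  rw [sum_mul_dvec hx v hf a hi hs, sum_mul_zvec_eq_zero hx v hf a hi ha (by omega), map_zero,
    sub_zero]
  unfold lcAt
  rw [h1, zpow_one, div_mul_eq_div_div]

/-- multiplicity at least two: the form vanishes on the tangent vector -/
theorem sum_mul_dvec_eq_zero (hf : ∀ j, f j ≠ 0) (a : Fin (n + 1) → K) {i : Fin (n + 1)}
    (hi : Admissible f v i) (ha : formOf f a ≠ 0) {s : F} (hs : v.ord s = 1)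
    (h2 : 2 ≤ multAt f a v) :
    ∑ j, a j * dvec hx v f i s j = 0 := by
  have hs0 := ne_zero_of_ord_eq_one v hs
  rw [sum_mul_dvec hx v hf a hi hs, sum_mul_zvec_eq_zero hx v hf a hi ha (by omega), map_zero,
    sub_zero]
  apply ev_eq_zero_of_ord_pos
  rw [div_eq_mul_inv, v.ord_mul (div_ne_zero ha (hf i)) (inv_ne_zero hs0), v.ord_inv, hs,
    ← multAt_eq v hf a hi ha]
  omega

end Lift

end Fermat.Agent.S17.Model.Lift
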