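import Mathlib
import Fermat.Agent.S17.Model.Lift

/-!
# PROJECT H (S17), seam S-3 (dictionary), part 2: pencils at a lift, separation criteria

* `dot y z`, `pencilVec y0 y1 z` (the linear form `y0(z) y1 - y1(z) y0` of the pencil `(y0, y1)`
  vanishing at `z`), `pair2 y0 y1 z w = y0(z) y1(w) - y1(z) y0(w)` (`= ⟨y0 ∧ y1, z ∧ w⟩`);
* the two evaluation rules of Part A (N'): `ev_pencil_off`, `ev_pencil_diag`;
* separation of points / tangents from the existence of suitable linear forms:
  `wedge_zvec_ne_zero` (E1), `tauvec_ne_zero` (E2).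
-/

set_option autoImplicit false

namespace Fermat.Agent.S17.Model.Lift

open AlgebraicCurve Fermat.Agent.S24.FF Fermat.Agent.S24.Ord Fermat.Agent.S18.C.PlaceEval

universe u w

variable {K : Type w} {F : Type u} [Field K] [Field F] [Algebra K F] [IsAlgClosed K] {x : F}
variable {n : ℕ}

/-- the value `y(z) = ∑ y_j z_j` of the linear form `y` at the vector `z` -/
def dot (y z : Fin (n + 1) → K) : K := ∑ j, y j * z j

omit [IsAlgClosed K] in
theorem dot_smul_right (c : K) (y z : Fin (n + 1) → K) : dot y (c • z) = c * dot y z := by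
  simp only [dot, Pi.smul_apply, smul_eq_mul, Finset.mul_sum]
  exact Finset.sum_congr rfl fun j _ => by ring

omit [IsAlgClosed K] in
theorem dot_smul_left (c : K) (y z : Fin (n + 1) → K) : dot (c • y) z = c * dot y z := by
  simp only [dot, Pi.smul_apply, smul_eq_mul, Finset.mul_sum]
  exact Finset.sum_congr rfl fun j _ => by ring

omit [IsAlgClosed K] in
theorem dot_add_right (y z z' : Fin (n + 1) → K) : dot y (z + z') = dot y z + dot y z' := by
  simp only [dot, Pi.add_apply, ← Finset.sum_add_distrib]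
  exact Finset.sum_congr rfl fun j _ => by ring

omit [IsAlgClosed K] in
theorem dot_sub_left (y y' z : Fin (n + 1) → K) : dot (y - y') z = dot y z - dot y' z := by
  simp only [dot, Pi.sub_apply, ← Finset.sum_sub_distrib]
  exact Finset.sum_congr rfl fun j _ => by ring

/-- `⟨y0 ∧ y1, z ∧ w⟩ = y0(z) y1(w) - y1(z) y0(w)` -/
def pair2 (y0 y1 z w : Fin (n + 1) → K) : K := dot y0 z * dot y1 w - dot y1 z * dot y0 w

omit [IsAlgClosed K] in
theorem pair2_self (y0 y1 z : Fin (n + 1) → K) : pair2 y0 y1 z z = 0 := by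
  unfold pair2; ring

omit [IsAlgClosed K] in
theorem pair2_smul_right (c : K) (y0 y1 z w : Fin (n + 1) → K) :
    pair2 y0 y1 z (c • w) = c * pair2 y0 y1 z w := by
  unfold pair2; rw [dot_smul_right, dot_smul_right]; ring

omit [IsAlgClosed K] in
theorem pair2_smul_left (c : K) (y0 y1 z w : Fin (n + 1) → K) :
    pair2 y0 y1 (c • z) w = c * pair2 y0 y1 z w := by
  unfold pair2; rw [dot_smul_right, dot_smul_right]; ring

omit [IsAlgClosed K] in
theorem pair2_swap (y0 y1 z w : Fin (n + 1) → K) : pair2 y0 y1 w z = -pair2 y0 y1 z w := by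
  unfold pair2; ring

omit [IsAlgClosed K] in
/-- `pair2` only depends on `z ∧ w` -/
theorem pair2_eq_sum_wedge (y0 y1 z w : Fin (n + 1) → K) :
    pair2 y0 y1 z w = ∑ p : Fin (n + 1) × Fin (n + 1), y0 p.1 * y1 p.2 * wedge z w p := by
  have h1 : dot y0 z * dot y1 w = ∑ j, ∑ l, y0 j * y1 l * (z j * w l) := by
    unfold dot
    rw [Finset.sum_mul_sum]
    exact Finset.sum_congr rfl fun j _ => Finset.sum_congr rfl fun l _ => by ring
  have h2 : dot y1 z * dot y0 w = ∑ j, ∑ l, y0 j * y1 l * (z l * w j) := by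
    unfold dot
    rw [Finset.sum_mul_sum, Finset.sum_comm]
    exact Finset.sum_congr rfl fun j _ => Finset.sum_congr rfl fun l _ => by ring
  unfold pair2
  rw [h1, h2, ← Finset.sum_sub_distrib, Fintype.sum_prod_type]
  refine Finset.sum_congr rfl fun j _ => ?_
  rw [← Finset.sum_sub_distrib]
  refine Finset.sum_congr rfl fun l _ => ?_
  simp only [wedge_apply]
  ring


/-- the member `y0(z) y1 - y1(z) y0` of the pencil `(y0, y1)` that vanishes at `z` -/
def pencilVec (y0 y1 z : Fin (n + 1) → K) : Fin (n + 1) → K := dot y0 z • y1 - dot y1 z • y0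

omit [IsAlgClosed K] in
theorem dot_pencilVec (y0 y1 z w : Fin (n + 1) → K) :
    dot (pencilVec y0 y1 z) w = pair2 y0 y1 z w := by
  unfold pencilVec pair2
  rw [dot_sub_left, dot_smul_left, dot_smul_left]

omit [IsAlgClosed K] in
theorem dot_pencilVec_self (y0 y1 z : Fin (n + 1) → K) : dot (pencilVec y0 y1 z) z = 0 := by
  rw [dot_pencilVec, pair2_self]

section Place

variable (hx : IsFF K x) (v : Place K F) {f : Fin (n + 1) → F}

theorem sum_mul_zvec_eq_dot (a : Fin (n + 1) → K) (i : Fin (n + 1)) :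
    ∑ j, a j * zvec hx v f i j = dot a (zvec hx v f i) := rfl

theorem sum_mul_dvec_eq_dot (a : Fin (n + 1) → K) (i : Fin (n + 1)) (s : F) :
    ∑ j, a j * dvec hx v f i s j = dot a (dvec hx v f i s) := rfl

/-- **evaluation rule (off the diagonal)**: the pencil form through `zR`, evaluated at the lift of
`v`, is `⟨y0 ∧ y1, zR ∧ z_v⟩` -/
theorem ev_pencil_off (hf : ∀ j, f j ≠ 0) (y0 y1 zR : Fin (n + 1) → K) {i : Fin (n + 1)}
    (hi : Admissible f v i) :
    ev hx v (formOf f (pencilVec y0 y1 zR) / f i) = pair2 y0 y1 zR (zvec hx v f i) := by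
  rw [ev_formOf hx v hf _ hi, sum_mul_zvec_eq_dot, dot_pencilVec]

/-- **evaluation rule (on the diagonal)**: the pencil form through the lift of `v` itself, divided
by the local parameter, evaluates to `⟨y0 ∧ y1, z_v ∧ z'_v⟩ = ⟨y0 ∧ y1, τ_v⟩` -/
theorem ev_pencil_diag (hf : ∀ j, f j ≠ 0) (y0 y1 : Fin (n + 1) → K) {i : Fin (n + 1)}
    (hi : Admissible f v i) {s : F} (hs : v.ord s = 1) :
    ev hx v (formOf f (pencilVec y0 y1 (zvec hx v f i)) / f i / s)
      = pair2 y0 y1 (zvec hx v f i) (dvec hx v f i s) := by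
  have h := sum_mul_dvec hx v hf (pencilVec y0 y1 (zvec hx v f i)) hi hs
  rw [sum_mul_zvec_eq_dot, dot_pencilVec_self, map_zero, sub_zero, sum_mul_dvec_eq_dot,
    dot_pencilVec] at h
  exact h.symm

/-- `pair2` of the lift with its tangent data only depends on `tauvec` -/
theorem pair2_zvec_dvec (y0 y1 : Fin (n + 1) → K) (i : Fin (n + 1)) (s : F) :
    pair2 y0 y1 (zvec hx v f i) (dvec hx v f i s)
      = ∑ p : Fin (n + 1) × Fin (n + 1), y0 p.1 * y1 p.2 * tauvec hx v f i s p :=
  pair2_eq_sum_wedge _ _ _ _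

/-! ### separation criteria -/

/-- **(E1)** two places are separated by the lift as soon as some linear form vanishes at one of
them and not at the other -/
theorem wedge_zvec_ne_zero (hf : ∀ j, f j ≠ 0) (P R : Place K F) {i i' : Fin (n + 1)}
    (hi : Admissible f P i) (hi' : Admissible f R i') (a : Fin (n + 1) → K)
    (ha : formOf f a ≠ 0) (hP : 0 < multAt f a P) (hR : multAt f a R = 0) :
    wedge (zvec hx P f i) (zvec hx R f i') ≠ 0 := by
  intro h0
  have hzP : dot a (zvec hx P f i) = 0 := sum_mul_zvec_eq_zero hx P hf a hi ha hP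
  have hzR : dot a (zvec hx R f i') ≠ 0 :=
    (sum_mul_zvec_ne_zero_iff hx R hf a hi' ha).mpr hR
  -- `z_R = c • z_P` because the wedge vanishes and `z_P i = 1`
  have hprop : zvec hx R f i' = zvec hx R f i' i • zvec hx P f i := by
    funext j
    have := congrFun h0 (i, j)
    simp only [wedge_apply, Pi.zero_apply] at this
    rw [zvec_self hx P hf i] at this
    simp only [Pi.smul_apply, smul_eq_mul]
    linear_combination this
  apply hzR
  rw [hprop, dot_smul_right, hzP, mul_zero]

/-- **(E2)** the tangent vector of the lift is nonzero as soon as some linear form vanishes to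
order exactly one -/
theorem tauvec_ne_zero (hf : ∀ j, f j ≠ 0) (P : Place K F) {i : Fin (n + 1)}
    (hi : Admissible f P i) {s : F} (hs : P.ord s = 1) (a : Fin (n + 1) → K)
    (ha : formOf f a ≠ 0) (h1 : multAt f a P = 1) :
    tauvec hx P f i s ≠ 0 := by
  intro h0
  have hz : dot a (zvec hx P f i) = 0 := sum_mul_zvec_eq_zero hx P hf a hi ha (by omega)
  have hd : dot a (dvec hx P f i s) ≠ 0 := by
    rw [← sum_mul_dvec_eq_dot, ← lcAt_of_multAt_eq_one hx P hf a hi ha hs h1]
    exact lcAt_ne_zero hx P hf a hi ha hs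
  have hprop : dvec hx P f i s = dvec hx P f i s i • zvec hx P f i := by
    funext j
    have := congrFun h0 (i, j)
    simp only [tauvec, wedge_apply, Pi.zero_apply] at this
    rw [zvec_self hx P hf i] at this
    simp only [Pi.smul_apply, smul_eq_mul]
    linear_combination this
  apply hd
  rw [hprop, dot_smul_right, hz, mul_zero]

end Place

end Fermat.Agent.S17.Model.Lift
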