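import Mathlib
import Fermat.Agent.S17.Model.LiftPencil
import Fermat.Agent.S18.NonSpecial

/-!
# PROJECT H (S17), seam S-3 (dictionary), part 3: the lift is an embedding and an immersion

`f : Fin (n+1) → F` spans `L(D0)` and `l(D0 - P - R) + 2 ≤ l(D0)` for all places `P, R`
(Riemann's theorem for `deg D0 ≥ c0 + 2`).  Then

* `nuAt_eq`           : `min_j ord_P (f j) = - D0 P` (no base points);
* `wedge_zvec_ne_zero`: (E1) `P ≠ R → z_P ∧ z_R ≠ 0`;
* `tauvec_ne_zero`    : (E2) `τ_P ≠ 0`.
-/

set_option autoImplicit false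

namespace Fermat.Agent.S17.Model.Embed

open AlgebraicCurve Fermat.Agent.S24.FF Fermat.Agent.S24.Ord Fermat.Agent.S18.C.PlaceEval
  Fermat.Agent.S18.NonSpecial Fermat.Agent.S17.Model.Lift

universe u w

variable {K : Type w} {F : Type u} [Field K] [Field F] [Algebra K F]
variable {n : ℕ}

/-- `f` is a spanning family of `L(D0)` which separates points and tangent vectors -/
structure IsModel (f : Fin (n + 1) → F) (D0 : Divisor K F) : Prop where
  ne_zero : ∀ j, f j ≠ 0
  mem : ∀ j, f j ∈ riemannRochSpace D0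
  span : ∀ g ∈ riemannRochSpace D0, ∃ a : Fin (n + 1) → K, g = formOf f a
  finite : ∀ D : Divisor K F, Module.Finite K (riemannRochSpace D)
  deg_one : ∀ v : Place K F, v.deg = 1
  sep : ∀ P R : Place K F,
    ell (D0 - Finsupp.single P 1 - Finsupp.single R 1) + 2 ≤ ell D0

variable {f : Fin (n + 1) → F} {D0 : Divisor K F}

namespace IsModel

variable (h : IsModel f D0)
include h

theorem formOf_mem (a : Fin (n + 1) → K) : formOf f a ∈ riemannRochSpace D0 := by
  unfold formOf
  refine sum_mem fun j _ => ?_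
  rw [← Algebra.smul_def]
  exact Submodule.smul_mem _ _ (h.mem j)

theorem ell_sub_single_le (D : Divisor K F) (P : Place K F) :
    ell D ≤ ell (D - Finsupp.single P 1) + 1 := by
  have := ell_add_single_le h.finite (D - Finsupp.single P 1) (h.deg_one P)
  rwa [sub_add_cancel] at this

theorem ell_sub_sub_lt (P R : Place K F) :
    ell (D0 - Finsupp.single P 1 - Finsupp.single R 1) < ell (D0 - Finsupp.single P 1) := by
  have h1 := h.sep P R
  have h2 := h.ell_sub_single_le D0 P
  omega

theorem ell_sub_lt (P : Place K F) : ell (D0 - Finsupp.single P 1) < ell D0 := by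
  have h1 := h.sep P P
  have h2 := h.ell_sub_single_le (D0 - Finsupp.single P 1) P
  omega

/-- an element of `L(D) \ L(D - P)` -/
theorem exists_mem_not_mem {D : Divisor K F} (P : Place K F)
    (hlt : ell (D - Finsupp.single P 1) < ell D) :
    ∃ g, g ∈ riemannRochSpace D ∧ g ∉ riemannRochSpace (D - Finsupp.single P 1) := by
  by_contra hcon
  push Not at hcon
  have hle : riemannRochSpace D ≤ riemannRochSpace (D - Finsupp.single P 1) := hcon
  have := h.finite (D - Finsupp.single P 1)
  have := Submodule.finrank_mono hle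
  unfold ell at hlt
  omega

/-- the order at `P` of an element of `L(D) \ L(D - P)` is exactly `-D P` -/
theorem ord_eq_of_mem_not_mem {D : Divisor K F} {P : Place K F} {g : F}
    (hg : g ∈ riemannRochSpace D) (hg' : g ∉ riemannRochSpace (D - Finsupp.single P 1)) :
    g ≠ 0 ∧ P.ord g = -D P := by
  have hg2 : g ∈ riemannRochSpace (D - Finsupp.single P 1 + Finsupp.single P 1) := by
    rwa [sub_add_cancel]
  obtain ⟨h0, hlt⟩ := ord_lt_of_mem_of_not_mem hg2 hg'
  refine ⟨h0, ?_⟩
  have hge := ((mem_riemannRochSpace_iff.mp hg) P).resolve_left h0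
  rw [Finsupp.sub_apply, Finsupp.single_eq_same] at hlt
  omega

/-- no base points: the minimal order of the coordinate functions at `P` is `-D0 P` -/
theorem nuAt_eq (P : Place K F) : nuAt f P = -D0 P := by
  apply le_antisymm
  · obtain ⟨g, hg, hg'⟩ := h.exists_mem_not_mem P (h.ell_sub_lt P)
    obtain ⟨hg0, hord⟩ := h.ord_eq_of_mem_not_mem hg hg'
    obtain ⟨a, rfl⟩ := h.span g hg
    have := multAt_nonneg P h.ne_zero a hg0
    unfold multAt at this
    omega
  · unfold nuAt
    rw [Finset.le_inf'_iff]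
    intro j _
    exact ((mem_riemannRochSpace_iff.mp (h.mem j)) P).resolve_left (h.ne_zero j)

theorem multAt_eq_ord_add (a : Fin (n + 1) → K) (P : Place K F) :
    multAt f a P = P.ord (formOf f a) + D0 P := by
  unfold multAt
  rw [h.nuAt_eq P]
  ring

/-- a linear form vanishing at `P` and not at `R` -/
theorem exists_form_sep {P R : Place K F} (hPR : P ≠ R) :
    ∃ a : Fin (n + 1) → K, formOf f a ≠ 0 ∧ 0 < multAt f a P ∧ multAt f a R = 0 := by
  classical
  obtain ⟨g, hg, hg'⟩ := h.exists_mem_not_mem (D := D0 - Finsupp.single P 1) R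
    (h.ell_sub_sub_lt P R)
  obtain ⟨hg0, hord⟩ := h.ord_eq_of_mem_not_mem hg hg'
  have hgD0 : g ∈ riemannRochSpace D0 := by
    refine riemannRochSpace_mono ?_ hg
    exact sub_le_self _ (single_nonneg P)
  obtain ⟨a, rfl⟩ := h.span g hgD0
  refine ⟨a, hg0, ?_, ?_⟩
  · rw [h.multAt_eq_ord_add]
    have := ((mem_riemannRochSpace_iff.mp hg) P).resolve_left hg0
    rw [Finsupp.sub_apply, Finsupp.single_eq_same] at this
    omega
  · rw [h.multAt_eq_ord_add, hord, Finsupp.sub_apply, Finsupp.single_eq_of_ne hPR.symm]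
    ring

/-- a linear form vanishing to order exactly one at `P` -/
theorem exists_form_tangent (P : Place K F) :
    ∃ a : Fin (n + 1) → K, formOf f a ≠ 0 ∧ multAt f a P = 1 := by
  obtain ⟨g, hg, hg'⟩ := h.exists_mem_not_mem (D := D0 - Finsupp.single P 1) P
    (h.ell_sub_sub_lt P P)
  obtain ⟨hg0, hord⟩ := h.ord_eq_of_mem_not_mem hg hg'
  have hgD0 : g ∈ riemannRochSpace D0 := by
    refine riemannRochSpace_mono ?_ hg
    exact sub_le_self _ (single_nonneg P)
  obtain ⟨a, rfl⟩ := h.span g hgD0
  refine ⟨a, hg0, ?_⟩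
  rw [h.multAt_eq_ord_add, hord, Finsupp.sub_apply, Finsupp.single_eq_same]
  ring

end IsModel

section Final

variable [IsAlgClosed K] {x : F} (hx : IsFF K x) (h : IsModel f D0)
include h

/-- **(E1)** the lift separates places -/
theorem wedge_zvec_ne_zero {P R : Place K F} (hPR : P ≠ R) {i i' : Fin (n + 1)}
    (hi : Admissible f P i) (hi' : Admissible f R i') :
    wedge (zvec hx P f i) (zvec hx R f i') ≠ 0 := by
  obtain ⟨a, ha, hP, hR⟩ := h.exists_form_sep hPR
  exact Lift.wedge_zvec_ne_zero hx h.ne_zero P R hi hi' a ha hP hR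

/-- **(E2)** the lift is an immersion -/
theorem tauvec_ne_zero (P : Place K F) {i : Fin (n + 1)} (hi : Admissible f P i) {s : F}
    (hs : P.ord s = 1) : tauvec hx P f i s ≠ 0 := by
  obtain ⟨a, ha, h1⟩ := h.exists_form_tangent P
  exact Lift.tauvec_ne_zero hx h.ne_zero P hi hs a ha h1

end Final

end Fermat.Agent.S17.Model.Embed
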