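import Mathlib
import Fermat.Agent.S17.Model.Embed
import Fermat.Agent.S17.RR.RiemannRoch

/-!
# PROJECT H (S17), seam S-3 (dictionary), part 4: existence of the frame from Riemann–Roch

`deg D0 ≥ 2g + 1`: every nonzero spanning family `f` of `L(D0)` is a model (`IsModel f D0`), and
for `D0 ≥ 0` there is a basis `f` of `L(D0)` with `f 0 = 1`.
-/

set_option autoImplicit false

namespace Fermat.Agent.S17.Model.EmbedRR

open AlgebraicCurve IntermediateField Fermat.Agent.S24.FF
  Fermat.Agent.S18.NonSpecial Fermat.Agent.S17.Model.Lift Fermat.Agent.S17.Model.Embed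

universe u w

variable {K : Type w} {F : Type u} [Field K] [Field F] [Algebra K F]
variable {n : ℕ}

theorem formOf_eq_sum_smul (f : Fin (n + 1) → F) (a : Fin (n + 1) → K) :
    formOf f a = ∑ j, a j • f j := by
  unfold formOf
  exact Finset.sum_congr rfl fun j _ => (Algebra.smul_def _ _).symm

theorem formOf_injective {f : Fin (n + 1) → F} (hli : LinearIndependent K f)
    {a : Fin (n + 1) → K} (ha : formOf f a = 0) : a = 0 := by
  rw [formOf_eq_sum_smul] at ha
  funext j
  exact Fintype.linearIndependent_iff.mp hli a ha j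

theorem formOf_ne_zero {f : Fin (n + 1) → F} (hli : LinearIndependent K f)
    {a : Fin (n + 1) → K} (ha : a ≠ 0) : formOf f a ≠ 0 :=
  fun h => ha (formOf_injective hli h)

theorem formOf_add (f : Fin (n + 1) → F) (a b : Fin (n + 1) → K) :
    formOf f (a + b) = formOf f a + formOf f b := by
  simp only [formOf_eq_sum_smul, Pi.add_apply, add_smul, Finset.sum_add_distrib]

theorem formOf_smul (f : Fin (n + 1) → F) (c : K) (a : Fin (n + 1) → K) :
    formOf f (c • a) = c • formOf f a := by
  simp only [formOf_eq_sum_smul, Pi.smul_apply, smul_eq_mul, mul_smul, Finset.smul_sum]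

theorem formOf_single (f : Fin (n + 1) → F) (j : Fin (n + 1)) :
    formOf f (Pi.single j (1 : K)) = f j := by
  classical
  rw [formOf_eq_sum_smul, Finset.sum_eq_single j]
  · rw [Pi.single_eq_same, one_smul]
  · intro b _ hb
    rw [Pi.single_eq_of_ne hb, zero_smul]
  · intro h
    exact absurd (Finset.mem_univ j) h

/-- **every nonzero spanning family of `L(D0)`, `deg D0 ≥ 2g + 1`, is a model** -/
theorem isModel_of_span [IsAlgClosed K] {x : F} (hx : IsFF K x)
    (hsep : Algebra.IsSeparable K⟮x⟯ F) {g : ℕ} (hR : RiemannHyp K F g)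
    [HasPrincipalDivisors K F] {D0 : Divisor K F}
    (hdeg : 2 * (g : ℤ) + 1 ≤ Divisor.degree D0) (f : Fin (n + 1) → F)
    (hne : ∀ j, f j ≠ 0) (hspan : Submodule.span K (Set.range f) = riemannRochSpace D0) :
    IsModel f D0 where
  ne_zero := hne
  mem := fun j => by
    rw [← hspan]
    exact Submodule.subset_span (Set.mem_range_self j)
  span := fun g hg => by
    rw [← hspan, Submodule.mem_span_range_iff_exists_fun] at hg
    obtain ⟨a, rfl⟩ := hg
    exact ⟨a, (formOf_eq_sum_smul f a).symm⟩
  finite := hR.finite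
  deg_one := hR.deg_one
  sep := fun P R =>
    (Fermat.Agent.S17.RR.ell_sub_single_single hx hsep hR hdeg P R).le

/-- a basis of a finite-dimensional vector space starting with a given nonzero vector -/
theorem exists_basis_cons {V : Type*} [AddCommGroup V] [Module K V] [Module.Finite K V]
    (u : V) (hu0 : u ≠ 0) :
    ∃ (m : ℕ) (f : Fin (m + 1) → V), LinearIndependent K f ∧
      Submodule.span K (Set.range f) = ⊤ ∧ f 0 = u ∧ m + 1 = Module.finrank K V := by
  classical
  obtain ⟨W, hW⟩ := Submodule.exists_isCompl (K ∙ u)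
  let bW : Module.Basis (Fin (Module.finrank K W)) K W := Module.finBasis K W
  have hvli : LinearIndependent K (fun j => (bW j : V)) :=
    bW.linearIndependent.map' W.subtype (Submodule.ker_subtype W)
  have hvspan : Submodule.span K (Set.range (fun j => (bW j : V))) = W := by
    have : Set.range (fun j => (bW j : V)) = W.subtype '' Set.range bW := by
      rw [← Set.range_comp]
      rfl
    rw [this, Submodule.span_image, bW.span_eq, Submodule.map_top, Submodule.range_subtype]
  have hunot : u ∉ Submodule.span K (Set.range (fun j => (bW j : V))) := by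
    rw [hvspan]
    intro huW
    have hmem : u ∈ (K ∙ u) ⊓ W := ⟨Submodule.mem_span_singleton_self u, huW⟩
    rw [hW.inf_eq_bot, Submodule.mem_bot] at hmem
    exact hu0 hmem
  have hfVli : LinearIndependent K (Fin.cons u (fun j => (bW j : V)) : Fin _ → V) :=
    linearIndependent_finCons.mpr ⟨hvli, hunot⟩
  have hfVspan :
      Submodule.span K (Set.range (Fin.cons u (fun j => (bW j : V)) : Fin _ → V)) = ⊤ := by
    rw [Fin.range_cons, Submodule.span_insert, hvspan]
    exact hW.sup_eq_top
  refine ⟨_, Fin.cons u (fun j => (bW j : V)), hfVli, hfVspan, rfl, ?_⟩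
  have hb := Module.finrank_eq_card_basis (Module.Basis.mk hfVli hfVspan.ge)
  rw [Fintype.card_fin] at hb
  exact hb.symm

/-- a basis of a finite-dimensional subspace containing `1`, starting with `1` -/
theorem exists_basis_one (V : Submodule K F) [Module.Finite K V] (h1 : (1 : F) ∈ V) :
    ∃ (m : ℕ) (f : Fin (m + 1) → F), LinearIndependent K f ∧
      Submodule.span K (Set.range f) = V ∧ f 0 = 1 ∧ m + 1 = Module.finrank K V := by
  have hu0 : (⟨1, h1⟩ : V) ≠ 0 := by
    intro h
    exact one_ne_zero (congrArg Subtype.val h)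
  obtain ⟨m, fV, hli, hspan, h0, hcard⟩ := exists_basis_cons (K := K) (⟨1, h1⟩ : V) hu0
  refine ⟨m, fun j => (fV j : F), ?_, ?_, ?_, hcard⟩
  · exact hli.map' V.subtype (Submodule.ker_subtype V)
  · have : Set.range (fun j => (fV j : F)) = V.subtype '' Set.range fV := by
      rw [← Set.range_comp]
      rfl
    rw [this, Submodule.span_image, hspan, Submodule.map_top, Submodule.range_subtype]
  · show ((fV 0 : V) : F) = 1
    rw [h0]

/-- **existence of the frame**: for `D0 ≥ 0` of degree `≥ 2g + 1` there is a basis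
`f 0 = 1, f 1, …, f n` of `L(D0)` which is a model. -/
theorem exists_isModel [IsAlgClosed K] {x : F} (hx : IsFF K x)
    (hsep : Algebra.IsSeparable K⟮x⟯ F) {g : ℕ} (hR : RiemannHyp K F g)
    [HasPrincipalDivisors K F] {D0 : Divisor K F} (hD0 : 0 ≤ D0)
    (hdeg : 2 * (g : ℤ) + 1 ≤ Divisor.degree D0) :
    ∃ (n : ℕ) (f : Fin (n + 1) → F), IsModel f D0 ∧ LinearIndependent K f ∧ f 0 = 1 ∧
      n + 1 = ell D0 := by
  have := hR.finite D0
  obtain ⟨m, f, hli, hspan, h0, hcard⟩ :=
    exists_basis_one (riemannRochSpace D0) (one_mem_riemannRochSpace hD0)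
  exact ⟨m, f, isModel_of_span hx hsep hR hdeg f (fun j => hli.ne_zero j) hspan, hli, h0, hcard⟩

/-- the dimension count: `n + 1 = deg D0 + 1 - g` -/
theorem card_eq [IsAlgClosed K] {x : F} (hx : IsFF K x)
    (hsep : Algebra.IsSeparable K⟮x⟯ F) {g : ℕ} (hR : RiemannHyp K F g)
    [HasPrincipalDivisors K F] {D0 : Divisor K F}
    (hdeg : 2 * (g : ℤ) + 1 ≤ Divisor.degree D0) {f : Fin (n + 1) → F}
    (hli : LinearIndependent K f)
    (hspan : Submodule.span K (Set.range f) = riemannRochSpace D0) :
    ((n : ℤ) + 1) = Divisor.degree D0 + 1 - g := by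
  have h1 := Fermat.Agent.S17.RR.ell_eq_of_le_degree hx hsep hR (D := D0) (by omega)
  have hspan' : ⊤ ≤ Submodule.span K (Set.range fun j => (⟨f j, by
      rw [← hspan]; exact Submodule.subset_span (Set.mem_range_self j)⟩ :
      riemannRochSpace D0)) := by
    rintro ⟨y, hy⟩ -
    have hy' := hy
    rw [← hspan, Submodule.mem_span_range_iff_exists_fun] at hy'
    obtain ⟨c, hc⟩ := hy'
    rw [Submodule.mem_span_range_iff_exists_fun]
    refine ⟨c, ?_⟩
    apply Subtype.ext
    simp only [Submodule.coe_sum, Submodule.coe_smul]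
    exact hc
  have hli' : LinearIndependent K (fun j => (⟨f j, by
      rw [← hspan]; exact Submodule.subset_span (Set.mem_range_self j)⟩ :
      riemannRochSpace D0)) := by
    apply LinearIndependent.of_comp (riemannRochSpace D0).subtype
    exact hli
  have hb := Module.finrank_eq_card_basis (Module.Basis.mk hli' hspan')
  rw [Fintype.card_fin] at hb
  unfold ell at h1
  rw [hb] at h1
  push_cast at h1
  exact h1

end Fermat.Agent.S17.Model.EmbedRR
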