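import Mathlib

/-!
# PROJECT H (S17), seam S-3 (dictionary), item B.0(b): Hasse coefficients, abstract layer

`O` a domain, `K` a field, `O` a `K`-algebra, `eps : O →ₐ[K] K` a `K`-point of `O` whose kernel is
the principal ideal `(s)`, `s ≠ 0` (think: `O` the valuation ring of a place with residue field `K`,
`s` a uniformiser).  Every `f : O` then has a formal expansion `∑ coeff k f * s ^ k`:

* `shift eps s f`      the unique `g` with `f - eps f = s * g`;
* `coeff eps s k f`    `= eps (shift^[k] f)`, the `k`-th Hasse coefficient of `f` at `eps` w.r.t. `s`;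
* `taylor`             `f = ∑ l < k, coeff l f * s ^ l + s ^ k * shift^[k] f`;
* `expand`             `O →ₐ[K] K⟦X⟧`, `f ↦ ∑ coeff k f X ^ k`  (`expand s = X`);
* `coeff_mul`          Cauchy product;
* `pow_dvd_iff`        `s ^ k ∣ f ↔ ∀ l < k, coeff l f = 0`;
* `coeff_pow_mul`      `coeff (k + l) (s ^ k * h) = coeff l h`  (leading coefficients);
* `expand_injective`   for noetherian `O` (Krull);
* `coeff_map`          equivariance under a semilinear ring homomorphism.
-/

set_option autoImplicit false

namespace Fermat.Agent.S17.Model.Jet

open Finset PowerSeries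

variable {K O : Type*} [Field K] [CommRing O] [Algebra K O]

open scoped Classical in
/-- the unique `g` with `f - eps f = s * g` (junk value `0` if there is none) -/
noncomputable def shift (eps : O →ₐ[K] K) (s : O) (f : O) : O :=
  if h : ∃ g, f - algebraMap K O (eps f) = s * g then h.choose else 0

/-- the `k`-th Hasse coefficient of `f` at the point `eps` with respect to the parameter `s` -/
noncomputable def coeff (eps : O →ₐ[K] K) (s : O) (k : ℕ) (f : O) : K :=
  eps ((shift eps s)^[k] f)

section basic

variable (eps : O →ₐ[K] K) (s : O)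

@[simp] theorem coeff_zero (f : O) : coeff eps s 0 f = eps f := rfl

theorem coeff_succ (k : ℕ) (f : O) : coeff eps s (k + 1) f = coeff eps s k (shift eps s f) := by
  rw [coeff, coeff, Function.iterate_succ_apply]

theorem coeff_succ' (k : ℕ) (f : O) :
    coeff eps s (k + 1) f = eps (shift eps s ((shift eps s)^[k] f)) := by
  rw [coeff, Function.iterate_succ_apply']

end basic

section spec

variable {eps : O →ₐ[K] K} {s : O}
  (hker : RingHom.ker (eps : O →+* K) = Ideal.span {s})

include hker

theorem eps_self : eps s = 0 := by
  have : s ∈ RingHom.ker (eps : O →+* K) := by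
    rw [hker]
    exact Ideal.mem_span_singleton_self s
  exact this

theorem shift_spec (f : O) : f - algebraMap K O (eps f) = s * shift eps s f := by
  have h : ∃ g, f - algebraMap K O (eps f) = s * g := by
    have hmem : f - algebraMap K O (eps f) ∈ RingHom.ker (eps : O →+* K) := by
      rw [RingHom.mem_ker]
      simp
    rw [hker, Ideal.mem_span_singleton'] at hmem
    obtain ⟨g, hg⟩ := hmem
    exact ⟨g, by rw [← hg, mul_comm]⟩
  rw [shift, dif_pos h]
  exact h.choose_spec

theorem eq_add_mul_shift (f : O) : f = algebraMap K O (eps f) + s * shift eps s f := by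
  rw [← shift_spec hker f]
  ring

variable [IsDomain O] (hs : s ≠ 0)

include hs

theorem shift_unique {f g : O} (h : f - algebraMap K O (eps f) = s * g) : shift eps s f = g := by
  have h1 := shift_spec hker f
  rw [h] at h1
  exact (mul_left_cancel₀ hs h1).symm

theorem shift_add (f g : O) : shift eps s (f + g) = shift eps s f + shift eps s g := by
  apply shift_unique hker hs
  rw [map_add, map_add, mul_add, ← shift_spec hker f, ← shift_spec hker g]
  ring

theorem shift_zero : shift eps s 0 = 0 := by
  apply shift_unique hker hs
  simp

theorem shift_algebraMap (c : K) : shift eps s (algebraMap K O c) = 0 := by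
  apply shift_unique hker hs
  simp

theorem shift_one : shift eps s 1 = 0 := by
  have := shift_algebraMap hker hs (1 : K)
  rwa [map_one] at this

theorem shift_mul (f g : O) :
    shift eps s (f * g) = shift eps s f * g + algebraMap K O (eps f) * shift eps s g := by
  apply shift_unique hker hs
  have hf := shift_spec hker f
  have hg := shift_spec hker g
  rw [map_mul, map_mul]
  calc f * g - algebraMap K O (eps f) * algebraMap K O (eps g)
      = (f - algebraMap K O (eps f)) * g
          + algebraMap K O (eps f) * (g - algebraMap K O (eps g)) := by ring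
    _ = s * (shift eps s f * g + algebraMap K O (eps f) * shift eps s g) := by
        rw [hf, hg]
        ring

theorem shift_algebraMap_mul (c : K) (f : O) :
    shift eps s (algebraMap K O c * f) = algebraMap K O c * shift eps s f := by
  rw [shift_mul hker hs, shift_algebraMap hker hs, zero_mul, zero_add, AlgHom.commutes]
  rfl

theorem shift_smul (c : K) (f : O) : shift eps s (c • f) = c • shift eps s f := by
  rw [Algebra.smul_def, Algebra.smul_def, shift_algebraMap_mul hker hs]

theorem shift_self : shift eps s s = 1 := by
  apply shift_unique hker hs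
  rw [eps_self hker, map_zero, sub_zero, mul_one]

theorem shift_self_mul (h : O) : shift eps s (s * h) = h := by
  apply shift_unique hker hs
  rw [map_mul, eps_self hker, zero_mul, map_zero, sub_zero]

theorem shift_neg (f : O) : shift eps s (-f) = -shift eps s f := by
  have h := shift_add hker hs f (-f)
  rw [add_neg_cancel, shift_zero hker hs] at h
  exact (neg_eq_of_add_eq_zero_right h.symm).symm

theorem shift_sub (f g : O) : shift eps s (f - g) = shift eps s f - shift eps s g := by
  rw [sub_eq_add_neg, shift_add hker hs, shift_neg hker hs, sub_eq_add_neg]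

/-! ### linearity of the coefficients -/

theorem iterate_shift_add (k : ℕ) (f g : O) :
    (shift eps s)^[k] (f + g) = (shift eps s)^[k] f + (shift eps s)^[k] g := by
  induction k generalizing f g with
  | zero => rfl
  | succ k ih =>
    rw [Function.iterate_succ_apply, Function.iterate_succ_apply, Function.iterate_succ_apply,
      shift_add hker hs, ih]

theorem iterate_shift_smul (k : ℕ) (c : K) (f : O) :
    (shift eps s)^[k] (c • f) = c • (shift eps s)^[k] f := by
  induction k generalizing f with
  | zero => rfl
  | succ k ih =>
    rw [Function.iterate_succ_apply, Function.iterate_succ_apply, shift_smul hker hs, ih]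

theorem coeff_add (k : ℕ) (f g : O) :
    coeff eps s k (f + g) = coeff eps s k f + coeff eps s k g := by
  rw [coeff, coeff, coeff, iterate_shift_add hker hs, map_add]

theorem coeff_smul (k : ℕ) (c : K) (f : O) : coeff eps s k (c • f) = c * coeff eps s k f := by
  rw [coeff, coeff, iterate_shift_smul hker hs, map_smul, smul_eq_mul]

theorem coeff_algebraMap_mul (k : ℕ) (c : K) (f : O) :
    coeff eps s k (algebraMap K O c * f) = c * coeff eps s k f := by
  rw [← Algebra.smul_def, coeff_smul hker hs]

theorem coeff_zero_right (k : ℕ) : coeff eps s k 0 = 0 := by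
  have h := coeff_smul hker hs k (0 : K) (0 : O)
  rwa [zero_smul, zero_mul] at h

theorem coeff_neg (k : ℕ) (f : O) : coeff eps s k (-f) = -coeff eps s k f := by
  have h := coeff_smul hker hs k (-1 : K) f
  rwa [neg_one_smul, neg_one_mul] at h

theorem coeff_sub (k : ℕ) (f g : O) :
    coeff eps s k (f - g) = coeff eps s k f - coeff eps s k g := by
  rw [sub_eq_add_neg, coeff_add hker hs, coeff_neg hker hs, sub_eq_add_neg]

theorem coeff_sum {ι : Type*} (t : Finset ι) (k : ℕ) (f : ι → O) :
    coeff eps s k (∑ i ∈ t, f i) = ∑ i ∈ t, coeff eps s k (f i) := by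
  classical
  induction t using Finset.induction_on with
  | empty => simp [coeff_zero_right hker hs]
  | insert a t ha ih => rw [Finset.sum_insert ha, Finset.sum_insert ha, coeff_add hker hs, ih]

/-- the coefficients as a `K`-linear map -/
noncomputable def coeffₗ (k : ℕ) : O →ₗ[K] K where
  toFun := coeff eps s k
  map_add' := coeff_add hker hs k
  map_smul' c f := by rw [coeff_smul hker hs, RingHom.id_apply, smul_eq_mul]

@[simp] theorem coeffₗ_apply (k : ℕ) (f : O) : coeffₗ hker hs k f = coeff eps s k f := rfl

theorem coeff_algebraMap (k : ℕ) (c : K) :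
    coeff eps s k (algebraMap K O c) = if k = 0 then c else 0 := by
  cases k with
  | zero => simp
  | succ k =>
    rw [coeff_succ, shift_algebraMap hker hs, coeff_zero_right hker hs, if_neg (Nat.succ_ne_zero k)]

theorem coeff_one (k : ℕ) : coeff eps s k (1 : O) = if k = 0 then 1 else 0 := by
  have := coeff_algebraMap hker hs k (1 : K)
  rwa [map_one] at this

theorem coeff_self (k : ℕ) : coeff eps s k s = if k = 1 then 1 else 0 := by
  cases k with
  | zero => simp [eps_self hker]
  | succ k =>
    rw [coeff_succ, shift_self hker hs, coeff_one hker hs]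
    simp

/-! ### Taylor expansion with remainder -/

omit [IsDomain O] hs in
theorem taylor (k : ℕ) (f : O) :
    f = ∑ l ∈ range k, algebraMap K O (coeff eps s l f) * s ^ l
      + s ^ k * (shift eps s)^[k] f := by
  induction k generalizing f with
  | zero => simp
  | succ k ih =>
    have h1 := ih (shift eps s f)
    have h2 := eq_add_mul_shift hker f
    rw [Finset.sum_range_succ', Function.iterate_succ_apply]
    simp only [coeff_succ, coeff_zero, pow_zero, mul_one, pow_succ]
    calc f = algebraMap K O (eps f) + s * shift eps s f := h2
      _ = algebraMap K O (eps f) + s * (∑ l ∈ range k,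
            algebraMap K O (coeff eps s l (shift eps s f)) * s ^ l
            + s ^ k * (shift eps s)^[k] (shift eps s f)) := by rw [← h1]
      _ = _ := by
        rw [mul_add, Finset.mul_sum]
        have : ∀ l ∈ range k, s * (algebraMap K O (coeff eps s l (shift eps s f)) * s ^ l)
            = algebraMap K O (coeff eps s l (shift eps s f)) * (s ^ l * s) := fun l _ => by ring
        rw [Finset.sum_congr rfl this]
        ring

/-! ### the expansion homomorphism -/

/-- the formal expansion of `f` as a power series (plain function) -/
noncomputable def expandFun (eps : O →ₐ[K] K) (s : O) (f : O) : K⟦X⟧ :=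
  PowerSeries.mk fun k => coeff eps s k f

omit [IsDomain O] hker hs in
@[simp] theorem coeff_expandFun (k : ℕ) (f : O) :
    PowerSeries.coeff k (expandFun eps s f) = coeff eps s k f := by
  rw [expandFun, PowerSeries.coeff_mk]

omit [IsDomain O] hker hs in
theorem expandFun_eq (f : O) :
    expandFun eps s f = PowerSeries.C (eps f) + PowerSeries.X * expandFun eps s (shift eps s f) := by
  ext n
  cases n with
  | zero => simp
  | succ n =>
    rw [map_add, coeff_expandFun, PowerSeries.coeff_succ_X_mul, coeff_expandFun, coeff_succ,
      PowerSeries.coeff_C, if_neg (Nat.succ_ne_zero n), zero_add]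

theorem expandFun_add (f g : O) :
    expandFun eps s (f + g) = expandFun eps s f + expandFun eps s g := by
  ext n
  simp [coeff_add hker hs]

theorem expandFun_algebraMap_mul (c : K) (f : O) :
    expandFun eps s (algebraMap K O c * f) = PowerSeries.C c * expandFun eps s f := by
  ext n
  rw [coeff_expandFun, coeff_algebraMap_mul hker hs, PowerSeries.coeff_C_mul, coeff_expandFun]

theorem coeff_expandFun_mul (k : ℕ) : ∀ f g : O,
    PowerSeries.coeff k (expandFun eps s (f * g))
      = PowerSeries.coeff k (expandFun eps s f * expandFun eps s g) := by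
  induction k with
  | zero =>
    intro f g
    rw [coeff_expandFun, PowerSeries.coeff_mul, Finset.Nat.antidiagonal_zero, Finset.sum_singleton,
      coeff_expandFun, coeff_expandFun]
    simp
  | succ k ih =>
    intro f g
    rw [coeff_expandFun, coeff_succ, shift_mul hker hs, ← coeff_expandFun,
      expandFun_add hker hs, expandFun_algebraMap_mul hker hs, map_add, ih,
      PowerSeries.coeff_C_mul, coeff_expandFun, ← coeff_succ]
    conv_rhs => rw [expandFun_eq f, add_mul, map_add, mul_assoc, PowerSeries.coeff_succ_X_mul,
      PowerSeries.coeff_C_mul, coeff_expandFun]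
    ring

theorem expandFun_mul (f g : O) :
    expandFun eps s (f * g) = expandFun eps s f * expandFun eps s g := by
  ext k
  exact coeff_expandFun_mul hker hs k f g

/-- **Cauchy product** for Hasse coefficients -/
theorem coeff_mul (k : ℕ) (f g : O) :
    coeff eps s k (f * g) = ∑ p ∈ antidiagonal k, coeff eps s p.1 f * coeff eps s p.2 g := by
  rw [← coeff_expandFun, expandFun_mul hker hs, PowerSeries.coeff_mul]
  simp

/-- the expansion at `eps` with respect to `s`, as a `K`-algebra homomorphism `O → K⟦X⟧` -/
noncomputable def expand : O →ₐ[K] K⟦X⟧ where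
  toFun := expandFun eps s
  map_one' := by
    ext n
    rw [coeff_expandFun, coeff_one hker hs, PowerSeries.coeff_one]
  map_mul' := expandFun_mul hker hs
  map_zero' := by
    ext n
    rw [coeff_expandFun, coeff_zero_right hker hs, map_zero]
  map_add' := expandFun_add hker hs
  commutes' c := by
    ext n
    rw [coeff_expandFun, coeff_algebraMap hker hs, PowerSeries.algebraMap_apply,
      PowerSeries.coeff_C]
    rfl

@[simp] theorem coeff_expand (k : ℕ) (f : O) :
    PowerSeries.coeff k (expand hker hs f) = coeff eps s k f :=
  coeff_expandFun k f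

theorem expand_self : expand hker hs s = PowerSeries.X := by
  ext n
  rw [coeff_expand, coeff_self hker hs, PowerSeries.coeff_X]

/-- `coeff (k + l) (s ^ k * h) = coeff l h`: in particular the `k`-th coefficient of `s ^ k * h` is
the value of `h` (the leading coefficient) -/
theorem coeff_pow_mul (k l : ℕ) (h : O) : coeff eps s (k + l) (s ^ k * h) = coeff eps s l h := by
  rw [← coeff_expand hker hs, map_mul, map_pow, expand_self, add_comm,
    PowerSeries.coeff_X_pow_mul, coeff_expand]

theorem coeff_pow_mul_self (k : ℕ) (h : O) : coeff eps s k (s ^ k * h) = eps h := by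
  have := coeff_pow_mul hker hs k 0 h
  rwa [add_zero, coeff_zero] at this

theorem coeff_pow_mul_of_lt {k l : ℕ} (hl : l < k) (h : O) : coeff eps s l (s ^ k * h) = 0 := by
  rw [← coeff_expand hker hs, map_mul, map_pow, expand_self, PowerSeries.coeff_X_pow_mul',
    if_neg (not_le.mpr hl)]

/-- **order of vanishing through the coefficients** -/
theorem pow_dvd_iff (k : ℕ) (f : O) : s ^ k ∣ f ↔ ∀ l < k, coeff eps s l f = 0 := by
  constructor
  · rintro ⟨h, rfl⟩ l hl
    exact coeff_pow_mul_of_lt hker hs hl h
  · intro h
    have ht := taylor hker k f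
    rw [Finset.sum_eq_zero (fun l hl => by rw [h l (Finset.mem_range.mp hl), map_zero, zero_mul]),
      zero_add] at ht
    exact ⟨_, ht⟩

omit [IsDomain O] hs in
theorem eq_pow_mul_of_coeff_eq_zero {k : ℕ} {f : O} (h : ∀ l < k, coeff eps s l f = 0) :
    f = s ^ k * (shift eps s)^[k] f := by
  have ht := taylor hker k f
  rwa [Finset.sum_eq_zero (fun l hl => by rw [h l (Finset.mem_range.mp hl), map_zero, zero_mul]),
    zero_add] at ht

theorem X_pow_dvd_expand_iff (k : ℕ) (f : O) : (PowerSeries.X : K⟦X⟧) ^ k ∣ expand hker hs f ↔ s ^ k ∣ f := by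
  rw [PowerSeries.X_pow_dvd_iff, pow_dvd_iff hker hs]
  simp

theorem expand_eq_zero_iff_forall_dvd (f : O) : expand hker hs f = 0 ↔ ∀ k, s ^ k ∣ f := by
  constructor
  · intro h k
    rw [pow_dvd_iff hker hs]
    intro l _
    rw [← coeff_expand hker hs, h, map_zero]
  · intro h
    ext n
    rw [coeff_expand, map_zero]
    exact (pow_dvd_iff hker hs (n + 1) f).mp (h (n + 1)) n (Nat.lt_succ_self n)

/-- **Krull**: for noetherian `O` the expansion is injective -/
theorem expand_injective [IsNoetherianRing O] : Function.Injective (expand hker hs) := by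
  rw [injective_iff_map_eq_zero]
  intro f hf
  rw [expand_eq_zero_iff_forall_dvd] at hf
  have hne : Ideal.span {s} ≠ (⊤ : Ideal O) := by
    rw [← hker]
    exact RingHom.ker_ne_top _
  have hk := Ideal.iInf_pow_eq_bot_of_isDomain (Ideal.span {s}) hne
  have hmem : f ∈ ⨅ i : ℕ, Ideal.span {s} ^ i := by
    rw [Ideal.mem_iInf]
    intro i
    rw [Ideal.span_singleton_pow, Ideal.mem_span_singleton]
    exact hf i
  rwa [hk] at hmem

/-- the first non-vanishing coefficient: if `s ^ k ∣ f` but not `s ^ (k + 1)`, then
`coeff k f ≠ 0` -/
theorem coeff_ne_zero_of_not_dvd {k : ℕ} {f : O} (h1 : s ^ k ∣ f) (h2 : ¬ s ^ (k + 1) ∣ f) :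
    coeff eps s k f ≠ 0 := by
  intro h0
  apply h2
  rw [pow_dvd_iff hker hs]
  intro l hl
  rcases Nat.lt_succ_iff_lt_or_eq.mp hl with h | rfl
  · exact (pow_dvd_iff hker hs k f).mp h1 l h
  · exact h0

end spec

/-! ### equivariance -/

section equivariance

variable {K' O' : Type*} [Field K'] [CommRing O'] [Algebra K' O'] [IsDomain O']
  {eps : O →ₐ[K] K} {s : O} {eps' : O' →ₐ[K'] K'} {s' : O'}

/-- **equivariance of the Hasse coefficients** under a ring homomorphism `Φ : O → O'` that is
semilinear over `σ : K → K'`, intertwines the two points and carries `s` to `s'` -/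
theorem coeff_map (hker : RingHom.ker (eps : O →+* K) = Ideal.span {s})
    (hker' : RingHom.ker (eps' : O' →+* K') = Ideal.span {s'}) (hs' : s' ≠ 0)
    (Φ : O →+* O') (σ : K →+* K')
    (hΦ : ∀ c : K, Φ (algebraMap K O c) = algebraMap K' O' (σ c))
    (heps : ∀ f : O, eps' (Φ f) = σ (eps f)) (hΦs : Φ s = s') (k : ℕ) (f : O) :
    coeff eps' s' k (Φ f) = σ (coeff eps s k f) := by
  have hshift : ∀ f : O, shift eps' s' (Φ f) = Φ (shift eps s f) := by
    intro f
    apply shift_unique hker' hs'
    rw [heps, ← hΦ, ← map_sub, shift_spec hker f, map_mul, hΦs]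
  induction k generalizing f with
  | zero => exact heps f
  | succ k ih => rw [coeff_succ, coeff_succ, hshift, ih]

end equivariance

end Fermat.Agent.S17.Model.Jet
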