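import Mathlib
import Fermat.Agent.S18.C.PlaceEval
import Fermat.Agent.S17.Model.JetAbs

/-!
# PROJECT H (S17), seam S-3 (dictionary), item B.0(b): Hasse coefficients at a place

`K` algebraically closed, `F/K` a function field (`hx : S24.FF.IsFF K x`), `v : Place K F`,
`s : F` a local parameter at `v` (`v.ord s = 1`).

* `hasse hx v s k f : K`   the coefficient of `s ^ k` in the `s`-adic expansion of `f` at `v`
  (TOTAL function: `0` if `f` is not regular at `v`);
* `hasse_zero`             `hasse 0 f = evalAt hx v f` (`f` regular);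
* `hasse_add, hasse_smul, hasse_algebraMap_mul, hasse_sum, hasse_mul` (Cauchy product);
* `hasse_algebraMap, hasse_one, hasse_self`;
* `ord_ge_iff`             `f ≠ 0` regular: `k ≤ v.ord f ↔ ∀ l < k, hasse l f = 0`;
* `hasse_eq_hasse_zero_div` `k ≤ v.ord f → hasse k f = hasse 0 (f / s ^ k)` (leading coefficient);
* `hasse_ord_ne_zero`      the coefficient at `k = v.ord f` does not vanish;
* `hasse_one_eq`           `hasse 1 f = hasse 0 ((f - f(v)) / s)`;
* `hasse_map`              equivariance under a semilinear field homomorphism carrying `v` to `v'`.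
-/

set_option autoImplicit false

namespace Fermat.Agent.S17.Model.Jet

open AlgebraicCurve Fermat.Agent.S24.FF Fermat.Agent.S24.Ord Fermat.Agent.S18.C.PlaceEval

universe u w

variable {K : Type w} {F : Type u} [Field K] [Field F] [Algebra K F]

/-! ### local parameters -/

section param

variable (v : Place K F) {s : F}

theorem ne_zero_of_ord_eq_one (hs : v.ord s = 1) : s ≠ 0 := by
  rintro rfl
  rw [Place.ord_zero] at hs
  exact zero_ne_one hs

theorem mem_of_ord_nonneg {f : F} (hf : 0 ≤ v.ord f) : f ∈ v.toValuationSubring := by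
  rcases eq_or_ne f 0 with rfl | hf0
  · exact zero_mem _
  · rw [mem_iff]
    exact (ord_nonneg_iff v hf0).mp hf

theorem ord_nonneg_of_mem {f : F} (hf : f ∈ v.toValuationSubring) : 0 ≤ v.ord f := by
  rcases eq_or_ne f 0 with rfl | hf0
  · rw [Place.ord_zero]
  · exact (ord_nonneg_iff v hf0).mpr ((mem_iff v f).mp hf)

theorem mem_of_ord_eq_one (hs : v.ord s = 1) : s ∈ v.toValuationSubring :=
  mem_of_ord_nonneg v (by rw [hs]; exact zero_le_one)

theorem ord_pow (f : F) (k : ℕ) : v.ord (f ^ k) = k * v.ord f := by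
  have := v.ord_zpow f (k : ℤ)
  rwa [zpow_natCast] at this

theorem ord_div {f g : F} (hf : f ≠ 0) (hg : g ≠ 0) : v.ord (f / g) = v.ord f - v.ord g := by
  rw [div_eq_mul_inv, v.ord_mul hf (inv_ne_zero hg), v.ord_inv, sub_eq_add_neg]

/-- a regular function is divisible by `s ^ k` in the valuation ring iff its order is `≥ k` -/
theorem pow_dvd_iff_le_ord (hs : v.ord s = 1) {f : F} (hf : f ∈ v.toValuationSubring)
    (hf0 : f ≠ 0) (k : ℕ) :
    (⟨s, mem_of_ord_eq_one v hs⟩ : v.toValuationSubring) ^ k ∣ ⟨f, hf⟩ ↔ (k : ℤ) ≤ v.ord f := by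
  have hs0 := ne_zero_of_ord_eq_one v hs
  constructor
  · rintro ⟨h, hh⟩
    have hfe : f = s ^ k * (h : F) := by
      have := congrArg (Subtype.val) hh
      simpa using this
    have hh0 : (h : F) ≠ 0 := by
      rintro h0
      rw [h0, mul_zero] at hfe
      exact hf0 hfe
    rw [hfe, v.ord_mul (pow_ne_zero k hs0) hh0, ord_pow, hs, mul_one]
    have := ord_nonneg_of_mem v h.2
    omega
  · intro hk
    have hmem : f / s ^ k ∈ v.toValuationSubring := by
      apply mem_of_ord_nonneg
      rw [ord_div v hf0 (pow_ne_zero k hs0), ord_pow, hs, mul_one]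
      omega
    refine ⟨⟨f / s ^ k, hmem⟩, ?_⟩
    apply Subtype.ext
    simp only [MulMemClass.coe_mul, SubmonoidClass.coe_pow]
    field_simp

theorem maximalIdeal_eq_span (hs : v.ord s = 1) :
    IsLocalRing.maximalIdeal v.toValuationSubring
      = Ideal.span {(⟨s, mem_of_ord_eq_one v hs⟩ : v.toValuationSubring)} := by
  have hs0 := ne_zero_of_ord_eq_one v hs
  ext z
  rw [mem_maximalIdeal_iff, Ideal.mem_span_singleton]
  rcases eq_or_ne (z : F) 0 with hz | hz
  · have hz' : z = 0 := Subtype.ext hz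
    subst hz'
    simp
  · rw [← ord_pos_iff v hz]
    have h := pow_dvd_iff_le_ord v hs z.2 hz 1
    rw [pow_one] at h
    rw [show (⟨(z : F), z.2⟩ : v.toValuationSubring) = z from rfl] at h
    rw [h]
    simp only [Nat.cast_one]
    omega

end param

variable [IsAlgClosed K] {x : F}

theorem ker_evalAt_eq_span (hx : IsFF K x) (v : Place K F) {s : F} (hs : v.ord s = 1) :
    RingHom.ker (evalAt hx v : v.toValuationSubring →+* K)
      = Ideal.span {(⟨s, mem_of_ord_eq_one v hs⟩ : v.toValuationSubring)} := by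
  rw [ker_evalAt, maximalIdeal_eq_span v hs]

omit [IsAlgClosed K] in
theorem param_ne_zero (v : Place K F) {s : F} (hs : v.ord s = 1) :
    (⟨s, mem_of_ord_eq_one v hs⟩ : v.toValuationSubring) ≠ 0 := by
  intro h
  exact ne_zero_of_ord_eq_one v hs (congrArg Subtype.val h)

/-! ### the Hasse coefficients -/

open scoped Classical in
/-- the coefficient of `s ^ k` in the `s`-adic expansion of `f` at the place `v`; `0` if `f` (or `s`)
is not regular at `v` -/
noncomputable def hasse (hx : IsFF K x) (v : Place K F) (s : F) (k : ℕ) (f : F) : K :=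
  if h : s ∈ v.toValuationSubring ∧ f ∈ v.toValuationSubring then
    coeff (evalAt hx v) ⟨s, h.1⟩ k ⟨f, h.2⟩
  else 0

section

variable (hx : IsFF K x) (v : Place K F) {s : F} (hs : v.ord s = 1)

include hs

theorem hasse_eq (k : ℕ) {f : F} (hf : f ∈ v.toValuationSubring) :
    hasse hx v s k f = coeff (evalAt hx v) ⟨s, mem_of_ord_eq_one v hs⟩ k ⟨f, hf⟩ := by
  rw [hasse, dif_pos ⟨mem_of_ord_eq_one v hs, hf⟩]

omit hs in
theorem hasse_of_not_mem (s : F) (k : ℕ) {f : F} (hf : f ∉ v.toValuationSubring) :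
    hasse hx v s k f = 0 := by
  rw [hasse, dif_neg (fun h => hf h.2)]

theorem hasse_zero {f : F} (hf : f ∈ v.toValuationSubring) :
    hasse hx v s 0 f = evalAt hx v ⟨f, hf⟩ := by
  rw [hasse_eq hx v hs 0 hf, coeff_zero]

theorem hasse_add (k : ℕ) {f g : F} (hf : f ∈ v.toValuationSubring)
    (hg : g ∈ v.toValuationSubring) :
    hasse hx v s k (f + g) = hasse hx v s k f + hasse hx v s k g := by
  rw [hasse_eq hx v hs k hf, hasse_eq hx v hs k hg, hasse_eq hx v hs k (add_mem hf hg),
    ← coeff_add (ker_evalAt_eq_span hx v hs) (param_ne_zero v hs)]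
  rfl

theorem hasse_algebraMap_mul (k : ℕ) (c : K) {f : F} (hf : f ∈ v.toValuationSubring) :
    hasse hx v s k (algebraMap K F c * f) = c * hasse hx v s k f := by
  rw [hasse_eq hx v hs k hf, hasse_eq hx v hs k (mul_mem (v.algebraMap_mem' c) hf),
    ← coeff_algebraMap_mul (ker_evalAt_eq_span hx v hs) (param_ne_zero v hs)]
  rfl

theorem hasse_smul (k : ℕ) (c : K) {f : F} (hf : f ∈ v.toValuationSubring) :
    hasse hx v s k (c • f) = c * hasse hx v s k f := by
  rw [Algebra.smul_def, hasse_algebraMap_mul hx v hs k c hf]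

theorem hasse_zero_right (k : ℕ) : hasse hx v s k (0 : F) = 0 := by
  have := hasse_algebraMap_mul hx v hs k (0 : K) (zero_mem v.toValuationSubring)
  rwa [map_zero, zero_mul, zero_mul] at this

theorem hasse_neg (k : ℕ) {f : F} (hf : f ∈ v.toValuationSubring) :
    hasse hx v s k (-f) = -hasse hx v s k f := by
  have := hasse_algebraMap_mul hx v hs k (-1 : K) hf
  rwa [map_neg, map_one, neg_one_mul, neg_one_mul] at this

theorem hasse_sub (k : ℕ) {f g : F} (hf : f ∈ v.toValuationSubring)
    (hg : g ∈ v.toValuationSubring) :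
    hasse hx v s k (f - g) = hasse hx v s k f - hasse hx v s k g := by
  rw [sub_eq_add_neg, hasse_add hx v hs k hf (neg_mem hg), hasse_neg hx v hs k hg,
    sub_eq_add_neg]

theorem hasse_sum {ι : Type*} (t : Finset ι) (k : ℕ) {f : ι → F}
    (hf : ∀ i ∈ t, f i ∈ v.toValuationSubring) :
    hasse hx v s k (∑ i ∈ t, f i) = ∑ i ∈ t, hasse hx v s k (f i) := by
  classical
  induction t using Finset.induction_on with
  | empty => simp [hasse_zero_right hx v hs]
  | insert a t ha ih =>
    rw [Finset.sum_insert ha, Finset.sum_insert ha,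
      hasse_add hx v hs k (hf a (Finset.mem_insert_self a t))
        (sum_mem fun i hi => hf i (Finset.mem_insert_of_mem hi)),
      ih fun i hi => hf i (Finset.mem_insert_of_mem hi)]

/-- **Cauchy product** -/
theorem hasse_mul (k : ℕ) {f g : F} (hf : f ∈ v.toValuationSubring)
    (hg : g ∈ v.toValuationSubring) :
    hasse hx v s k (f * g)
      = ∑ p ∈ Finset.HasAntidiagonal.antidiagonal k, hasse hx v s p.1 f * hasse hx v s p.2 g := by
  rw [hasse_eq hx v hs k (mul_mem hf hg)]
  have h := coeff_mul (ker_evalAt_eq_span hx v hs) (param_ne_zero v hs) k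
    (⟨f, hf⟩ : v.toValuationSubring) ⟨g, hg⟩
  rw [show (⟨f * g, mul_mem hf hg⟩ : v.toValuationSubring) = ⟨f, hf⟩ * ⟨g, hg⟩ from rfl, h]
  refine Finset.sum_congr rfl fun p _ => ?_
  rw [hasse_eq hx v hs p.1 hf, hasse_eq hx v hs p.2 hg]

theorem hasse_algebraMap (k : ℕ) (c : K) :
    hasse hx v s k (algebraMap K F c) = if k = 0 then c else 0 := by
  rw [hasse_eq hx v hs k (v.algebraMap_mem' c),
    ← coeff_algebraMap (ker_evalAt_eq_span hx v hs) (param_ne_zero v hs) k c]
  rfl

theorem hasse_one (k : ℕ) : hasse hx v s k (1 : F) = if k = 0 then 1 else 0 := by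
  have := hasse_algebraMap hx v hs k (1 : K)
  rwa [map_one] at this

theorem hasse_self (k : ℕ) : hasse hx v s k s = if k = 1 then 1 else 0 := by
  rw [hasse_eq hx v hs k (mem_of_ord_eq_one v hs),
    coeff_self (ker_evalAt_eq_span hx v hs) (param_ne_zero v hs)]

/-- shifting: `hasse (k + l) (s ^ k * h) = hasse l h` -/
theorem hasse_pow_mul (k l : ℕ) {h : F} (hh : h ∈ v.toValuationSubring) :
    hasse hx v s (k + l) (s ^ k * h) = hasse hx v s l h := by
  have hsm := mem_of_ord_eq_one v hs
  rw [hasse_eq hx v hs (k + l) (mul_mem (pow_mem hsm k) hh), hasse_eq hx v hs l hh,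
    ← coeff_pow_mul (ker_evalAt_eq_span hx v hs) (param_ne_zero v hs) k l]
  rfl

theorem hasse_pow_mul_of_lt {k l : ℕ} (hl : l < k) {h : F} (hh : h ∈ v.toValuationSubring) :
    hasse hx v s l (s ^ k * h) = 0 := by
  have hsm := mem_of_ord_eq_one v hs
  rw [hasse_eq hx v hs l (mul_mem (pow_mem hsm k) hh),
    ← coeff_pow_mul_of_lt (ker_evalAt_eq_span hx v hs) (param_ne_zero v hs) hl ⟨h, hh⟩]
  rfl

/-- **order of vanishing through the coefficients** -/
theorem ord_ge_iff {f : F} (hf : f ∈ v.toValuationSubring) (hf0 : f ≠ 0) (k : ℕ) :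
    (k : ℤ) ≤ v.ord f ↔ ∀ l < k, hasse hx v s l f = 0 := by
  rw [← pow_dvd_iff_le_ord v hs hf hf0 k,
    pow_dvd_iff (ker_evalAt_eq_span hx v hs) (param_ne_zero v hs)]
  refine forall₂_congr fun l _ => ?_
  rw [hasse_eq hx v hs l hf]

/-- the coefficients below the order vanish -/
theorem hasse_eq_zero_of_lt_ord {f : F} {l : ℕ} (hl : (l : ℤ) < v.ord f) :
    hasse hx v s l f = 0 := by
  rcases eq_or_ne f 0 with rfl | hf0
  · exact hasse_zero_right hx v hs l
  · have hf : f ∈ v.toValuationSubring := mem_of_ord_nonneg v (by omega)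
    have h : ((l + 1 : ℕ) : ℤ) ≤ v.ord f := by push_cast; omega
    exact (ord_ge_iff hx v hs hf hf0 (l + 1)).mp h l (Nat.lt_succ_self l)

/-- **leading coefficient**: for `k ≤ v.ord f` the `k`-th coefficient of `f` is the value of
`f / s ^ k` at `v` -/
theorem hasse_eq_hasse_zero_div {f : F} (hf0 : f ≠ 0) {k : ℕ} (hk : (k : ℤ) ≤ v.ord f) :
    hasse hx v s k f = hasse hx v s 0 (f / s ^ k) := by
  have hs0 := ne_zero_of_ord_eq_one v hs
  have hmem : f / s ^ k ∈ v.toValuationSubring := by
    apply mem_of_ord_nonneg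
    rw [ord_div v hf0 (pow_ne_zero k hs0), ord_pow, hs, mul_one]
    omega
  have h := hasse_pow_mul hx v hs k 0 hmem
  rw [add_zero] at h
  rw [← h]
  congr 1
  field_simp

/-- the coefficient at the exact order does not vanish -/
theorem hasse_ord_ne_zero {f : F} (hf0 : f ≠ 0) {k : ℕ} (hk : v.ord f = k) :
    hasse hx v s k f ≠ 0 := by
  have hf : f ∈ v.toValuationSubring := mem_of_ord_nonneg v (by omega)
  intro h0
  have h : ((k + 1 : ℕ) : ℤ) ≤ v.ord f := by
    rw [ord_ge_iff hx v hs hf hf0 (k + 1)]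
    intro l hl
    rcases Nat.lt_succ_iff_lt_or_eq.mp hl with h | rfl
    · exact hasse_eq_zero_of_lt_ord hx v hs (by omega)
    · exact h0
  push_cast at h
  omega

/-- the first coefficient is the value of the difference quotient -/
theorem hasse_one_eq {f : F} (hf : f ∈ v.toValuationSubring) :
    hasse hx v s 1 f = hasse hx v s 0 ((f - algebraMap K F (hasse hx v s 0 f)) / s) := by
  have hs0 := ne_zero_of_ord_eq_one v hs
  set c := hasse hx v s 0 f with hc
  have hg : f - algebraMap K F c ∈ v.toValuationSubring := sub_mem hf (v.algebraMap_mem' c)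
  have h1 : hasse hx v s 1 f = hasse hx v s 1 (f - algebraMap K F c) := by
    rw [hasse_sub hx v hs 1 hf (v.algebraMap_mem' c), hasse_algebraMap hx v hs 1 c,
      if_neg one_ne_zero, sub_zero]
  rw [h1]
  rcases eq_or_ne (f - algebraMap K F c) 0 with h0 | h0
  · rw [h0, zero_div, hasse_zero_right hx v hs, hasse_zero_right hx v hs]
  · have hord : ((1 : ℕ) : ℤ) ≤ v.ord (f - algebraMap K F c) := by
      rw [ord_ge_iff hx v hs hg h0 1]
      intro l hl
      obtain rfl : l = 0 := by omega
      rw [hasse_sub hx v hs 0 hf (v.algebraMap_mem' c), hasse_algebraMap hx v hs 0 c, if_pos rfl,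
        ← hc, sub_self]
    have := hasse_eq_hasse_zero_div hx v hs h0 hord
    rwa [pow_one] at this

end

/-! ### equivariance -/

section equivariance

variable {K' : Type*} {F' : Type*} [Field K'] [Field F'] [Algebra K' F'] [IsAlgClosed K']
  {x' : F'}

omit [IsAlgClosed K] in
theorem adicValuation_lt_one_iff (v : Place K F) (g : F) :
    v.adicValuation g < 1 ↔ g = 0 ∨ g⁻¹ ∉ v.toValuationSubring := by
  rcases eq_or_ne g 0 with rfl | hg
  · simp
  · rw [mem_iff, map_inv₀]
    have h0 : v.adicValuation g ≠ 0 := v.adicValuation_ne_zero hg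
    constructor
    · intro h
      right
      rw [not_le, one_lt_inv₀ (zero_lt_iff.mpr h0)]
      exact h
    · rintro (h | h)
      · exact absurd h hg
      · rw [not_le, one_lt_inv₀ (zero_lt_iff.mpr h0)] at h
        exact h

/-- **equivariance of the Hasse coefficients**: `φ : F → F'` a field homomorphism, semilinear over
`σ : K → K'`, with `O_v = φ⁻¹ (O_v')`, and `φ s` a local parameter at `v'`.  Then
`(φ f)^[k](v') = σ (f^[k](v))`. -/
theorem hasse_map (hx : IsFF K x) (hx' : IsFF K' x') (v : Place K F) (v' : Place K' F')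
    (φ : F →+* F') (σ : K →+* K')
    (hφ : ∀ c : K, φ (algebraMap K F c) = algebraMap K' F' (σ c))
    (hv : ∀ f : F, f ∈ v.toValuationSubring ↔ φ f ∈ v'.toValuationSubring)
    {s : F} (hs : v.ord s = 1) (hs' : v'.ord (φ s) = 1) (k : ℕ) (f : F) :
    hasse hx' v' (φ s) k (φ f) = σ (hasse hx v s k f) := by
  by_cases hf : f ∈ v.toValuationSubring
  · have hf' : φ f ∈ v'.toValuationSubring := (hv f).mp hf
    rw [hasse_eq hx' v' hs' k hf', hasse_eq hx v hs k hf]
    -- the restriction of `φ` to the valuation rings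
    let Φ : v.toValuationSubring →+* v'.toValuationSubring :=
      (φ.comp v.toValuationSubring.subtype).codRestrict v'.toValuationSubring.toSubring
        (fun z => (hv z).mp z.2)
    have hΦ : ∀ z : v.toValuationSubring, ((Φ z : v'.toValuationSubring) : F') = φ (z : F) :=
      fun z => rfl
    have hlt : ∀ g : F, v.adicValuation g < 1 → v'.adicValuation (φ g) < 1 := by
      intro g hg
      rw [adicValuation_lt_one_iff] at hg ⊢
      rcases hg with rfl | hg
      · left
        exact map_zero φ
      · right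
        rw [← map_inv₀]
        exact fun h => hg ((hv _).mpr h)
    have heps : ∀ z : v.toValuationSubring, evalAt hx' v' (Φ z) = σ (evalAt hx v z) := by
      intro z
      rw [evalAt_eq_iff, hΦ, ← hφ, ← map_sub]
      exact hlt _ (adicValuation_sub_evalAt_lt_one hx v z)
    have hmain := coeff_map (ker_evalAt_eq_span hx v hs) (ker_evalAt_eq_span hx' v' hs')
      (param_ne_zero v' hs') Φ σ
      (fun c => Subtype.ext (by rw [hΦ]; exact hφ c)) heps (Subtype.ext (hΦ _)) k ⟨f, hf⟩
    rw [← hmain]
    rfl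
  · have hf' : φ f ∉ v'.toValuationSubring := fun h => hf ((hv f).mpr h)
    rw [hasse_of_not_mem hx' v' _ k hf', hasse_of_not_mem hx v _ k hf, map_zero]

end equivariance

end Fermat.Agent.S17.Model.Jet
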