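import Mathlib
import Fermat.Agent.S17.Model.Lift
import Fermat.Agent.S17.Model.Jet
import Fermat.Agent.S17.Dict.QStructure
import Fermat.Agent.S37.Diff.OrdBounds

/-!
# PROJECT H (S17), slice O4 = B.0(a),(b): Galois equivariance of the projective model

Frame of `Model/Lift`: `K` algebraically closed, `F/K` a function field (`hx : IsFF K x`),
`f : Fin (n+1) → F` nonzero coordinate functions; plus ONE semilinear automorphism
`g : SemilinearAut K F` fixing all coordinate functions (`hfix : ∀ j, g • f j = f j`), with base
automorphism `τ = baseAut g`.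

* (G1) `ev_gal`          : `(g h)(g v) = τ (h (v))` for the total residue map;
* (G2) `admissible_gal`, `nuAt_gal`, `zvec_gal`, `dvec_gal`, `tauvec_gal`;
* (G3) `formOf_gal`, `multAt_gal`, `lcAt_gal` (so for a rational form, zeros with multiplicities
  are permuted and leading coefficients are conjugated);
* (G4) equivariant choices: `idx f v` (the least admissible index), `pidx`, the canonical local
  parameter `param hx f v h` with `ord_param` and `param_gal : g • param v = param (g • v)`;
* (G5) `canDiv_gal` : the canonical divisor `div(dx)` is stable when `g • x = x` (characteristic `0`);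
* (G6) `hasse_gal`, `hasse_param_gal` : the Hasse coefficients of `Model/Jet` are equivariant,
  `(g h)^[k](g v) = τ (h^[k](v))` with respect to the parameters `s`, `g • s`.
-/

set_option autoImplicit false

noncomputable section

namespace Fermat.Agent.S17.Model.Rational

open AlgebraicCurve AlgebraicCurve.SemilinearAut
open Fermat.Agent.S24.FF Fermat.Agent.S24.Ord Fermat.Agent.S18.C.PlaceEval
open Fermat.Agent.S17.Model.Lift Fermat.Agent.S17.Dict.QStructure

universe u w

variable {K : Type w} {F : Type u} [Field K] [Field F] [Algebra K F]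

/-! ### generalities on one semilinear automorphism -/

theorem smul_div' (g : SemilinearAut K F) (a b : F) : g • (a / b) = g • a / g • b := by
  rw [smul_def, smul_def, smul_def, map_div₀]

theorem smul_zpow' (g : SemilinearAut K F) (a : F) (m : ℤ) : g • (a ^ m) = (g • a) ^ m := by
  rw [smul_def, smul_def, map_zpow₀]

theorem smul_sum' {ι : Type*} (g : SemilinearAut K F) (s : Finset ι) (a : ι → F) :
    g • (∑ i ∈ s, a i) = ∑ i ∈ s, g • a i := by
  rw [smul_def, map_sum]
  rfl

/-- the least element of a decidable predicate on `Fin n` only depends on the predicate -/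
theorem find_congr {n : ℕ} {p q : Fin n → Prop} [DecidablePred p] [DecidablePred q]
    (hp : ∃ k, p k) (hq : ∃ k, q k) (h : ∀ i, p i ↔ q i) : Fin.find p hp = Fin.find q hq := by
  rw [Fin.find_eq_iff]
  exact ⟨(h _).mpr (Fin.find_spec hq), fun j hj hpj => Fin.find_min hq hj ((h j).mp hpj)⟩

/-! ### (G1) the total residue map -/

section Ev

variable [IsAlgClosed K] {x : F} (hx : IsFF K x) (g : SemilinearAut K F)

/-- **(G1)** `(g h)(g v) = τ (h(v))`, poles included -/
theorem ev_gal (v : Place K F) (h : F) :
    ev hx (g • v) (g • h) = baseAut g (ev hx v h) := by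
  by_cases hm : h ∈ v.toValuationSubring
  · have hm' : g • h ∈ (g • v).toValuationSubring :=
      (smul_mem_valuationSubring_iff g v h).mpr hm
    rw [ev_of_mem hx v hm, ev_of_mem hx (g • v) hm']
    exact evalAt_smul hx g v ⟨h, hm⟩
  · have hm' : g • h ∉ (g • v).toValuationSubring := fun h' =>
      hm ((smul_mem_valuationSubring_iff g v h).mp h')
    rw [ev_of_not_mem hx v hm, ev_of_not_mem hx (g • v) hm', map_zero]

/-- a `g`-fixed function at a `g`-fixed place has a `τ`-fixed value -/
theorem ev_fixed {v : Place K F} (hv : g • v = v) {h : F} (hh : g • h = h) :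
    baseAut g (ev hx v h) = ev hx v h := by
  have := ev_gal hx g v h
  rw [hv, hh] at this
  exact this.symm

end Ev

/-! ### (G2) lifts and tangent vectors -/

section Frame

variable {n : ℕ} {f : Fin (n + 1) → F} (g : SemilinearAut K F) (hfix : ∀ j, g • f j = f j)

include hfix

theorem ord_gal (v : Place K F) (j : Fin (n + 1)) : (g • v).ord (f j) = v.ord (f j) := by
  conv_lhs => rw [← hfix j]
  exact ord_smul g v (f j)

theorem smul_coord_div (j i : Fin (n + 1)) : g • (f j / f i) = f j / f i := by
  rw [smul_div', hfix, hfix]

/-- **(G2)** admissibility of an index is constant on orbits -/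
theorem admissible_gal (v : Place K F) (i : Fin (n + 1)) :
    Admissible f (g • v) i ↔ Admissible f v i := by
  unfold Admissible
  simp only [ord_gal g hfix]

theorem nuAt_gal (v : Place K F) : nuAt f (g • v) = nuAt f v := by
  unfold nuAt
  simp only [ord_gal g hfix]

variable [IsAlgClosed K] {x : F} (hx : IsFF K x)

theorem zvec_gal_apply (v : Place K F) (i j : Fin (n + 1)) :
    zvec hx (g • v) f i j = baseAut g (zvec hx v f i j) := by
  unfold zvec
  rw [← ev_gal hx g v, smul_coord_div g hfix]

theorem zvec_gal (v : Place K F) (i : Fin (n + 1)) :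
    zvec hx (g • v) f i = fun j => baseAut g (zvec hx v f i j) :=
  funext fun j => zvec_gal_apply g hfix hx v i j

/-- the function `f j / f i - z_j` is transported by `g` -/
theorem smul_sub_zvec (v : Place K F) (i j : Fin (n + 1)) :
    g • (f j / f i - algebraMap K F (zvec hx v f i j))
      = f j / f i - algebraMap K F (zvec hx (g • v) f i j) := by
  rw [smul_sub, smul_coord_div g hfix, SemilinearAut.smul_algebraMap, zvec_gal_apply g hfix hx]

theorem ord_sub_zvec_gal (v : Place K F) (i j : Fin (n + 1)) :
    (g • v).ord (f j / f i - algebraMap K F (zvec hx (g • v) f i j))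
      = v.ord (f j / f i - algebraMap K F (zvec hx v f i j)) := by
  rw [← smul_sub_zvec g hfix hx, ord_smul]

theorem dvec_gal_apply (v : Place K F) (i : Fin (n + 1)) (s : F) (j : Fin (n + 1)) :
    dvec hx (g • v) f i (g • s) j = baseAut g (dvec hx v f i s j) := by
  unfold dvec
  rw [← ev_gal hx g v, smul_div', smul_sub_zvec g hfix hx]

theorem dvec_gal (v : Place K F) (i : Fin (n + 1)) (s : F) :
    dvec hx (g • v) f i (g • s) = fun j => baseAut g (dvec hx v f i s j) :=
  funext fun j => dvec_gal_apply g hfix hx v i s j

theorem tauvec_gal_apply (v : Place K F) (i : Fin (n + 1)) (s : F)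
    (p : Fin (n + 1) × Fin (n + 1)) :
    tauvec hx (g • v) f i (g • s) p = baseAut g (tauvec hx v f i s p) := by
  unfold tauvec
  rw [wedge_apply, wedge_apply, zvec_gal_apply g hfix hx, zvec_gal_apply g hfix hx,
    dvec_gal_apply g hfix hx, dvec_gal_apply g hfix hx, map_sub, map_mul, map_mul]

theorem tauvec_gal (v : Place K F) (i : Fin (n + 1)) (s : F) :
    tauvec hx (g • v) f i (g • s) = fun p => baseAut g (tauvec hx v f i s p) :=
  funext fun p => tauvec_gal_apply g hfix hx v i s p

omit [IsAlgClosed K] in
/-- **(G3)** the action on linear forms is the action on coefficient vectors -/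
theorem formOf_gal (a : Fin (n + 1) → K) :
    g • formOf f a = formOf f fun j => baseAut g (a j) := by
  unfold formOf
  rw [smul_sum']
  refine Finset.sum_congr rfl fun j _ => ?_
  rw [smul_mul', SemilinearAut.smul_algebraMap, hfix]

omit [IsAlgClosed K] in
theorem multAt_gal (a : Fin (n + 1) → K) (v : Place K F) :
    multAt f (fun j => baseAut g (a j)) (g • v) = multAt f a v := by
  unfold multAt
  rw [← formOf_gal g hfix, ord_smul, nuAt_gal g hfix]

theorem lcAt_gal (a : Fin (n + 1) → K) (v : Place K F) (i : Fin (n + 1)) (s : F) :
    lcAt hx (g • v) f (fun j => baseAut g (a j)) i (g • s) = baseAut g (lcAt hx v f a i s) := by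
  unfold lcAt
  rw [multAt_gal g hfix, ← ev_gal hx g v, smul_div', smul_mul', formOf_gal g hfix, hfix,
    smul_zpow']

omit [IsAlgClosed K] in
/-- for a `τ`-rational coefficient vector the form is `g`-fixed -/
theorem formOf_fixed {a : Fin (n + 1) → K} (ha : ∀ j, baseAut g (a j) = a j) :
    g • formOf f a = formOf f a := by
  rw [formOf_gal g hfix]
  congr 1
  exact funext ha

omit [IsAlgClosed K] in
/-- for a rational form the multiplicities are constant on orbits -/
theorem multAt_fixed {a : Fin (n + 1) → K} (ha : ∀ j, baseAut g (a j) = a j) (v : Place K F) :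
    multAt f a (g • v) = multAt f a v := by
  have := multAt_gal g hfix a v
  rwa [show (fun j => baseAut g (a j)) = a from funext ha] at this

/-- for a rational form the leading coefficients are conjugated -/
theorem lcAt_fixed {a : Fin (n + 1) → K} (ha : ∀ j, baseAut g (a j) = a j) (v : Place K F)
    (i : Fin (n + 1)) (s : F) :
    lcAt hx (g • v) f a i (g • s) = baseAut g (lcAt hx v f a i s) := by
  have := lcAt_gal g hfix hx a v i s
  rwa [show (fun j => baseAut g (a j)) = a from funext ha] at this

omit [IsAlgClosed K] in
omit hfix in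
/-- linearly independent coordinates: a form determines its coefficient vector -/
theorem formOf_injective (hli : LinearIndependent K f) {a b : Fin (n + 1) → K}
    (h : formOf f a = formOf f b) : a = b := by
  have h1 : ∑ j, (a j - b j) • f j = 0 := by
    have h2 : ∀ j, (a j - b j) • f j = algebraMap K F (a j) * f j - algebraMap K F (b j) * f j :=
      fun j => by rw [Algebra.smul_def, map_sub, sub_mul]
    simp only [h2, Finset.sum_sub_distrib]
    exact sub_eq_zero.mpr h
  funext j
  exact sub_eq_zero.mp (Fintype.linearIndependent_iff.mp hli _ h1 j)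

omit [IsAlgClosed K] in
/-- **rational forms have rational coefficients**: a `g`-fixed form in linearly independent
`g`-fixed coordinates has `τ`-fixed coefficients -/
theorem coeff_fixed_of_formOf_fixed (hli : LinearIndependent K f) {a : Fin (n + 1) → K}
    (h : g • formOf f a = formOf f a) (j : Fin (n + 1)) : baseAut g (a j) = a j := by
  rw [formOf_gal g hfix] at h
  exact congrFun (formOf_injective hli h) j

omit [IsAlgClosed K] in
theorem formOf_fixed_iff (hli : LinearIndependent K f) {a : Fin (n + 1) → K} :
    g • formOf f a = formOf f a ↔ ∀ j, baseAut g (a j) = a j :=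
  ⟨fun h j => coeff_fixed_of_formOf_fixed g hfix hli h j, fun h => formOf_fixed g hfix h⟩

end Frame

/-! ### (G4) equivariant choices -/

section Choices

variable {n : ℕ}

open Classical in
/-- the least admissible index at `v` -/
def idx (f : Fin (n + 1) → F) (v : Place K F) : Fin (n + 1) :=
  Fin.find (fun i => Admissible f v i) (exists_admissible v f)

theorem idx_admissible (f : Fin (n + 1) → F) (v : Place K F) : Admissible f v (idx f v) := by
  classical
  exact Fin.find_spec (p := fun i => Admissible f v i) (exists_admissible v f)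

theorem idx_le (f : Fin (n + 1) → F) {v : Place K F} {i : Fin (n + 1)}
    (hi : Admissible f v i) : idx f v ≤ i := by
  classical
  by_contra h
  exact Fin.find_min (p := fun i => Admissible f v i) (exists_admissible v f) (not_le.mp h) hi

theorem idx_gal {f : Fin (n + 1) → F} (g : SemilinearAut K F) (hfix : ∀ j, g • f j = f j)
    (v : Place K F) : idx f (g • v) = idx f v := by
  classical
  exact find_congr _ _ fun i => admissible_gal g hfix v i

variable [IsAlgClosed K] {x : F}

/-- the coordinate `j` gives a local parameter at `v` (in the chart of the least admissible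
index) -/
def IsParamIdx (hx : IsFF K x) (f : Fin (n + 1) → F) (v : Place K F) (j : Fin (n + 1)) : Prop :=
  v.ord (f j / f (idx f v) - algebraMap K F (zvec hx v f (idx f v) j)) = 1

open Classical in
/-- the least coordinate index giving a local parameter at `v` -/
def pidx (hx : IsFF K x) (f : Fin (n + 1) → F) (v : Place K F)
    (h : ∃ j, IsParamIdx hx f v j) : Fin (n + 1) :=
  Fin.find (fun j => IsParamIdx hx f v j) h

/-- **the canonical local parameter** `f_j / f_i - (f_j / f_i)(v)`, `i = idx`, `j = pidx` -/
def param (hx : IsFF K x) (f : Fin (n + 1) → F) (v : Place K F)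
    (h : ∃ j, IsParamIdx hx f v j) : F :=
  f (pidx hx f v h) / f (idx f v) - algebraMap K F (zvec hx v f (idx f v) (pidx hx f v h))

variable (hx : IsFF K x) {f : Fin (n + 1) → F}

theorem isParamIdx_gal (g : SemilinearAut K F) (hfix : ∀ j, g • f j = f j) (v : Place K F)
    (j : Fin (n + 1)) : IsParamIdx hx f (g • v) j ↔ IsParamIdx hx f v j := by
  unfold IsParamIdx
  rw [idx_gal g hfix, ord_sub_zvec_gal g hfix hx]

theorem exists_isParamIdx_gal (g : SemilinearAut K F) (hfix : ∀ j, g • f j = f j) {v : Place K F}
    (h : ∃ j, IsParamIdx hx f v j) : ∃ j, IsParamIdx hx f (g • v) j := by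
  obtain ⟨j, hj⟩ := h
  exact ⟨j, (isParamIdx_gal hx g hfix v j).mpr hj⟩

theorem pidx_spec (v : Place K F) (h : ∃ j, IsParamIdx hx f v j) :
    IsParamIdx hx f v (pidx hx f v h) := by
  classical
  exact Fin.find_spec (p := fun j => IsParamIdx hx f v j) h

theorem pidx_le {v : Place K F} (h : ∃ j, IsParamIdx hx f v j) {j : Fin (n + 1)}
    (hj : IsParamIdx hx f v j) : pidx hx f v h ≤ j := by
  classical
  by_contra hlt
  exact Fin.find_min (p := fun j => IsParamIdx hx f v j) h (not_le.mp hlt) hj

theorem ord_param (v : Place K F) (h : ∃ j, IsParamIdx hx f v j) :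
    v.ord (param hx f v h) = 1 :=
  pidx_spec hx v h

theorem param_ne_zero (v : Place K F) (h : ∃ j, IsParamIdx hx f v j) : param hx f v h ≠ 0 :=
  ne_zero_of_ord_eq_one v (ord_param hx v h)

theorem pidx_gal (g : SemilinearAut K F) (hfix : ∀ j, g • f j = f j) (v : Place K F)
    (h : ∃ j, IsParamIdx hx f v j) (h' : ∃ j, IsParamIdx hx f (g • v) j) :
    pidx hx f (g • v) h' = pidx hx f v h := by
  classical
  exact find_congr _ _ fun j => isParamIdx_gal hx g hfix v j

/-- **(G4)** `s_{g v} = g • s_v` for the canonical local parameters -/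
theorem param_gal (g : SemilinearAut K F) (hfix : ∀ j, g • f j = f j) (v : Place K F)
    (h : ∃ j, IsParamIdx hx f v j) (h' : ∃ j, IsParamIdx hx f (g • v) j) :
    g • param hx f v h = param hx f (g • v) h' := by
  unfold param
  rw [smul_sub_zvec g hfix hx, pidx_gal hx g hfix v h h', idx_gal g hfix]

/-- at a `g`-fixed place the canonical local parameter is `g`-fixed -/
theorem param_fixed (g : SemilinearAut K F) (hfix : ∀ j, g • f j = f j) {v : Place K F}
    (hv : g • v = v) (h : ∃ j, IsParamIdx hx f v j) :
    g • param hx f v h = param hx f v h := by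
  have h' : ∃ j, IsParamIdx hx f (g • v) j := exists_isParamIdx_gal hx g hfix h
  rw [param_gal hx g hfix v h h']
  congr 1

/-- the tangent vector with respect to the canonical parameters is equivariant -/
theorem tauvec_param_gal (g : SemilinearAut K F) (hfix : ∀ j, g • f j = f j) (v : Place K F)
    (h : ∃ j, IsParamIdx hx f v j) (h' : ∃ j, IsParamIdx hx f (g • v) j)
    (p : Fin (n + 1) × Fin (n + 1)) :
    tauvec hx (g • v) f (idx f (g • v)) (param hx f (g • v) h') p
      = baseAut g (tauvec hx v f (idx f v) (param hx f v h) p) := by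
  rw [← param_gal hx g hfix v h h', idx_gal g hfix, tauvec_gal_apply g hfix hx]

/-- the lift in the canonical chart is equivariant -/
theorem zvec_idx_gal (g : SemilinearAut K F) (hfix : ∀ j, g • f j = f j) (v : Place K F)
    (j : Fin (n + 1)) :
    zvec hx (g • v) f (idx f (g • v)) j = baseAut g (zvec hx v f (idx f v) j) := by
  rw [idx_gal g hfix, zvec_gal_apply g hfix hx]

/-- the leading coefficient in the canonical chart, with the canonical parameter, of a rational
form is equivariant -/
theorem lcAt_param_gal (g : SemilinearAut K F) (hfix : ∀ j, g • f j = f j)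
    {a : Fin (n + 1) → K} (ha : ∀ j, baseAut g (a j) = a j) (v : Place K F)
    (h : ∃ j, IsParamIdx hx f v j) (h' : ∃ j, IsParamIdx hx f (g • v) j) :
    lcAt hx (g • v) f a (idx f (g • v)) (param hx f (g • v) h')
      = baseAut g (lcAt hx v f a (idx f v) (param hx f v h)) := by
  rw [← param_gal hx g hfix v h h', idx_gal g hfix, lcAt_fixed g hfix hx ha]

end Choices

/-! ### (G5) the canonical divisor `div(dx)` -/

section CanDiv

open Fermat.Agent.S37.Diff.OrdBounds Fermat.Agent.S18.A.Defs Fermat.Agent.S18.A.DiffLower
open scoped IntermediateField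

variable [IsAlgClosed K] [CharZero K] {x : F} (hx : IsFF K x)
  (hsep : Algebra.IsSeparable K⟮x⟯ F) (g : SemilinearAut K F) (hgx : g • x = x)

include hgx

theorem diffExp_gal (v : Place K F) : diffExp hx hsep (g • v) = diffExp hx hsep v := by
  have hordx : (g • v).ord x = v.ord x := by
    conv_lhs => rw [← hgx]
    exact ord_smul g v x
  have hvalx : (g • v).adicValuation x = v.adicValuation x := by
    conv_lhs => rw [← hgx]
    exact adicValuation_smul g v x
  apply Nat.cast_injective (R := ℤ)
  by_cases hpole : 1 < v.adicValuation x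
  · rw [diffExp_eq_of_charZero_pole hx hsep hpole,
      diffExp_eq_of_charZero_pole hx hsep (Q := g • v) (by rw [hvalx]; exact hpole), hordx]
  · have hmem : x ∈ v.toValuationSubring := (mem_iff v x).mpr (not_lt.mp hpole)
    have ha : v.adicValuation (x - algebraMap K F (ev hx v x)) < 1 :=
      (ev_eq_iff hx v hmem _).mp rfl
    have ha' : (g • v).adicValuation (x - algebraMap K F (baseAut g (ev hx v x))) < 1 := by
      have := adicValuation_smul g v (x - algebraMap K F (ev hx v x))
      rw [smul_sub, hgx, SemilinearAut.smul_algebraMap] at this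
      rw [this]
      exact ha
    rw [diffExp_eq_of_charZero_zero hx hsep _ ha, diffExp_eq_of_charZero_zero hx hsep _ ha']
    have := ord_smul g v (x - algebraMap K F (ev hx v x))
    rw [smul_sub, hgx, SemilinearAut.smul_algebraMap] at this
    rw [this]

theorem canDiv_apply_gal (v : Place K F) : canDiv hx hsep (g • v) = canDiv hx hsep v := by
  have hordx : (g • v).ord x = v.ord x := by
    conv_lhs => rw [← hgx]
    exact ord_smul g v x
  rw [canDiv_apply, canDiv_apply, diffExp_gal hx hsep g hgx, hordx]

/-- **(G5)** the canonical divisor `div(dx)` of a `g`-fixed separating `x` is `g`-stable -/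
theorem canDiv_gal : g • canDiv hx hsep = canDiv hx hsep := by
  ext w
  rw [divisor_smul_apply]
  have := canDiv_apply_gal hx hsep g hgx (g⁻¹ • w)
  rw [smul_inv_smul] at this
  exact this.symm

end CanDiv

/-! ### (G6) Hasse coefficients -/

section Hasse

open Fermat.Agent.S17.Model.Jet

variable [IsAlgClosed K] {x : F} (hx : IsFF K x)

/-- **(G6)** `(g h)^[k](g v) = τ (h^[k](v))`, Hasse coefficients with respect to `s` and `g • s` -/
theorem hasse_gal (g : SemilinearAut K F) (v : Place K F) {s : F} (hs : v.ord s = 1) (k : ℕ)
    (h : F) : hasse hx (g • v) (g • s) k (g • h) = baseAut g (hasse hx v s k h) := by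
  have hs' : (g • v).ord (g • s) = 1 := by rw [ord_smul]; exact hs
  exact hasse_map hx hx v (g • v) (toRingAut g : F →+* F) (baseAut g : K →+* K)
    (fun c => SemilinearAut.commutes g c)
    (fun z => (smul_mem_valuationSubring_iff g v z).symm) hs hs' k h

/-- Hasse coefficients of a `g`-fixed function -/
theorem hasse_gal_fixed (g : SemilinearAut K F) (v : Place K F) {s : F} (hs : v.ord s = 1) (k : ℕ)
    {h : F} (hh : g • h = h) :
    hasse hx (g • v) (g • s) k h = baseAut g (hasse hx v s k h) := by
  have := hasse_gal hx g v hs k h
  rwa [hh] at this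

variable {n : ℕ} {f : Fin (n + 1) → F}

/-- Hasse coefficients with respect to the canonical local parameters are equivariant -/
theorem hasse_param_gal (g : SemilinearAut K F) (hfix : ∀ j, g • f j = f j) (v : Place K F)
    (hp : ∃ j, IsParamIdx hx f v j) (hp' : ∃ j, IsParamIdx hx f (g • v) j) (k : ℕ) (h : F) :
    hasse hx (g • v) (param hx f (g • v) hp') k (g • h)
      = baseAut g (hasse hx v (param hx f v hp) k h) := by
  rw [← param_gal hx g hfix v hp hp']
  exact hasse_gal hx g v (ord_param hx v hp) k h

end Hasse

end Fermat.Agent.S17.Model.Rational
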