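import Mathlib
import Fermat.Agent.S17.Model.Embed

/-!
# PROJECT H (S17), seam S-3 (dictionary), part 5: the zero divisor `Z(a)` of a linear form

For a model `f` of `L(D0)` and `F_a ≠ 0`: `Z(a) := div(F_a) + D0` is an effective divisor of
degree `deg D0` with `Z(a) v = multAt f a v`; its support is the finite set of zeros of `a`.
-/

set_option autoImplicit false

namespace Fermat.Agent.S17.Model.Zeros

open AlgebraicCurve Fermat.Agent.S18.NonSpecial Fermat.Agent.S17.Model.Lift
  Fermat.Agent.S17.Model.Embed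

universe u w

variable {K : Type w} {F : Type u} [Field K] [Field F] [Algebra K F]
variable {n : ℕ} {f : Fin (n + 1) → F} {D0 : Divisor K F}

theorem degree_eq_sum_support (hdeg : ∀ v : Place K F, v.deg = 1) (Z : Divisor K F) :
    Divisor.degree Z = ∑ v ∈ Z.support, Z v := by
  unfold Divisor.degree
  rw [Finsupp.liftAddHom_apply, Finsupp.sum]
  refine Finset.sum_congr rfl fun v _ => ?_
  rw [AddMonoidHom.mulRight_apply, hdeg v]
  simp

/-- **the zero divisor of a linear form** -/
theorem exists_zeroDiv [HasPrincipalDivisors K F] (h : IsModel f D0) (a : Fin (n + 1) → K)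
    (ha : formOf f a ≠ 0) :
    ∃ Z : Divisor K F, (∀ v, Z v = multAt f a v) ∧ 0 ≤ Z ∧
      Divisor.degree Z = Divisor.degree D0 ∧
      ∃ D : Divisor K F, (∀ v, D v = v.ord (formOf f a)) ∧ Z = D + D0 := by
  obtain ⟨D, hD, hdeg⟩ := HasPrincipalDivisors.exists_divisor (K := K) (formOf f a) ha
  have hZ : ∀ v, (D + D0) v = multAt f a v := by
    intro v
    rw [Finsupp.add_apply, hD v, h.multAt_eq_ord_add]
  refine ⟨D + D0, hZ, ?_, ?_, D, hD, rfl⟩
  · rw [Finsupp.le_def]
    intro v
    rw [hZ v]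
    exact multAt_nonneg v h.ne_zero a ha
  · rw [map_add, hdeg, zero_add]

/-- **the finite set of zeros of a linear form, with multiplicities summing to `deg D0`** -/
theorem exists_zeros [HasPrincipalDivisors K F] (h : IsModel f D0) (a : Fin (n + 1) → K)
    (ha : formOf f a ≠ 0) :
    ∃ Z : Finset (Place K F), (∀ v, v ∈ Z ↔ 0 < multAt f a v) ∧
      ∑ v ∈ Z, multAt f a v = Divisor.degree D0 := by
  obtain ⟨Z, hZ, h0, hdeg, -⟩ := exists_zeroDiv h a ha
  refine ⟨Z.support, fun v => ?_, ?_⟩
  · rw [Finsupp.mem_support_iff, hZ v]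
    have := multAt_nonneg v h.ne_zero a ha
    constructor
    · intro hne
      exact lt_of_le_of_ne this (Ne.symm hne)
    · intro hpos
      exact hpos.ne'
  · rw [← hdeg, degree_eq_sum_support h.deg_one]
    exact Finset.sum_congr rfl fun v _ => (hZ v).symm

/-- the same with `ℕ`-valued multiplicities -/
theorem exists_zeros_nat [HasPrincipalDivisors K F] (h : IsModel f D0) (a : Fin (n + 1) → K)
    (ha : formOf f a ≠ 0) :
    ∃ Z : Finset (Place K F), (∀ v, v ∈ Z ↔ 0 < (multAt f a v).toNat) ∧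
      ((∑ v ∈ Z, (multAt f a v).toNat : ℕ) : ℤ) = Divisor.degree D0 := by
  obtain ⟨Z, hZ, hsum⟩ := exists_zeros h a ha
  refine ⟨Z, fun v => ?_, ?_⟩
  · rw [hZ v]
    omega
  · rw [← hsum]
    push_cast
    refine Finset.sum_congr rfl fun v _ => ?_
    exact Int.toNat_of_nonneg (multAt_nonneg v h.ne_zero a ha)

/-- a form of a model has at most `deg D0` zeros -/
theorem card_zeros_le [HasPrincipalDivisors K F] (h : IsModel f D0) (a : Fin (n + 1) → K)
    (ha : formOf f a ≠ 0) {Z : Finset (Place K F)} (hZ : ∀ v ∈ Z, 0 < multAt f a v) :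
    (Z.card : ℤ) ≤ Divisor.degree D0 := by
  classical
  obtain ⟨Z', hZ', hsum⟩ := exists_zeros h a ha
  have hsub : Z ⊆ Z' := fun v hv => (hZ' v).mpr (hZ v hv)
  calc (Z.card : ℤ) = ∑ _v ∈ Z, (1 : ℤ) := by simp
    _ ≤ ∑ v ∈ Z, multAt f a v := Finset.sum_le_sum fun v hv => by
        have := hZ v hv
        omega
    _ ≤ ∑ v ∈ Z', multAt f a v :=
        Finset.sum_le_sum_of_subset_of_nonneg hsub fun v _ _ =>
          multAt_nonneg v h.ne_zero a ha
    _ = Divisor.degree D0 := hsum

end Fermat.Agent.S17.Model.Zeros
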