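import Mathlib
import Fermat.Agent.S17.B.Frame
import Fermat.Agent.S17.Model.Zeros
import Fermat.Agent.S17.Ht.Positivity

/-!
# PROJECT H (S17), Part B, file P4: the GLOBAL frame (keystone between Part A and Part B)

For a rational frame `Φ : RatFrame N δ` of `X₀(N)` and a choice of an admissible index `ix P` and a
local parameter `sp P` at every place `P`, this file defines the data on which all of Part B is
stated (in the language of `Ht/Recip.lean`, `Ht/Global.lean`):

* `X N`       : the points = places of `ℚ̄(X₀(N))`, with the Galois action `actX`;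
* `xt P`      : the lift `z_P` (normalised at `ix P`);
* `tau P`     : the tangent vector `z_P ∧ z'_P` (parameter `sp P`);
* `w P R`     : `z_P ∧ z_R`;
* `Zdiv a`    : the zero divisor of the linear form `a`, as `X →₀ ℕ`, `∑ = δ`;
* `lcG a P`   : the leading coefficient of `a` at `P`;

and proves `GoodData`, the symmetry of `bGlob`, and **B.4** (`abs_Bil_Zdiv_sub_le`): from the
hand-over hypothesis (A*) (`|starDefect| ≤ gam`) for a rational form `a`, the reciprocity
`|B(D, Z(a)) - deg D · κ(a)| ≤ γ |D|₁` for every stable divisor `D`.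
The equivariance of the choices is isolated in the hypothesis `IsEquivChoice`.
-/

set_option autoImplicit false
set_option linter.unusedSectionVars false

noncomputable section

namespace Fermat.Agent.S17.Model.Global

open AlgebraicCurve AlgebraicCurve.SemilinearAut ModularCurve
open Fermat.Agent.S18.NonSpecial Fermat.Agent.S17.Model.Lift Fermat.Agent.S17.Model.Embed
open Fermat.Agent.S17.Dict.QStructure Fermat.Agent.S17.B.Frame Fermat.Agent.S17.Ht
open Fermat.Agent.S17.Abs.PairQuad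

local notation "Kb" => AlgebraicClosure ℚ

variable (N : ℕ) [NeZero N]

/-- the points of `X₀(N)` over `ℚ̄` -/
abbrev X : Type := Place Kb (modularFunctionFieldBar N)

/-- the Galois action on the points -/
@[reducible] def actX : MulAction GQ (X N) :=
  MulAction.compHom (X N) (arithmeticGalois (modularFunctionFieldFull N))

theorem actX_smul (σ : GQ) (P : X N) :
    (letI := actX N; σ • P) = gal N σ • P := rfl

/-- the function field frame of main -/
theorem hxN : Fermat.Agent.S24.FF.IsFF Kb (Fermat.Agent.S24.DegreeAlg.jgen N) :=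
  Fermat.Agent.S18.A.Instances.isFF_jgen N

variable {N} {δ : ℕ} (Φ : RatFrame N δ)
variable (ix : X N → Fin (Φ.n + 1)) (sp : X N → modularFunctionFieldBar N)

/-- the lift of a point -/
def xt (P : X N) : Fin (Φ.n + 1) → Qbar := zvec (hxN N) P Φ.f (ix P)

/-- the tangent vector of a point -/
def tau (P : X N) : Fin (Φ.n + 1) × Fin (Φ.n + 1) → Qbar :=
  tauvec (hxN N) P Φ.f (ix P) (sp P)

/-- the chord vector of two points -/
def w (P R : X N) : Fin (Φ.n + 1) × Fin (Φ.n + 1) → Qbar := wedge (xt Φ ix P) (xt Φ ix R)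

/-- the leading coefficient of the form `a` at `P` -/
def lcG (a : Fin (Φ.n + 1) → Qbar) (P : X N) : Qbar := lcAt (hxN N) P Φ.f a (ix P) (sp P)

theorem formOf_ne_zero {a : Fin (Φ.n + 1) → Qbar} (ha : a ≠ 0) : formOf Φ.f a ≠ 0 :=
  Fermat.Agent.S17.Model.EmbedRR.formOf_ne_zero Φ.linInd ha

/-- the set of zeros of a nonzero form is finite -/
theorem finite_zeros {a : Fin (Φ.n + 1) → Qbar} (ha : a ≠ 0) :
    (Function.support fun P : X N => (multAt Φ.f a P).toNat).Finite := by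
  have := Fermat.Agent.S18.A.Instances.hasPrincipalDivisors_bar N
  obtain ⟨Z, hZ, -⟩ := Fermat.Agent.S17.Model.Zeros.exists_zeros_nat Φ.model a (formOf_ne_zero Φ ha)
  refine Z.finite_toSet.subset fun P hP => ?_
  rw [Function.mem_support] at hP
  exact (hZ P).mpr (Nat.pos_of_ne_zero hP)

open Classical in
/-- the zero divisor of the linear form `a` (zero for `a = 0`) -/
def Zdiv (a : Fin (Φ.n + 1) → Qbar) : X N →₀ ℕ :=
  if ha : a ≠ 0 then Finsupp.ofSupportFinite (fun P => (multAt Φ.f a P).toNat) (finite_zeros Φ ha)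
  else 0

theorem Zdiv_apply {a : Fin (Φ.n + 1) → Qbar} (ha : a ≠ 0) (P : X N) :
    Zdiv Φ a P = (multAt Φ.f a P).toNat := by
  unfold Zdiv
  rw [dif_pos ha]
  rfl

theorem Zdiv_apply_cast {a : Fin (Φ.n + 1) → Qbar} (ha : a ≠ 0) (P : X N) :
    ((Zdiv Φ a P : ℕ) : ℤ) = multAt Φ.f a P := by
  rw [Zdiv_apply Φ ha]
  exact Int.toNat_of_nonneg (multAt_nonneg P Φ.model.ne_zero a (formOf_ne_zero Φ ha))

/-- `Z(a) P = ord_P (F_a) + δ [P = ∞]` -/
theorem Zdiv_apply_eq_ord {a : Fin (Φ.n + 1) → Qbar} (ha : a ≠ 0) (P : X N) :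
    ((Zdiv Φ a P : ℕ) : ℤ) = P.ord (formOf Φ.f a) + dOO N δ P := by
  rw [Zdiv_apply_cast Φ ha, Φ.model.multAt_eq_ord_add]

/-- the zero divisor of a linear form has degree `δ` -/
theorem sum_Zdiv {a : Fin (Φ.n + 1) → Qbar} (ha : a ≠ 0) :
    ∑ R ∈ (Zdiv Φ a).support, Zdiv Φ a R = 1 * δ := by
  classical
  have := Fermat.Agent.S18.A.Instances.hasPrincipalDivisors_bar N
  obtain ⟨Z, hZ, hsum⟩ :=
    Fermat.Agent.S17.Model.Zeros.exists_zeros_nat Φ.model a (formOf_ne_zero Φ ha)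
  have hsupp : (Zdiv Φ a).support = Z := by
    ext P
    rw [Finsupp.mem_support_iff, Zdiv_apply Φ ha, hZ P]
    exact Nat.pos_iff_ne_zero.symm
  have hdeg : Divisor.degree (dOO N δ) = (δ : ℤ) := by
    unfold dOO
    rw [Divisor.degree_single, Φ.model.deg_one]
    simp
  rw [hsupp, one_mul]
  have h1 : ((∑ R ∈ Z, Zdiv Φ a R : ℕ) : ℤ) = (δ : ℤ) := by
    rw [← hdeg, ← hsum]
    push_cast
    refine Finset.sum_congr rfl fun P _ => ?_
    rw [Zdiv_apply Φ ha]
  exact_mod_cast h1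

/-- the choice of lifts and parameters is admissible and Galois-equivariant -/
structure IsEquivChoice : Prop where
  adm : ∀ P, Admissible Φ.f P (ix P)
  ord_sp : ∀ P : X N, P.ord (sp P) = 1
  xt_gal : ∀ (σ : GQ) (P : X N) j, xt Φ ix (gal N σ • P) j = σ (xt Φ ix P j)
  tau_gal : ∀ (σ : GQ) (P : X N) p, tau Φ ix sp (gal N σ • P) p = σ (tau Φ ix sp P p)
  mult_gal : ∀ (σ : GQ) (a : Fin (Φ.n + 1) → Qbar) (P : X N), (∀ j, σ (a j) = a j) →
    multAt Φ.f a (gal N σ • P) = multAt Φ.f a P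
  lc_gal : ∀ (σ : GQ) (a : Fin (Φ.n + 1) → Qbar) (P : X N), (∀ j, σ (a j) = a j) →
    lcG Φ ix sp a (gal N σ • P) = σ (lcG Φ ix sp a P)

variable {Φ ix sp}

open scoped Classical

theorem xt_ne_zero (P : X N) : xt Φ ix P ≠ 0 :=
  zvec_ne_zero (hxN N) P Φ.model.ne_zero (ix P)

theorem goodData (hch : IsEquivChoice Φ ix sp) :
    GoodData (xt Φ ix) (w Φ ix) (tau Φ ix sp) :=
  ⟨fun P => xt_ne_zero P,
   fun P R hPR => Embed.wedge_zvec_ne_zero (hxN N) Φ.model hPR (hch.adm P) (hch.adm R),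
   fun P => Embed.tauvec_ne_zero (hxN N) Φ.model P (hch.adm P) (hch.ord_sp P)⟩

theorem nrm_w_symm (v : Pl) (P R : X N) : nrm v (w Φ ix P R) = nrm v (w Φ ix R P) := by
  have h : w Φ ix R P = (-1 : Qbar) • w Φ ix P R := by
    unfold w
    rw [wedge_swap, neg_one_smul]
  rw [h, nrm_smul, map_neg_eq_map, map_one, one_mul]

theorem bGlob_symm' (P R : X N) :
    bGlob (xt Φ ix) (w Φ ix) (tau Φ ix sp) δ P R = bGlob (xt Φ ix) (w Φ ix) (tau Φ ix sp) δ R P :=
  bGlob_symm _ _ _ _ (fun v P R => nrm_w_symm v P R) P R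

theorem lcG_ne_zero (hch : IsEquivChoice Φ ix sp) {a : Fin (Φ.n + 1) → Qbar} (ha : a ≠ 0)
    (P : X N) : lcG Φ ix sp a P ≠ 0 :=
  lcAt_ne_zero (hxN N) P Φ.model.ne_zero a (hch.adm P) (formOf_ne_zero Φ ha) (hch.ord_sp P)

/-- the lifts are equivariant -/
theorem equivarT_xt (hch : IsEquivChoice Φ ix sp) :
    (letI := actX N; EquivarT (xt Φ ix)) := by
  letI := actX N
  exact fun σ P j => hch.xt_gal σ P j

/-- the leading coefficients of a rational form are equivariant -/
theorem equivar_lcG (hch : IsEquivChoice Φ ix sp) {a : Fin (Φ.n + 1) → Qbar}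
    (hrat : ∀ (σ : GQ) j, σ (a j) = a j) :
    (letI := actX N; Equivar (lcG Φ ix sp a)) := by
  letI := actX N
  intro σ P
  exact hch.lc_gal σ a P (hrat σ)

/-- the zero divisor of a rational form is stable -/
theorem stable_zInt_Zdiv (hch : IsEquivChoice Φ ix sp) {a : Fin (Φ.n + 1) → Qbar} (ha : a ≠ 0)
    (hrat : ∀ (σ : GQ) j, σ (a j) = a j) :
    (letI := actX N; Stable (zInt (Zdiv Φ a))) := by
  letI := actX N
  intro σ P
  rw [zInt_apply, zInt_apply, Zdiv_apply_cast Φ ha, Zdiv_apply_cast Φ ha]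
  exact hch.mult_gal σ a P (hrat σ)

/-- **B.4 for `X₀(N)`**: the hand-over hypothesis (A*) for the rational form `a` gives the
reciprocity law `|B(D, Z(a)) - deg D · κ(a)| ≤ γ |D|₁` for every stable divisor `D`; this is
literally `hB4` of `PairQuad.hR_of_B4`. -/
theorem abs_Bil_Zdiv_sub_le (hch : IsEquivChoice Φ ix sp) (hδ : δ ≠ 0)
    {a : Fin (Φ.n + 1) → Qbar} (ha : a ≠ 0) (hrat : ∀ (σ : GQ) j, σ (a j) = a j)
    {gam : Pl → ℝ} (hgam : AZ gam)
    (hA : ∀ v P,
      |starDefect (xt Φ ix) (w Φ ix) (tau Φ ix sp) 1 a (Zdiv Φ a) (lcG Φ ix sp a) v P| ≤ gam v)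
    {D : X N →₀ ℤ} (hD : (letI := actX N; Stable D)) :
    |Bil (bGlob (xt Φ ix) (w Φ ix) (tau Φ ix sp) δ) D (zInt (Zdiv Φ a))
        - ((∑ P ∈ D.support, D P : ℤ) : ℝ) * kap (xt Φ ix) δ a (Zdiv Φ a)| ≤ tot gam * nrm1 D := by
  letI := actX N
  exact abs_Bil_zInt_sub_le (xt Φ ix) (w Φ ix) (tau Φ ix sp) δ (goodData hch) hδ ha (Zdiv Φ a)
    (sum_Zdiv Φ ha) (lcG_ne_zero hch ha) (equivar_lcG hch hrat) hgam hA hD

end Fermat.Agent.S17.Model.Global
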