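import Mathlib
import Fermat.Agent.S17.Model.Global
import Fermat.Agent.S17.Model.Rational

/-!
# PROJECT H (S17), Part B: the canonical Galois-equivariant choices for `Model/Global`

* abstract: in a model `IsModel f D0` (immersion, (E2) of `Model/Embed`) every place has a
  coordinate index giving a local parameter in the chart of the least admissible index
  (`exists_isParamIdx_of_isModel`), so the canonical local parameter `Rational.param` exists at
  every place;
* `X₀(N)`: for a rational frame `Φ : RatFrame N δ` the choices `ixC Φ P := idx Φ.f P` (least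
  admissible index) and `spC Φ P := param … P` (canonical local parameter) satisfy
  `Global.IsEquivChoice Φ (ixC Φ) (spC Φ)` (`isEquivChoice`).
-/

set_option autoImplicit false

noncomputable section

namespace Fermat.Agent.S17.Model.GlobalChoice

open AlgebraicCurve AlgebraicCurve.SemilinearAut ModularCurve
open Fermat.Agent.S24.FF Fermat.Agent.S24.Ord
open Fermat.Agent.S17.Model.Lift Fermat.Agent.S17.Model.Embed Fermat.Agent.S17.Model.Rational
open Fermat.Agent.S17.Dict.QStructure Fermat.Agent.S17.B.Frame Fermat.Agent.S17.Ht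
open Fermat.Agent.S17.Model.Global

/-! ### abstract part: existence of the canonical local parameter -/

section Abstract

universe u w

variable {K : Type w} {F : Type u} [Field K] [Field F] [Algebra K F] [IsAlgClosed K] {x : F}
variable {n : ℕ} {f : Fin (n + 1) → F}

/-- a nonzero derivative coordinate gives a local parameter -/
theorem ord_sub_zvec_eq_one_of_dvec_ne_zero (hx : IsFF K x) (hf : ∀ j, f j ≠ 0) (v : Place K F)
    {i : Fin (n + 1)} (hi : Admissible f v i) {s : F} (hs : v.ord s = 1) {j : Fin (n + 1)}
    (hj : dvec hx v f i s j ≠ 0) :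
    v.ord (f j / f i - algebraMap K F (zvec hx v f i j)) = 1 := by
  set u : F := f j / f i - algebraMap K F (zvec hx v f i j) with hu
  have hs0 : s ≠ 0 := Lift.ne_zero_of_ord_eq_one v hs
  have hmem : u / s ∈ v.toValuationSubring := dvec_mem hx v hf hi hs j
  have hev : ev hx v (u / s) ≠ 0 := hj
  have hus0 : u / s ≠ 0 := by
    intro h0
    rw [h0, ev_zero] at hev
    exact hev rfl
  have hu0 : u ≠ 0 := fun h0 => hus0 (by rw [h0, zero_div])
  have hnonneg : 0 ≤ v.ord (u / s) := (mem_iff_ord_nonneg v hus0).mp hmem
  have hnotpos : ¬ 0 < v.ord (u / s) := fun hpos => hev (ev_eq_zero_of_ord_pos hx v hpos)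
  have hzero : v.ord (u / s) = 0 := le_antisymm (not_lt.mp hnotpos) hnonneg
  rw [div_eq_mul_inv, v.ord_mul hu0 (inv_ne_zero hs0), v.ord_inv, hs] at hzero
  omega

/-- a nonzero derivative vector in the chart of the least admissible index gives a parameter index -/
theorem exists_isParamIdx_of_dvec_ne_zero (hx : IsFF K x) (hf : ∀ j, f j ≠ 0) (v : Place K F)
    {s : F} (hs : v.ord s = 1) (h : dvec hx v f (idx f v) s ≠ 0) :
    ∃ j, IsParamIdx hx f v j := by
  have : ∃ j, dvec hx v f (idx f v) s j ≠ 0 := by
    by_contra hne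
    exact h (funext fun j => not_not.mp fun hj => hne ⟨j, hj⟩)
  obtain ⟨j, hj⟩ := this
  exact ⟨j, ord_sub_zvec_eq_one_of_dvec_ne_zero hx hf v (idx_admissible f v) hs hj⟩

/-- **in a model every place has a canonical local parameter** ((E2): immersion) -/
theorem exists_isParamIdx_of_isModel (hx : IsFF K x) {D0 : Divisor K F} (h : IsModel f D0)
    (v : Place K F) : ∃ j, IsParamIdx hx f v j := by
  -- a local parameter: a linear form of multiplicity one, in the chart `idx`
  obtain ⟨a, ha, h1⟩ := h.exists_form_tangent v
  have hi := idx_admissible f v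
  have hs : v.ord (formOf f a / f (idx f v)) = 1 := by
    rw [← multAt_eq v h.ne_zero a hi ha]
    exact h1
  have htau := Embed.tauvec_ne_zero hx h v hi hs
  apply exists_isParamIdx_of_dvec_ne_zero hx h.ne_zero v hs
  intro h0
  apply htau
  unfold tauvec
  rw [h0]
  funext p
  simp [wedge]

end Abstract

/-! ### the canonical choices on `X₀(N)` -/

section X0

local notation "Kb" => AlgebraicClosure ℚ

variable {N : ℕ} [NeZero N] {δ : ℕ} (Φ : RatFrame N δ)

/-- the least admissible index at every point -/
def ixC : X N → Fin (Φ.n + 1) := fun P => idx Φ.f P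

theorem exists_isParamIdx (P : X N) : ∃ j, IsParamIdx (hxN N) Φ.f P j :=
  exists_isParamIdx_of_isModel (hxN N) Φ.model P

/-- the canonical local parameter at every point -/
def spC : X N → modularFunctionFieldBar N :=
  fun P => param (hxN N) Φ.f P (exists_isParamIdx Φ P)

omit [NeZero N] in
theorem baseAut_gal (σ : GQ) (c : Qbar) : baseAut (gal N σ) c = σ c := by
  unfold gal
  rw [baseAut_arithmeticGalois]
  rfl

theorem spC_gal (σ : GQ) (P : X N) : gal N σ • spC Φ P = spC Φ (gal N σ • P) :=
  param_gal (hxN N) (gal N σ) (Φ.fixed σ) P _ _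

/-- the canonical local parameter at a rational point is a rational function -/
theorem spC_fixed (σ : GQ) {P : X N} (hP : gal N σ • P = P) : gal N σ • spC Φ P = spC Φ P :=
  param_fixed (hxN N) (gal N σ) (Φ.fixed σ) hP _

/-- the canonical local parameter at `∞` is a rational function -/
theorem spC_oo_fixed (σ : GQ) : gal N σ • spC Φ (oo N) = spC Φ (oo N) :=
  spC_fixed Φ σ (smul_oo N σ)

theorem ixC_gal (σ : GQ) (P : X N) : ixC Φ (gal N σ • P) = ixC Φ P :=
  idx_gal (gal N σ) (Φ.fixed σ) P

/-- **the canonical choices are admissible and Galois equivariant** -/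
theorem isEquivChoice : IsEquivChoice Φ (ixC Φ) (spC Φ) where
  adm P := idx_admissible Φ.f P
  ord_sp P := ord_param (hxN N) P (exists_isParamIdx Φ P)
  xt_gal σ P j := by
    unfold xt ixC
    rw [zvec_idx_gal (hxN N) (gal N σ) (Φ.fixed σ) P j, baseAut_gal]
  tau_gal σ P p := by
    unfold tau ixC spC
    rw [tauvec_param_gal (hxN N) (gal N σ) (Φ.fixed σ) P (exists_isParamIdx Φ P)
      (exists_isParamIdx Φ (gal N σ • P)) p, baseAut_gal]
  mult_gal σ a P ha :=
    multAt_fixed (gal N σ) (Φ.fixed σ) (fun j => by rw [baseAut_gal]; exact ha j) P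
  lc_gal σ a P ha := by
    unfold lcG ixC spC
    rw [lcAt_param_gal (hxN N) (gal N σ) (Φ.fixed σ) (fun j => by rw [baseAut_gal]; exact ha j) P
      (exists_isParamIdx Φ P) (exists_isParamIdx Φ (gal N σ • P)), baseAut_gal]

/-- Hasse coefficients with respect to the canonical parameters are equivariant -/
theorem hasse_spC_gal (σ : GQ) (P : X N) (k : ℕ) (h : modularFunctionFieldBar N) :
    Fermat.Agent.S17.Model.Jet.hasse (hxN N) (gal N σ • P) (spC Φ (gal N σ • P)) k (gal N σ • h)
      = σ (Fermat.Agent.S17.Model.Jet.hasse (hxN N) P (spC Φ P) k h) := by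
  unfold spC
  rw [hasse_param_gal (hxN N) (gal N σ) (Φ.fixed σ) P (exists_isParamIdx Φ P)
    (exists_isParamIdx Φ (gal N σ • P)) k h, baseAut_gal]

end X0

end Fermat.Agent.S17.Model.GlobalChoice
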