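import Mathlib
import Fermat.Agent.S17.Model.GlobalChoice

/-!
# PROJECT H (S17), Part B: the canonical choices of `Model/GlobalChoice` on the affine part

For a rational frame `Φ : RatFrame N δ` (`Φ.f 0 = 1`, `Φ.f j ∈ L(δ∞)`) and the canonical index choice
`ixC Φ P = idx Φ.f P` (least admissible index):

* `ixC_eq_zero` (`haff`) : `P ≠ ∞ → ixC Φ P = 0` (the affine chart `x₀ = 1`);
* `ixC_eq_zero_iff`      : for `δ ≠ 0`, `ixC Φ P = 0 ↔ P ≠ ∞`;
* `xt_zero_of_ne_oo`     : `xt Φ (ixC Φ) P 0 = 1` for `P ≠ ∞`;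
* `xt_eq_ev_of_ne_oo`    : `xt Φ (ixC Φ) P j = (Φ.f j)(P)` for `P ≠ ∞`.
-/

set_option autoImplicit false

noncomputable section

namespace Fermat.Agent.S17.Model.GlobalAffine

open AlgebraicCurve AlgebraicCurve.SemilinearAut ModularCurve
open Fermat.Agent.S17.Model.Lift Fermat.Agent.S17.Model.Embed Fermat.Agent.S17.Model.Rational
open Fermat.Agent.S17.Dict.QStructure Fermat.Agent.S17.B.Frame Fermat.Agent.S17.Ht
open Fermat.Agent.S17.Model.Global Fermat.Agent.S17.Model.GlobalChoice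

variable {N : ℕ} [NeZero N] {δ : ℕ} (Φ : RatFrame N δ)

theorem dOO_apply_of_ne {P : X N} (hP : P ≠ oo N) : dOO N δ P = 0 := by
  classical
  unfold dOO
  exact Finsupp.single_eq_of_ne hP

theorem dOO_apply_oo : dOO N δ (oo N) = (δ : ℤ) := by
  classical
  unfold dOO
  exact Finsupp.single_eq_same

theorem ord_f_zero (P : X N) : P.ord (Φ.f 0) = 0 := by
  rw [Φ.f_zero]
  exact Place.ord_one P

/-- the coordinate functions are regular off `∞` -/
theorem ord_f_nonneg {P : X N} (hP : P ≠ oo N) (j : Fin (Φ.n + 1)) : 0 ≤ P.ord (Φ.f j) := by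
  have h := ((mem_riemannRochSpace_iff.mp (Φ.model.mem j)) P).resolve_left (Φ.model.ne_zero j)
  rwa [dOO_apply_of_ne hP, neg_zero] at h

/-- the index `0` (`x₀ = 1`) is admissible at every affine point -/
theorem admissible_zero {P : X N} (hP : P ≠ oo N) : Admissible Φ.f P 0 := by
  intro j
  rw [ord_f_zero]
  exact ord_f_nonneg Φ hP j

/-- **(haff)** the canonical chart at an affine point is the chart `x₀ = 1` -/
theorem ixC_eq_zero {P : X N} (hP : P ≠ oo N) : ixC Φ P = 0 :=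
  Fin.le_zero_iff.mp (idx_le Φ.f (admissible_zero Φ hP))

/-- the index `0` is not admissible at `∞` (the frame has a pole of order `δ ≥ 1` there) -/
theorem not_admissible_zero_oo (hδ : δ ≠ 0) : ¬ Admissible Φ.f (oo N) 0 := by
  intro h
  have h1 := (admissible_iff (oo N) Φ.f 0).mp h
  rw [ord_f_zero, Φ.model.nuAt_eq, dOO_apply_oo] at h1
  have : (δ : ℤ) = 0 := by omega
  exact hδ (by exact_mod_cast this)

theorem ixC_oo_ne_zero (hδ : δ ≠ 0) : ixC Φ (oo N) ≠ 0 := by
  intro h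
  apply not_admissible_zero_oo Φ hδ
  have := idx_admissible Φ.f (oo N)
  unfold ixC at h
  rwa [h] at this

theorem ixC_eq_zero_iff (hδ : δ ≠ 0) (P : X N) : ixC Φ P = 0 ↔ P ≠ oo N := by
  constructor
  · rintro h rfl
    exact ixC_oo_ne_zero Φ hδ h
  · exact ixC_eq_zero Φ

theorem ixC_val_eq_zero_iff (hδ : δ ≠ 0) (P : X N) : (ixC Φ P : ℕ) = 0 ↔ P ≠ oo N := by
  rw [← ixC_eq_zero_iff Φ hδ P, Fin.ext_iff]
  rfl

/-- in the affine chart the coordinate `x₀` of the lift is `1` -/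
theorem xt_zero_of_ne_oo {P : X N} (hP : P ≠ oo N) : xt Φ (ixC Φ) P 0 = 1 := by
  unfold xt
  rw [ixC_eq_zero Φ hP]
  exact zvec_self (hxN N) P Φ.model.ne_zero 0

/-- in the affine chart the lift is the vector of values of the coordinate functions -/
theorem xt_eq_ev_of_ne_oo {P : X N} (hP : P ≠ oo N) (j : Fin (Φ.n + 1)) :
    xt Φ (ixC Φ) P j = ev (hxN N) P (Φ.f j) := by
  unfold xt zvec
  rw [ixC_eq_zero Φ hP, Φ.f_zero, div_one]

/-- the normalising coordinate of the lift is always `1` -/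
theorem xt_ixC (P : X N) : xt Φ (ixC Φ) P (ixC Φ P) = 1 := by
  unfold xt
  exact zvec_self (hxN N) P Φ.model.ne_zero _

end Fermat.Agent.S17.Model.GlobalAffine
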