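import Fermat.Agent.S17.Model.Lift
import Fermat.Agent.S17.Local.PencilsExt

/-!
# PROJECT H (S17), seam A.1 on the curve: rational base-point-free pencils in general position

Frame of `Model/Lift`: `K` algebraically closed, `F/K` a function field (`hx : IsFF K x`),
`f : Fin (n+1) → F` nonzero, `K`-linearly independent coordinate functions.  `k ⊆ K` an infinite
subfield (`k = ℚ`, `K = ℚ̄`).

* `zeroSet f a` : the places `v` with `multAt f a v > 0` (the support of `Z(a)`); it is finite
  (`finite_zeroSet`) when principal divisors exist.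
* `exists_pencils_curve` : for every `M` there are `M` pairs `(y₀, y₁)` of vectors of `k^(n+1)`
  such that **(bpf)** at every place `v` and admissible index `i` one of `y₀ · z_v`, `y₁ · z_v`
  is nonzero, and **(gp)** any `#PlIdx n` of the Plücker vectors `y₀ ∧ y₁` are linearly
  independent.  Also `y₀ ≠ 0`, `y₁ ≠ 0`.
* `bpf_multAt` : the (bpf) conclusion in terms of multiplicities:
  `multAt f y₀ v = 0 ∨ multAt f y₁ v = 0`.
-/

set_option autoImplicit false

namespace Fermat.Agent.S17.Model.PencilsX

open AlgebraicCurve Fermat.Agent.S24.FF Fermat.Agent.S24.Ord Fermat.Agent.S18.C.PlaceEval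
  Fermat.Agent.S17.Model.Lift Fermat.Agent.S17.Local.GeneralPosition
  Fermat.Agent.S17.Local.PencilsExt

universe u w

variable {K : Type w} {F : Type u} [Field K] [Field F] [Algebra K F]

/-- a nonzero function has only finitely many zeros and poles -/
theorem finite_ord_ne_zero [HasPrincipalDivisors K F] {g : F} (hg : g ≠ 0) :
    {v : Place K F | v.ord g ≠ 0}.Finite := by
  obtain ⟨D, hD, _⟩ := HasPrincipalDivisors.exists_divisor (K := K) g hg
  refine D.support.finite_toSet.subset fun v hv => ?_
  simp only [Set.mem_ofPred_eq] at hv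
  rw [Finset.mem_coe, Finsupp.mem_support_iff, hD v]
  exact hv

variable {n : ℕ} (f : Fin (n + 1) → F)

/-- the support of the zero divisor `Z(a)` of the form `F_a` -/
def zeroSet (a : Fin (n + 1) → K) : Set (Place K F) := {v | 0 < multAt f a v}

variable {f}

theorem formOf_ne_zero (hlin : LinearIndependent K f) {a : Fin (n + 1) → K} (ha : a ≠ 0) :
    formOf f a ≠ 0 := by
  intro h0
  apply ha
  have h1 : ∑ j, a j • f j = 0 := by
    simpa [formOf, Algebra.smul_def] using h0
  funext j
  exact (Fintype.linearIndependent_iff.mp hlin) a h1 j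

theorem finite_zeroSet [HasPrincipalDivisors K F] (hf : ∀ j, f j ≠ 0) {a : Fin (n + 1) → K}
    (ha : formOf f a ≠ 0) : (zeroSet f a).Finite := by
  have hfin : ({v : Place K F | v.ord (formOf f a) ≠ 0} ∪
      ⋃ j, {v : Place K F | v.ord (f j) ≠ 0}).Finite :=
    (finite_ord_ne_zero ha).union (Set.finite_iUnion fun j => finite_ord_ne_zero (hf j))
  refine hfin.subset fun v hv => ?_
  by_contra hcon
  simp only [Set.mem_union, Set.mem_ofPred_eq, Set.mem_iUnion, not_or, not_exists, not_not]
    at hcon
  obtain ⟨h1, h2⟩ := hcon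
  have hnu : nuAt f v = 0 := by
    obtain ⟨i, hi⟩ := exists_admissible v f
    rw [← (admissible_iff v f i).mp hi, h2 i]
  have : multAt f a v = 0 := by
    unfold multAt
    rw [h1, hnu, sub_zero]
  have hpos : 0 < multAt f a v := hv
  omega

variable [IsAlgClosed K] {x : F} (hx : IsFF K x)

/-- **Rational base-point-free pencils in general position on the curve** (A.1).
`k` an infinite field with `K` a `k`-algebra (`k = ℚ`, `K = ℚ̄`). -/
theorem exists_pencils_curve [HasPrincipalDivisors K F] (k : Type*) [Field k] [Infinite k]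
    [Algebra k K] (hf : ∀ j, f j ≠ 0) (hlin : LinearIndependent K f) (M : ℕ) :
    ∃ y : Fin M → (Fin 2 × Fin (n + 1) → k),
      (∀ m, (fun j => y m (0, j)) ≠ 0 ∧ (fun j => y m (1, j)) ≠ 0) ∧
      (∀ m (v : Place K F) (i : Fin (n + 1)), Admissible f v i →
        (∑ j, algebraMap k K (y m (0, j)) * zvec hx v f i j ≠ 0 ∨
          ∑ j, algebraMap k K (y m (1, j)) * zvec hx v f i j ≠ 0)) ∧
      ∀ s : PlIdx n → Fin M, Function.Injective s →
        (Matrix.of fun (a b : PlIdx n) =>
          y (s a) (0, b.1.1) * y (s a) (1, b.1.2) - y (s a) (0, b.1.2) * y (s a) (1, b.1.1)).det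
          ≠ 0 := by
  classical
  -- the chosen admissible index and lift at each place
  let idx : Place K F → Fin (n + 1) := fun v => (exists_admissible v f).choose
  have hidx : ∀ v, Admissible f v (idx v) := fun v => (exists_admissible v f).choose_spec
  let lift : Place K F → (Fin (n + 1) → K) := fun v => zvec hx v f (idx v)
  have hlift : ∀ v, lift v ≠ 0 := fun v => zvec_ne_zero hx v hf (idx v)
  -- the `K`-coefficient vector of a `k`-vector
  let up : (Fin (n + 1) → k) → (Fin (n + 1) → K) := fun y j => algebraMap k K (y j)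
  have hup : ∀ y : Fin (n + 1) → k, y ≠ 0 → up y ≠ 0 := by
    intro y hy h0
    apply hy
    funext j
    have := congrFun h0 j
    simp only [up, Pi.zero_apply] at this
    exact (map_eq_zero (algebraMap k K)).mp this
  -- the finite set attached to `y0`
  let e0 : Fin (n + 1) → K := Pi.single 0 1
  have he0 : e0 ≠ 0 := by
    intro h
    have := congrFun h 0
    simp [e0] at this
  let B : (Fin (n + 1) → k) → Finset (Fin (n + 1) → K) := fun y0 =>
    if h : y0 = 0 then ∅
    else insert e0 ((finite_zeroSet hf (formOf_ne_zero hlin (hup y0 h))).toFinset.image lift)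
  have hB : ∀ y0 : Fin (n + 1) → k, y0 ≠ 0 → ∀ b ∈ B y0, b ≠ 0 := by
    intro y0 hy0 b hb
    simp only [B, dif_neg hy0, Finset.mem_insert, Finset.mem_image] at hb
    rcases hb with rfl | ⟨v, _, rfl⟩
    · exact he0
    · exact hlift v
  obtain ⟨y, hy, hgp⟩ := exists_pencils_ext k n B hB M
  refine ⟨y, fun m => ⟨(hy m).1, ?_⟩, ?_, hgp⟩
  · -- `y1 ≠ 0` because it does not vanish at `e0`
    intro h1
    have hmem : e0 ∈ B (fun j => y m (0, j)) := by
      simp only [B, dif_neg (hy m).1, Finset.mem_insert, true_or]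
    apply (hy m).2 e0 hmem
    refine Finset.sum_eq_zero fun j _ => ?_
    have := congrFun h1 j
    simp only [Pi.zero_apply] at this
    rw [this, map_zero, zero_mul]
  · intro m v i hi
    by_contra hcon
    rw [not_or, not_not, not_not] at hcon
    obtain ⟨h0, h1⟩ := hcon
    set y0 : Fin (n + 1) → k := fun j => y m (0, j) with hy0
    have hy0ne : y0 ≠ 0 := (hy m).1
    have hform : formOf f (up y0) ≠ 0 := formOf_ne_zero hlin (hup y0 hy0ne)
    -- `v` is a zero of `y0`
    have hmult : 0 < multAt f (up y0) v := by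
      have hnot : ¬ (∑ j, up y0 j * zvec hx v f i j ≠ 0) := by
        rw [not_not]; exact h0
      rw [sum_mul_zvec_ne_zero_iff hx v hf (up y0) hi hform] at hnot
      exact lt_of_le_of_ne (multAt_nonneg v hf (up y0) hform) (Ne.symm hnot)
    have hmem : lift v ∈ B y0 := by
      simp only [B, dif_neg hy0ne, Finset.mem_insert, Finset.mem_image, Set.Finite.mem_toFinset]
      exact Or.inr ⟨v, hmult, rfl⟩
    have hne := (hy m).2 (lift v) hmem
    -- change of admissible index
    obtain ⟨hch, _⟩ := zvec_change hx v hf (hidx v) hi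
    apply hne
    have hunit : ev hx v (f (idx v) / f i) ≠ 0 := (zvec_change hx v hf (hidx v) hi).2
    have hscale : ∀ j, zvec hx v f i j = ev hx v (f (idx v) / f i) * lift v j := by
      intro j
      have := congrFun hch j
      simpa [lift, Pi.smul_apply, smul_eq_mul] using this
    have h1' : ev hx v (f (idx v) / f i) * ∑ j, algebraMap k K (y m (1, j)) * lift v j = 0 := by
      rw [Finset.mul_sum, ← h1]
      refine Finset.sum_congr rfl fun j _ => ?_
      rw [hscale j]
      ring
    exact (mul_eq_zero.mp h1').resolve_left hunit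

/-- the (bpf) conclusion of `exists_pencils_curve` in terms of multiplicities -/
theorem bpf_multAt (hf : ∀ j, f j ≠ 0) {a0 a1 : Fin (n + 1) → K}
    (h0 : formOf f a0 ≠ 0) (h1 : formOf f a1 ≠ 0)
    (hbpf : ∀ (v : Place K F) (i : Fin (n + 1)), Admissible f v i →
      (∑ j, a0 j * zvec hx v f i j ≠ 0 ∨ ∑ j, a1 j * zvec hx v f i j ≠ 0))
    (v : Place K F) : multAt f a0 v = 0 ∨ multAt f a1 v = 0 := by
  obtain ⟨i, hi⟩ := exists_admissible v f
  rcases hbpf v i hi with h | h
  · exact Or.inl ((sum_mul_zvec_ne_zero_iff hx v hf a0 hi h0).mp h)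
  · exact Or.inr ((sum_mul_zvec_ne_zero_iff hx v hf a1 hi h1).mp h)

end Fermat.Agent.S17.Model.PencilsX
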