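import Mathlib
import Fermat.Agent.S17.Model.LiftPencil
import Fermat.Agent.S17.Model.Zeros
import Fermat.Agent.S17.Model.EmbedRR
import Fermat.Agent.S17.Model.PencilsX
import Fermat.Agent.S17.Norm.CharForm
import Fermat.Agent.S17.Norm.CharFormHom

/-!
# PROJECT H (S17), Part A: a base-point-free pencil of the model is a pencil of `Norm/CharForm`

`f : Fin (n+1) → F` the coordinate functions (nonzero, linearly independent), `y0, y1` two linear
forms without common zero on the curve (bpf), not proportional.  `Y_k := formOf f y_k`,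
`tt := Y1 / Y0`, `beta j := f j / Y0`.  Then `CharForm.IsPencil tt beta y0 y1`, the multiplicity
`CharForm.mult` is `Lift.multAt`, the poles of `tt` are the zeros of `y0`, and
`[F : K(tt)] = deg D0` for a model of `L(D0)`.
-/

set_option autoImplicit false

namespace Fermat.Agent.S17.Model.PencilInst

open AlgebraicCurve IntermediateField Fermat.Agent.S24.FF Fermat.Agent.S24.Ord
  Fermat.Agent.S18.NonSpecial
  Fermat.Agent.S17.Model.Lift Fermat.Agent.S17.Model.Embed Fermat.Agent.S17.Model.Zeros
  Fermat.Agent.S17.Model.EmbedRR Fermat.Agent.S17.Norm.CharForm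
  Fermat.Agent.S17.Norm.CharFormHom

universe u w

variable {K : Type w} {F : Type u} [Field K] [Field F] [Algebra K F]
variable {n : ℕ}

/-- the affine coordinate functions `f j / Y0` of the chart `Y0 ≠ 0` -/
noncomputable def beta (f : Fin (n + 1) → F) (y0 : Fin (n + 1) → K) : Fin (n + 1) → F :=
  fun j => f j / formOf f y0

/-- the parameter `Y1 / Y0` of the pencil -/
noncomputable def tt (f : Fin (n + 1) → F) (y0 y1 : Fin (n + 1) → K) : F :=
  formOf f y1 / formOf f y0

theorem fam_beta (f : Fin (n + 1) → F) (y0 a : Fin (n + 1) → K) :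
    fam (beta f y0) a = formOf f a / formOf f y0 := by
  unfold fam beta formOf
  rw [Finset.sum_div]
  refine Finset.sum_congr rfl fun j _ => ?_
  rw [Algebra.smul_def, mul_div_assoc]

theorem fam_beta_one {f : Fin (n + 1) → F} {y0 : Fin (n + 1) → K} (h0 : formOf f y0 ≠ 0) :
    fam (beta f y0) y0 = 1 := by
  rw [fam_beta, div_self h0]

theorem fam_beta_gen (f : Fin (n + 1) → F) (y0 y1 : Fin (n + 1) → K) :
    fam (beta f y0) y1 = tt f y0 y1 := by
  rw [fam_beta, tt]

theorem formOf_sub_smul (f : Fin (n + 1) → F) (c : K) (y0 y1 : Fin (n + 1) → K) :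
    formOf f (y1 - c • y0) = formOf f y1 - algebraMap K F c * formOf f y0 := by
  rw [sub_eq_add_neg, formOf_add, ← neg_smul, formOf_smul, Algebra.smul_def, map_neg]
  ring

variable [IsAlgClosed K] {x : F}

/-- the parameter of a pencil of non-proportional forms is a separating variable candidate -/
theorem isFF_tt (hx : IsFF K x) {f : Fin (n + 1) → F} (hli : LinearIndependent K f)
    {y0 y1 : Fin (n + 1) → K} (hy0 : y0 ≠ 0) (hind : ∀ c : K, y1 ≠ c • y0) :
    IsFF K (tt f y0 y1) := by
  refine hx.of_not_mem_range fun c hc => ?_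
  have h0 : formOf f y0 ≠ 0 := formOf_ne_zero hli hy0
  apply hind c
  have h1 : formOf f (y1 - c • y0) = 0 := by
    rw [formOf_sub_smul, hc, tt, div_mul_cancel₀ _ h0, sub_self]
  have := formOf_injective hli h1
  exact sub_eq_zero.mp this

section Bpf

variable (hx : IsFF K x) {f : Fin (n + 1) → F} (hf : ∀ j, f j ≠ 0)
  {y0 y1 : Fin (n + 1) → K} (h0 : formOf f y0 ≠ 0) (h1 : formOf f y1 ≠ 0)
  (hbpf : ∀ (v : Place K F) (i : Fin (n + 1)), Admissible f v i →
    dot y0 (zvec hx v f i) ≠ 0 ∨ dot y1 (zvec hx v f i) ≠ 0)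

include hf h0 h1 hbpf

/-- (bpf) in terms of multiplicities -/
theorem multAt_eq_zero_or (v : Place K F) : multAt f y0 v = 0 ∨ multAt f y1 v = 0 :=
  PencilsX.bpf_multAt hx hf h0 h1 (fun v i hi => hbpf v i hi) v

omit hx hf h0 h1 hbpf [IsAlgClosed K] in
theorem nuAt_le_ord (v : Place K F) (j : Fin (n + 1)) : nuAt f v ≤ v.ord (f j) := by
  obtain ⟨i, hi⟩ := exists_admissible v f
  rw [← (admissible_iff v f i).mp hi]
  exact hi j

/-- the orders of `Y0`, `Y1` at a place: both `≥ ν`, one of them `= ν` -/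
theorem ord_forms (v : Place K F) :
    nuAt f v ≤ v.ord (formOf f y0) ∧ nuAt f v ≤ v.ord (formOf f y1) ∧
      (v.ord (formOf f y0) = nuAt f v ∨ v.ord (formOf f y1) = nuAt f v) := by
  have a0 := multAt_nonneg v hf y0 h0
  have a1 := multAt_nonneg v hf y1 h1
  have a2 := multAt_eq_zero_or hx hf h0 h1 hbpf v
  unfold multAt at a0 a1 a2
  refine ⟨by omega, by omega, ?_⟩
  rcases a2 with a2 | a2
  · left; omega
  · right; omega

omit hx hf hbpf [IsAlgClosed K] in
theorem ord_tt (v : Place K F) :
    v.ord (tt f y0 y1) = v.ord (formOf f y1) - v.ord (formOf f y0) := by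
  rw [tt, div_eq_mul_inv, v.ord_mul h1 (inv_ne_zero h0), v.ord_inv]
  ring

omit hx h1 hbpf [IsAlgClosed K] in
theorem ord_beta (v : Place K F) (j : Fin (n + 1)) :
    v.ord (beta f y0 j) = v.ord (f j) - v.ord (formOf f y0) := by
  rw [beta, div_eq_mul_inv, v.ord_mul (hf j) (inv_ne_zero h0), v.ord_inv]
  ring

/-- the pole bound of the affine coordinates -/
theorem bound (v : Place K F) (j : Fin (n + 1)) :
    v.adicValuation (beta f y0 j) ≤ max 1 (v.adicValuation (tt f y0 y1)) := by
  obtain ⟨b0, b1, b2⟩ := ord_forms hx hf h0 h1 hbpf v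
  have hj := nuAt_le_ord (f := f) v j
  have hβ : beta f y0 j ≠ 0 := div_ne_zero (hf j) h0
  have ht : tt f y0 y1 ≠ 0 := div_ne_zero h1 h0
  rcases b2 with b2 | b2
  · refine le_trans ?_ (le_max_left _ _)
    rw [← ord_nonneg_iff v hβ, ord_beta hf h0]
    omega
  · refine le_trans ?_ (le_max_right _ _)
    have hq : beta f y0 j * (tt f y0 y1)⁻¹ ≠ 0 := mul_ne_zero hβ (inv_ne_zero ht)
    have h2 : 0 ≤ v.ord (beta f y0 j * (tt f y0 y1)⁻¹) := by
      rw [v.ord_mul hβ (inv_ne_zero ht), v.ord_inv, ord_beta hf h0,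
        ord_tt h0 h1]
      omega
    have h3 := (ord_nonneg_iff v hq).mp h2
    rw [map_mul, map_inv₀] at h3
    have hpos : 0 < v.adicValuation (tt f y0 y1) := zero_lt_iff.mpr (v.adicValuation_ne_zero ht)
    calc v.adicValuation (beta f y0 j)
        = v.adicValuation (beta f y0 j) * (v.adicValuation (tt f y0 y1))⁻¹ *
            v.adicValuation (tt f y0 y1) := by
          rw [mul_assoc, inv_mul_cancel₀ hpos.ne', mul_one]
      _ ≤ 1 * v.adicValuation (tt f y0 y1) := mul_le_mul' h3 le_rfl
      _ = v.adicValuation (tt f y0 y1) := one_mul _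

/-- **the instance**: a bpf pencil of the model is a pencil in the sense of `Norm/CharForm` -/
theorem isPencil [CharZero K] [HasPrincipalDivisors K F] (ht : IsFF K (tt f y0 y1)) :
    IsPencil (tt f y0 y1) (beta f y0) y0 y1 where
  isFF := ht
  bound := bound hx hf h0 h1 hbpf
  one := fam_beta_one h0
  gen := fam_beta_gen f y0 y1

/-- **dictionary of multiplicities** -/
theorem mult_eq_multAt [CharZero K] (a : Fin (n + 1) → K) (ha : formOf f a ≠ 0) (v : Place K F) :
    mult (tt f y0 y1) (beta f y0) a v = multAt f a v := by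
  obtain ⟨b0, b1, b2⟩ := ord_forms hx hf h0 h1 hbpf v
  unfold mult multAt
  rw [fam_beta, ord_tt h0 h1, div_eq_mul_inv, v.ord_mul ha (inv_ne_zero h0), v.ord_inv]
  rcases b2 with b2 | b2
  · rw [min_eq_left (by omega)]
    omega
  · rw [min_eq_right (by omega)]
    omega

/-- the poles of `tt` are the zeros of `y0` -/
theorem mem_poles_iff [CharZero K] (ht : IsFF K (tt f y0 y1)) (v : Place K F) :
    v ∈ Fermat.Agent.S24.Hurwitz.poles ht ↔ 0 < multAt f y0 v := by
  obtain ⟨b0, b1, b2⟩ := ord_forms hx hf h0 h1 hbpf v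
  have htne : tt f y0 y1 ≠ 0 := div_ne_zero h1 h0
  rw [Fermat.Agent.S24.Hurwitz.mem_poles, ← ord_neg_iff v htne, ord_tt h0 h1]
  have a2 := multAt_eq_zero_or hx hf h0 h1 hbpf v
  unfold multAt at a2 ⊢
  constructor
  · intro h; omega
  · intro h
    rcases a2 with a2 | a2
    · omega
    · omega

/-- **the degree of the pencil**: `[F : K(tt)] = deg D0` -/
theorem finrank_eq [CharZero K] [HasPrincipalDivisors K F] {D0 : Divisor K F} (h : IsModel f D0)
    (ht : IsFF K (tt f y0 y1)) :
    (Module.finrank K⟮tt f y0 y1⟯ F : ℤ) = Divisor.degree D0 := by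
  classical
  obtain ⟨Z, hZ, hsum⟩ := exists_zeros h y0 h0
  have hZp : Z = Fermat.Agent.S24.Hurwitz.poles ht := by
    ext v
    rw [hZ v, mem_poles_iff hx hf h0 h1 hbpf ht]
  rw [← Fermat.Agent.S24.Hurwitz.sum_poles ht, ← hsum, hZp]
  refine Finset.sum_congr rfl fun v hv => ?_
  have hpos := (mem_poles_iff hx hf h0 h1 hbpf ht v).mp hv
  obtain ⟨b0, b1, b2⟩ := ord_forms hx hf h0 h1 hbpf v
  have a2 := multAt_eq_zero_or hx hf h0 h1 hbpf v
  rw [ord_tt h0 h1]
  unfold multAt at a2 hpos ⊢
  rcases a2 with a2 | a2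
  · omega
  · omega

/-! ### the homogeneous packaging `IsPencilX` of `Norm/CharFormHom` -/

omit hx hf h0 h1 hbpf [IsAlgClosed K] in
theorem adicValuation_le_of_ord_le (v : Place K F) {g g' : F} (hg : g ≠ 0) (hg' : g' ≠ 0)
    (h : v.ord g' ≤ v.ord g) : v.adicValuation g ≤ v.adicValuation g' := by
  rw [adicValuation_eq v hg, adicValuation_eq v hg', WithZero.exp_le_exp]
  omega

/-- the homogeneous pole bound -/
theorem boundX (v : Place K F) (j : Fin (n + 1)) :
    v.adicValuation (f j) ≤
      max (v.adicValuation (lin f y0)) (v.adicValuation (lin f y1)) := by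
  obtain ⟨b0, b1, b2⟩ := ord_forms hx hf h0 h1 hbpf v
  have hj := nuAt_le_ord (f := f) v j
  rcases b2 with b2 | b2
  · refine le_trans ?_ (le_max_left _ _)
    exact adicValuation_le_of_ord_le v (hf j) h0 (by rw [show lin f y0 = formOf f y0 from rfl]; omega)
  · refine le_trans ?_ (le_max_right _ _)
    exact adicValuation_le_of_ord_le v (hf j) h1 (by rw [show lin f y1 = formOf f y1 from rfl]; omega)

/-- **the instance, homogeneous form** -/
theorem isPencilX [CharZero K] (ht : IsFF K (tt f y0 y1)) : IsPencilX f y0 y1 where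
  ne := h0
  isFF := ht
  bound := boundX hx hf h0 h1 hbpf

/-- **dictionary of multiplicities, homogeneous form** -/
theorem multX_eq_multAt [CharZero K] [HasPrincipalDivisors K F] (a : Fin (n + 1) → K)
    (v : Place K F) : multX f y0 y1 a v = multAt f a v := by
  obtain ⟨b0, b1, b2⟩ := ord_forms hx hf h0 h1 hbpf v
  unfold multX multAt
  rw [show lin f a = formOf f a from rfl, show lin f y0 = formOf f y0 from rfl,
    show lin f y1 = formOf f y1 from rfl]
  rcases b2 with b2 | b2
  · rw [min_eq_left (by omega)]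
    omega
  · rw [min_eq_right (by omega)]
    omega

/-- **the degree of the pencil, homogeneous form** -/
theorem degX_eq [CharZero K] [HasPrincipalDivisors K F] {D0 : Divisor K F} (h : IsModel f D0)
    (ht : IsFF K (tt f y0 y1)) : (degX f y0 y1 : ℤ) = Divisor.degree D0 :=
  finrank_eq hx hf h0 h1 hbpf h ht

end Bpf

/-- **(L2) input**: the coefficient forms of the norm form have no nontrivial common zero -/
theorem eq_zero_of_coeffForm_eq_zero [CharZero K] [HasPrincipalDivisors K F]
    {f : Fin (n + 1) → F} (hli : LinearIndependent K f) {y0 y1 : Fin (n + 1) → K}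
    (h0 : formOf f y0 ≠ 0) (hP : IsPencil (tt f y0 y1) (beta f y0) y0 y1)
    (a : Fin (n + 1) → K)
    (ha : ∀ k ∈ Finset.range (Module.finrank K⟮tt f y0 y1⟯ F + 1),
      MvPolynomial.eval a (coeffForm hP.isFF (beta f y0) (Module.finrank K⟮tt f y0 y1⟯ F) k) = 0) :
    a = 0 := by
  have := hP.isFF.finite
  have hval : coeffVal hP.isFF (beta f y0) a (Module.finrank K⟮tt f y0 y1⟯ F) = 0 := by
    unfold coeffVal
    refine Finset.sum_eq_zero fun k hk => ?_
    rw [ha k hk, map_zero, zero_mul]
  have hnorm := hP.norm_eq a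
  rw [hval, mul_zero] at hnorm
  have h2 : Algebra.norm K⟮tt f y0 y1⟯ (fam (beta f y0) a) = 0 :=
    (map_eq_zero (algebraMap K⟮tt f y0 y1⟯ F)).mp hnorm
  have h3 : fam (beta f y0) a = 0 := Algebra.norm_eq_zero_iff.mp h2
  rw [fam_beta, div_eq_zero_iff] at h3
  exact formOf_injective hli (h3.resolve_right h0)

/-- **(L2) input, homogeneous form**: the coefficient forms `cform h δ k` of the norm form have
no nontrivial common zero -/
theorem eq_zero_of_cform_eq_zero [CharZero K] [HasPrincipalDivisors K F]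
    {f : Fin (n + 1) → F} (hli : LinearIndependent K f) {y0 y1 : Fin (n + 1) → K}
    (hP : IsPencilX f y0 y1) (a : Fin (n + 1) → K)
    (ha : ∀ k ∈ Finset.range (degX f y0 y1 + 1),
      MvPolynomial.eval a (cform hP (degX f y0 y1) k) = 0) : a = 0 := by
  have hNp : Np hP a = 0 := by
    unfold Np nformPoly
    rw [Finset.sum_eq_zero, mul_zero]
    intro k hk
    have := ha k hk
    unfold cform degX at this
    rw [this, map_zero, zero_mul]
  exact formOf_injective hli ((Np_eq_zero_iff hP a).mp hNp)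

end Fermat.Agent.S17.Model.PencilInst
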