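import Mathlib
import Fermat.Agent.S17.Model.PencilsX
import Fermat.Agent.S17.Model.PencilInst

/-!
# PROJECT H (S17), Part A, leaf (F): the family of pencils for THEOREM A

For a model `f` of `L(D0)` (`deg D0 = δ`, `n ≥ 1`) there are `M > (r - 1) δ` pencils
`(Y0 m, Y1 m)` with coefficients in `K`, in general position (any `r = #PlIdx n` Plücker vectors
linearly independent), base-point free on the curve, each of them a pencil in the sense of
`Norm/CharFormHom` (`IsPencilX`) of degree exactly `δ`.
-/

set_option autoImplicit false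

namespace Fermat.Agent.S17.Model.FamilyF

open AlgebraicCurve Fermat.Agent.S24.FF Fermat.Agent.S24.Ord
  Fermat.Agent.S17.Model.Lift Fermat.Agent.S17.Model.Embed
  Fermat.Agent.S17.Model.PencilInst Fermat.Agent.S17.Norm.CharFormHom
  Fermat.Agent.S17.Local.GeneralPosition

universe u w

variable {K : Type w} {F : Type u} [Field K] [Field F] [Algebra K F]
variable {n : ℕ}

section Plucker

variable {M : ℕ}

/-- if `y1` is proportional to `y0` then the Plücker vector of the pencil vanishes, so the pencil
cannot be a member of a family in general position with at least `r` members -/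
theorem not_proportional_of_gp (hn : 0 < n) (y : Fin M → (Fin 2 × Fin (n + 1) → K))
    (hM : Fintype.card (PlIdx n) ≤ M)
    (hgp : ∀ s : PlIdx n → Fin M, Function.Injective s →
        (Matrix.of fun (a b : PlIdx n) =>
          y (s a) (0, b.1.1) * y (s a) (1, b.1.2) - y (s a) (0, b.1.2) * y (s a) (1, b.1.1)).det
          ≠ 0)
    (m : Fin M) (c : K) : (fun j => y m (1, j)) ≠ c • (fun j => y m (0, j)) := by
  classical
  intro hprop
  have hcard : Fintype.card (PlIdx n) ≤ Fintype.card (Fin M) := by simpa using hM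
  obtain ⟨e⟩ := Function.Embedding.nonempty_of_card_le hcard
  -- a Plücker index exists since `n ≥ 1`
  have h01 : (0 : Fin (n + 1)) < Fin.last n := by
    rw [Fin.lt_def]
    simpa using hn
  let a0 : PlIdx n := ⟨(0, Fin.last n), h01⟩
  let s : PlIdx n → Fin M := fun a => Equiv.swap (e a0) m (e a)
  have hs : Function.Injective s := (Equiv.swap (e a0) m).injective.comp e.injective
  have hsa0 : s a0 = m := Equiv.swap_apply_left _ _
  refine hgp s hs (Matrix.det_eq_zero_of_row_eq_zero a0 fun b => ?_)
  have h1 : ∀ j, y m (1, j) = c * y m (0, j) := fun j => congrFun hprop j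
  simp only [Matrix.of_apply, hsa0]
  rw [h1 b.1.2, h1 b.1.1]
  ring

end Plucker

/-- a model has at least two coordinate functions -/
theorem n_pos_of_isModel {f : Fin (n + 1) → F} {D0 : Divisor K F} (h : IsModel f D0)
    (P0 : Place K F) : 0 < n := by
  classical
  by_contra hn
  have hn0 : n = 0 := by omega
  subst hn0
  -- `L(D0)` is spanned by one element, so `ell D0 ≤ 1`, against `sep`
  have h2 := h.sep P0 P0
  have hle : Fermat.Agent.S18.NonSpecial.ell D0 ≤ 1 := by
    have := h.finite D0
    unfold Fermat.Agent.S18.NonSpecial.ell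
    have hspan : (⊤ : Submodule K (riemannRochSpace D0)) ≤
        Submodule.span K {(⟨f 0, h.mem 0⟩ : riemannRochSpace D0)} := by
      intro g _
      obtain ⟨a, ha⟩ := h.span g.1 g.2
      rw [Submodule.mem_span_singleton]
      refine ⟨a 0, Subtype.ext ?_⟩
      rw [ha]
      simp [formOf, Algebra.smul_def]
    have := finrank_span_singleton (K := K) (v := (⟨f 0, h.mem 0⟩ : riemannRochSpace D0))
      (by
        intro h0
        exact h.ne_zero 0 (congrArg Subtype.val h0))
    have h3 : Module.finrank K (riemannRochSpace D0) ≤ 1 := by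
      rw [← finrank_top K (riemannRochSpace D0), ← this]
      exact Submodule.finrank_mono hspan
    exact h3
  omega

variable [IsAlgClosed K] [CharZero K] [HasPrincipalDivisors K F] {x : F}

/-- **(F) the family of pencils of THEOREM A.** -/
theorem exists_family (hx : IsFF K x) {f : Fin (n + 1) → F} {D0 : Divisor K F}
    (h : IsModel f D0) (hli : LinearIndependent K f) {δ : ℕ}
    (hδ : Divisor.degree D0 = δ) (P0 : Place K F) :
    ∃ (M : ℕ) (y : Fin M → (Fin 2 × Fin (n + 1) → K)),
      (Fintype.card (PlIdx n) - 1) * δ < M ∧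
      (∀ s : PlIdx n → Fin M, Function.Injective s →
        (Matrix.of fun (a b : PlIdx n) =>
          y (s a) (0, b.1.1) * y (s a) (1, b.1.2) - y (s a) (0, b.1.2) * y (s a) (1, b.1.1)).det
          ≠ 0) ∧
      (∀ m, IsPencilX f (fun j => y m (0, j)) (fun j => y m (1, j))) ∧
      (∀ m (v : Place K F) (i : Fin (n + 1)), Admissible f v i →
        dot (fun j => y m (0, j)) (zvec hx v f i) ≠ 0 ∨
          dot (fun j => y m (1, j)) (zvec hx v f i) ≠ 0) ∧
      (∀ m, degX f (fun j => y m (0, j)) (fun j => y m (1, j)) = δ) ∧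
      (∀ m, formOf f (fun j => y m (0, j)) ≠ 0 ∧ formOf f (fun j => y m (1, j)) ≠ 0) := by
  classical
  have hn : 0 < n := n_pos_of_isModel h P0
  have hf := h.ne_zero
  have : Infinite K := IsAlgClosed.instInfinite
  set r := Fintype.card (PlIdx n) with hr
  obtain ⟨y, hy, hbpf0, hgp⟩ :=
    Fermat.Agent.S17.Model.PencilsX.exists_pencils_curve hx K hf hli ((r - 1) * δ + r + 1)
  have hbpf : ∀ m (v : Place K F) (i : Fin (n + 1)), Admissible f v i →
      dot (fun j => y m (0, j)) (zvec hx v f i) ≠ 0 ∨
        dot (fun j => y m (1, j)) (zvec hx v f i) ≠ 0 := by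
    intro m v i hi
    have := hbpf0 m v i hi
    simpa [dot] using this
  have h0 : ∀ m, formOf f (fun j => y m (0, j)) ≠ 0 := fun m =>
    Fermat.Agent.S17.Model.PencilsX.formOf_ne_zero hli (hy m).1
  have h1 : ∀ m, formOf f (fun j => y m (1, j)) ≠ 0 := fun m =>
    Fermat.Agent.S17.Model.PencilsX.formOf_ne_zero hli (hy m).2
  have hind : ∀ m (c : K), (fun j => y m (1, j)) ≠ c • (fun j => y m (0, j)) := fun m c =>
    not_proportional_of_gp hn y (by omega) hgp m c
  have ht : ∀ m, IsFF K (tt f (fun j => y m (0, j)) (fun j => y m (1, j))) := fun m =>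
    isFF_tt hx hli (hy m).1 (hind m)
  refine ⟨(r - 1) * δ + r + 1, y, by omega, hgp,
    fun m => isPencilX hx hf (h0 m) (h1 m) (hbpf m) (ht m), hbpf, fun m => ?_,
    fun m => ⟨h0 m, h1 m⟩⟩
  have := degX_eq hx hf (h0 m) (h1 m) (hbpf m) h (ht m)
  rw [hδ] at this
  exact_mod_cast this

end Fermat.Agent.S17.Model.FamilyF
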