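import Mathlib
import Fermat.Agent.S18.C.PlaceEval
import Fermat.Agent.S36.ChartPlaces
import Fermat.Agent.S24.Hurwitz

/-!
# PROJECT H (S17), scratch stock: the places <-> points dictionary, part 1 (cone points)

`K` algebraically closed of characteristic zero, `F/K` a function field (`hx : IsFF K x`),
`f : Fin (n+1) → F` a family of functions (the coordinates of a map to projective space).
Every nonzero common zero `q` of the homogeneous relations among the `f j` is, up to a scalar,
the vector of values `(f j / f i)(v)` at some place `v`.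
-/

set_option autoImplicit false

namespace Fermat.Agent.S17.Model.ConePoint

open AlgebraicCurve MvPolynomial
open Fermat.Agent.S24.FF Fermat.Agent.S18.C.PlaceEval

section Scaling

variable {σ R S : Type*} [CommSemiring R] [CommSemiring S] [Algebra R S]

/-- a homogeneous polynomial of degree `d` scales by `c ^ d` -/
theorem aeval_mul_of_isHomogeneous {φ : MvPolynomial σ R} {d : ℕ} (hφ : φ.IsHomogeneous d)
    (c : S) (g : σ → S) :
    aeval (fun j => c * g j) φ = c ^ d * aeval g φ := by
  classical
  rw [aeval_def, aeval_def, eval₂_eq, eval₂_eq, Finset.mul_sum]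
  refine Finset.sum_congr rfl fun m hm => ?_
  have hdeg : d = ∑ i ∈ m.support, m i := hφ.degree_eq_sum_deg_support hm
  have h1 : ∏ i ∈ m.support, (c * g i) ^ m i = c ^ d * ∏ i ∈ m.support, g i ^ m i := by
    simp_rw [mul_pow]
    rw [Finset.prod_mul_distrib, Finset.prod_pow_eq_pow_sum, ← hdeg]
  rw [h1]
  ring

/-- the homogenisation of `P` with respect to the variable `i`, in degree `P.totalDegree` -/
noncomputable def homog (i : σ) (P : MvPolynomial σ R) : MvPolynomial σ R :=
  ∑ d ∈ Finset.range (P.totalDegree + 1),
    X i ^ (P.totalDegree - d) * homogeneousComponent d P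

theorem homog_isHomogeneous (i : σ) (P : MvPolynomial σ R) :
    (homog i P).IsHomogeneous P.totalDegree := by
  refine IsHomogeneous.sum _ _ _ fun d hd => ?_
  have hd' : d ≤ P.totalDegree := Nat.lt_succ_iff.mp (Finset.mem_range.mp hd)
  have h := ((isHomogeneous_X_pow (R := R) i (P.totalDegree - d)).mul
    (homogeneousComponent_isHomogeneous d P))
  rwa [Nat.sub_add_cancel hd'] at h

/-- evaluating the homogenisation at `y = c • z` with `z i = 1` -/
theorem aeval_homog (i : σ) (P : MvPolynomial σ R) (c : S) (y z : σ → S) (hi : y i = c)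
    (hy : ∀ j, y j = c * z j) :
    aeval y (homog i P) = c ^ P.totalDegree * aeval z P := by
  have hyz : y = fun j => c * z j := funext hy
  have hP : aeval z P = ∑ d ∈ Finset.range (P.totalDegree + 1),
      aeval z (homogeneousComponent d P) := by
    conv_lhs => rw [← sum_homogeneousComponent P]
    rw [map_sum]
  rw [homog, map_sum, hP, Finset.mul_sum]
  refine Finset.sum_congr rfl fun d hd => ?_
  have hd' : d ≤ P.totalDegree := Nat.lt_succ_iff.mp (Finset.mem_range.mp hd)
  rw [map_mul, map_pow, aeval_X, hi, hyz,
    aeval_mul_of_isHomogeneous (homogeneousComponent_isHomogeneous d P), ← mul_assoc, ← pow_add,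
    Nat.sub_add_cancel hd']

end Scaling

section Main

universe u w

variable {K : Type w} {F : Type u} [Field K] [CharZero K] [IsAlgClosed K] [Field F] [Algebra K F]
  {x : F}

/-- dehomogenisation of the hypothesis: every (inhomogeneous) relation among the `f j / f i` is
satisfied by the `q j / q i`. -/
theorem eval_div_eq_zero {n : ℕ} (f : Fin (n + 1) → F) (q : Fin (n + 1) → K)
    (hI : ∀ (d : ℕ) (p : MvPolynomial (Fin (n + 1)) K), p.IsHomogeneous d → aeval f p = 0 →
      eval q p = 0)
    (i : Fin (n + 1)) (hfi : f i ≠ 0) (hqi : q i ≠ 0) (P : MvPolynomial (Fin (n + 1)) K)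
    (hP : aeval (fun j => f j / f i) P = 0) : eval (fun j => q j / q i) P = 0 := by
  have h1 : aeval f (homog i P) = f i ^ P.totalDegree * aeval (fun j => f j / f i) P :=
    aeval_homog i P (f i) f (fun j => f j / f i) rfl fun j => by field_simp
  have h2 := hI _ _ (homog_isHomogeneous i P) (by rw [h1, hP, mul_zero])
  have h3 : aeval q (homog i P) = q i ^ P.totalDegree * aeval (fun j => q j / q i) P :=
    aeval_homog i P (q i) q (fun j => q j / q i) rfl fun j => by field_simp
  rw [← aeval_eq_eval] at h2 ⊢
  have h4 : q i ^ P.totalDegree * aeval (fun j => q j / q i) P = 0 := by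
    rw [← h3]; exact h2
  exact (mul_eq_zero.mp h4).resolve_left (pow_ne_zero _ hqi)

/-- **Chevalley step**: a family `g j : F` and constants `a j : K` such that every polynomial
relation among the `g j` holds for the `a j`; then there is a place at which all `g j` are regular
with values `a j`. -/
theorem exists_place_eval_eq (hx : IsFF K x) {ι : Type*} [Fintype ι] (g : ι → F) (a : ι → K)
    (h : ∀ P : MvPolynomial ι K, aeval g P = 0 → eval a P = 0) :
    ∃ (v : Place K F) (hreg : ∀ j, g j ∈ v.toValuationSubring),
      ∀ j, evalAt hx v ⟨g j, hreg j⟩ = a j := by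
  classical
  haveI := hx.finite
  by_cases hconst : ∀ j, g j = algebraMap K F (a j)
  · obtain ⟨v⟩ := Fermat.Agent.S24.Hurwitz.exists_place hx
    refine ⟨v, fun j => by rw [hconst j]; exact v.algebraMap_mem' _, fun j => ?_⟩
    rw [evalAt_eq_iff]
    simp [hconst j]
  · push_neg at hconst
    obtain ⟨j₀, hj₀⟩ := hconst
    let A : Subalgebra K F := Algebra.adjoin K (Set.range g)
    have hgA : ∀ j, g j ∈ A := fun j => Algebra.subset_adjoin ⟨j, rfl⟩
    let I : Ideal A.toSubring :=
      Ideal.span (Set.range fun j => (⟨g j - algebraMap K F (a j),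
        A.sub_mem (hgA j) (A.algebraMap_mem _)⟩ : A.toSubring))
    have hI : I ≠ ⊤ := by
      intro htop
      have h1 : (1 : A.toSubring) ∈ I := htop ▸ Submodule.mem_top
      obtain ⟨c, hc⟩ := (Ideal.mem_span_range_iff_exists_fun).mp h1
      have hcA : ∀ j, ∃ C : MvPolynomial ι K, aeval g C = ((c j : A.toSubring) : F) := by
        intro j
        have hmem : ((c j : A.toSubring) : F) ∈
            (aeval g : MvPolynomial ι K →ₐ[K] F).range := by
          rw [← Algebra.adjoin_range_eq_range_aeval K g]
          exact (c j).2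
        exact hmem
      choose C hC using hcA
      have hsum : ∑ j, ((c j : A.toSubring) : F) * (g j - algebraMap K F (a j)) = 1 := by
        have := congrArg (fun z : A.toSubring => (z : F)) hc
        simpa using this
      let P : MvPolynomial ι K := ∑ j, C j * (X j - MvPolynomial.C (a j)) - 1
      have hP : aeval g P = 0 := by
        simp only [P, map_sub, map_sum, map_mul, aeval_X, aeval_C, map_one, hC]
        rw [hsum, sub_self]
      have hP' := h P hP
      simp only [P, map_sub, map_sum, map_mul, eval_X, eval_C, map_one, sub_self, mul_zero,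
        Finset.sum_const_zero, zero_sub] at hP'
      exact one_ne_zero (neg_eq_zero.mp hP')
    obtain ⟨V, hAV, hIV⟩ := Ideal.image_subset_nonunits_valuationSubring I hI
    have hKV : ∀ c : K, algebraMap K F c ∈ V := fun c => hAV (A.algebraMap_mem c)
    have hnon : ∀ j, g j - algebraMap K F (a j) ∈ V.nonunits := fun j =>
      hIV ⟨⟨g j - algebraMap K F (a j), A.sub_mem (hgA j) (A.algebraMap_mem _)⟩,
        Ideal.subset_span ⟨j, rfl⟩, rfl⟩
    have hVtop : V ≠ ⊤ := by
      intro htop
      have h1 := hnon j₀
      rw [htop, ValuationSubring.mem_nonunits_iff] at h1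
      have h2 : (⊤ : ValuationSubring F).valuation (g j₀ - algebraMap K F (a j₀)) = 1 := by
        have hne : g j₀ - algebraMap K F (a j₀) ≠ 0 := sub_ne_zero.mpr hj₀
        apply le_antisymm
        · exact ((⊤ : ValuationSubring F).valuation_le_one_iff _).mpr (ValuationSubring.mem_top _)
        · have h3 := ((⊤ : ValuationSubring F).valuation_le_one_iff _).mpr
            (ValuationSubring.mem_top (g j₀ - algebraMap K F (a j₀))⁻¹)
          rw [map_inv₀] at h3
          have hpos : (⊤ : ValuationSubring F).valuation (g j₀ - algebraMap K F (a j₀)) ≠ 0 :=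
            (Valuation.ne_zero_iff _).mpr hne
          exact (inv_le_one₀ (zero_lt_iff.mpr hpos)).mp h3
      exact (ne_of_lt h1) h2
    let v : Place K F := Fermat.Agent.S36.ChartPlaces.placeOf hx.transcendental V hKV hVtop
    have hreg : ∀ j, g j ∈ v.toValuationSubring := fun j => hAV (hgA j)
    refine ⟨v, hreg, fun j => ?_⟩
    rw [evalAt_eq_iff, ← Fermat.Agent.S24.Ord.mem_maximalIdeal_iff v
      ⟨g j - algebraMap K F (a j), v.toValuationSubring.sub_mem (hreg j) (v.algebraMap_mem' _)⟩]
    obtain ⟨hmem, hmax⟩ := ValuationSubring.mem_nonunits_iff_exists_mem_maximalIdeal.mp (hnon j)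
    exact hmax

/-- **(CP) every nonzero zero of the homogeneous ideal of the curve is a point of the curve.**
`q ≠ 0` kills every homogeneous relation among the `f j`; then for some place `v`, some index `i`
and some `c ≠ 0`: `f i ≠ 0`, all `f j / f i` are regular at `v`, and `q j = c * (f j / f i)(v)`. -/
theorem exists_place_of_zero (hx : IsFF K x) {n : ℕ} (f : Fin (n + 1) → F) (q : Fin (n + 1) → K)
    (hq : q ≠ 0)
    (hI : ∀ (d : ℕ) (p : MvPolynomial (Fin (n + 1)) K), p.IsHomogeneous d → aeval f p = 0 →
      eval q p = 0) :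
    ∃ (v : Place K F) (i : Fin (n + 1)) (c : K)
      (hreg : ∀ j, f j / f i ∈ v.toValuationSubring),
      c ≠ 0 ∧ f i ≠ 0 ∧ ∀ j, q j = c * evalAt hx v ⟨f j / f i, hreg j⟩ := by
  obtain ⟨i, hqi⟩ : ∃ i, q i ≠ 0 := by
    by_contra hcon
    push_neg at hcon
    exact hq (funext hcon)
  have hfi : f i ≠ 0 := by
    intro h0
    have h1 := hI 1 (X i) (isHomogeneous_X K i) (by rw [aeval_X, h0])
    rw [eval_X] at h1
    exact hqi h1
  obtain ⟨v, hreg, hv⟩ := exists_place_eval_eq hx (fun j => f j / f i) (fun j => q j / q i)
    (eval_div_eq_zero f q hI i hfi hqi)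
  refine ⟨v, i, q i, hreg, hqi, hfi, fun j => ?_⟩
  rw [hv j]
  field_simp

/-- converse direction (trivial): the vector of values at a place kills every homogeneous relation -/
theorem eval_eq_zero_of_place (hx : IsFF K x) {n : ℕ} (f : Fin (n + 1) → F) (v : Place K F)
    (i : Fin (n + 1)) (hfi : f i ≠ 0) (hreg : ∀ j, f j / f i ∈ v.toValuationSubring) (c : K)
    {d : ℕ} {p : MvPolynomial (Fin (n + 1)) K} (hp : p.IsHomogeneous d) (h0 : aeval f p = 0) :
    eval (fun j => c * evalAt hx v ⟨f j / f i, hreg j⟩) p = 0 := by
  have h1 : aeval f p = f i ^ d * aeval (fun j => f j / f i) p := by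
    rw [← aeval_mul_of_isHomogeneous hp]
    have : f = fun j => f i * (f j / f i) := by
      funext j
      field_simp
    rw [← this]
  have h2 : aeval (fun j => f j / f i) p = 0 := by
    rw [h1] at h0
    exact (mul_eq_zero.mp h0).resolve_left (pow_ne_zero _ hfi)
  -- transport along the residue map
  let φ : Fin (n + 1) → v.toValuationSubring := fun j => ⟨f j / f i, hreg j⟩
  have h3 : aeval φ p = 0 := by
    apply Subtype.ext
    have : ((aeval φ p : v.toValuationSubring) : F) = aeval (fun j => f j / f i) p :=
      MvPolynomial.comp_aeval_apply (f := φ)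
        (IsScalarTower.toAlgHom K v.toValuationSubring F) p
    rw [this, h2]
    rfl
  have h5 : aeval (fun j => evalAt hx v (φ j)) p = 0 := by
    rw [← MvPolynomial.comp_aeval_apply (f := φ) (evalAt hx v) p, h3, map_zero]
  rw [← aeval_eq_eval, aeval_mul_of_isHomogeneous hp, h5, mul_zero]

end Main

end Fermat.Agent.S17.Model.ConePoint
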