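import Mathlib
import Fermat.Agent.S17.Model.ConePoint

/-!
# PROJECT H (S17), scratch stock: the base-point-free growth lemma (H0.10')

`K` algebraically closed of characteristic zero, `F/K` a function field, `t : ι → F` a finite
family of functions and `s : F` a function *dominated* by the family: at every place `v` and every
index `j` such that all `t i / t j` are regular at `v`, the quotient `s / t j` is regular at `v`
(i.e. `div s ≥ min_i div (t i)` place by place).  Then

* `s / t j` is integral over `K[t i / t j : i]` (`isIntegral_div`);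
* the values satisfy `|σ| ≤ n * A * max_i |τ_i|` at EVERY place, for EVERY absolute value of `K`,
  with `n` and the finite set `S` of constants (whose absolute values `A` has to dominate)
  independent of the place and of the absolute value; for a nonarchimedean absolute value the
  bound is `|σ| ≤ A * max_i |τ_i|` (so constant `1` at almost all places) (`exists_bound`).
-/

set_option autoImplicit false

namespace Fermat.Agent.S17.Model.BPF

open AlgebraicCurve MvPolynomial
open Fermat.Agent.S24.FF Fermat.Agent.S18.C.PlaceEval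

section Integral

universe u w

variable {K : Type w} {F : Type u} [Field K] [CharZero K] [IsAlgClosed K] [Field F] [Algebra K F]
  {x : F}

/-- **integrality from domination at all places** -/
theorem isIntegral_div (hx : IsFF K x) {ι : Type*} (t : ι → F) (s : F)
    (hbpf : ∀ (v : Place K F) (j : ι), t j ≠ 0 → (∀ i, t i / t j ∈ v.toValuationSubring) →
      s / t j ∈ v.toValuationSubring)
    (j : ι) (hj : t j ≠ 0) :
    IsIntegral (Algebra.adjoin K (Set.range fun i => t i / t j)) (s / t j) := by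
  classical
  haveI := hx.finite
  set A : Subalgebra K F := Algebra.adjoin K (Set.range fun i => t i / t j) with hA
  by_contra hcon
  let R : Subring F := (integralClosure A F).toSubring
  haveI : IsIntegrallyClosedIn R F := by
    have : IsIntegrallyClosedIn (integralClosure A F) F := inferInstance
    exact this
  have hxR : s / t j ∉ R := fun h => hcon h
  obtain ⟨V, hRV, hsV⟩ := Subring.exists_le_valuationSubring_of_isIntegrallyClosedIn hxR
  have hAV : ∀ a ∈ A, a ∈ V := fun a ha => hRV (show a ∈ integralClosure A F from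
    isIntegral_algebraMap (R := A) (A := F) (x := ⟨a, ha⟩))
  have hKV : ∀ c : K, algebraMap K F c ∈ V := fun c => hAV _ (A.algebraMap_mem c)
  have hVtop : V ≠ ⊤ := by
    intro htop
    exact hsV (htop ▸ ValuationSubring.mem_top _)
  let v : Place K F := Fermat.Agent.S36.ChartPlaces.placeOf hx.transcendental V hKV hVtop
  exact hsV (hbpf v j hj fun i => hAV _ (Algebra.subset_adjoin ⟨i, rfl⟩))

end Integral

section Bounds

variable {K : Type*} [Field K] (abv : AbsoluteValue K ℝ)

/-- ultrametric inequality for finite sums, bounded form -/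
theorem abv_sum_le_of_nonarch (hna : IsNonarchimedean abv) {α : Type*} (s : Finset α) (f : α → K)
    {A : ℝ} (hA : 0 ≤ A) (h : ∀ i ∈ s, abv (f i) ≤ A) : abv (∑ i ∈ s, f i) ≤ A := by
  classical
  induction s using Finset.induction_on with
  | empty => simpa using hA
  | insert a s ha ih =>
    rw [Finset.sum_insert ha]
    refine (hna _ _).trans (max_le (h a (Finset.mem_insert_self a s)) ?_)
    exact ih fun i hi => h i (Finset.mem_insert_of_mem hi)

/-- value of a polynomial at a point of the unit polydisc: archimedean bound -/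
theorem abv_eval_le {ι : Type*} (p : MvPolynomial ι K) (γ : ι → K) (hγ : ∀ i, abv (γ i) ≤ 1)
    {A : ℝ} (h : ∀ m ∈ p.support, abv (coeff m p) ≤ A) :
    abv (eval γ p) ≤ p.support.card * A := by
  rw [eval_eq]
  refine (abv.sum_le _ _).trans ?_
  rw [← nsmul_eq_mul]
  refine Finset.sum_le_card_nsmul _ _ _ fun m hm => ?_
  rw [map_mul, map_prod]
  have h1 : ∏ i ∈ m.support, abv (γ i ^ m i) ≤ 1 := by
    refine Finset.prod_le_one (fun i _ => abv.nonneg _) fun i _ => ?_
    rw [map_pow]
    exact pow_le_one₀ (abv.nonneg _) (hγ i)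
  calc abv (coeff m p) * ∏ i ∈ m.support, abv (γ i ^ m i) ≤ abv (coeff m p) * 1 :=
        mul_le_mul_of_nonneg_left h1 (abv.nonneg _)
    _ ≤ A := by rw [mul_one]; exact h m hm

/-- value of a polynomial at a point of the unit polydisc: nonarchimedean bound -/
theorem abv_eval_le_of_nonarch (hna : IsNonarchimedean abv) {ι : Type*} (p : MvPolynomial ι K)
    (γ : ι → K) (hγ : ∀ i, abv (γ i) ≤ 1) {A : ℝ} (hA : 0 ≤ A)
    (h : ∀ m ∈ p.support, abv (coeff m p) ≤ A) :
    abv (eval γ p) ≤ A := by
  rw [eval_eq]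
  refine abv_sum_le_of_nonarch abv hna _ _ hA fun m hm => ?_
  rw [map_mul, map_prod]
  have h1 : ∏ i ∈ m.support, abv (γ i ^ m i) ≤ 1 := by
    refine Finset.prod_le_one (fun i _ => abv.nonneg _) fun i _ => ?_
    rw [map_pow]
    exact pow_le_one₀ (abv.nonneg _) (hγ i)
  calc abv (coeff m p) * ∏ i ∈ m.support, abv (γ i ^ m i) ≤ abv (coeff m p) * 1 :=
        mul_le_mul_of_nonneg_left h1 (abv.nonneg _)
    _ ≤ A := by rw [mul_one]; exact h m hm

/-- the relation satisfied by a root of a monic polynomial -/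
theorem pow_eq_neg_sum (Q : Polynomial K) (hQ : Q.Monic) (η : K) (h : Q.eval η = 0) :
    η ^ Q.natDegree = -∑ l ∈ Finset.range Q.natDegree, Q.coeff l * η ^ l := by
  have h1 := hQ.as_sum
  have h2 : Q.eval η = η ^ Q.natDegree + ∑ l ∈ Finset.range Q.natDegree, Q.coeff l * η ^ l := by
    conv_lhs => rw [h1]
    simp [Polynomial.eval_finsetSum]
  rw [h] at h2
  exact eq_neg_of_add_eq_zero_left h2.symm

/-- **root bound** (Cauchy), archimedean form -/
theorem abv_root_le (Q : Polynomial K) (hQ : Q.Monic) (η : K) (h : Q.eval η = 0) {B : ℝ}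
    (hB : ∀ l < Q.natDegree, abv (Q.coeff l) ≤ B) : abv η ≤ max 1 (Q.natDegree * B) := by
  by_cases h1 : abv η ≤ 1
  · exact h1.trans (le_max_left _ _)
  replace h1 := not_le.mp h1
  refine le_max_of_le_right ?_
  have hrel := pow_eq_neg_sum Q hQ η h
  obtain ⟨m, hm⟩ : ∃ m, Q.natDegree = m := ⟨_, rfl⟩
  rw [hm] at hrel hB ⊢
  cases m with
  | zero =>
    simp at hrel
  | succ m =>
    have h2 : abv η ^ (m + 1) ≤ ((m + 1 : ℕ) : ℝ) * B * abv η ^ m := by
      rw [← map_pow, hrel, map_neg_eq_map]
      refine (abv.sum_le _ _).trans ?_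
      have : ∀ l ∈ Finset.range (m + 1), abv (Q.coeff l * η ^ l) ≤ B * abv η ^ m := by
        intro l hl
        have hl' : l < m + 1 := Finset.mem_range.mp hl
        rw [map_mul, map_pow]
        have hB0 : 0 ≤ B := (abv.nonneg _).trans (hB l hl')
        exact mul_le_mul (hB l hl') (pow_le_pow_right₀ h1.le (Nat.lt_succ_iff.mp hl'))
          (pow_nonneg (abv.nonneg _) _) hB0
      refine (Finset.sum_le_card_nsmul _ _ _ this).trans ?_
      rw [Finset.card_range, nsmul_eq_mul, mul_assoc]
    have hpos : 0 < abv η ^ m := pow_pos (lt_trans zero_lt_one h1) m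
    rw [pow_succ', mul_comm (abv η)] at h2
    have := le_of_mul_le_mul_left (by linarith : abv η ^ m * abv η ≤ abv η ^ m * (((m + 1 : ℕ) : ℝ) * B)) hpos
    exact this

/-- **root bound**, nonarchimedean form -/
theorem abv_root_le_of_nonarch (hna : IsNonarchimedean abv) (Q : Polynomial K) (hQ : Q.Monic)
    (η : K) (h : Q.eval η = 0) {B : ℝ} (hB0 : 0 ≤ B)
    (hB : ∀ l < Q.natDegree, abv (Q.coeff l) ≤ B) : abv η ≤ max 1 B := by
  by_cases h1 : abv η ≤ 1
  · exact h1.trans (le_max_left _ _)
  replace h1 := not_le.mp h1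
  refine le_max_of_le_right ?_
  have hrel := pow_eq_neg_sum Q hQ η h
  obtain ⟨m, hm⟩ : ∃ m, Q.natDegree = m := ⟨_, rfl⟩
  rw [hm] at hrel hB
  cases m with
  | zero =>
    simp at hrel
  | succ m =>
    have hpos : 0 < abv η ^ m := pow_pos (lt_trans zero_lt_one h1) m
    have h2 : abv η ^ (m + 1) ≤ B * abv η ^ m := by
      rw [← map_pow, hrel, map_neg_eq_map]
      refine abv_sum_le_of_nonarch abv hna _ _ (mul_nonneg hB0 hpos.le) fun l hl => ?_
      have hl' : l < m + 1 := Finset.mem_range.mp hl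
      rw [map_mul, map_pow]
      exact mul_le_mul (hB l hl') (pow_le_pow_right₀ h1.le (Nat.lt_succ_iff.mp hl'))
        (pow_nonneg (abv.nonneg _) _) hB0
    rw [pow_succ', mul_comm (abv η)] at h2
    exact le_of_mul_le_mul_left (by linarith : abv η ^ m * abv η ≤ abv η ^ m * B) hpos

end Bounds


section Main

universe u w

variable {K : Type w} {F : Type u} [Field K] [CharZero K] [IsAlgClosed K] [Field F] [Algebra K F]
  {x : F}

/-- the integral equation, with polynomial coefficients -/
theorem exists_monic_of_isIntegral {ι : Type*} (g : ι → F) (y : F)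
    (h : IsIntegral (Algebra.adjoin K (Set.range g)) y) :
    ∃ q : Polynomial (MvPolynomial ι K), q.Monic ∧
      Polynomial.eval₂ ((aeval g : MvPolynomial ι K →ₐ[K] F) : MvPolynomial ι K →+* F) y q = 0 := by
  classical
  obtain ⟨p, hp, hpy⟩ := h
  have hmem : ∀ P : MvPolynomial ι K, aeval g P ∈ Algebra.adjoin K (Set.range g) := fun P => by
    rw [Algebra.adjoin_range_eq_range_aeval]
    exact ⟨P, rfl⟩
  let φ : MvPolynomial ι K →+* Algebra.adjoin K (Set.range g) :=
    ((aeval g : MvPolynomial ι K →ₐ[K] F).codRestrict _ hmem : MvPolynomial ι K →+* _)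
  have hφ : Function.Surjective φ := by
    rintro ⟨a, ha⟩
    have ha' := ha
    rw [Algebra.adjoin_range_eq_range_aeval] at ha'
    obtain ⟨P, hP⟩ := ha'
    exact ⟨P, Subtype.ext hP⟩
  have hl : p ∈ Polynomial.lifts φ := by
    rw [Polynomial.lifts_iff_coeff_lifts]
    exact fun n => hφ _
  obtain ⟨q, hq, -, hqm⟩ := Polynomial.lifts_and_degree_eq_and_monic hl hp
  refine ⟨q, hqm, ?_⟩
  have hcomp : ((aeval g : MvPolynomial ι K →ₐ[K] F) : MvPolynomial ι K →+* F) =
      (algebraMap (Algebra.adjoin K (Set.range g)) F).comp φ := by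
    ext <;> rfl
  rw [hcomp, ← Polynomial.eval₂_map, hq]
  exact hpy

theorem evalAt_congr (hx : IsFF K x) (v : Place K F) {a b : F} (hab : a = b)
    (ha : a ∈ v.toValuationSubring) (hb : b ∈ v.toValuationSubring) :
    evalAt hx v ⟨a, ha⟩ = evalAt hx v ⟨b, hb⟩ := by
  subst hab
  rfl

/-- division by a unit at a place -/
theorem exists_evalAt_div (hx : IsFF K x) (v : Place K F) {f u : F}
    (hf : f ∈ v.toValuationSubring) (hu : u ∈ v.toValuationSubring)
    (hne : evalAt hx v ⟨u, hu⟩ ≠ 0) :
    ∃ h : f / u ∈ v.toValuationSubring,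
      evalAt hx v ⟨f / u, h⟩ = evalAt hx v ⟨f, hf⟩ / evalAt hx v ⟨u, hu⟩ := by
  have hunit := (evalAt_isUnit_iff hx v ⟨u, hu⟩).mp hne
  obtain ⟨w, hw⟩ := isUnit_iff_exists_inv.mp hunit
  have hw' : u * (w : F) = 1 := by
    have := congrArg (fun z : v.toValuationSubring => (z : F)) hw
    simpa using this
  have hu0 : u ≠ 0 := left_ne_zero_of_mul_eq_one hw'
  have hfw : f / u = f * (w : F) := by
    rw [div_eq_iff hu0, mul_assoc, mul_comm (w : F), hw', mul_one]
  have hmem : f / u ∈ v.toValuationSubring := by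
    rw [hfw]
    exact v.toValuationSubring.mul_mem _ _ hf w.2
  refine ⟨hmem, ?_⟩
  have h1 : (⟨f / u, hmem⟩ : v.toValuationSubring) * ⟨u, hu⟩ = ⟨f, hf⟩ := by
    apply Subtype.ext
    show f / u * u = f
    rw [div_mul_cancel₀ _ hu0]
  rw [eq_div_iff hne, ← map_mul, h1]

/-- transport of a polynomial equation to the residue field of a place -/
theorem eval_map_evalAt_eq_zero (hx : IsFF K x) {ι : Type*} (g : ι → F) (y : F)
    (q : Polynomial (MvPolynomial ι K))
    (hq : Polynomial.eval₂ ((aeval g : MvPolynomial ι K →ₐ[K] F) : MvPolynomial ι K →+* F) y q = 0)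
    (v : Place K F) (hg : ∀ i, g i ∈ v.toValuationSubring) (hy : y ∈ v.toValuationSubring) :
    (q.map (eval fun i => evalAt hx v ⟨g i, hg i⟩)).eval (evalAt hx v ⟨y, hy⟩) = 0 := by
  let g' : ι → v.toValuationSubring := fun i => ⟨g i, hg i⟩
  have h1 : Polynomial.eval₂
      ((aeval g' : MvPolynomial ι K →ₐ[K] v.toValuationSubring) : MvPolynomial ι K →+* _)
      (⟨y, hy⟩ : v.toValuationSubring) q = 0 := by
    apply Subtype.ext
    have h2 := Polynomial.hom_eval₂ q
      ((aeval g' : MvPolynomial ι K →ₐ[K] v.toValuationSubring) : MvPolynomial ι K →+* _)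
      (v.toValuationSubring.subtype) (⟨y, hy⟩ : v.toValuationSubring)
    have hcomp : (v.toValuationSubring.subtype).comp
        ((aeval g' : MvPolynomial ι K →ₐ[K] v.toValuationSubring) : MvPolynomial ι K →+* _) =
        ((aeval g : MvPolynomial ι K →ₐ[K] F) : MvPolynomial ι K →+* F) := by
      ext
      · simp
      · simp [g']
    rw [hcomp] at h2
    have h3 : (v.toValuationSubring.subtype) (⟨y, hy⟩ : v.toValuationSubring) = y := rfl
    rw [h3, hq] at h2
    exact h2
  have h4 := Polynomial.hom_eval₂ q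
      ((aeval g' : MvPolynomial ι K →ₐ[K] v.toValuationSubring) : MvPolynomial ι K →+* _)
      ((evalAt hx v : v.toValuationSubring →ₐ[K] K) : v.toValuationSubring →+* K)
      (⟨y, hy⟩ : v.toValuationSubring)
  rw [h1, map_zero] at h4
  have hcomp2 : ((evalAt hx v : v.toValuationSubring →ₐ[K] K) : v.toValuationSubring →+* K).comp
      ((aeval g' : MvPolynomial ι K →ₐ[K] v.toValuationSubring) : MvPolynomial ι K →+* _) =
      eval fun i => evalAt hx v ⟨g i, hg i⟩ := by
    ext
    · simp
    · simp [g']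
  rw [hcomp2] at h4
  rw [Polynomial.eval_map]
  exact h4.symm


/-- **(BPF), normalised form**: at the places where all `t i / t j` have values of absolute value
`≤ 1`, the value of `s / t j` is bounded by a constant depending only on finitely many elements
of `K` (the coefficients of one integral equation). -/
theorem exists_bound_of_le_one (hx : IsFF K x) {ι : Type*} (t : ι → F) (s : F)
    (hbpf : ∀ (v : Place K F) (j : ι), t j ≠ 0 → (∀ i, t i / t j ∈ v.toValuationSubring) →
      s / t j ∈ v.toValuationSubring)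
    (j : ι) (hj : t j ≠ 0) :
    ∃ (S : Finset K) (n : ℕ), ∀ (abv : AbsoluteValue K ℝ) (A : ℝ), 1 ≤ A →
      (∀ c ∈ S, abv c ≤ A) →
      ∀ (v : Place K F) (hreg : ∀ i, t i / t j ∈ v.toValuationSubring)
        (hs : s / t j ∈ v.toValuationSubring),
        (∀ i, abv (evalAt hx v ⟨t i / t j, hreg i⟩) ≤ 1) →
        abv (evalAt hx v ⟨s / t j, hs⟩) ≤ n * A ∧
          (IsNonarchimedean abv → abv (evalAt hx v ⟨s / t j, hs⟩) ≤ A) := by
  classical
  obtain ⟨q, hqm, hq⟩ := exists_monic_of_isIntegral (K := K) (fun i => t i / t j) (s / t j)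
    (isIntegral_div hx t s hbpf j hj)
  let S : Finset K := (Finset.range q.natDegree).biUnion fun l =>
    (q.coeff l).support.image fun m => coeff m (q.coeff l)
  let N : ℕ := ∑ l ∈ Finset.range q.natDegree, (q.coeff l).support.card
  refine ⟨S, max 1 (q.natDegree * N), fun abv A hA hS v hreg hs hle => ?_⟩
  have hA0 : 0 ≤ A := zero_le_one.trans hA
  set γ : ι → K := fun i => evalAt hx v ⟨t i / t j, hreg i⟩ with hγ
  set η : K := evalAt hx v ⟨s / t j, hs⟩ with hη
  have hroot : (q.map (eval γ)).eval η = 0 :=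
    eval_map_evalAt_eq_zero hx (fun i => t i / t j) (s / t j) q hq v hreg hs
  have hQm : (q.map (eval γ)).Monic := hqm.map _
  have hdeg : (q.map (eval γ)).natDegree = q.natDegree := hqm.natDegree_map _
  have hcoef : ∀ l < q.natDegree, ∀ m ∈ (q.coeff l).support, abv (coeff m (q.coeff l)) ≤ A := by
    intro l hl m hm
    refine hS _ (Finset.mem_biUnion.mpr ⟨l, Finset.mem_range.mpr hl, ?_⟩)
    exact Finset.mem_image.mpr ⟨m, hm, rfl⟩
  constructor
  · have hB : ∀ l < (q.map (eval γ)).natDegree, abv ((q.map (eval γ)).coeff l) ≤ N * A := by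
      intro l hl
      rw [hdeg] at hl
      rw [Polynomial.coeff_map]
      refine (abv_eval_le abv (q.coeff l) γ hle (hcoef l hl)).trans ?_
      refine mul_le_mul_of_nonneg_right ?_ hA0
      exact_mod_cast Finset.single_le_sum (f := fun l => (q.coeff l).support.card)
        (fun _ _ => Nat.zero_le _) (Finset.mem_range.mpr hl)
    have h1 := abv_root_le abv _ hQm η hroot hB
    rw [hdeg] at h1
    refine h1.trans (max_le ?_ ?_)
    · calc (1 : ℝ) = 1 * 1 := (one_mul 1).symm
        _ ≤ ((max 1 (q.natDegree * N) : ℕ) : ℝ) * A :=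
          mul_le_mul (by exact_mod_cast le_max_left 1 (q.natDegree * N)) hA zero_le_one
            (Nat.cast_nonneg _)
    · rw [← mul_assoc]
      refine mul_le_mul_of_nonneg_right ?_ hA0
      exact_mod_cast le_max_right 1 (q.natDegree * N)
  · intro hna
    have hB : ∀ l < (q.map (eval γ)).natDegree, abv ((q.map (eval γ)).coeff l) ≤ A := by
      intro l hl
      rw [hdeg] at hl
      rw [Polynomial.coeff_map]
      exact abv_eval_le_of_nonarch abv hna (q.coeff l) γ hle hA0 (hcoef l hl)
    exact (abv_root_le_of_nonarch abv hna _ hQm η hroot hA0 hB).trans (max_le hA le_rfl)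

/-- **(BPF) the base-point-free growth lemma.**  `s` dominated by the finite family `t` at all
places; then at every place `v`, in every normalisation `j₀` regular at `v`, and for every
absolute value `abv` of `K`: `|σ| ≤ n * A * max_i |τ_i|` where `σ, τ_i` are the values of
`s / t j₀, t i / t j₀` at `v`, and `A ≥ 1` dominates the absolute values of the finitely many
constants in `S`; `S` and `n` do not depend on `v`, `j₀`, `abv`.  For nonarchimedean `abv` the
factor `n` is not needed. -/
theorem exists_bound (hx : IsFF K x) {ι : Type*} [Fintype ι] (t : ι → F) (s : F)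
    (hbpf : ∀ (v : Place K F) (j : ι), t j ≠ 0 → (∀ i, t i / t j ∈ v.toValuationSubring) →
      s / t j ∈ v.toValuationSubring) :
    ∃ (S : Finset K) (n : ℕ), ∀ (abv : AbsoluteValue K ℝ) (A : ℝ), 1 ≤ A →
      (∀ c ∈ S, abv c ≤ A) →
      ∀ (v : Place K F) (j₀ : ι) (_ : t j₀ ≠ 0) (hreg : ∀ i, t i / t j₀ ∈ v.toValuationSubring)
        (hs : s / t j₀ ∈ v.toValuationSubring),
        ∃ i, abv (evalAt hx v ⟨s / t j₀, hs⟩) ≤
            n * A * abv (evalAt hx v ⟨t i / t j₀, hreg i⟩) ∧
          (IsNonarchimedean abv → abv (evalAt hx v ⟨s / t j₀, hs⟩) ≤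
            A * abv (evalAt hx v ⟨t i / t j₀, hreg i⟩)) := by
  classical
  have hex : ∀ j : ι, ∃ (S : Finset K) (n : ℕ), t j ≠ 0 → ∀ (abv : AbsoluteValue K ℝ) (A : ℝ),
      1 ≤ A → (∀ c ∈ S, abv c ≤ A) →
      ∀ (v : Place K F) (hreg : ∀ i, t i / t j ∈ v.toValuationSubring)
        (hs : s / t j ∈ v.toValuationSubring),
        (∀ i, abv (evalAt hx v ⟨t i / t j, hreg i⟩) ≤ 1) →
        abv (evalAt hx v ⟨s / t j, hs⟩) ≤ n * A ∧
          (IsNonarchimedean abv → abv (evalAt hx v ⟨s / t j, hs⟩) ≤ A) := by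
    intro j
    by_cases hj : t j = 0
    · exact ⟨∅, 0, fun h => absurd hj h⟩
    · obtain ⟨S, n, h⟩ := exists_bound_of_le_one hx t s hbpf j hj
      exact ⟨S, n, fun _ => h⟩
  choose S n hSn using hex
  refine ⟨Finset.univ.biUnion S, ∑ j, n j, fun abv A hA hS v j₀ hj₀ hreg hs => ?_⟩
  have hA0 : 0 ≤ A := zero_le_one.trans hA
  -- the values in the normalisation `j₀`
  set τ : ι → K := fun i => evalAt hx v ⟨t i / t j₀, hreg i⟩ with hτ
  set σ : K := evalAt hx v ⟨s / t j₀, hs⟩ with hσ
  have hτ0 : τ j₀ = 1 := by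
    have h1 : evalAt hx v ⟨t j₀ / t j₀, hreg j₀⟩ = evalAt hx v ⟨1, v.toValuationSubring.one_mem⟩ :=
      evalAt_congr hx v (div_self hj₀) _ _
    rw [hτ]
    show evalAt hx v ⟨t j₀ / t j₀, hreg j₀⟩ = 1
    rw [h1]
    exact map_one (evalAt hx v)
  -- the index of maximal absolute value
  obtain ⟨j₁, -, hmax⟩ := Finset.exists_max_image Finset.univ (fun i => abv (τ i))
    ⟨j₀, Finset.mem_univ _⟩
  have hτ1pos : 0 < abv (τ j₁) := by
    have := hmax j₀ (Finset.mem_univ _)
    rw [hτ0, map_one] at this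
    exact lt_of_lt_of_le zero_lt_one this
  have hτ1 : τ j₁ ≠ 0 := abv.pos_iff.mp hτ1pos
  have hj₁ : t j₁ ≠ 0 := by
    intro h0
    apply hτ1
    have h1 : evalAt hx v ⟨t j₁ / t j₀, hreg j₁⟩ = evalAt hx v ⟨0, v.toValuationSubring.zero_mem⟩ :=
      evalAt_congr hx v (by rw [h0, zero_div]) _ _
    show evalAt hx v ⟨t j₁ / t j₀, hreg j₁⟩ = 0
    rw [h1]
    exact map_zero (evalAt hx v)
  -- renormalise at `j₁`
  have hdiv : ∀ f : F, f / t j₁ = f / t j₀ / (t j₁ / t j₀) := fun f =>
    (div_div_div_cancel_right₀ hj₀ f (t j₁)).symm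
  have hreg₁ : ∀ i, t i / t j₁ ∈ v.toValuationSubring := by
    intro i
    obtain ⟨h, -⟩ := exists_evalAt_div hx v (hreg i) (hreg j₁) hτ1
    rw [hdiv]
    exact h
  have hs₁ : s / t j₁ ∈ v.toValuationSubring := by
    obtain ⟨h, -⟩ := exists_evalAt_div hx v hs (hreg j₁) hτ1
    rw [hdiv]
    exact h
  have hval : ∀ i, evalAt hx v ⟨t i / t j₁, hreg₁ i⟩ = τ i / τ j₁ := by
    intro i
    obtain ⟨h, h'⟩ := exists_evalAt_div hx v (hreg i) (hreg j₁) hτ1
    rw [← h']
    exact evalAt_congr hx v (hdiv _) _ _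
  have hvals : evalAt hx v ⟨s / t j₁, hs₁⟩ = σ / τ j₁ := by
    obtain ⟨h, h'⟩ := exists_evalAt_div hx v hs (hreg j₁) hτ1
    rw [← h']
    exact evalAt_congr hx v (hdiv _) _ _
  have hle : ∀ i, abv (evalAt hx v ⟨t i / t j₁, hreg₁ i⟩) ≤ 1 := by
    intro i
    rw [hval, map_div₀, div_le_one hτ1pos]
    exact hmax i (Finset.mem_univ _)
  obtain ⟨hb1, hb2⟩ := hSn j₁ hj₁ abv A hA
    (fun c hc => hS c (Finset.mem_biUnion.mpr ⟨j₁, Finset.mem_univ _, hc⟩)) v hreg₁ hs₁ hle
  rw [hvals, map_div₀, div_le_iff₀ hτ1pos] at hb1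
  refine ⟨j₁, hb1.trans ?_, fun hna => ?_⟩
  · refine mul_le_mul_of_nonneg_right (mul_le_mul_of_nonneg_right ?_ hA0) hτ1pos.le
    exact_mod_cast Finset.single_le_sum (f := n) (fun _ _ => Nat.zero_le _) (Finset.mem_univ j₁)
  · have := hb2 hna
    rwa [hvals, map_div₀, div_le_iff₀ hτ1pos] at this

end Main

end Fermat.Agent.S17.Model.BPF
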