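import Mathlib
import Fermat.Agent.S17.Model.LiftPencil
import Fermat.Agent.S17.Model.BPF

/-!
# PROJECT H (S17), Part A, A.8: the bound (L1) on the curve

Frame of `Model/Lift`: `K` algebraically closed of characteristic zero, `F/K` a function field,
`f : Fin (n+1) → F` nonzero coordinate functions, `z_v = zvec hx v f i` the lift of the place `v`
in the normalisation of an admissible index `i`.  A finite family of linear forms
`yy : ι → Fin (n+1) → K` is *base point free on the curve* if at every place and every admissible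
index some `yy k (z_v) ≠ 0`.  Then the forms dominate the coordinates:

* `exists_bound_family` : there are a finite set `S ⊆ K` and `N : ℕ` such that for EVERY absolute
  value `abv` of `K` and every `A ≥ 1` dominating `abv` on `S`, at EVERY place `v`, admissible
  `i`, coordinate `j`: `abv (z_v j) ≤ N * A * abv (yy k (z_v))` for some `k`, and
  `abv (z_v j) ≤ A * abv (yy k (z_v))` if `abv` is nonarchimedean;
* `exists_bound_pencil` : **(L1)** for one pencil `(y0, y1)`:
  `abv (z_v j) ≤ N * A * max (abv (y0 (z_v))) (abv (y1 (z_v)))`, with `N = 1` for nonarchimedean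
  `abv` (so `‖z_v‖ ≤ L_v ‖y(z_v)‖` with `L_v = 1` at almost all places of a number field).

Proof (A.8 of the master text): `s := f j`, `t k := formOf f (yy k)`; base point freeness gives
`ord_w (f j) ≥ ν_w = min_k ord_w (t k)` at all places `w`, so `BPF.exists_bound` applies; divide by
`f i` and evaluate (`Lift.ev_formOf`).
-/

set_option autoImplicit false

namespace Fermat.Agent.S17.Model.L1

open AlgebraicCurve Fermat.Agent.S24.FF Fermat.Agent.S18.C.PlaceEval
  Fermat.Agent.S17.Model.Lift

universe u w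

variable {K : Type w} {F : Type u} [Field K] [CharZero K] [IsAlgClosed K] [Field F] [Algebra K F]
  {x : F}
variable {n : ℕ} {f : Fin (n + 1) → F}

/-! ### quotients by a unit at a place, in the language of the total residue map `ev` -/

omit [CharZero K] in
theorem ev_zero (hx : IsFF K x) (v : Place K F) : ev hx v (0 : F) = 0 := by
  rw [ev_of_mem hx v v.toValuationSubring.zero_mem]
  exact map_zero (evalAt hx v)

theorem ev_div_of_ne_zero (hx : IsFF K x) (v : Place K F) {a b : F}
    (ha : a ∈ v.toValuationSubring) (hb : b ∈ v.toValuationSubring) (hne : ev hx v b ≠ 0) :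
    a / b ∈ v.toValuationSubring ∧ ev hx v (a / b) = ev hx v a / ev hx v b := by
  have hne' : evalAt hx v ⟨b, hb⟩ ≠ 0 := by
    rwa [ev_of_mem hx v hb] at hne
  obtain ⟨h, h'⟩ := Fermat.Agent.S17.Model.BPF.exists_evalAt_div hx v ha hb hne'
  exact ⟨h, by rw [ev_of_mem hx v h, ev_of_mem hx v ha, ev_of_mem hx v hb, h']⟩

omit [CharZero K] in
/-- the form `F_a` is a unit multiple of `f i` at `v` as soon as `a (z_v) ≠ 0` -/
theorem formOf_ne_zero_of_dot_ne_zero (hx : IsFF K x) (v : Place K F) (hf : ∀ j, f j ≠ 0)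
    {i : Fin (n + 1)} (hi : Admissible f v i) {a : Fin (n + 1) → K}
    (ha : dot a (zvec hx v f i) ≠ 0) : formOf f a ≠ 0 := by
  intro h0
  apply ha
  have h := ev_formOf hx v hf a hi
  rw [h0, zero_div, ev_zero] at h
  exact h.symm

omit [CharZero K] in
theorem ev_formOf_div (hx : IsFF K x) (v : Place K F) (hf : ∀ j, f j ≠ 0)
    {i : Fin (n + 1)} (hi : Admissible f v i) (a : Fin (n + 1) → K) :
    ev hx v (formOf f a / f i) = dot a (zvec hx v f i) :=
  ev_formOf hx v hf a hi

/-- division by a form which does not vanish at `z_v` -/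
theorem div_formOf_mem (hx : IsFF K x) (v : Place K F) (hf : ∀ j, f j ≠ 0)
    {i : Fin (n + 1)} (hi : Admissible f v i) {a : Fin (n + 1) → K}
    (ha : dot a (zvec hx v f i) ≠ 0) {g : F} (hg : g / f i ∈ v.toValuationSubring) :
    g / formOf f a ∈ v.toValuationSubring ∧
      ev hx v (g / formOf f a) = ev hx v (g / f i) / dot a (zvec hx v f i) := by
  have hne : ev hx v (formOf f a / f i) ≠ 0 := by
    rw [ev_formOf_div hx v hf hi]
    exact ha
  have h := ev_div_of_ne_zero hx v hg (formOf_div_mem v hf a hi) hne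
  have ha0 := formOf_ne_zero_of_dot_ne_zero hx v hf hi ha
  have hdiv : g / f i / (formOf f a / f i) = g / formOf f a :=
    div_div_div_cancel_right₀ (hf i) g (formOf f a)
  rw [hdiv, ev_formOf_div hx v hf hi] at h
  exact h

/-! ### domination of the coordinates by a base point free family of forms -/

/-- a base point free family of linear forms dominates every coordinate function at all places -/
theorem dominated (hx : IsFF K x) (hf : ∀ j, f j ≠ 0) {ι : Type*} (yy : ι → Fin (n + 1) → K)
    (hbpf : ∀ (v : Place K F) (i : Fin (n + 1)), Admissible f v i →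
      ∃ k, dot (yy k) (zvec hx v f i) ≠ 0)
    (j : Fin (n + 1)) (v : Place K F) (k : ι) (hk : formOf f (yy k) ≠ 0)
    (hreg : ∀ k', formOf f (yy k') / formOf f (yy k) ∈ v.toValuationSubring) :
    f j / formOf f (yy k) ∈ v.toValuationSubring := by
  obtain ⟨i, hi⟩ := exists_admissible v f
  obtain ⟨m, hm⟩ := hbpf v i hi
  -- `t k / f i` does not vanish at `v`
  have hmul : formOf f (yy m) / f i =
      formOf f (yy m) / formOf f (yy k) * (formOf f (yy k) / f i) := by
    rw [div_mul_div_cancel₀ hk]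
  have hev : ev hx v (formOf f (yy m) / f i) =
      ev hx v (formOf f (yy m) / formOf f (yy k)) * ev hx v (formOf f (yy k) / f i) := by
    rw [hmul]
    exact ev_mul hx v (hreg m) (formOf_div_mem v hf (yy k) hi)
  have hkne : dot (yy k) (zvec hx v f i) ≠ 0 := by
    intro h0
    apply hm
    rw [← ev_formOf_div hx v hf hi, hev, ev_formOf_div hx v hf hi, h0, mul_zero]
  exact (div_formOf_mem hx v hf hi hkne (div_mem v hf hi j)).1

/-- **(L1), family form.**  The constants `S`, `N` depend neither on the place, nor on the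
admissible index, nor on the absolute value. -/
theorem exists_bound_family (hx : IsFF K x) (hf : ∀ j, f j ≠ 0) {ι : Type*} [Fintype ι]
    (yy : ι → Fin (n + 1) → K)
    (hbpf : ∀ (v : Place K F) (i : Fin (n + 1)), Admissible f v i →
      ∃ k, dot (yy k) (zvec hx v f i) ≠ 0) :
    ∃ (S : Finset K) (N : ℕ), ∀ (abv : AbsoluteValue K ℝ) (A : ℝ), 1 ≤ A →
      (∀ c ∈ S, abv c ≤ A) →
      ∀ (v : Place K F) (i : Fin (n + 1)), Admissible f v i → ∀ j : Fin (n + 1),
        ∃ k, abv (zvec hx v f i j) ≤ N * A * abv (dot (yy k) (zvec hx v f i)) ∧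
          (IsNonarchimedean abv →
            abv (zvec hx v f i j) ≤ A * abv (dot (yy k) (zvec hx v f i))) := by
  classical
  have hex : ∀ j : Fin (n + 1), ∃ (S : Finset K) (N : ℕ), ∀ (abv : AbsoluteValue K ℝ) (A : ℝ),
      1 ≤ A → (∀ c ∈ S, abv c ≤ A) →
      ∀ (v : Place K F) (j₀ : ι) (_ : formOf f (yy j₀) ≠ 0)
        (hreg : ∀ k, formOf f (yy k) / formOf f (yy j₀) ∈ v.toValuationSubring)
        (hs : f j / formOf f (yy j₀) ∈ v.toValuationSubring),
        ∃ k, abv (evalAt hx v ⟨f j / formOf f (yy j₀), hs⟩) ≤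
            N * A * abv (evalAt hx v ⟨formOf f (yy k) / formOf f (yy j₀), hreg k⟩) ∧
          (IsNonarchimedean abv → abv (evalAt hx v ⟨f j / formOf f (yy j₀), hs⟩) ≤
            A * abv (evalAt hx v ⟨formOf f (yy k) / formOf f (yy j₀), hreg k⟩)) := fun j =>
    Fermat.Agent.S17.Model.BPF.exists_bound hx (fun k => formOf f (yy k)) (f j)
      fun v k hk hreg => dominated hx hf yy hbpf j v k hk hreg
  choose S N hSN using hex
  refine ⟨Finset.univ.biUnion S, ∑ j, N j, fun abv A hA hS v i hi j => ?_⟩
  have hA0 : 0 ≤ A := zero_le_one.trans hA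
  obtain ⟨m, hm⟩ := hbpf v i hi
  have htm : formOf f (yy m) ≠ 0 := formOf_ne_zero_of_dot_ne_zero hx v hf hi hm
  have hreg : ∀ k, formOf f (yy k) / formOf f (yy m) ∈ v.toValuationSubring := fun k =>
    (div_formOf_mem hx v hf hi hm (formOf_div_mem v hf (yy k) hi)).1
  have hs : f j / formOf f (yy m) ∈ v.toValuationSubring :=
    (div_formOf_mem hx v hf hi hm (div_mem v hf hi j)).1
  obtain ⟨k, hb1, hb2⟩ := hSN j abv A hA
    (fun c hc => hS c (Finset.mem_biUnion.mpr ⟨j, Finset.mem_univ _, hc⟩)) v m htm hreg hs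
  -- the values
  have hvs : evalAt hx v ⟨f j / formOf f (yy m), hs⟩ =
      zvec hx v f i j / dot (yy m) (zvec hx v f i) := by
    rw [← ev_of_mem hx v hs, (div_formOf_mem hx v hf hi hm (div_mem v hf hi j)).2]
    rfl
  have hvk : evalAt hx v ⟨formOf f (yy k) / formOf f (yy m), hreg k⟩ =
      dot (yy k) (zvec hx v f i) / dot (yy m) (zvec hx v f i) := by
    rw [← ev_of_mem hx v (hreg k),
      (div_formOf_mem hx v hf hi hm (formOf_div_mem v hf (yy k) hi)).2,
      ev_formOf_div hx v hf hi]
  have hpos : 0 < abv (dot (yy m) (zvec hx v f i)) := abv.pos hm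
  rw [hvs, hvk, map_div₀, map_div₀, ← mul_div_assoc, div_le_div_iff_of_pos_right hpos] at hb1
  refine ⟨k, hb1.trans ?_, fun hna => ?_⟩
  · refine mul_le_mul_of_nonneg_right (mul_le_mul_of_nonneg_right ?_ hA0) (abv.nonneg _)
    exact_mod_cast Finset.single_le_sum (f := N) (fun _ _ => Nat.zero_le _) (Finset.mem_univ j)
  · have := hb2 hna
    rwa [hvs, hvk, map_div₀, map_div₀, ← mul_div_assoc, div_le_div_iff_of_pos_right hpos] at this

/-! ### one pencil -/

/-- the two members of a pencil as a family indexed by `Fin 2` -/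
def pen {α : Type*} (y0 y1 : α) : Fin 2 → α := fun k => if k = 0 then y0 else y1

theorem pen_zero {α : Type*} (y0 y1 : α) : pen y0 y1 0 = y0 := rfl

theorem pen_one {α : Type*} (y0 y1 : α) : pen y0 y1 1 = y1 := rfl

omit [CharZero K] [IsAlgClosed K] in
theorem abv_dot_pen_le (abv : AbsoluteValue K ℝ) (y0 y1 z : Fin (n + 1) → K) (k : Fin 2) :
    abv (dot (pen y0 y1 k) z) ≤ max (abv (dot y0 z)) (abv (dot y1 z)) := by
  fin_cases k
  · exact le_max_left _ _
  · exact le_max_right _ _

/-- **(L1) on the curve**, for one base point free pencil `(y0, y1)`: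
`‖z_v‖ ≤ N * A * ‖y(z_v)‖` at every place, every admissible index and every absolute value, and
`‖z_v‖ ≤ A * ‖y(z_v)‖` for nonarchimedean absolute values. -/
theorem exists_bound_pencil (hx : IsFF K x) (hf : ∀ j, f j ≠ 0) (y0 y1 : Fin (n + 1) → K)
    (hbpf : ∀ (v : Place K F) (i : Fin (n + 1)), Admissible f v i →
      dot y0 (zvec hx v f i) ≠ 0 ∨ dot y1 (zvec hx v f i) ≠ 0) :
    ∃ (S : Finset K) (N : ℕ), ∀ (abv : AbsoluteValue K ℝ) (A : ℝ), 1 ≤ A →
      (∀ c ∈ S, abv c ≤ A) →
      ∀ (v : Place K F) (i : Fin (n + 1)), Admissible f v i → ∀ j : Fin (n + 1),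
        abv (zvec hx v f i j) ≤
            N * A * max (abv (dot y0 (zvec hx v f i))) (abv (dot y1 (zvec hx v f i))) ∧
          (IsNonarchimedean abv → abv (zvec hx v f i j) ≤
            A * max (abv (dot y0 (zvec hx v f i))) (abv (dot y1 (zvec hx v f i)))) := by
  have hb : ∀ (v : Place K F) (i : Fin (n + 1)), Admissible f v i →
      ∃ k, dot (pen y0 y1 k) (zvec hx v f i) ≠ 0 := by
    intro v i hi
    rcases hbpf v i hi with h | h
    · exact ⟨0, h⟩
    · exact ⟨1, h⟩
  obtain ⟨S, N, h⟩ := exists_bound_family hx hf (pen y0 y1) hb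
  refine ⟨S, N, fun abv A hA hS v i hi j => ?_⟩
  have hA0 : 0 ≤ A := zero_le_one.trans hA
  obtain ⟨k, h1, h2⟩ := h abv A hA hS v i hi j
  have hk := abv_dot_pen_le abv y0 y1 (zvec hx v f i) k
  refine ⟨h1.trans ?_, fun hna => (h2 hna).trans ?_⟩
  · exact mul_le_mul_of_nonneg_left hk (mul_nonneg (Nat.cast_nonneg _) hA0)
  · exact mul_le_mul_of_nonneg_left hk hA0

end Fermat.Agent.S17.Model.L1
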