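import Mathlib
import Fermat.Agent.S17.Model.L1
import Fermat.Agent.S17.Local.NSSLocal

/-!
# PROJECT H (S17), Part A, A.8: the bound (L1) in the `(T, C)` constant convention

`Model/L1.exists_bound_pencil` re-packaged in the convention of `Local/NSSLocal`, `Model/L3`
(`l2`, `l3`) and `Local/TrivialU`: ONE finite set `T ⊆ K`, and for EVERY absolute value `abv` ONE
constant `L > 0`, with `L = 1` as soon as `abv` is nonarchimedean and `abv c ≤ 1` on `T`.

* `exists_L1_pencil` : one base point free pencil `(y0, y1)`: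
  `supAbv abv (z_v) ≤ L * max (abv (y0 (z_v))) (abv (y1 (z_v)))` at every place and every
  admissible index;
* `exists_L1_family` : the same for `M` pencils with ONE `(T, L)` — literally the hypothesis
  `hL1 : ∀ m, ∀ R ∈ Z, nzX R ≤ L * nyX m R` of `Local/StarMult.star_two_sided_mult` with
  `nzX R := supN abv (zvec R)` (`supN = supAbv` by `rfl`) and `nyX m R := max ..`.
-/

set_option autoImplicit false

namespace Fermat.Agent.S17.Model.L1TC

open AlgebraicCurve Fermat.Agent.S24.FF Fermat.Agent.S17.Model.Lift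
  Fermat.Agent.S17.Local.NSSLocal

universe u w

variable {K : Type w} {F : Type u} [Field K] [CharZero K] [IsAlgClosed K] [Field F] [Algebra K F]
  {x : F}
variable {n : ℕ} {f : Fin (n + 1) → F}

/-- **(L1), one pencil, `(T, C)` convention** -/
theorem exists_L1_pencil (hx : IsFF K x) (hf : ∀ j, f j ≠ 0) (y0 y1 : Fin (n + 1) → K)
    (hbpf : ∀ (v : Place K F) (i : Fin (n + 1)), Admissible f v i →
      dot y0 (zvec hx v f i) ≠ 0 ∨ dot y1 (zvec hx v f i) ≠ 0) :
    ∃ T : Finset K, ∀ abv : AbsoluteValue K ℝ, ∃ L : ℝ, 0 < L ∧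
      (IsNonarchimedean abv → (∀ c ∈ T, abv c ≤ 1) → L = 1) ∧
      ∀ (v : Place K F) (i : Fin (n + 1)), Admissible f v i →
        supAbv abv (zvec hx v f i) ≤
          L * max (abv (dot y0 (zvec hx v f i))) (abv (dot y1 (zvec hx v f i))) := by
  classical
  obtain ⟨S, N, h⟩ := Fermat.Agent.S17.Model.L1.exists_bound_pencil hx hf y0 y1 hbpf
  refine ⟨S, fun abv => ?_⟩
  have hmax : ∀ (v : Place K F) (i : Fin (n + 1)),
      0 ≤ max (abv (dot y0 (zvec hx v f i))) (abv (dot y1 (zvec hx v f i))) := fun v i =>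
    le_max_of_le_left (abv.nonneg _)
  by_cases hgood : IsNonarchimedean abv ∧ ∀ c ∈ S, abv c ≤ 1
  · refine ⟨1, one_pos, fun _ _ => rfl, fun v i hi => ?_⟩
    refine supAbv_le abv (mul_nonneg zero_le_one (hmax v i)) fun j => ?_
    exact (h abv 1 le_rfl hgood.2 v i hi j).2 hgood.1
  · set A : ℝ := 1 + ∑ c ∈ S, abv c with hA
    have hsum : 0 ≤ ∑ c ∈ S, abv c := Finset.sum_nonneg fun c _ => abv.nonneg c
    have hA1 : 1 ≤ A := by rw [hA]; linarith
    have hAS : ∀ c ∈ S, abv c ≤ A := by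
      intro c hc
      have := Finset.single_le_sum (f := fun c => abv c) (fun c _ => abv.nonneg c) hc
      rw [hA]
      linarith
    refine ⟨max 1 ((N : ℝ) * A), lt_of_lt_of_le one_pos (le_max_left _ _),
      fun hna hT1 => absurd ⟨hna, hT1⟩ hgood, fun v i hi => ?_⟩
    refine supAbv_le abv (mul_nonneg (le_trans zero_le_one (le_max_left _ _)) (hmax v i))
      fun j => ?_
    refine (h abv A hA1 hAS v i hi j).1.trans ?_
    exact mul_le_mul_of_nonneg_right (le_max_right _ _) (hmax v i)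

/-- **(L1), `M` pencils, ONE `(T, L)`** = the hypothesis `hL1` of `star_two_sided_mult`. -/
theorem exists_L1_family (hx : IsFF K x) (hf : ∀ j, f j ≠ 0) {M : ℕ}
    (y0 y1 : Fin M → Fin (n + 1) → K)
    (hbpf : ∀ (m : Fin M) (v : Place K F) (i : Fin (n + 1)), Admissible f v i →
      dot (y0 m) (zvec hx v f i) ≠ 0 ∨ dot (y1 m) (zvec hx v f i) ≠ 0) :
    ∃ T : Finset K, ∀ abv : AbsoluteValue K ℝ, ∃ L : ℝ, 0 < L ∧
      (IsNonarchimedean abv → (∀ c ∈ T, abv c ≤ 1) → L = 1) ∧
      ∀ (m : Fin M) (v : Place K F) (i : Fin (n + 1)), Admissible f v i →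
        supAbv abv (zvec hx v f i) ≤
          L * max (abv (dot (y0 m) (zvec hx v f i))) (abv (dot (y1 m) (zvec hx v f i))) := by
  classical
  have hex := fun m => exists_L1_pencil hx hf (y0 m) (y1 m) (hbpf m)
  choose T hT using hex
  refine ⟨Finset.univ.biUnion T, fun abv => ?_⟩
  have hex2 := fun m => hT m abv
  choose L hL0 hL1 hL using hex2
  have hsub : ∀ m, ∀ c ∈ T m, c ∈ Finset.univ.biUnion T := fun m c hc =>
    Finset.mem_biUnion.mpr ⟨m, Finset.mem_univ m, hc⟩
  by_cases hgood : IsNonarchimedean abv ∧ ∀ c ∈ Finset.univ.biUnion T, abv c ≤ 1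
  · refine ⟨1, one_pos, fun _ _ => rfl, fun m v i hi => ?_⟩
    have h1 : L m = 1 := hL1 m hgood.1 fun c hc => hgood.2 c (hsub m c hc)
    have := hL m v i hi
    rwa [h1] at this
  · have hsum : ∀ m, L m ≤ ∑ m', L m' :=
      fun m => Finset.single_le_sum (f := L) (fun m' _ => (hL0 m').le) (Finset.mem_univ m)
    have hsum0 : 0 ≤ ∑ m', L m' := Finset.sum_nonneg fun m' _ => (hL0 m').le
    refine ⟨1 + ∑ m', L m', by linarith, fun hna hT1 => absurd ⟨hna, hT1⟩ hgood,
      fun m v i hi => ?_⟩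
    refine (hL m v i hi).trans ?_
    refine mul_le_mul_of_nonneg_right ?_ (le_max_of_le_left (abv.nonneg _))
    linarith [hsum m]

end Fermat.Agent.S17.Model.L1TC
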