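import Mathlib
import Fermat.Agent.S17.Model.Lift
import Fermat.Agent.S17.Model.ConePoint
import Fermat.Agent.S17.Local.NSSLocal

/-!
# PROJECT H (S17), Part A, A.11 = (L3): the lower bound for a family of bihomogeneous forms on the
curve, abstract in the family

`f : Fin (n+1) → F` nonzero coordinate functions, `coneIdeal f` the ideal generated by the
homogeneous relations among the `f j`.  Its zero locus is the cone over the set of lifts `zvec`
(`mem_cone_iff`).  For a finite family `Φ m` of polynomials in `(a, x)`, bihomogeneous of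
bidegree `(d₁, d₂)`, such that for every `a ≠ 0` and every place `v` some `Φ m (a, z_v) ≠ 0`
(A.10), there is ONE finite set `T ⊆ K` such that for every absolute value `abv` of `K`

  `‖a‖ ^ d₁ * ‖z_v‖ ^ d₂ ≤ C(abv) * max_m |Φ m (a, z_v)|`,

`C(abv) = 1` if `abv` is nonarchimedean and `≤ 1` on `T` (`l3`).
The same for forms in `a` alone without nontrivial common zero (`l2`, A.9).
-/

set_option autoImplicit false

namespace Fermat.Agent.S17.Model.L3

open AlgebraicCurve MvPolynomial Fermat.Agent.S24.FF Fermat.Agent.S18.C.PlaceEval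
  Fermat.Agent.S17.Model.Lift Fermat.Agent.S17.Model.ConePoint Fermat.Agent.S17.Local.NSSLocal

universe u w

variable {K : Type w} {F : Type u} [Field K] [CharZero K] [IsAlgClosed K] [Field F] [Algebra K F]
variable {x : F} {n : ℕ}

/-- the ideal generated by the homogeneous relations among the `f j` -/
noncomputable def coneIdeal (f : Fin (n + 1) → F) : Ideal (MvPolynomial (Fin (n + 1)) K) :=
  Ideal.span {p | ∃ d, p.IsHomogeneous d ∧ aeval f p = 0}

omit [CharZero K] [IsAlgClosed K] in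
theorem mem_zeroLocus_coneIdeal_iff (f : Fin (n + 1) → F) (q : Fin (n + 1) → K) :
    q ∈ zeroLocus K (coneIdeal (K := K) f) ↔
      ∀ (d : ℕ) (p : MvPolynomial (Fin (n + 1)) K), p.IsHomogeneous d → aeval f p = 0 →
        eval q p = 0 := by
  unfold coneIdeal
  rw [zeroLocus_span]
  constructor
  · intro h d p hp h0
    have := h p ⟨d, hp, h0⟩
    rwa [aeval_eq_eval] at this
  · rintro h p ⟨d, hp, h0⟩
    rw [aeval_eq_eval]
    exact h d p hp h0

omit [CharZero K] [IsAlgClosed K] in
/-- the zero locus of `coneIdeal f` is a cone -/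
theorem smul_mem_cone (f : Fin (n + 1) → F) {q : Fin (n + 1) → K}
    (hq : q ∈ zeroLocus K (coneIdeal (K := K) f)) (t : K) :
    t • q ∈ zeroLocus K (coneIdeal (K := K) f) :=
  smul_mem_zeroLocus_span (fun _ hp => ⟨hp.choose, hp.choose_spec.1⟩) hq t

variable (hx : IsFF K x) {f : Fin (n + 1) → F}

omit [CharZero K] [IsAlgClosed K] in
/-- an index `i` such that all `f j / f i` are regular at `v` is admissible -/
theorem admissible_of_div_mem (hf : ∀ j, f j ≠ 0) {v : Place K F} {i : Fin (n + 1)}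
    (h : ∀ j, f j / f i ∈ v.toValuationSubring) : Admissible f v i := by
  intro j
  have h1 := (mem_iff_ord_nonneg v (div_ne_zero (hf j) (hf i))).mp (h j)
  rw [ord_div v hf] at h1
  omega

/-- the lifts of the places lie on the cone -/
theorem zvec_mem_cone (hf : ∀ j, f j ≠ 0) {v : Place K F} {i : Fin (n + 1)}
    (hi : Admissible f v i) : zvec hx v f i ∈ zeroLocus K (coneIdeal (K := K) f) := by
  rw [mem_zeroLocus_coneIdeal_iff]
  intro d p hp h0
  have hreg : ∀ j, f j / f i ∈ v.toValuationSubring := fun j => div_mem v hf hi j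
  have := eval_eq_zero_of_place hx f v i (hf i) hreg 1 hp h0
  have hz : zvec hx v f i = fun j => 1 * evalAt hx v ⟨f j / f i, hreg j⟩ := by
    funext j
    rw [one_mul]
    exact ev_of_mem hx v (hreg j)
  rw [hz]
  exact this

/-- **(CP) in `zvec` language**: a nonzero point of the cone is a multiple of a lift of a place -/
theorem exists_zvec_of_mem_cone (hf : ∀ j, f j ≠ 0) {q : Fin (n + 1) → K} (hq : q ≠ 0)
    (hmem : q ∈ zeroLocus K (coneIdeal (K := K) f)) :
    ∃ (v : Place K F) (i : Fin (n + 1)) (c : K), c ≠ 0 ∧ Admissible f v i ∧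
      q = c • zvec hx v f i := by
  rw [mem_zeroLocus_coneIdeal_iff] at hmem
  obtain ⟨v, i, c, hreg, hc, -, hqj⟩ := exists_place_of_zero hx f q hq hmem
  refine ⟨v, i, c, hc, admissible_of_div_mem hf hreg, ?_⟩
  funext j
  rw [hqj j, Pi.smul_apply, smul_eq_mul]
  congr 1
  exact (ev_of_mem hx v (hreg j)).symm

/-- **(L3) = A.11, abstract in the family `Φ`** -/
theorem l3 (hf : ∀ j, f j ≠ 0) {ι : Type*} [Finite ι]
    (Φ : ι → MvPolynomial (Fin (n + 1) ⊕ Fin (n + 1)) K) (d₁ d₂ : ℕ)
    (hΦ : ∀ (m : ι) (s t : K) (a z : Fin (n + 1) → K),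
      aeval (Sum.elim (s • a) (t • z)) (Φ m) = s ^ d₁ * t ^ d₂ * aeval (Sum.elim a z) (Φ m))
    (hcount : ∀ (a : Fin (n + 1) → K), a ≠ 0 → ∀ (v : Place K F) (i : Fin (n + 1)),
      Admissible f v i → ∃ m, aeval (Sum.elim a (zvec hx v f i)) (Φ m) ≠ 0) :
    ∃ T : Finset K, ∀ abv : AbsoluteValue K ℝ, ∃ C : ℝ, 0 < C ∧
      (IsNonarchimedean abv → (∀ c ∈ T, abv c ≤ 1) → C = 1) ∧
      ∀ (a : Fin (n + 1) → K), a ≠ 0 → ∀ (v : Place K F) (i : Fin (n + 1)),
        Admissible f v i →
        supAbv abv a ^ d₁ * supAbv abv (zvec hx v f i) ^ d₂ ≤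
          C * supAbv abv (fun m => aeval (Sum.elim a (zvec hx v f i)) (Φ m)) := by
  obtain ⟨T, hT⟩ := bihom_lower_bound (k := K) (K := K) Φ d₁ d₂ hΦ (coneIdeal (K := K) f)
    (fun q hq t => smul_mem_cone f hq t)
    (fun a q ha hq hmem => by
      obtain ⟨v, i, c, hc, hi, rfl⟩ := exists_zvec_of_mem_cone hx hf hq hmem
      obtain ⟨m, hm⟩ := hcount a ha v i hi
      refine ⟨m, ?_⟩
      have := hΦ m 1 c a (zvec hx v f i)
      rw [one_smul, one_pow, one_mul] at this
      rw [this]
      exact mul_ne_zero (pow_ne_zero _ hc) hm)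
  refine ⟨T, fun abv => ?_⟩
  obtain ⟨C, hC0, hC1, hC⟩ := hT abv
  refine ⟨C, hC0, fun hna hT1 => hC1 hna fun c hc => ?_, fun a ha v i hi => ?_⟩
  · simpa using hT1 c hc
  · exact hC a (zvec hx v f i) ha (zvec_ne_zero hx v hf i) (zvec_mem_cone hx hf hi)

omit [CharZero K] in
/-- **(L2) = A.9, abstract in the family**: homogeneous forms in `a` of degree `d` without
nontrivial common zero -/
theorem l2 {ι : Type*} [Finite ι] (N : ι → MvPolynomial (Fin (n + 1)) K) (d : ℕ)
    (hN : ∀ m, (N m).IsHomogeneous d)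
    (h0 : ∀ a : Fin (n + 1) → K, (∀ m, eval a (N m) = 0) → a = 0) :
    ∃ T : Finset K, ∀ abv : AbsoluteValue K ℝ, ∃ C : ℝ, 0 < C ∧
      (IsNonarchimedean abv → (∀ c ∈ T, abv c ≤ 1) → C = 1) ∧
      ∀ (a : Fin (n + 1) → K), a ≠ 0 →
        supAbv abv a ^ d ≤ C * supAbv abv (fun m => eval a (N m)) := by
  obtain ⟨T, hT⟩ := hom_lower_bound (k := K) (K := K) N d hN ⊥
    (fun q _ t => by
      intro p hp
      rw [Ideal.mem_bot] at hp
      rw [hp, map_zero])
    (fun a ha _ => by
      by_contra hcon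
      push Not at hcon
      exact ha (h0 a fun m => by rw [← aeval_eq_eval]; exact hcon m))
  refine ⟨T, fun abv => ?_⟩
  obtain ⟨C, hC0, hC1, hC⟩ := hT abv
  refine ⟨C, hC0, fun hna hT1 => hC1 hna fun c hc => ?_, fun a ha => ?_⟩
  · simpa using hT1 c hc
  · have := hC a ha (by
      intro p hp
      rw [Ideal.mem_bot] at hp
      rw [hp, map_zero])
    simpa only [aeval_eq_eval] using this

end Fermat.Agent.S17.Model.L3
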