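import Mathlib
import Fermat.Agent.S17.Model.Zeros
import Fermat.Agent.S17.Model.PencilsX
import Fermat.Agent.S17.Local.Pigeonhole

/-!
# PROJECT H (S17), Part A, A.10: the count

`M` pencils in general position, `(r - 1) * δ < M`.  For every linear form `a` (`F_a ≠ 0`) and
every place `P` there is ONE pencil `m` such that `⟨λ^(m), τ_P⟩ ≠ 0` (if `P` is a zero of `a`) and
`⟨λ^(m), z_R ∧ z_P⟩ ≠ 0` for every zero `R ≠ P` of `a`.
-/

set_option autoImplicit false

namespace Fermat.Agent.S17.Model.Count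

open AlgebraicCurve Fermat.Agent.S24.FF Fermat.Agent.S18.NonSpecial
  Fermat.Agent.S17.Model.Lift Fermat.Agent.S17.Model.Embed Fermat.Agent.S17.Model.Zeros
  Fermat.Agent.S17.Local Fermat.Agent.S17.Local.GeneralPosition
  Fermat.Agent.S17.Local.PencilsExt

section Abstract

variable {Ω : Type*} [Field Ω]

/-- **exact pigeonhole**: `M` functionals on `Ω^r`, any `r` of them a basis, `(r - 1) * d < M`;
for any `d` nonzero vectors ONE functional does not vanish on any of them. -/
theorem exists_index_pair_ne_zero {M r d : ℕ} (lam : Fin M → Fin r → Ω)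
    (hbasis : ∀ e : Fin r ↪ Fin M, (subMat lam e).det ≠ 0) (hM : (r - 1) * d < M)
    (w : Fin d → Fin r → Ω) (hw : ∀ k, w k ≠ 0) : ∃ m : Fin M, ∀ k, pair (lam m) (w k) ≠ 0 := by
  classical
  obtain ⟨c0, hc0, h⟩ :=
    exists_const_forall_exists_index (AbsoluteValue.trivial (R := Ω) (S := ℝ)) lam hbasis hM
  obtain ⟨m, hm⟩ := h w
  refine ⟨m, fun k hk => ?_⟩
  have h1 := hm k
  rw [hk, map_zero] at h1
  obtain ⟨i, hi⟩ := Function.ne_iff.mp (hw k)
  have h2 : (1 : ℝ) ≤ supN (AbsoluteValue.trivial (R := Ω) (S := ℝ)) (w k) := by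
    have := le_supN (AbsoluteValue.trivial (R := Ω) (S := ℝ)) (w k) i
    rwa [AbsoluteValue.trivial_apply hi] at this
  have : 0 < c0 * supN (AbsoluteValue.trivial (R := Ω) (S := ℝ)) (w k) := by positivity
  linarith

/-- the same for a family of nonzero vectors indexed by a finset of size `≤ d` -/
theorem exists_index_pair_ne_zero_finset {M r d : ℕ} (lam : Fin M → Fin r → Ω)
    (hbasis : ∀ e : Fin r ↪ Fin M, (subMat lam e).det ≠ 0) (hM : (r - 1) * d < M)
    {X : Type*} (Z : Finset X) (hZ : Z.card ≤ d) (w : X → Fin r → Ω) (hw : ∀ R ∈ Z, w R ≠ 0) :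
    ∃ m : Fin M, ∀ R ∈ Z, pair (lam m) (w R) ≠ 0 := by
  classical
  have hM' : (r - 1) * Z.card < M := lt_of_le_of_lt (Nat.mul_le_mul_left _ hZ) hM
  obtain ⟨m, hm⟩ := exists_index_pair_ne_zero lam hbasis hM'
    (fun k => w (Z.equivFin.symm k)) (fun k => hw _ (Z.equivFin.symm k).2)
  refine ⟨m, fun R hR => ?_⟩
  have := hm (Z.equivFin ⟨R, hR⟩)
  rwa [Equiv.symm_apply_apply] at this

end Abstract

universe u w

variable {K : Type w} {F : Type u} [Field K] [Field F] [Algebra K F]
variable {n : ℕ} {f : Fin (n + 1) → F} {D0 : Divisor K F}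

/-- the bridge: `pair (plLam m) (u ∧ w)` is the `2 × 2` determinant `pair2` -/
theorem pair_plLam_wedgeFin {k : Type*} [Field k] [Algebra k K] {M : ℕ}
    (y : Fin M → (Fin 2 × Fin (n + 1) → k)) (m : Fin M) (u w : Fin (n + 1) → K) :
    pair (plLam K y m) (wedgeFin K u w) =
      pair2 (fun j => algebraMap k K (y m (0, j))) (fun j => algebraMap k K (y m (1, j))) u w := by
  unfold pair
  rw [sum_plLam_mul_wedgeFin]
  unfold pair2 dot
  ring

theorem wedgeFin_ne_zero_of_wedge {u w : Fin (n + 1) → K} (h : wedge u w ≠ 0) :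
    wedgeFin K u w ≠ 0 := by
  intro h0
  apply h
  rw [wedgeFin_eq_zero_iff] at h0
  funext p
  rw [wedge_apply]
  exact h0 p.1 p.2

variable [IsAlgClosed K] {x : F} (hx : IsFF K x)

/-- **A.10 (the count).** -/
theorem exists_pencil_ne_zero [HasPrincipalDivisors K F] (h : IsModel f D0)
    {k : Type*} [Field k] [Algebra k K] {M : ℕ} (y : Fin M → (Fin 2 × Fin (n + 1) → k))
    (hgp : ∀ s : PlIdx n → Fin M, Function.Injective s →
      (Matrix.of fun (a b : PlIdx n) =>
        y (s a) (0, b.1.1) * y (s a) (1, b.1.2) - y (s a) (0, b.1.2) * y (s a) (1, b.1.1)).det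
        ≠ 0)
    {δ : ℕ} (hδ : Divisor.degree D0 = δ) (hM : (Fintype.card (PlIdx n) - 1) * δ < M)
    (a : Fin (n + 1) → K) (ha : formOf f a ≠ 0)
    (P : Place K F) {i : Fin (n + 1)} (hi : Admissible f P i) {s : F} (hs : P.ord s = 1)
    (iR : Place K F → Fin (n + 1)) (hiR : ∀ R, Admissible f R (iR R)) :
    ∃ m : Fin M,
      (0 < multAt f a P →
        pair2 (fun j => algebraMap k K (y m (0, j))) (fun j => algebraMap k K (y m (1, j)))
          (zvec hx P f i) (dvec hx P f i s) ≠ 0) ∧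
      ∀ R : Place K F, 0 < multAt f a R → R ≠ P →
        pair2 (fun j => algebraMap k K (y m (0, j))) (fun j => algebraMap k K (y m (1, j)))
          (zvec hx R f (iR R)) (zvec hx P f i) ≠ 0 := by
  classical
  obtain ⟨Z, hZ, -⟩ := exists_zeros h a ha
  have hcard : Z.card ≤ δ := by
    have := card_zeros_le h a ha (Z := Z) fun v hv => (hZ v).mp hv
    rw [hδ] at this
    exact_mod_cast this
  set w : Place K F → Fin (Fintype.card (PlIdx n)) → K := fun R =>
    if R = P then wedgeFin K (zvec hx P f i) (dvec hx P f i s)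
    else wedgeFin K (zvec hx R f (iR R)) (zvec hx P f i) with hw
  have hwne : ∀ R ∈ Z, w R ≠ 0 := by
    intro R _
    by_cases hRP : R = P
    · simp only [hw, if_pos hRP]
      exact wedgeFin_ne_zero_of_wedge (Embed.tauvec_ne_zero hx h P hi hs)
    · simp only [hw, if_neg hRP]
      exact wedgeFin_ne_zero_of_wedge (Embed.wedge_zvec_ne_zero hx h hRP (hiR R) hi)
  obtain ⟨m, hm⟩ := exists_index_pair_ne_zero_finset (plLam K y)
    (fun e => det_plLam_ne_zero K y hgp e) hM Z hcard w hwne
  refine ⟨m, fun hP => ?_, fun R hR hRP => ?_⟩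
  · have := hm P ((hZ P).mpr hP)
    simp only [hw, if_pos rfl] at this
    rwa [pair_plLam_wedgeFin] at this
  · have := hm R ((hZ R).mpr hR)
    simp only [hw, if_neg hRP] at this
    rwa [pair_plLam_wedgeFin] at this

end Fermat.Agent.S17.Model.Count
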