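import Mathlib
import Fermat.Agent.S17.Model.LiftPencil

/-!
# PROJECT H (S17), Part A: the identity (N') from a factorisation in the function field

Frame of `Model/Lift`: `K` algebraically closed, `F/K`, `hx : IsFF K x`, coordinate functions
`f : Fin (n+1) → F`, a place `P`, an admissible index `i`, a uniformizer `s`.

INPUT: an identity in `F`
`F_a * G = c' * L_P ^ μ * ∏ R ∈ Z', L_R ^ mult R`,  `L_R := formOf f (pencilVec y0 y1 (zR R))`,
`L_P := formOf f (pencilVec y0 y1 z_P)`, with `μ = multAt f a P`, `μ + ∑ mult = d`, and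
`G / f_i ^ (d - 1)` regular at `P`.

OUTPUT (N'): `a_μ * (G / f_i ^ (d - 1))(P) = c' * ⟨λ, τ_P⟩ ^ μ * ∏ R ∈ Z', ⟨λ, z_R ∧ z_P⟩ ^ mult R`.
-/

set_option autoImplicit false

namespace Fermat.Agent.S17.Model.NPrimeEval

open AlgebraicCurve Fermat.Agent.S24.FF Fermat.Agent.S24.Ord Fermat.Agent.S18.C.PlaceEval
  Fermat.Agent.S17.Model.Lift

universe u w

variable {K : Type w} {F : Type u} [Field K] [Field F] [Algebra K F] [IsAlgClosed K] {x : F}
variable {n : ℕ}

section Place

variable (hx : IsFF K x) (P : Place K F) {f : Fin (n + 1) → F}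

/-- the value at `P` of a product of pencil forms through points `zR R`, each divided by `f_i` -/
theorem ev_prod_pencil_off (hf : ∀ j, f j ≠ 0) (y0 y1 : Fin (n + 1) → K) {i : Fin (n + 1)}
    (hi : Admissible f P i) {ι : Type*} (Z' : Finset ι) (zR : ι → Fin (n + 1) → K)
    (mult : ι → ℕ) :
    (∏ R ∈ Z', (formOf f (pencilVec y0 y1 (zR R)) / f i) ^ mult R) ∈ P.toValuationSubring ∧
    ev hx P (∏ R ∈ Z', (formOf f (pencilVec y0 y1 (zR R)) / f i) ^ mult R) =
      ∏ R ∈ Z', pair2 y0 y1 (zR R) (zvec hx P f i) ^ mult R := by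
  have hmem : ∀ R ∈ Z', (formOf f (pencilVec y0 y1 (zR R)) / f i) ^ mult R ∈
      P.toValuationSubring := fun R _ => pow_mem (formOf_div_mem P hf _ hi) _
  refine ⟨prod_mem hmem, ?_⟩
  rw [ev_prod hx P _ _ hmem]
  refine Finset.prod_congr rfl fun R _ => ?_
  rw [ev_pow hx P (formOf_div_mem P hf _ hi), ev_pencil_off hx P hf y0 y1 (zR R) hi]

/-- the diagonal pencil form divided by `f_i * s` is regular at `P` -/
theorem pencil_diag_mem (hf : ∀ j, f j ≠ 0) (y0 y1 : Fin (n + 1) → K) {i : Fin (n + 1)}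
    (hi : Admissible f P i) {s : F} (hs : P.ord s = 1) :
    formOf f (pencilVec y0 y1 (zvec hx P f i)) / f i / s ∈ P.toValuationSubring := by
  set b := pencilVec y0 y1 (zvec hx P f i) with hb
  have hdot : ∑ j, b j * zvec hx P f i j = 0 := dot_pencilVec_self y0 y1 _
  have key : formOf f b / f i / s
      = ∑ j, algebraMap K F (b j) * ((f j / f i - algebraMap K F (zvec hx P f i j)) / s) := by
    have h0 : formOf f b / f i = formOf f b / f i - algebraMap K F (∑ j, b j * zvec hx P f i j) := by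
      rw [hdot, map_zero, sub_zero]
    rw [h0, formOf_div hf, map_sum, ← Finset.sum_sub_distrib, Finset.sum_div]
    refine Finset.sum_congr rfl fun j _ => ?_
    rw [map_mul]
    ring
  rw [key]
  exact sum_mem fun j _ => mul_mem (P.algebraMap_mem' _) (dvec_mem hx P hf hi hs j)

/-- **(N')** from a factorisation in `F`. -/
theorem nprime_of_factor (hf : ∀ j, f j ≠ 0) (y0 y1 : Fin (n + 1) → K) {i : Fin (n + 1)}
    (hi : Admissible f P i) {s : F} (hs : P.ord s = 1)
    (a : Fin (n + 1) → K) (ha : formOf f a ≠ 0) (G : F) (d μ : ℕ)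
    (hμ : multAt f a P = (μ : ℤ)) (hd0 : 0 < d)
    (hG : G / f i ^ (d - 1) ∈ P.toValuationSubring)
    (c' : K) {ι : Type*} (Z' : Finset ι) (zR : ι → Fin (n + 1) → K) (mult : ι → ℕ)
    (hd : μ + ∑ R ∈ Z', mult R = d)
    (hid : formOf f a * G = algebraMap K F c' *
      formOf f (pencilVec y0 y1 (zvec hx P f i)) ^ μ *
        ∏ R ∈ Z', formOf f (pencilVec y0 y1 (zR R)) ^ mult R) :
    lcAt hx P f a i s * ev hx P (G / f i ^ (d - 1)) =
      c' * pair2 y0 y1 (zvec hx P f i) (dvec hx P f i s) ^ μ *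
        ∏ R ∈ Z', pair2 y0 y1 (zR R) (zvec hx P f i) ^ mult R := by
  have hs0 : s ≠ 0 := ne_zero_of_ord_eq_one P hs
  have hfi : f i ≠ 0 := hf i
  -- the argument of `lcAt` is regular
  have hA : formOf f a / (f i * s ^ multAt f a P) ∈ P.toValuationSubring :=
    mem_of_ord_nonneg P (ord_lcArg P hf a hi ha hs).ge
  obtain ⟨hoffmem, hoff⟩ := ev_prod_pencil_off hx P hf y0 y1 hi Z' zR mult
  have hdiagmem := pencil_diag_mem hx P hf y0 y1 hi hs
  have hdiag := ev_pencil_diag hx P hf y0 y1 hi hs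
  -- the algebraic identity after division
  have hsplit : f i ^ d = f i * f i ^ (d - 1) := by
    rw [← pow_succ']
    congr 1
    omega
  have hpow : f i ^ d = f i ^ μ * ∏ R ∈ Z', f i ^ mult R := by
    rw [Finset.prod_pow_eq_pow_sum, ← pow_add, hd]
  have key : formOf f a / (f i * s ^ multAt f a P) * (G / f i ^ (d - 1)) =
      algebraMap K F c' * (formOf f (pencilVec y0 y1 (zvec hx P f i)) / f i / s) ^ μ *
        ∏ R ∈ Z', (formOf f (pencilVec y0 y1 (zR R)) / f i) ^ mult R := by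
    rw [hμ, zpow_natCast]
    have e1 : formOf f a / (f i * s ^ μ) * (G / f i ^ (d - 1)) =
        (formOf f a * G) / (f i ^ d * s ^ μ) := by
      rw [hsplit]
      field_simp
    rw [e1, hid, hpow]
    simp only [div_pow, Finset.prod_div_distrib]
    have hprod : ∏ R ∈ Z', f i ^ mult R ≠ 0 :=
      Finset.prod_ne_zero_iff.mpr fun R _ => pow_ne_zero _ hfi
    field_simp
  unfold lcAt
  rw [← ev_mul hx P hA hG, key,
    ev_mul hx P (mul_mem (P.algebraMap_mem' c') (pow_mem hdiagmem μ)) hoffmem,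
    ev_mul hx P (P.algebraMap_mem' c') (pow_mem hdiagmem μ), ev_algebraMap,
    ev_pow hx P hdiagmem, hdiag, hoff]

end Place

end Fermat.Agent.S17.Model.NPrimeEval
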