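import Mathlib
import Fermat.Agent.S17.Model.LiftPencil
import Fermat.Agent.S17.Norm.NormPoly

/-!
# PROJECT H (S17), Part A, A.4: the norm form as a product over ALL zeros, homogeneous form

Frame of `Model/Lift` (+ `CharZero K`, `HasPrincipalDivisors K F` for the norm formula (N1)):
coordinate functions `f`, a base point free pencil `(y0, y1)`, `Y_k := formOf f y_k`,
`t := Y1 / Y0`.  For `a` with `F_a ≠ 0` let `Np : K[X]` be ANY polynomial with
`aeval t Np = Norm_{F/K(t)} (F_a / Y0)`, `Z` the finite set of zeros of `F_a`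
(`v ∈ Z ↔ 0 < multAt f a v`) with `∑ multAt = d`, and `z_R := zvec hx R f (iR R)` lifts.  Then

* `Np = C c * ∏ R ∈ Z, (C (y0·z_R) * X + C (-(y1·z_R))) ^ m_R`   (in `K[X]`), and
* `Y0 ^ d * aeval t Np = c * ∏ R ∈ Z, formOf f (pencilVec y0 y1 z_R) ^ m_R`   (in `F`),

with ONE constant `c ≠ 0`; the zeros on `Z(y0)` (poles of `t`) are included, their factors are
the constants `-(y1·z_R)`.
-/

set_option autoImplicit false
set_option linter.unusedSectionVars false

namespace Fermat.Agent.S17.Model.NormFactor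

open AlgebraicCurve IntermediateField Polynomial
open Fermat.Agent.S24.FF Fermat.Agent.S24.Ord Fermat.Agent.S18.C.PlaceEval
  Fermat.Agent.S17.Model.Lift

universe u w

variable {K : Type w} {F : Type u} [Field K] [Field F] [Algebra K F] [IsAlgClosed K] {x : F}
variable {n : ℕ}

section Forms

variable {f : Fin (n + 1) → F}

omit [IsAlgClosed K] in
theorem formOf_add (a b : Fin (n + 1) → K) : formOf f (a + b) = formOf f a + formOf f b := by
  unfold formOf
  rw [← Finset.sum_add_distrib]
  exact Finset.sum_congr rfl fun j _ => by rw [Pi.add_apply, map_add, add_mul]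

omit [IsAlgClosed K] in
theorem formOf_smul (c : K) (a : Fin (n + 1) → K) :
    formOf f (c • a) = algebraMap K F c * formOf f a := by
  unfold formOf
  rw [Finset.mul_sum]
  exact Finset.sum_congr rfl fun j _ => by rw [Pi.smul_apply, smul_eq_mul, map_mul, mul_assoc]

omit [IsAlgClosed K] in
theorem formOf_neg (a : Fin (n + 1) → K) : formOf f (-a) = -formOf f a := by
  unfold formOf
  rw [← Finset.sum_neg_distrib]
  exact Finset.sum_congr rfl fun j _ => by rw [Pi.neg_apply, map_neg, neg_mul]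

omit [IsAlgClosed K] in
theorem formOf_sub (a b : Fin (n + 1) → K) : formOf f (a - b) = formOf f a - formOf f b := by
  rw [sub_eq_add_neg, formOf_add, formOf_neg, sub_eq_add_neg]

omit [IsAlgClosed K] in
/-- the pencil form through `z`, as an element of `F` -/
theorem formOf_pencilVec (y0 y1 z : Fin (n + 1) → K) :
    formOf f (pencilVec y0 y1 z) =
      algebraMap K F (dot y0 z) * formOf f y1 - algebraMap K F (dot y1 z) * formOf f y0 := by
  unfold pencilVec
  rw [formOf_sub, formOf_smul, formOf_smul]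

end Forms

section Pencil

variable (hx : IsFF K x) {f : Fin (n + 1) → F} (hf : ∀ j, f j ≠ 0) (y0 y1 : Fin (n + 1) → K)

omit [IsAlgClosed K] in
theorem ord_formOf_eq (a : Fin (n + 1) → K) (v : Place K F) :
    v.ord (formOf f a) = multAt f a v + nuAt f v := by
  unfold multAt
  ring

omit [IsAlgClosed K] in
/-- the order of a quotient of two forms -/
theorem ord_formOf_div {a b : Fin (n + 1) → K} (ha : formOf f a ≠ 0) (hb : formOf f b ≠ 0)
    (v : Place K F) : v.ord (formOf f a / formOf f b) = multAt f a v - multAt f b v := by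
  rw [div_eq_mul_inv, v.ord_mul ha (inv_ne_zero hb), v.ord_inv, ord_formOf_eq, ord_formOf_eq]
  ring

/-- base point freeness of the pencil `(y0, y1)` on the curve -/
def Bpf : Prop := ∀ (v : Place K F) (i : Fin (n + 1)), Admissible f v i →
  dot y0 (zvec hx v f i) ≠ 0 ∨ dot y1 (zvec hx v f i) ≠ 0

variable {y0 y1}

include hf

theorem dot_ne_zero_iff {a : Fin (n + 1) → K} (ha : formOf f a ≠ 0) {v : Place K F}
    {i : Fin (n + 1)} (hi : Admissible f v i) :
    dot a (zvec hx v f i) ≠ 0 ↔ multAt f a v = 0 :=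
  sum_mul_zvec_ne_zero_iff hx v hf a hi ha

theorem multAt_y1_eq_zero (hb : Bpf hx (f := f) y0 y1) (h0 : formOf f y0 ≠ 0)
    (h1 : formOf f y1 ≠ 0) {v : Place K F} (hpos : multAt f y0 v ≠ 0) : multAt f y1 v = 0 := by
  obtain ⟨i, hi⟩ := exists_admissible v f
  rcases hb v i hi with h | h
  · exact absurd ((dot_ne_zero_iff hx hf h0 hi).mp h) hpos
  · exact (dot_ne_zero_iff hx hf h1 hi).mp h

/-- `t = Y1 / Y0` is regular at `v` exactly when `v` is not a zero of `Y0` -/
theorem t_regular_iff (hb : Bpf hx (f := f) y0 y1) (h0 : formOf f y0 ≠ 0)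
    (h1 : formOf f y1 ≠ 0) (v : Place K F) :
    v.adicValuation (formOf f y1 / formOf f y0) ≤ 1 ↔ multAt f y0 v = 0 := by
  rw [← ord_nonneg_iff v (div_ne_zero h1 h0), ord_formOf_div h1 h0]
  have hn0 := multAt_nonneg v hf y0 h0
  have hn1 := multAt_nonneg v hf y1 h1
  constructor
  · intro h
    by_contra hne
    have := multAt_y1_eq_zero hx hf hb h0 h1 hne
    omega
  · intro h
    omega

/-- the value of `t` at a place off `Z(y0)` -/
theorem ev_t (h0 : formOf f y0 ≠ 0) {v : Place K F} {i : Fin (n + 1)} (hi : Admissible f v i)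
    (htreg : formOf f y1 / formOf f y0 ∈ v.toValuationSubring) :
    ev hx v (formOf f y1 / formOf f y0) * dot y0 (zvec hx v f i) = dot y1 (zvec hx v f i) := by
  have e0 : dot y0 (zvec hx v f i) = ev hx v (formOf f y0 / f i) := (ev_formOf hx v hf y0 hi).symm
  have e1 : dot y1 (zvec hx v f i) = ev hx v (formOf f y1 / f i) := (ev_formOf hx v hf y1 hi).symm
  rw [e0, e1, ← ev_mul hx v htreg (formOf_div_mem v hf y0 hi)]
  congr 1
  have := hf i
  field_simp

end Pencil

section Main

variable [CharZero K] [HasPrincipalDivisors K F]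
variable (hx : IsFF K x) {f : Fin (n + 1) → F} (hf : ∀ j, f j ≠ 0) {y0 y1 : Fin (n + 1) → K}

include hf

/-- **A.4, both forms.** -/
theorem exists_factor (hb : Bpf hx (f := f) y0 y1) (h0 : formOf f y0 ≠ 0) (h1 : formOf f y1 ≠ 0)
    (ht : IsFF K (formOf f y1 / formOf f y0))
    (a : Fin (n + 1) → K) (ha : formOf f a ≠ 0) (Np : Polynomial K)
    (hNp : aeval (formOf f y1 / formOf f y0) Np =
      algebraMap K⟮formOf f y1 / formOf f y0⟯ F
        (Algebra.norm K⟮formOf f y1 / formOf f y0⟯ (formOf f a / formOf f y0)))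
    (Z : Finset (Place K F)) (hZ : ∀ v, v ∈ Z ↔ 0 < multAt f a v) {d : ℕ}
    (hsum : ∑ v ∈ Z, (multAt f a v).toNat = d)
    (iR : Place K F → Fin (n + 1)) (hiR : ∀ R, Admissible f R (iR R)) :
    ∃ c : K, c ≠ 0 ∧
      Np = C c * ∏ R ∈ Z, (C (dot y0 (zvec hx R f (iR R))) * X +
        C (-dot y1 (zvec hx R f (iR R)))) ^ (multAt f a R).toNat ∧
      formOf f y0 ^ d * aeval (formOf f y1 / formOf f y0) Np =
        algebraMap K F c * ∏ R ∈ Z,
          formOf f (pencilVec y0 y1 (zvec hx R f (iR R))) ^ (multAt f a R).toNat := by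
  classical
  set Y0 := formOf f y0 with hY0
  set Y1 := formOf f y1 with hY1
  set t := Y1 / Y0 with htdef
  set φ := formOf f a / Y0 with hφ
  have hφ0 : φ ≠ 0 := div_ne_zero ha h0
  have hordφ : ∀ v : Place K F, v.ord φ = multAt f a v - multAt f y0 v :=
    fun v => ord_formOf_div ha h0 v
  -- regularity hypothesis of (N1)
  have hreg : ∀ v : Place K F, v.adicValuation t ≤ 1 → v.adicValuation φ ≤ 1 := by
    intro v hv
    have hm := (t_regular_iff hx hf hb h0 h1 v).mp hv
    rw [← ord_nonneg_iff v hφ0, hordφ, hm, sub_zero]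
    exact multAt_nonneg v hf a ha
  obtain ⟨c, Z', av, hc, hZ', hav, hnorm⟩ :=
    Fermat.Agent.S17.Norm.NormPoly.norm_eq_prod ht hφ0 hreg
  -- `Z'` is the part of `Z` off `Z(y0)`
  have hZ'Z : ∀ v, v ∈ Z' ↔ v ∈ Z ∧ multAt f y0 v = 0 := by
    intro v
    rw [hZ', hZ, t_regular_iff hx hf hb h0 h1 v, ← ord_pos_iff v hφ0, hordφ]
    constructor
    · rintro ⟨hm, hpos⟩
      rw [hm, sub_zero] at hpos
      exact ⟨hpos, hm⟩
    · rintro ⟨hpos, hm⟩
      refine ⟨hm, ?_⟩
      rw [hm, sub_zero]
      exact hpos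
  have hZ'eq : Z' = Z.filter fun v => multAt f y0 v = 0 := by
    ext v
    rw [hZ'Z, Finset.mem_filter]
  -- the exponents on `Z'`
  have hexp : ∀ v ∈ Z', (v.ord φ).toNat = (multAt f a v).toNat := by
    intro v hv
    rw [hordφ, ((hZ'Z v).mp hv).2, sub_zero]
  -- the centres
  have hcen : ∀ v ∈ Z', av v * dot y0 (zvec hx v f (iR v)) = dot y1 (zvec hx v f (iR v)) := by
    intro v hv
    have hm := ((hZ'Z v).mp hv).2
    have htreg : t ∈ v.toValuationSubring :=
      (mem_iff v t).mpr ((t_regular_iff hx hf hb h0 h1 v).mpr hm)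
    have : ev hx v t = av v := (ev_eq_iff hx v htreg (av v)).mpr (hav v hv)
    rw [← this]
    exact ev_t hx hf h0 (hiR v) htreg
  have hα : ∀ v ∈ Z', dot y0 (zvec hx v f (iR v)) ≠ 0 := fun v hv =>
    (dot_ne_zero_iff hx hf h0 (hiR v)).mpr ((hZ'Z v).mp hv).2
  -- the polynomial identity on `Z'`
  have hpoly : Np = C c * ∏ v ∈ Z', (X - C (av v)) ^ (multAt f a v).toNat := by
    have hinj : Function.Injective (aeval (R := K) t) :=
      (transcendental_iff_injective).mp ht.transcendental
    apply hinj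
    rw [hNp, hnorm, map_mul, aeval_C, map_prod]
    congr 1
    refine Finset.prod_congr rfl fun v hv => ?_
    rw [map_pow, map_sub, aeval_X, aeval_C, hexp v hv]
  -- the constant
  set α : Place K F → K := fun R => dot y0 (zvec hx R f (iR R)) with hαdef
  set β : Place K F → K := fun R => -dot y1 (zvec hx R f (iR R)) with hβdef
  set Zc := Z.filter fun v => ¬ multAt f y0 v = 0 with hZc
  set κ : K := (∏ v ∈ Z', α v ^ (multAt f a v).toNat) * ∏ v ∈ Zc, β v ^ (multAt f a v).toNat
    with hκ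
  have hβ : ∀ v ∈ Zc, β v ≠ 0 := by
    intro v hv
    have hne : ¬ multAt f y0 v = 0 := (Finset.mem_filter.mp hv).2
    have hm1 := multAt_y1_eq_zero hx hf hb h0 h1 hne
    exact neg_ne_zero.mpr ((dot_ne_zero_iff hx hf h1 (hiR v)).mpr hm1)
  have hαc : ∀ v ∈ Zc, α v = 0 := by
    intro v hv
    have hne : ¬ multAt f y0 v = 0 := (Finset.mem_filter.mp hv).2
    by_contra hcon
    exact hne ((dot_ne_zero_iff hx hf h0 (hiR v)).mp hcon)
  have hκ0 : κ ≠ 0 := by
    refine mul_ne_zero ?_ ?_
    · exact Finset.prod_ne_zero_iff.mpr fun v hv => pow_ne_zero _ (hα v hv)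
    · exact Finset.prod_ne_zero_iff.mpr fun v hv => pow_ne_zero _ (hβ v hv)
  have hprodZ : ∏ R ∈ Z, (C (α R) * X + C (β R)) ^ (multAt f a R).toNat =
      C κ * ∏ v ∈ Z', (X - C (av v)) ^ (multAt f a v).toNat := by
    rw [← Finset.prod_filter_mul_prod_filter_not Z (fun v => multAt f y0 v = 0), ← hZ'eq, ← hZc]
    have hA : ∏ v ∈ Z', (C (α v) * X + C (β v)) ^ (multAt f a v).toNat =
        C (∏ v ∈ Z', α v ^ (multAt f a v).toNat) *
          ∏ v ∈ Z', (X - C (av v)) ^ (multAt f a v).toNat := by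
      rw [map_prod, ← Finset.prod_mul_distrib]
      refine Finset.prod_congr rfl fun v hv => ?_
      rw [map_pow, ← mul_pow]
      congr 1
      have h := hcen v hv
      have : β v = -(av v * α v) := by rw [hβdef, hαdef]; simp only; rw [h]
      rw [this]
      simp only [map_neg, map_mul]
      ring
    have hB : ∏ v ∈ Zc, (C (α v) * X + C (β v)) ^ (multAt f a v).toNat =
        C (∏ v ∈ Zc, β v ^ (multAt f a v).toNat) := by
      rw [map_prod]
      refine Finset.prod_congr rfl fun v hv => ?_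
      rw [hαc v hv, map_zero, zero_mul, zero_add, map_pow]
    rw [hA, hB, hκ, map_mul]
    ring
  refine ⟨c / κ, div_ne_zero hc hκ0, ?_, ?_⟩
  · rw [hprodZ, ← mul_assoc, ← map_mul, div_mul_cancel₀ c hκ0]
    exact hpoly
  · -- the identity in `F`
    have hNp' : Np = C (c / κ) * ∏ R ∈ Z, (C (α R) * X + C (β R)) ^ (multAt f a R).toNat := by
      rw [hprodZ, ← mul_assoc, ← map_mul, div_mul_cancel₀ c hκ0]
      exact hpoly
    have hY0pow : Y0 ^ d = ∏ R ∈ Z, Y0 ^ (multAt f a R).toNat := by
      rw [Finset.prod_pow_eq_pow_sum, hsum]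
    rw [hNp', map_mul, aeval_C, map_prod, hY0pow, mul_left_comm, ← Finset.prod_mul_distrib]
    congr 1
    refine Finset.prod_congr rfl fun R _ => ?_
    rw [map_pow, ← mul_pow]
    congr 1
    rw [formOf_pencilVec, map_add, map_mul, aeval_C, aeval_X, aeval_C, hβdef, hαdef]
    simp only [map_neg]
    rw [htdef]
    field_simp
    ring

end Main

end Fermat.Agent.S17.Model.NormFactor
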