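import Mathlib
import Fermat.Agent.S17.Model.LiftPencil
import Fermat.Agent.S17.Model.Zeros
import Fermat.Agent.S17.Model.EmbedRR
import Fermat.Agent.S17.Model.Count
import Fermat.Agent.S17.Model.PencilInst
import Fermat.Agent.S17.Model.NPrimeEval
import Fermat.Agent.S17.Model.NormFactor
import Fermat.Agent.S17.Norm.CharFormHom
import Fermat.Agent.S18.A.RiemannBasic

/-!
# PROJECT H (S17), Part A: the identity (N') for one pencil, from the model data only

`f` a model of `L(D0)` (linearly independent), `(y0, y1)` a base point free pencil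
(`hPX : IsPencilX f y0 y1`), `Φ := CharFormHom.Phi hPX` its cofactor form.  For every linear form
`a` (`F_a ≠ 0`), every place `P` with admissible index `i` and uniformizer `s`:

  `a_μ * Φ(a, z_P) = c * ⟨λ, τ_P⟩ ^ μ * ∏_{R ∈ Z(a), R ≠ P} ⟨λ, z_R ∧ z_P⟩ ^ m_R`,  `c ≠ 0`,

and the same `c` is the leading constant of the factorisation of the norm form `Np hPX a`
(`nprime`).  Consequence (`hcount`): among `M > (r - 1) δ` pencils in general position one has
`Φ_m(a, z_P) ≠ 0` (A.10 in the form needed by `L3.l3`).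
-/

set_option autoImplicit false

namespace Fermat.Agent.S17.Model.NPrimeFinal

open AlgebraicCurve IntermediateField Fermat.Agent.S24.FF Fermat.Agent.S24.Ord
  Fermat.Agent.S18.NonSpecial
  Fermat.Agent.S17.Model.Lift Fermat.Agent.S17.Model.Embed Fermat.Agent.S17.Model.Zeros
  Fermat.Agent.S17.Model.PencilInst Fermat.Agent.S17.Norm.CharFormHom
  Fermat.Agent.S17.Local.GeneralPosition Fermat.Agent.S17.Local.PencilsExt

universe u w

variable {K : Type w} {F : Type u} [Field K] [Field F] [Algebra K F]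
variable [IsAlgClosed K] [CharZero K] [HasPrincipalDivisors K F]
variable {n : ℕ} {x : F} (hx : IsFF K x) {f : Fin (n + 1) → F} (hf : ∀ j, f j ≠ 0)
variable {y0 y1 : Fin (n + 1) → K}

include hf in
/-- **the value of the cofactor form at a place**: `(G / f_i^(δ-1))(P) = Φ(a, z_P)` for
`G := Φ(a, f)` -/
theorem phi_value (hPX : IsPencilX f y0 y1) (a : Fin (n + 1) → K) (P : Place K F)
    {i : Fin (n + 1)} (hi : Admissible f P i) :
    MvPolynomial.aeval (Sum.elim (fun j => algebraMap K F (a j)) f) (Phi hPX) /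
        f i ^ (degX f y0 y1 - 1) ∈ P.toValuationSubring ∧
      ev hx P (MvPolynomial.aeval (Sum.elim (fun j => algebraMap K F (a j)) f) (Phi hPX) /
        f i ^ (degX f y0 y1 - 1)) =
        MvPolynomial.aeval (Sum.elim a (zvec hx P f i)) (Phi hPX) := by
  have hfi : f i ≠ 0 := hf i
  -- rescale the `x`-variables by `(f i)⁻¹`
  have hsc := aeval_Phi_smul hPX (R := F) 1 (f i)⁻¹ (fun j => algebraMap K F (a j)) f
  rw [one_smul, one_pow, one_mul] at hsc
  have hG : MvPolynomial.aeval (Sum.elim (fun j => algebraMap K F (a j)) f) (Phi hPX) /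
      f i ^ (degX f y0 y1 - 1) =
      MvPolynomial.aeval (Sum.elim (fun j => algebraMap K F (a j)) ((f i)⁻¹ • f)) (Phi hPX) := by
    rw [hsc, inv_pow, div_eq_inv_mul]
  have hg : (Sum.elim (fun j => algebraMap K F (a j)) ((f i)⁻¹ • f) :
      Fin (n + 1) ⊕ Fin (n + 1) → F) =
      Sum.elim (fun j => algebraMap K F (a j)) (fun j => f j / f i) := by
    funext t
    rcases t with j | j
    · rfl
    · simp only [Sum.elim_inr, Pi.smul_apply, smul_eq_mul]
      rw [div_eq_inv_mul]
  rw [hG, hg]
  have hreg : ∀ t : Fin (n + 1) ⊕ Fin (n + 1),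
      Sum.elim (fun j => algebraMap K F (a j)) (fun j => f j / f i) t ∈ P.toValuationSubring := by
    intro t
    rcases t with j | j
    · exact P.algebraMap_mem' (a j)
    · exact div_mem P hf hi j
  obtain ⟨hmem, hev⟩ := ev_aeval hx P (Phi hPX) _ hreg
  refine ⟨hmem, ?_⟩
  rw [hev, ← MvPolynomial.aeval_eq_eval]
  congr 2
  funext t
  rcases t with j | j
  · exact ev_algebraMap hx P (a j)
  · rfl

/-- **(N') for one pencil.** -/
theorem nprime [DecidableEq (Place K F)] {D0 : Divisor K F} (h : IsModel f D0)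
    (hPX : IsPencilX f y0 y1)
    (h1 : formOf f y1 ≠ 0)
    (hbpf : ∀ (v : Place K F) (i : Fin (n + 1)), Admissible f v i →
      dot y0 (zvec hx v f i) ≠ 0 ∨ dot y1 (zvec hx v f i) ≠ 0)
    (a : Fin (n + 1) → K) (ha : formOf f a ≠ 0) (P : Place K F) {i : Fin (n + 1)}
    (hi : Admissible f P i) {s : F} (hs : P.ord s = 1)
    (iR : Place K F → Fin (n + 1)) (hiR : ∀ R, Admissible f R (iR R)) (hiP : iR P = i)
    (Z : Finset (Place K F)) (hZ : ∀ v, v ∈ Z ↔ 0 < multAt f a v) :
    ∃ c : K, c ≠ 0 ∧
      Np hPX a = Polynomial.C c * ∏ R ∈ Z,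
        (Polynomial.C (dot y0 (zvec hx R f (iR R))) * Polynomial.X +
          Polynomial.C (-dot y1 (zvec hx R f (iR R)))) ^ (multAt f a R).toNat ∧
      lcAt hx P f a i s * MvPolynomial.aeval (Sum.elim a (zvec hx P f i)) (Phi hPX) =
        c * pair2 y0 y1 (zvec hx P f i) (dvec hx P f i s) ^ (multAt f a P).toNat *
          ∏ R ∈ Z.erase P,
            pair2 y0 y1 (zvec hx R f (iR R)) (zvec hx P f i) ^ (multAt f a R).toNat := by
  have hf := h.ne_zero
  have h0 : formOf f y0 ≠ 0 := hPX.ne
  have ht : IsFF K (formOf f y1 / formOf f y0) := hPX.isFF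
  -- the degree count
  have hsumZ : (∑ v ∈ Z, (multAt f a v).toNat : ℕ) = degX f y0 y1 := by
    obtain ⟨Z', hZ', hsum'⟩ := exists_zeros_nat h a ha
    have hZZ : Z = Z' := by
      ext v
      rw [hZ v, hZ' v]
      have := multAt_nonneg v hf a ha
      omega
    have hdeg := degX_eq hx hf h0 h1 hbpf h ht
    rw [hZZ]
    have : ((∑ v ∈ Z', (multAt f a v).toNat : ℕ) : ℤ) = (degX f y0 y1 : ℤ) := by
      rw [hsum', hdeg]
    exact_mod_cast this
  -- A.4
  obtain ⟨c, hc, hNp, hfac⟩ := NormFactor.exists_factor hx hf (y0 := y0) (y1 := y1)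
    (fun v i hi => hbpf v i hi) h0 h1 ht a ha (Np hPX a) (aeval_Np hPX a) Z hZ hsumZ iR hiR
  refine ⟨c, hc, hNp, ?_⟩
  -- the identity in `F`
  set G : F := MvPolynomial.aeval (Sum.elim (fun j => algebraMap K F (a j)) f) (Phi hPX) with hGdef
  have hid0 : formOf f a * G = algebraMap K F c * ∏ R ∈ Z,
      formOf f (pencilVec y0 y1 (zvec hx R f (iR R))) ^ (multAt f a R).toNat := by
    have hcof := cofactor hPX a
    rw [aeval_NY hPX a] at hcof
    rw [← hfac]
    exact hcof
  set μ : ℕ := (multAt f a P).toNat with hμdef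
  have hμ : multAt f a P = (μ : ℤ) := by
    rw [hμdef, Int.toNat_of_nonneg (multAt_nonneg P hf a ha)]
  -- split off the place `P`
  have hsplit : ∏ R ∈ Z, formOf f (pencilVec y0 y1 (zvec hx R f (iR R))) ^ (multAt f a R).toNat =
      formOf f (pencilVec y0 y1 (zvec hx P f i)) ^ μ *
        ∏ R ∈ Z.erase P,
          formOf f (pencilVec y0 y1 (zvec hx R f (iR R))) ^ (multAt f a R).toNat := by
    by_cases hP : P ∈ Z
    · rw [← Finset.mul_prod_erase Z _ hP, hiP]
    · rw [Finset.erase_eq_of_notMem hP]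
      have : μ = 0 := by
        have := (hZ P).not.mp hP
        have h2 := multAt_nonneg P hf a ha
        omega
      rw [this, pow_zero, one_mul]
  have hsplitsum : μ + ∑ R ∈ Z.erase P, (multAt f a R).toNat = degX f y0 y1 := by
    rw [← hsumZ]
    by_cases hP : P ∈ Z
    · rw [← Finset.add_sum_erase Z _ hP]
    · rw [Finset.erase_eq_of_notMem hP]
      have : μ = 0 := by
        have := (hZ P).not.mp hP
        have h2 := multAt_nonneg P hf a ha
        omega
      rw [this, zero_add]
  obtain ⟨hGmem, hGev⟩ := phi_value hx hf hPX a P hi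
  have key := NPrimeEval.nprime_of_factor hx P hf y0 y1 hi hs a ha G (degX f y0 y1) μ hμ
    (degX_pos hPX) hGmem c (Z.erase P) (fun R => zvec hx R f (iR R))
    (fun R => (multAt f a R).toNat) hsplitsum
    (by rw [hid0, hsplit, mul_assoc])
  rw [hGev] at key
  exact key

/-- **A.10 in the form of `L3.l3`**: one of the cofactor forms does not vanish at `(a, z_P)` -/
theorem hcount {D0 : Divisor K F} (h : IsModel f D0) (hli : LinearIndependent K f)
    {k : Type*} [Field k] [Algebra k K] {M : ℕ} (y : Fin M → (Fin 2 × Fin (n + 1) → k))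
    (hgp : ∀ s : PlIdx n → Fin M, Function.Injective s →
      (Matrix.of fun (a b : PlIdx n) =>
        y (s a) (0, b.1.1) * y (s a) (1, b.1.2) - y (s a) (0, b.1.2) * y (s a) (1, b.1.1)).det
        ≠ 0)
    (hPX : ∀ m, IsPencilX f (fun j => algebraMap k K (y m (0, j)))
      (fun j => algebraMap k K (y m (1, j))))
    (h1 : ∀ m, formOf f (fun j => algebraMap k K (y m (1, j))) ≠ 0)
    (hbpf : ∀ m (v : Place K F) (i : Fin (n + 1)), Admissible f v i →
      dot (fun j => algebraMap k K (y m (0, j))) (zvec hx v f i) ≠ 0 ∨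
        dot (fun j => algebraMap k K (y m (1, j))) (zvec hx v f i) ≠ 0)
    {δ : ℕ} (hδ : Divisor.degree D0 = δ) (hM : (Fintype.card (PlIdx n) - 1) * δ < M)
    (a : Fin (n + 1) → K) (ha : a ≠ 0) (P : Place K F) (i : Fin (n + 1))
    (hi : Admissible f P i) :
    ∃ m, MvPolynomial.aeval (Sum.elim a (zvec hx P f i)) (Phi (hPX m)) ≠ 0 := by
  classical
  have hf := h.ne_zero
  have haF : formOf f a ≠ 0 := EmbedRR.formOf_ne_zero hli ha
  obtain ⟨s, -, hs⟩ := Fermat.Agent.S18.A.Riemann.exists_uniformizer P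
  -- admissible indices at all places, equal to `i` at `P`
  choose iR0 hiR0 using fun R : Place K F => exists_admissible R f
  set iR : Place K F → Fin (n + 1) := Function.update iR0 P i with hiRdef
  have hiR : ∀ R, Admissible f R (iR R) := by
    intro R
    by_cases hR : R = P
    · subst hR
      rw [hiRdef, Function.update_self]
      exact hi
    · rw [hiRdef, Function.update_of_ne hR]
      exact hiR0 R
  have hiP : iR P = i := by rw [hiRdef, Function.update_self]
  obtain ⟨Z, hZ, -⟩ := exists_zeros h a haF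
  obtain ⟨m, hm1, hm2⟩ := Count.exists_pencil_ne_zero hx h y hgp hδ hM a haF P hi hs iR hiR
  refine ⟨m, ?_⟩
  obtain ⟨c, hc, -, hN⟩ := nprime hx h (hPX m) (h1 m) (hbpf m) a haF P hi hs iR hiR hiP Z hZ
  intro hzero
  rw [hzero, mul_zero] at hN
  have hlc := lcAt_ne_zero hx P hf a hi haF hs
  have hRHS : c * pair2 (fun j => algebraMap k K (y m (0, j)))
      (fun j => algebraMap k K (y m (1, j))) (zvec hx P f i) (dvec hx P f i s) ^
        (multAt f a P).toNat *
      ∏ R ∈ Z.erase P, pair2 (fun j => algebraMap k K (y m (0, j)))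
        (fun j => algebraMap k K (y m (1, j))) (zvec hx R f (iR R)) (zvec hx P f i) ^
          (multAt f a R).toNat ≠ 0 := by
    refine mul_ne_zero (mul_ne_zero hc ?_) ?_
    · by_cases hP : 0 < multAt f a P
      · exact pow_ne_zero _ (hm1 hP)
      · have : (multAt f a P).toNat = 0 := by omega
        rw [this, pow_zero]
        exact one_ne_zero
    · refine Finset.prod_ne_zero_iff.mpr fun R hR => pow_ne_zero _ ?_
      have hRZ := Finset.mem_of_mem_erase hR
      exact hm2 R ((hZ R).mp hRZ) (Finset.ne_of_mem_erase hR)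
  exact hRHS hN.symm

end Fermat.Agent.S17.Model.NPrimeFinal
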