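import Mathlib
import Fermat.Agent.S17.Norm.CharFormHom
import Fermat.Agent.S17.Model.NormFactor
import Fermat.Agent.S17.Model.NPrimeEval

/-!
# PROJECT H (S17), Part A: the identity (N') on the model

Frame of `Model/Lift` + `CharZero K`, `HasPrincipalDivisors K F`.  `f : Fin (n+1) → F` nonzero
coordinate functions, `(y0, y1)` a base point free pencil (`NormFactor.Bpf`),
`Y_k := formOf f y_k`, `t := Y1 / Y0` with `IsFF K t`.

* `isPencilX` : the hypotheses `CharFormHom.IsPencilX f y0 y1` of the characteristic form hold,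
  so `Phi`, `NY`, `Np`, `cofactor`, `aeval_Phi_smul` of `Norm/CharFormHom` apply;
* `ev_Phi`    : the value of `Φ(a, f) / f_i ^ (δ-1)` at a place `P` is `Φ(a, z_P)`;
* `nprime`    : **(N')**: factorisation of the norm polynomial `Np` over ALL zeros of `F_a`, and
  `a_μ * Φ(a, z_P) = c * ⟨λ, τ_P⟩ ^ μ * ∏_{R ≠ P} ⟨λ, z_R ∧ z_P⟩ ^ m_R`.
-/

set_option autoImplicit false
set_option linter.unusedSectionVars false
set_option linter.style.haveILetI false

namespace Fermat.Agent.S17.Model.NPrime

open AlgebraicCurve IntermediateField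
open Fermat.Agent.S24.FF Fermat.Agent.S24.Ord Fermat.Agent.S18.C.PlaceEval
  Fermat.Agent.S17.Model.Lift Fermat.Agent.S17.Model.NormFactor
  Fermat.Agent.S17.Norm.CharForm Fermat.Agent.S17.Norm.CharFormHom

universe u w

variable {K : Type w} {F : Type u} [Field K] [Field F] [Algebra K F]
variable {n : ℕ}

variable [IsAlgClosed K] [CharZero K] {x : F} (hx : IsFF K x) {f : Fin (n + 1) → F}
  (hf : ∀ j, f j ≠ 0) {y0 y1 : Fin (n + 1) → K}

omit [IsAlgClosed K] [CharZero K] in
/-- `helper2`'s `lin` is `formOf` -/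
theorem lin_eq_formOf (a : Fin (n + 1) → K) : lin f a = formOf f a := rfl

omit [IsAlgClosed K] [CharZero K] in
theorem nuAt_le (v : Place K F) (j : Fin (n + 1)) : nuAt f v ≤ v.ord (f j) :=
  Finset.inf'_le _ (Finset.mem_univ j)

include hf in
omit [IsAlgClosed K] [CharZero K] in
theorem adicValuation_le_formOf {a : Fin (n + 1) → K} (ha : formOf f a ≠ 0)
    (v : Place K F) (hm : multAt f a v = 0) (j : Fin (n + 1)) :
    v.adicValuation (f j) ≤ v.adicValuation (formOf f a) := by
  have h1 : v.adicValuation (f j / formOf f a) ≤ 1 := by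
    rw [← ord_nonneg_iff v (div_ne_zero (hf j) ha), div_eq_mul_inv,
      v.ord_mul (hf j) (inv_ne_zero ha), v.ord_inv, ord_formOf_eq, hm]
    have := nuAt_le (f := f) v j
    omega
  have e : f j = f j / formOf f a * formOf f a := by
    field_simp
  calc v.adicValuation (f j) = v.adicValuation (f j / formOf f a) * v.adicValuation (formOf f a) := by
        rw [← map_mul, ← e]
    _ ≤ 1 * v.adicValuation (formOf f a) := mul_le_mul' h1 le_rfl
    _ = _ := one_mul _

include hf in
/-- `helper2`'s pencil hypotheses hold for a base point free pencil on the model -/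
theorem isPencilX (hb : Bpf hx (f := f) y0 y1) (h0 : formOf f y0 ≠ 0) (h1 : formOf f y1 ≠ 0)
    (ht : IsFF K (formOf f y1 / formOf f y0)) : IsPencilX f y0 y1 where
  ne := h0
  isFF := ht
  bound := by
    intro v j
    by_cases hm : multAt f y0 v = 0
    · exact (adicValuation_le_formOf hf h0 v hm j).trans (le_max_left _ _)
    · have hm1 := multAt_y1_eq_zero hx hf hb h0 h1 hm
      exact (adicValuation_le_formOf hf h1 v hm1 j).trans (le_max_right _ _)

variable [HasPrincipalDivisors K F]

include hf in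
omit [HasPrincipalDivisors K F] in
/-- the value of `Φ(a, f) / f_i ^ (δ-1)` at a place is `Φ(a, z)`, for ANY polynomial `Φ` in two
groups of variables which scales by `u ^ e` in the second group -/
theorem ev_of_scaling (Φ : MvPolynomial (Fin (n + 1) ⊕ Fin (n + 1)) K) (e : ℕ)
    (hΦ : ∀ (u : F) (a g : Fin (n + 1) → F),
      MvPolynomial.aeval (Sum.elim a (u • g)) Φ = u ^ e * MvPolynomial.aeval (Sum.elim a g) Φ)
    (a : Fin (n + 1) → K) (P : Place K F) {i : Fin (n + 1)} (hi : Admissible f P i) :
    MvPolynomial.aeval (Sum.elim (fun j => algebraMap K F (a j)) f) Φ / f i ^ e ∈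
        P.toValuationSubring ∧
      ev hx P (MvPolynomial.aeval (Sum.elim (fun j => algebraMap K F (a j)) f) Φ / f i ^ e) =
        MvPolynomial.eval (Sum.elim a (zvec hx P f i)) Φ := by
  have hfi := hf i
  have e1 : f = f i • fun j => f j / f i := by
    funext j
    simp only [Pi.smul_apply, smul_eq_mul]
    field_simp
  have h1 : MvPolynomial.aeval (Sum.elim (fun j => algebraMap K F (a j)) f) Φ =
      f i ^ e * MvPolynomial.aeval (Sum.elim (fun j => algebraMap K F (a j)) fun j => f j / f i)
        Φ := by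
    rw [← hΦ (f i) (fun j => algebraMap K F (a j)) (fun j => f j / f i), ← e1]
  have h2 : MvPolynomial.aeval (Sum.elim (fun j => algebraMap K F (a j)) f) Φ / f i ^ e =
      MvPolynomial.aeval (Sum.elim (fun j => algebraMap K F (a j)) fun j => f j / f i) Φ := by
    rw [h1, mul_div_cancel_left₀ _ (pow_ne_zero _ hfi)]
  have hg : ∀ q : Fin (n + 1) ⊕ Fin (n + 1),
      Sum.elim (fun j => algebraMap K F (a j)) (fun j => f j / f i) q ∈ P.toValuationSubring := by
    rintro (j | j)
    · exact P.algebraMap_mem' _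
    · exact div_mem P hf hi j
  obtain ⟨hmem, hev⟩ := ev_aeval hx P Φ _ hg
  rw [h2]
  refine ⟨hmem, ?_⟩
  rw [hev]
  have e3 : (fun q => ev hx P (Sum.elim (fun j => algebraMap K F (a j)) (fun j => f j / f i) q)) =
      Sum.elim a (zvec hx P f i) := by
    funext q
    rcases q with j | j
    · simp only [Sum.elim_inl]
      exact ev_algebraMap hx P (a j)
    · simp only [Sum.elim_inr]
      rfl
  rw [e3]

include hf in
/-- the value of `Φ(a, f) / f_i ^ (δ-1)` at a place is `Φ(a, z)` -/
theorem ev_Phi (h : IsPencilX f y0 y1) (a : Fin (n + 1) → K)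
    (P : Place K F) {i : Fin (n + 1)} (hi : Admissible f P i) :
    MvPolynomial.aeval (Sum.elim (fun j => algebraMap K F (a j)) f) (Phi h) /
        f i ^ (degX f y0 y1 - 1) ∈ P.toValuationSubring ∧
      ev hx P (MvPolynomial.aeval (Sum.elim (fun j => algebraMap K F (a j)) f) (Phi h) /
        f i ^ (degX f y0 y1 - 1)) =
        MvPolynomial.eval (Sum.elim a (zvec hx P f i)) (Phi h) := by
  refine ev_of_scaling hx hf (Phi h) (degX f y0 y1 - 1) ?_ a P hi
  intro u a g
  have := aeval_Phi_smul h (1 : F) u a g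
  rwa [one_smul, one_pow, one_mul] at this

include hf in
open Classical in
/-- **(N') on the model**, together with the factorisation of the norm polynomial (A.4). -/
theorem nprime (hb : Bpf hx (f := f) y0 y1) (h0 : formOf f y0 ≠ 0) (h1 : formOf f y1 ≠ 0)
    (ht : IsFF K (formOf f y1 / formOf f y0)) (a : Fin (n + 1) → K) (ha : formOf f a ≠ 0)
    (Z : Finset (Place K F)) (hZ : ∀ v, v ∈ Z ↔ 0 < multAt f a v)
    (hsum : ∑ v ∈ Z, (multAt f a v).toNat = degX f y0 y1)
    (iR : Place K F → Fin (n + 1)) (hiR : ∀ R, Admissible f R (iR R))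
    (P : Place K F) {s : F} (hs : P.ord s = 1) :
    ∃ c : K, c ≠ 0 ∧
      Np (isPencilX hx hf hb h0 h1 ht) a = Polynomial.C c * ∏ R ∈ Z,
        (Polynomial.C (dot y0 (zvec hx R f (iR R))) * Polynomial.X +
          Polynomial.C (-dot y1 (zvec hx R f (iR R)))) ^ (multAt f a R).toNat ∧
      lcAt hx P f a (iR P) s *
          MvPolynomial.eval (Sum.elim a (zvec hx P f (iR P))) (Phi (isPencilX hx hf hb h0 h1 ht)) =
        c * pair2 y0 y1 (zvec hx P f (iR P)) (dvec hx P f (iR P) s) ^ (multAt f a P).toNat *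
          ∏ R ∈ Z.erase P,
            pair2 y0 y1 (zvec hx R f (iR R)) (zvec hx P f (iR P)) ^ (multAt f a R).toNat := by
  set h := isPencilX hx hf hb h0 h1 ht with hh
  haveI := ht.finite
  have hδpos : 0 < degX f y0 y1 := degX_pos h
  have hNp : Polynomial.aeval (formOf f y1 / formOf f y0) (Np h a) =
      algebraMap K⟮formOf f y1 / formOf f y0⟯ F
        (Algebra.norm K⟮formOf f y1 / formOf f y0⟯ (formOf f a / formOf f y0)) :=
    aeval_Np h a
  obtain ⟨c, hc, hpoly, hF⟩ := exists_factor hx hf hb h0 h1 ht a ha _ hNp Z hZ hsum iR hiR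
  refine ⟨c, hc, hpoly, ?_⟩
  -- the factorisation in `F`
  have hcof : formOf f a *
      MvPolynomial.aeval (Sum.elim (fun j => algebraMap K F (a j)) f) (Phi h) =
      formOf f y0 ^ degX f y0 y1 * Polynomial.aeval (formOf f y1 / formOf f y0) (Np h a) := by
    have h1' := cofactor h a
    rw [aeval_NY h a] at h1'
    exact h1'
  rw [hF] at hcof
  -- split off the factor at `P`
  have hnonneg : 0 ≤ multAt f a P := multAt_nonneg P hf a ha
  have hμ : multAt f a P = ((multAt f a P).toNat : ℤ) := (Int.toNat_of_nonneg hnonneg).symm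
  have hsplit : ∏ R ∈ Z, formOf f (pencilVec y0 y1 (zvec hx R f (iR R))) ^ (multAt f a R).toNat =
      formOf f (pencilVec y0 y1 (zvec hx P f (iR P))) ^ (multAt f a P).toNat *
        ∏ R ∈ Z.erase P,
          formOf f (pencilVec y0 y1 (zvec hx R f (iR R))) ^ (multAt f a R).toNat := by
    by_cases hPZ : P ∈ Z
    · exact (Finset.mul_prod_erase Z
        (fun R => formOf f (pencilVec y0 y1 (zvec hx R f (iR R))) ^ (multAt f a R).toNat)
        hPZ).symm
    · have h0' : multAt f a P = 0 := by
        have := (hZ P).not.mp hPZ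
        omega
      rw [Finset.erase_eq_of_notMem hPZ, h0', Int.toNat_zero, pow_zero, one_mul]
  have hcount : (multAt f a P).toNat + ∑ R ∈ Z.erase P, (multAt f a R).toNat =
      degX f y0 y1 := by
    rw [← hsum]
    by_cases hPZ : P ∈ Z
    · exact Finset.add_sum_erase Z (fun R => (multAt f a R).toNat) hPZ
    · have h0' : multAt f a P = 0 := by
        have := (hZ P).not.mp hPZ
        omega
      rw [Finset.erase_eq_of_notMem hPZ, h0', Int.toNat_zero, zero_add]
  rw [hsplit, ← mul_assoc] at hcof
  obtain ⟨hGmem, hGev⟩ := ev_Phi hx hf h a P (hiR P)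
  have key := Fermat.Agent.S17.Model.NPrimeEval.nprime_of_factor hx P hf y0 y1 (hiR P) hs a ha
    (MvPolynomial.aeval (Sum.elim (fun j => algebraMap K F (a j)) f) (Phi h))
    (degX f y0 y1) (multAt f a P).toNat hμ hδpos hGmem c
    (Z.erase P) (fun R => zvec hx R f (iR R)) (fun R => (multAt f a R).toNat) hcount hcof
  rw [hGev] at key
  exact key

end Fermat.Agent.S17.Model.NPrime
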