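import Mathlib
import Fermat.Agent.S17.Model.NPrime
import Fermat.Agent.S17.Model.Count
import Fermat.Agent.S17.Local.GaussMult

/-!
# PROJECT H (S17), Part A: the assembly of THEOREM A at ONE absolute value, given the constants

Frame of `Model/Lift` + `CharZero K`, `HasPrincipalDivisors K F`; `h : IsModel f D0`, `M` pencils
`y` with `hX m : IsPencilX f (Y0 m) (Y1 m)`, base point free (`hb`), all of degree `δ` (`hdeg`),
`(r - 1) * δ < M`.  For ONE absolute value `abv` (nonarchimedean or induced by a complex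
embedding) and positive constants `U L l c0` satisfying the eight bounds
`cPH cU_Phi cU_N cU_y cU_pair cL1 cL2 cL3`, `star_of_consts` is THEOREM A for every form `a`,
every place `P`, every admissible index choice `iR` and every uniformizer `s`:
`(N')` from `Model/NPrime.nprime`, `(G)` from `Local/GaussMult`, conclusion = the conclusion of
`Local/StarMult.star_log_mult`.
-/

set_option autoImplicit false
set_option linter.unusedSectionVars false
set_option linter.style.haveILetI false

namespace Fermat.Agent.S17.Model.TheoremAAssembly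

open AlgebraicCurve IntermediateField
open Fermat.Agent.S24.FF Fermat.Agent.S24.Ord Fermat.Agent.S18.C.PlaceEval
  Fermat.Agent.S17.Model.Lift Fermat.Agent.S17.Model.Embed Fermat.Agent.S17.Model.NormFactor
  Fermat.Agent.S17.Model.NPrime Fermat.Agent.S17.Model.Count Fermat.Agent.S17.Model.Zeros
  Fermat.Agent.S17.Norm.CharForm Fermat.Agent.S17.Norm.CharFormHom
  Fermat.Agent.S17.Local Fermat.Agent.S17.Local.GeneralPosition Fermat.Agent.S17.Local.PencilsExt

universe u w

variable {K : Type w} {F : Type u} [Field K] [Field F] [Algebra K F]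
variable {n : ℕ}

/-! ### small bridges -/

section Bridges

variable (abv : AbsoluteValue K ℝ)

theorem supN_pos_of_ne_zero {r : ℕ} {w : Fin r → K} (hw : w ≠ 0) : 0 < supN abv w := by
  obtain ⟨i, hi⟩ := Function.ne_iff.mp hw
  exact lt_of_lt_of_le (abv.pos hi) (le_supN abv w i)

/-- the sup norm of the bivector over all ordered pairs is the sup norm over the pairs `i < j` -/
theorem iSup_abv_wedge (u w : Fin (n + 1) → K) :
    (⨆ p, abv (wedge u w p)) = supN abv (wedgeFin K u w) := by
  apply le_antisymm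
  · refine Real.iSup_le (fun p => ?_) (supN_nonneg abv _)
    rcases lt_trichotomy p.1 p.2 with hlt | heq | hgt
    · have := le_supN abv (wedgeFin K u w) (Fintype.equivFin (PlIdx n) ⟨(p.1, p.2), hlt⟩)
      rw [wedgeFin_equivFin] at this
      rwa [wedge_apply]
    · rw [wedge_apply, heq, sub_self, abv.map_zero]
      exact supN_nonneg abv _
    · have := le_supN abv (wedgeFin K u w) (Fintype.equivFin (PlIdx n) ⟨(p.2, p.1), hgt⟩)
      rw [wedgeFin_equivFin] at this
      rw [wedge_apply, ← abv.map_neg]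
      have e : -(u p.1 * w p.2 - u p.2 * w p.1) = u p.2 * w p.1 - u p.1 * w p.2 := by ring
      rw [e]
      exact this
  · refine supN_le abv _ (Real.iSup_nonneg fun _ => abv.nonneg _) fun j => ?_
    exact le_ciSup (f := fun p => abv (wedge u w p)) (Finite.bddAbove_range _)
      ((Fintype.equivFin (PlIdx n)).symm j).1

theorem iSup_abv_wedge_swap (u w : Fin (n + 1) → K) :
    (⨆ p, abv (wedge u w p)) = ⨆ p, abv (wedge w u p) := by
  refine iSup_congr fun p => ?_
  rw [wedge_apply, wedge_apply, ← abv.map_neg]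
  congr 1
  ring

end Bridges

section Coeff

variable [IsAlgClosed K] [CharZero K] [HasPrincipalDivisors K F]
variable {ι : Type*} [Fintype ι] [DecidableEq ι] {xx : ι → F} {y0 y1 : ι → K}

/-- the coefficients of the norm polynomial are the coefficient forms -/
theorem coeff_Np (h : IsPencilX xx y0 y1) (a : ι → K) (k : ℕ) :
    (Np h a).coeff k = if k ≤ degX xx y0 y1 then
      (-1) ^ degX xx y0 y1 * MvPolynomial.eval a (cform h (degX xx y0 y1) k) else 0 := by
  unfold Np nformPoly
  rw [Polynomial.coeff_C_mul, Polynomial.finsetSum_coeff]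
  simp only [Polynomial.coeff_C_mul, Polynomial.coeff_X_pow]
  split_ifs with hk
  · rw [Finset.sum_eq_single k]
    · simp [cform, degX]
    · intro b _ hbk
      simp [hbk.symm]
    · intro hk'
      exact absurd (Finset.mem_range.mpr (Nat.lt_succ_of_le hk)) hk'
  · rw [Finset.sum_eq_zero, mul_zero]
    intro b hb
    have hb' := Finset.mem_range.mp hb
    have : k ≠ b := by
      intro e
      rw [e] at hk
      unfold degX at hk
      omega
    simp [this]

end Coeff

/-! ### the assembly at one absolute value, with given constants -/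

section Assembly

variable [IsAlgClosed K] [CharZero K] [HasPrincipalDivisors K F]
variable {x : F} {f : Fin (n + 1) → F} {D0 : Divisor K F}

theorem star_of_consts (hx : IsFF K x) (h : IsModel f D0) {M : ℕ}
    (y : Fin M → (Fin 2 × Fin (n + 1) → K))
    (hX : ∀ m, IsPencilX f (fun j => y m (0, j)) (fun j => y m (1, j)))
    (hb : ∀ m, Bpf hx (f := f) (fun j => y m (0, j)) (fun j => y m (1, j)))
    {δ : ℕ} (hδ : Divisor.degree D0 = δ)
    (hdeg : ∀ m, degX f (fun j => y m (0, j)) (fun j => y m (1, j)) = δ)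
    (hM : (Fintype.card (PlIdx n) - 1) * δ < M)
    (abv : AbsoluteValue K ℝ)
    (habv : IsNonarchimedean abv ∨ ∃ φ : K →+* ℂ, ∀ c, abv c = ‖φ c‖)
    {U L l c0 : ℝ} (hU : 0 < U) (hL : 0 < L) (hl : 0 < l) (hc0 : 0 < c0)
    (cPH : ∀ w : Fin (Fintype.card (PlIdx n)) → K,
      (smallSet abv (plLam K y) c0 w).card ≤ Fintype.card (PlIdx n) - 1)
    (cU_Phi : ∀ (m : Fin M) (a z : Fin (n + 1) → K), a ≠ 0 → z ≠ 0 →
      abv (MvPolynomial.eval (Sum.elim a z) (Phi (hX m))) ≤
        U * supN abv a ^ (δ - 1) * supN abv z ^ (δ - 1))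
    (cU_N : ∀ (m : Fin M) (k : Fin (δ + 1)) (a : Fin (n + 1) → K), a ≠ 0 →
      abv (MvPolynomial.eval a (cform (hX m) δ k)) ≤ U * supN abv a ^ δ)
    (cU_y : ∀ (m : Fin M) (z : Fin (n + 1) → K),
      abv (dot (fun j => y m (0, j)) z) ≤ U * supN abv z ∧
        abv (dot (fun j => y m (1, j)) z) ≤ U * supN abv z)
    (cU_pair : ∀ (m : Fin M) (w : Fin (Fintype.card (PlIdx n)) → K),
      abv (pair (plLam K y m) w) ≤ U * supN abv w)
    (cL1 : ∀ (m : Fin M) (v : Place K F) (i : Fin (n + 1)), Admissible f v i → ∀ j,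
      abv (zvec hx v f i j) ≤ L * max (abv (dot (fun j => y m (0, j)) (zvec hx v f i)))
        (abv (dot (fun j => y m (1, j)) (zvec hx v f i))))
    (cL2 : ∀ (m : Fin M) (a : Fin (n + 1) → K), a ≠ 0 →
      l * supN abv a ^ δ ≤ ⨆ k : Fin (δ + 1), abv (MvPolynomial.eval a (cform (hX m) δ k)))
    (cL3 : ∀ (a : Fin (n + 1) → K), a ≠ 0 → ∀ (v : Place K F) (i : Fin (n + 1)),
      Admissible f v i →
      l * supN abv a ^ (δ - 1) * supN abv (zvec hx v f i) ^ (δ - 1) ≤
        ⨆ m, abv (MvPolynomial.eval (Sum.elim a (zvec hx v f i)) (Phi (hX m))))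
    (a : Fin (n + 1) → K) (ha : a ≠ 0) (hFa : formOf f a ≠ 0)
    (Z : Finset (Place K F)) (hZ : ∀ v, v ∈ Z ↔ 0 < multAt f a v)
    (iR : Place K F → Fin (n + 1)) (hiR : ∀ R, Admissible f R (iR R))
    (P : Place K F) (s : F) (hs : P.ord s = 1)
    (W : Place K F → Fin (Fintype.card (PlIdx n)) → K)
    (hWP : W P = wedgeFin K (zvec hx P f (iR P)) (dvec hx P f (iR P) s))
    (hWR : ∀ R, R ≠ P → W R = wedgeFin K (zvec hx R f (iR R)) (zvec hx P f (iR P))) :
    |Real.log (abv (lcAt hx P f a (iR P) s)) -
      (Real.log (supN abv a) +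
        ∑ R ∈ Z, ((multAt f a R).toNat : ℝ) *
          (Real.log (supN abv (W R)) - Real.log (supN abv (zvec hx R f (iR R)))) -
        ((δ - 1 : ℕ) : ℝ) * Real.log (supN abv (zvec hx P f (iR P))))| ≤
      max (-Real.log (l * c0 ^ δ / (gaussConst abv δ * U ^ (δ + 1))))
        (Real.log (gaussConst abv δ * U ^ (δ + 1) * L ^ δ / l)) := by
  classical
  have hf := h.ne_zero
  -- the count
  have hsum : ∑ v ∈ Z, (multAt f a v).toNat = δ := by
    obtain ⟨Z', hZ', hs'⟩ := exists_zeros_nat h a hFa
    have hZZ : Z' = Z := by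
      ext v
      rw [hZ' v, hZ v]
      omega
    rw [hZZ, hδ] at hs'
    exact_mod_cast hs'
  have hMpos : 0 < M := lt_of_le_of_lt (Nat.zero_le _) hM
  have hδ0 : 0 < δ := by
    have := degX_pos (hX ⟨0, hMpos⟩)
    rwa [hdeg] at this
  haveI : Nonempty (Fin M) := ⟨⟨0, hMpos⟩⟩
  -- second form of each pencil is nonzero
  have h1 : ∀ m, formOf f (fun j => y m (1, j)) ≠ 0 := by
    intro m h0
    have := (hX m).isFF.ne_zero
    apply this
    show formOf f (fun j => y m (1, j)) / formOf f (fun j => y m (0, j)) = 0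
    rw [h0, zero_div]
  -- (N') per pencil
  have hnp := fun m => nprime hx hf (hb m) (hX m).ne (h1 m) (hX m).isFF a hFa Z hZ
    (by rw [hdeg m]; exact hsum) iR hiR P hs
  choose c hc hpoly hNid using hnp
  -- notation
  set zP := zvec hx P f (iR P) with hzP
  set dP := dvec hx P f (iR P) s with hdP
  set zR : Place K F → Fin (n + 1) → K := fun R => zvec hx R f (iR R) with hzR
  set mult : Place K F → ℕ := fun R => (multAt f a R).toNat with hmult
  have hWP : W P = wedgeFin K zP dP := hWP
  have hWR : ∀ R, R ≠ P → W R = wedgeFin K (zR R) zP := hWR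
  have hWne : ∀ R, W R ≠ 0 := by
    intro R
    by_cases hR : R = P
    · subst hR
      rw [hWP]
      exact wedgeFin_ne_zero_of_wedge (Embed.tauvec_ne_zero hx h R (hiR R) hs)
    · rw [hWR R hR]
      exact wedgeFin_ne_zero_of_wedge (Embed.wedge_zvec_ne_zero hx h hR (hiR R) (hiR P))
  have hpairP : ∀ m, pair (plLam K y m) (W P) =
      pair2 (fun j => y m (0, j)) (fun j => y m (1, j)) zP dP := fun m => by
    rw [hWP]
    exact pair_plLam_wedgeFin (k := K) y m zP dP
  have hpairR : ∀ m R, R ≠ P → pair (plLam K y m) (W R) =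
      pair2 (fun j => y m (0, j)) (fun j => y m (1, j)) (zR R) zP := fun m R hR => by
    rw [hWR R hR]
    exact pair_plLam_wedgeFin (k := K) y m (zR R) zP
  set nyX : Fin M → Place K F → ℝ := fun m R =>
    max (abv (dot (fun j => y m (0, j)) (zR R))) (abv (dot (fun j => y m (1, j)) (zR R))) with hnyX
  -- the hypotheses of `star_log_mult`
  have hN : ∀ m, lcAt hx P f a (iR P) s * MvPolynomial.eval (Sum.elim a zP) (Phi (hX m)) =
      c m * ∏ R ∈ Z, pair (plLam K y m) (W R) ^ mult R := by
    intro m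
    have e := hNid m
    rw [e]
    by_cases hPZ : P ∈ Z
    · rw [← Finset.mul_prod_erase Z (fun R => pair (plLam K y m) (W R) ^ mult R) hPZ, hpairP m,
        mul_assoc]
      congr 2
      refine Finset.prod_congr rfl fun R hR => ?_
      rw [hpairR m R (Finset.ne_of_mem_erase hR)]
    · have h0' : multAt f a P = 0 := by
        have := (hZ P).not.mp hPZ
        have := multAt_nonneg P hf a hFa
        omega
      rw [Finset.erase_eq_of_notMem hPZ, h0', Int.toNat_zero, pow_zero, mul_one]
      congr 1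
      refine Finset.prod_congr rfl fun R hR => ?_
      rw [hpairR m R (fun hRP => hPZ (hRP ▸ hR))]
  have hpoly' : ∀ m, Np (hX m) a = Polynomial.C (c m) * ∏ R ∈ Z,
      (Polynomial.C (dot (fun j => y m (0, j)) (zR R)) * Polynomial.X +
        Polynomial.C (-dot (fun j => y m (1, j)) (zR R))) ^ mult R := fun m => hpoly m
  have hG_le : ∀ m, cN abv (Np (hX m) a) ≤
      gaussConst abv δ * (abv (c m) * ∏ R ∈ Z, nyX m R ^ mult R) := by
    intro m
    have := cN_prodMult_le abv habv (c m) Z mult hsum (fun R => dot (fun j => y m (0, j)) (zR R))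
      (fun R => -dot (fun j => y m (1, j)) (zR R))
    rw [← hpoly' m] at this
    simpa only [abv.map_neg] using this
  have hG_ge : ∀ m, abv (c m) * ∏ R ∈ Z, nyX m R ^ mult R ≤
      gaussConst abv δ * cN abv (Np (hX m) a) := by
    intro m
    have := prodMult_le_cN abv habv (c m) Z mult hsum (fun R => dot (fun j => y m (0, j)) (zR R))
      (fun R => -dot (fun j => y m (1, j)) (zR R))
    rw [← hpoly' m] at this
    simpa only [abv.map_neg] using this
  have hzRne : ∀ R, zR R ≠ 0 := fun R => zvec_ne_zero hx R hf (iR R)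
  have hna : 0 < supN abv a := supN_pos_of_ne_zero abv ha
  have hcoeff : ∀ (m : Fin M) (k : ℕ), k ≤ δ → abv ((Np (hX m) a).coeff k) =
      abv (MvPolynomial.eval a (cform (hX m) δ k)) := by
    intro m k hk
    rw [coeff_Np, hdeg m, if_pos hk, abv.map_mul, map_pow, abv.map_neg, abv.map_one, one_pow,
      one_mul]
  have key := star_log_mult abv (plLam K y) hU hL hl (gaussConst_pos abv δ) hc0 cPH hM Z mult hsum
    W (fun R _ => supN_pos_of_ne_zero abv (hWne R))
    (fun R => supN abv (zR R)) (fun R _ => supN_pos_of_ne_zero abv (hzRne R))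
    (nzP := supN abv zP) (na := supN abv a)
    (supN_pos_of_ne_zero abv (hzRne P)) hna (lcAt hx P f a (iR P) s)
    (fun m => MvPolynomial.eval (Sum.elim a zP) (Phi (hX m))) c
    (fun m => cN abv (Np (hX m) a)) nyX
    (fun m R _ => by
      rcases hb m R (iR R) (hiR R) with h0 | h0
      · exact lt_of_lt_of_le (abv.pos h0) (le_max_left _ _)
      · exact lt_of_lt_of_le (abv.pos h0) (le_max_right _ _))
    hN hG_le hG_ge
    (fun m => cU_Phi m a zP ha (hzRne P))
    (fun m R _ => max_le (cU_y m (zR R)).1 (cU_y m (zR R)).2)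
    (fun m => by
      refine cN_le abv _ (by positivity) fun k => ?_
      by_cases hk : k ≤ δ
      · rw [hcoeff m k hk]
        exact cU_N m ⟨k, Nat.lt_succ_of_le hk⟩ a ha
      · rw [coeff_Np, hdeg m, if_neg hk, abv.map_zero]
        positivity)
    (fun m R _ => cU_pair m (W R))
    (fun m R _ => supN_le abv _ (mul_nonneg hL.le (le_max_of_le_left (abv.nonneg _)))
      fun j => cL1 m R (iR R) (hiR R) j)
    (fun m => by
      refine (cL2 m a ha).trans ?_
      refine ciSup_le fun k => ?_
      rw [← hcoeff m k (Nat.lt_succ_iff.mp k.2)]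
      exact le_cN abv _ _)
    (by
      obtain ⟨m, hm⟩ := exists_eq_ciSup_of_finite
        (f := fun m => abv (MvPolynomial.eval (Sum.elim a zP) (Phi (hX m))))
      exact ⟨m, (cL3 a ha P (iR P) (hiR P)).trans hm.ge⟩)
    hδ0
  exact key

end Assembly

end Fermat.Agent.S17.Model.TheoremAAssembly
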