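import Mathlib
import Fermat.Agent.S17.Model.Lift
import Fermat.Agent.S17.Local.PencilsExt
import Fermat.Agent.S17.Local.Pigeonhole

/-!
# PROJECT H (S17), Part A: the STATEMENT of THEOREM A for one absolute value (seam file)

`f : Fin (n+1) → F` the coordinate functions of a model of a curve over `K`.  `LocalA hx f δ` says:
there is ONE finite set `T ⊆ K` such that for every absolute value `abv` of `K` (nonarchimedean, or
induced by an embedding into `ℂ`) there is a constant `C ≥ 0`, `C = 0` if `abv` is nonarchimedean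
and `≤ 1` on `T`, with

`|log |a_μ(P)| - (log ‖a‖ + ∑_{R ∈ Z(a)} m_R (log ‖W R‖ - log ‖z_R‖) - (δ - 1) log ‖z_P‖)| ≤ C`

for EVERY linear form `a ≠ 0`, every choice of admissible indices `iR` and uniformizers `sR`, and
every place `P`; here `W R = z_R ∧ z_P` for `R ≠ P` and `W P = z_P ∧ z'_P` (`Wv`), in the `Fin r`
coordinates of `Local/PencilsExt.wedgeFin`.  This is the conclusion of
`Local/StarMult.star_log_mult`, uniformly in `(a, P)`.

The file contains NO proof of `LocalA`: it is the seam between `Model/TheoremA.lean` (which proves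
it) and `Model/TheoremAGlobal.lean` (which turns it into the hand-over `(A*)` of Part B).
-/

set_option autoImplicit false

namespace Fermat.Agent.S17.Model.TheoremAStmt

open AlgebraicCurve Fermat.Agent.S24.FF Fermat.Agent.S17.Model.Lift Fermat.Agent.S17.Local
  Fermat.Agent.S17.Local.GeneralPosition Fermat.Agent.S17.Local.PencilsExt

universe u w

variable {K : Type w} {F : Type u} [Field K] [Field F] [Algebra K F] [IsAlgClosed K]
variable {n : ℕ} {x : F}

open Classical in
/-- the bivector `W R` of THEOREM A seen from the point `P`: the tangent bivector `z_P ∧ z'_P` for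
`R = P`, the chord `z_R ∧ z_P` for `R ≠ P` -/
noncomputable def Wv (hx : IsFF K x) (f : Fin (n + 1) → F) (iR : Place K F → Fin (n + 1))
    (sR : Place K F → F) (P R : Place K F) : Fin (Fintype.card (PlIdx n)) → K :=
  if R = P then wedgeFin K (zvec hx P f (iR P)) (dvec hx P f (iR P) (sR P))
  else wedgeFin K (zvec hx R f (iR R)) (zvec hx P f (iR P))

theorem Wv_self (hx : IsFF K x) (f : Fin (n + 1) → F) (iR : Place K F → Fin (n + 1))
    (sR : Place K F → F) (P : Place K F) :
    Wv hx f iR sR P P = wedgeFin K (zvec hx P f (iR P)) (dvec hx P f (iR P) (sR P)) := by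
  unfold Wv
  rw [if_pos rfl]

theorem Wv_of_ne (hx : IsFF K x) (f : Fin (n + 1) → F) (iR : Place K F → Fin (n + 1))
    (sR : Place K F → F) {P R : Place K F} (h : R ≠ P) :
    Wv hx f iR sR P R = wedgeFin K (zvec hx R f (iR R)) (zvec hx P f (iR P)) := by
  unfold Wv
  rw [if_neg h]

/-- **THEOREM A for one absolute value, uniform in `(a, P)`** (statement) -/
def LocalA (hx : IsFF K x) (f : Fin (n + 1) → F) (δ : ℕ) : Prop :=
  ∃ T : Finset K, ∀ abv : AbsoluteValue K ℝ,
    (IsNonarchimedean abv ∨ ∃ φ : K →+* ℂ, ∀ c, abv c = ‖φ c‖) →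
    ∃ C : ℝ, 0 ≤ C ∧ (IsNonarchimedean abv → (∀ c ∈ T, abv c ≤ 1) → C = 0) ∧
      ∀ a : Fin (n + 1) → K, a ≠ 0 →
      ∀ iR : Place K F → Fin (n + 1), (∀ R, Admissible f R (iR R)) →
      ∀ sR : Place K F → F, (∀ R : Place K F, R.ord (sR R) = 1) →
      ∀ Z : Finset (Place K F), (∀ v, v ∈ Z ↔ 0 < multAt f a v) →
      ∀ P : Place K F,
        |Real.log (abv (lcAt hx P f a (iR P) (sR P))) -
          (Real.log (supN abv a) +
            ∑ R ∈ Z, ((multAt f a R).toNat : ℝ) *
              (Real.log (supN abv (Wv hx f iR sR P R)) -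
                Real.log (supN abv (zvec hx R f (iR R)))) -
            ((δ - 1 : ℕ) : ℝ) * Real.log (supN abv (zvec hx P f (iR P))))| ≤ C

end Fermat.Agent.S17.Model.TheoremAStmt
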