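import Mathlib
import Fermat.Agent.S17.Model.TheoremAStmt
import Fermat.Agent.S17.Model.TheoremAAssembly
import Fermat.Agent.S17.Model.NPrimeFinal
import Fermat.Agent.S17.Model.L3
import Fermat.Agent.S17.Model.L1TC
import Fermat.Agent.S17.Local.TrivialU
import Fermat.Agent.S17.Local.PigeonholeTC
import Fermat.Agent.S17.Model.FamilyF

/-!
# PROJECT H (S17), Part A: THEOREM A for one absolute value, uniform in `(a, P)`

`localA` : the statement `TheoremAStmt.LocalA hx f δ` for every model `f` of `L(D0)`, `deg D0 = δ`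
(the family of pencils from `Model/FamilyF.exists_family`).
`localA_of_family` : the statement `TheoremAStmt.LocalA hx f δ` for a model `f` of `L(D0)`
(`deg D0 = δ`) from a family of `M > (r - 1) δ` base point free pencils in general position.
The constants: `(U)` from `Local/TrivialU`, `(L1)` from `Model/L1TC`, `(L2)`, `(L3)` from
`Model/L3` with `PencilInst.eq_zero_of_cform_eq_zero` and `NPrimeFinal.hcount`, `(PH)` from
`Local/PigeonholeTC`, `(G)` = `gaussConst`; the place-wise assembly is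
`TheoremAAssembly.star_of_consts`.
-/

set_option autoImplicit false
set_option linter.unusedSectionVars false
set_option linter.style.haveILetI false

namespace Fermat.Agent.S17.Model.TheoremA

open AlgebraicCurve IntermediateField
open Fermat.Agent.S24.FF Fermat.Agent.S24.Ord Fermat.Agent.S18.C.PlaceEval
  Fermat.Agent.S17.Model.Lift Fermat.Agent.S17.Model.Embed Fermat.Agent.S17.Model.NormFactor
  Fermat.Agent.S17.Model.TheoremAStmt Fermat.Agent.S17.Model.TheoremAAssembly
  Fermat.Agent.S17.Norm.CharForm Fermat.Agent.S17.Norm.CharFormHom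
  Fermat.Agent.S17.Local Fermat.Agent.S17.Local.GeneralPosition Fermat.Agent.S17.Local.PencilsExt
  Fermat.Agent.S17.Local.NSSLocal

universe u w

variable {K : Type w} {F : Type u} [Field K] [Field F] [Algebra K F]
variable [IsAlgClosed K] [CharZero K] [HasPrincipalDivisors K F]
variable {n : ℕ} {x : F} {f : Fin (n + 1) → F} {D0 : Divisor K F}

section Consts

variable (hx : IsFF K x) (h : IsModel f D0) (hli : LinearIndependent K f) {M : ℕ}
  (y : Fin M → (Fin 2 × Fin (n + 1) → K))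
  (hgp : ∀ s : PlIdx n → Fin M, Function.Injective s →
    (Matrix.of fun (a b : PlIdx n) =>
      y (s a) (0, b.1.1) * y (s a) (1, b.1.2) - y (s a) (0, b.1.2) * y (s a) (1, b.1.1)).det ≠ 0)
  (hX : ∀ m, IsPencilX f (fun j => y m (0, j)) (fun j => y m (1, j)))
  (hb : ∀ m, Bpf hx (f := f) (fun j => y m (0, j)) (fun j => y m (1, j)))
  {δ : ℕ} (hδ : Divisor.degree D0 = δ)
  (hdeg : ∀ m, degX f (fun j => y m (0, j)) (fun j => y m (1, j)) = δ)
  (hM : (Fintype.card (PlIdx n) - 1) * δ < M)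

include hdeg in
theorem scaling_Phi (m : Fin M) (s t : K) (a z : Fin (n + 1) → K) :
    MvPolynomial.aeval (Sum.elim (s • a) (t • z)) (Phi (hX m)) =
      s ^ (δ - 1) * t ^ (δ - 1) * MvPolynomial.aeval (Sum.elim a z) (Phi (hX m)) := by
  have := aeval_Phi_smul (hX m) s t a z
  rwa [hdeg m] at this

include h hli hgp hb hδ hdeg hM in
/-- **(L2) + (L3)** with one constant -/
theorem exists_l :
    ∃ T : Finset K, ∀ abv : AbsoluteValue K ℝ, ∃ l : ℝ, 0 < l ∧
      (IsNonarchimedean abv → (∀ c ∈ T, abv c ≤ 1) → l = 1) ∧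
      (∀ (m : Fin M) (a : Fin (n + 1) → K), a ≠ 0 →
        l * supN abv a ^ δ ≤ ⨆ k : Fin (δ + 1), abv (MvPolynomial.eval a (cform (hX m) δ k))) ∧
      (∀ (a : Fin (n + 1) → K), a ≠ 0 → ∀ (v : Place K F) (i : Fin (n + 1)),
        Admissible f v i →
        l * supN abv a ^ (δ - 1) * supN abv (zvec hx v f i) ^ (δ - 1) ≤
          ⨆ m, abv (MvPolynomial.eval (Sum.elim a (zvec hx v f i)) (Phi (hX m)))) := by
  classical
  have hf := h.ne_zero
  have hMpos : 0 < M := lt_of_le_of_lt (Nat.zero_le _) hM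
  haveI : Nonempty (Fin M) := ⟨⟨0, hMpos⟩⟩
  -- (L2) for each pencil
  have h2 := fun m : Fin M => L3.l2 (K := K) (n := n)
    (fun k : Fin (δ + 1) => cform (hX m) δ k) δ
    (fun k => cform_isHomogeneous (hX m) δ k)
    (fun a ha => PencilInst.eq_zero_of_cform_eq_zero hli (hX m) a (by
      rw [hdeg m]
      intro k hk
      exact ha ⟨k, Finset.mem_range.mp hk⟩))
  choose T2 hT2 using h2
  -- second forms are nonzero
  have h1 : ∀ m, formOf f (fun j => y m (1, j)) ≠ 0 := by
    intro m h0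
    apply (hX m).isFF.ne_zero
    show formOf f (fun j => y m (1, j)) / formOf f (fun j => y m (0, j)) = 0
    rw [h0, zero_div]
  -- (L3)
  obtain ⟨T3, hT3⟩ := L3.l3 hx hf (fun m => Phi (hX m)) (δ - 1) (δ - 1)
    (fun m s t a z => scaling_Phi y hX hdeg m s t a z)
    (fun a ha v i hi => NPrimeFinal.hcount hx h hli (k := K) y hgp hX h1 hb hδ hM a ha v i hi)
  refine ⟨(Finset.univ.biUnion T2) ∪ T3, fun abv => ?_⟩
  choose C2 hC2pos hC2one hC2 using fun m => hT2 m abv
  obtain ⟨C3, hC3pos, hC3one, hC3⟩ := hT3 abv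
  set Cmax : ℝ := max C3 (Finset.univ.sup' Finset.univ_nonempty C2) with hCmax
  have hC3le : C3 ≤ Cmax := le_max_left _ _
  have hC2le : ∀ m, C2 m ≤ Cmax := fun m =>
    (Finset.le_sup' C2 (Finset.mem_univ m)).trans (le_max_right _ _)
  have hCpos : 0 < Cmax := lt_of_lt_of_le hC3pos hC3le
  refine ⟨Cmax⁻¹, inv_pos.mpr hCpos, fun hna hT => ?_, fun m a ha => ?_, fun a ha v i hi => ?_⟩
  · have e3 : C3 = 1 := hC3one hna fun c hc => hT c (Finset.mem_union_right _ hc)
    have e2 : ∀ m, C2 m = 1 := fun m => hC2one m hna fun c hc =>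
      hT c (Finset.mem_union_left _ (Finset.mem_biUnion.mpr ⟨m, Finset.mem_univ m, hc⟩))
    have : Cmax = 1 := by
      rw [hCmax, e3]
      apply le_antisymm
      · exact max_le le_rfl (Finset.sup'_le _ _ fun m _ => (e2 m).le)
      · exact le_max_left _ _
    rw [this, inv_one]
  · have h0 := hC2 m a ha
    have hS : 0 ≤ supAbv abv (fun k : Fin (δ + 1) => MvPolynomial.eval a (cform (hX m) δ k)) :=
      supAbv_nonneg abv _
    have h3 : supAbv abv a ^ δ ≤
        Cmax * supAbv abv (fun k : Fin (δ + 1) => MvPolynomial.eval a (cform (hX m) δ k)) :=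
      h0.trans (mul_le_mul_of_nonneg_right (hC2le m) hS)
    show Cmax⁻¹ * supAbv abv a ^ δ ≤
      supAbv abv (fun k : Fin (δ + 1) => MvPolynomial.eval a (cform (hX m) δ k))
    rw [inv_mul_le_iff₀ hCpos]
    exact h3
  · have h0 := hC3 a ha v i hi
    have hS : 0 ≤ supAbv abv
        (fun m => MvPolynomial.aeval (Sum.elim a (zvec hx v f i)) (Phi (hX m))) :=
      supAbv_nonneg abv _
    have h3 : supAbv abv a ^ (δ - 1) * supAbv abv (zvec hx v f i) ^ (δ - 1) ≤
        Cmax * supAbv abv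
          (fun m => MvPolynomial.aeval (Sum.elim a (zvec hx v f i)) (Phi (hX m))) :=
      h0.trans (mul_le_mul_of_nonneg_right hC3le hS)
    show Cmax⁻¹ * supAbv abv a ^ (δ - 1) * supAbv abv (zvec hx v f i) ^ (δ - 1) ≤
      supAbv abv (fun m => MvPolynomial.aeval (Sum.elim a (zvec hx v f i)) (Phi (hX m)))
    rw [mul_assoc, inv_mul_le_iff₀ hCpos]
    exact h3

include hdeg in
/-- **(U)** with one constant -/
theorem exists_U :
    ∃ T : Finset K, ∀ abv : AbsoluteValue K ℝ, ∃ U : ℝ, 0 < U ∧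
      (IsNonarchimedean abv → (∀ c ∈ T, abv c ≤ 1) → U = 1) ∧
      (∀ (m : Fin M) (a z : Fin (n + 1) → K), a ≠ 0 → z ≠ 0 →
        abv (MvPolynomial.eval (Sum.elim a z) (Phi (hX m))) ≤
          U * supN abv a ^ (δ - 1) * supN abv z ^ (δ - 1)) ∧
      (∀ (m : Fin M) (k : Fin (δ + 1)) (a : Fin (n + 1) → K), a ≠ 0 →
        abv (MvPolynomial.eval a (cform (hX m) δ k)) ≤ U * supN abv a ^ δ) ∧
      (∀ (m : Fin M) (z : Fin (n + 1) → K),
        abv (dot (fun j => y m (0, j)) z) ≤ U * supN abv z ∧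
          abv (dot (fun j => y m (1, j)) z) ≤ U * supN abv z) ∧
      (∀ (m : Fin M) (w : Fin (Fintype.card (PlIdx n)) → K),
        abv (pair (plLam K y m) w) ≤ U * supN abv w) := by
  classical
  obtain ⟨T1, hT1⟩ := TrivialU.bihom_upper_bound_family (fun m => Phi (hX m)) (δ - 1) (δ - 1)
    (fun m s t a z => scaling_Phi y hX hdeg m s t a z)
  obtain ⟨T2, hT2⟩ := TrivialU.hom_upper_bound_of_isHomogeneous
    (fun mk : Fin M × Fin (δ + 1) => cform (hX mk.1) δ mk.2) δ
    (fun mk => cform_isHomogeneous (hX mk.1) δ mk.2)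
  obtain ⟨T3, hT3⟩ := TrivialU.linear_upper_bound_family
    (fun (mb : Fin M × Fin 2) (j : Fin (n + 1)) => y mb.1 (mb.2, j))
  obtain ⟨T4, hT4⟩ := TrivialU.linear_upper_bound_family (plLam K y)
  refine ⟨T1 ∪ T2 ∪ T3 ∪ T4, fun abv => ?_⟩
  obtain ⟨C1, hC1pos, hC1one, hC1⟩ := hT1 abv
  obtain ⟨C2, hC2pos, hC2one, hC2⟩ := hT2 abv
  obtain ⟨C3, hC3pos, hC3one, hC3⟩ := hT3 abv
  obtain ⟨C4, hC4pos, hC4one, hC4⟩ := hT4 abv
  set U : ℝ := max (max C1 C2) (max C3 C4) with hU
  have h1U : C1 ≤ U := (le_max_left _ _).trans (le_max_left _ _)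
  have h2U : C2 ≤ U := (le_max_right _ _).trans (le_max_left _ _)
  have h3U : C3 ≤ U := (le_max_left _ _).trans (le_max_right _ _)
  have h4U : C4 ≤ U := (le_max_right _ _).trans (le_max_right _ _)
  refine ⟨U, lt_of_lt_of_le hC1pos h1U, fun hna hT => ?_, fun m a z _ _ => ?_,
    fun m k a _ => ?_, fun m z => ⟨?_, ?_⟩, fun m w => ?_⟩
  · have e1 : C1 = 1 := hC1one hna fun c hc => hT c (by simp [hc])
    have e2 : C2 = 1 := hC2one hna fun c hc => hT c (by simp [hc])
    have e3 : C3 = 1 := hC3one hna fun c hc => hT c (by simp [hc])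
    have e4 : C4 = 1 := hC4one hna fun c hc => hT c (by simp [hc])
    rw [hU, e1, e2, e3, e4, max_self, max_self]
  · refine (hC1 m a z).trans ?_
    exact mul_le_mul_of_nonneg_right (mul_le_mul_of_nonneg_right h1U
      (pow_nonneg (supAbv_nonneg abv _) _)) (pow_nonneg (supAbv_nonneg abv _) _)
  · refine (hC2 (m, k) a).trans ?_
    exact mul_le_mul_of_nonneg_right h2U (pow_nonneg (supAbv_nonneg abv _) _)
  · refine (hC3 (m, 0) z).trans ?_
    exact mul_le_mul_of_nonneg_right h3U (supAbv_nonneg abv _)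
  · refine (hC3 (m, 1) z).trans ?_
    exact mul_le_mul_of_nonneg_right h3U (supAbv_nonneg abv _)
  · refine (hC4 m w).trans ?_
    exact mul_le_mul_of_nonneg_right h4U (supAbv_nonneg abv _)

end Consts

section Main

/-- **THEOREM A for one absolute value, uniform in `(a, P)`, from a family of pencils** -/
theorem localA_of_family (hx : IsFF K x) (h : IsModel f D0) (hli : LinearIndependent K f)
    {M : ℕ} (y : Fin M → (Fin 2 × Fin (n + 1) → K))
    (hgp : ∀ s : PlIdx n → Fin M, Function.Injective s →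
      (Matrix.of fun (a b : PlIdx n) =>
        y (s a) (0, b.1.1) * y (s a) (1, b.1.2) - y (s a) (0, b.1.2) * y (s a) (1, b.1.1)).det
        ≠ 0)
    (hX : ∀ m, IsPencilX f (fun j => y m (0, j)) (fun j => y m (1, j)))
    (hb : ∀ (m : Fin M) (v : Place K F) (i : Fin (n + 1)), Admissible f v i →
      dot (fun j => y m (0, j)) (zvec hx v f i) ≠ 0 ∨
        dot (fun j => y m (1, j)) (zvec hx v f i) ≠ 0)
    {δ : ℕ} (hδ : Divisor.degree D0 = δ)
    (hdeg : ∀ m, degX f (fun j => y m (0, j)) (fun j => y m (1, j)) = δ)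
    (hM : (Fintype.card (PlIdx n) - 1) * δ < M) : LocalA hx f δ := by
  classical
  have hf := h.ne_zero
  obtain ⟨TU, hTU⟩ := exists_U y hX hdeg
  obtain ⟨TL, hTL⟩ := L1TC.exists_L1_family hx hf (fun m j => y m (0, j)) (fun m j => y m (1, j)) hb
  obtain ⟨Tl, hTl⟩ := exists_l hx h hli y hgp hX hb hδ hdeg hM
  obtain ⟨Tc, hTc⟩ := PigeonholeTC.exists_smallSet_TC K y hgp
  refine ⟨TU ∪ TL ∪ Tl ∪ Tc, fun abv habv => ?_⟩
  obtain ⟨U, hU0, hU1, cU_Phi, cU_N, cU_y, cU_pair⟩ := hTU abv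
  obtain ⟨L, hL0, hL1, cL1⟩ := hTL abv
  obtain ⟨l, hl0, hl1, cL2, cL3⟩ := hTl abv
  obtain ⟨c0, hc0, -, hc01, cPH⟩ := hTc abv
  refine ⟨max 0 (max (-Real.log (l * c0 ^ δ / (gaussConst abv δ * U ^ (δ + 1))))
    (Real.log (gaussConst abv δ * U ^ (δ + 1) * L ^ δ / l))), le_max_left _ _, ?_, ?_⟩
  · intro hna hT
    have eU : U = 1 := hU1 hna fun c hc => hT c (by simp [hc])
    have eL : L = 1 := hL1 hna fun c hc => hT c (by simp [hc])
    have el : l = 1 := hl1 hna fun c hc => hT c (by simp [hc])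
    have ec : c0 = 1 := hc01 hna fun c hc => hT c (by simp [hc])
    rw [eU, eL, el, ec, gaussConst_of_nonarch abv hna]
    simp
  · intro a ha iR hiR sR hsR Z hZ P
    refine le_trans ?_ (le_max_right _ _)
    exact star_of_consts hx h y hX hb hδ hdeg hM abv habv hU0 hL0 hl0 hc0 cPH cU_Phi cU_N cU_y
      cU_pair (fun m v i hi j => (le_supAbv abv _ j).trans (cL1 m v i hi)) cL2 cL3 a ha
      (EmbedRR.formOf_ne_zero hli ha) Z hZ iR hiR P (sR P) (hsR P) (Wv hx f iR sR P)
      (Wv_self hx f iR sR P) (fun R hR => Wv_of_ne hx f iR sR hR)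

/-- **THEOREM A for one absolute value, uniform in `(a, P)`** -/
theorem localA (hx : IsFF K x) (h : IsModel f D0) (hli : LinearIndependent K f) {δ : ℕ}
    (hδ : Divisor.degree D0 = δ) : LocalA hx f δ := by
  by_cases hP : Nonempty (Place K F)
  · obtain ⟨P0⟩ := hP
    obtain ⟨M, y, hM, hgp, hX, hb, hdeg, -⟩ := FamilyF.exists_family hx h hli hδ P0
    exact localA_of_family hx h hli y hgp hX hb hδ hdeg hM
  · exact ⟨∅, fun abv _ => ⟨0, le_rfl, fun _ _ => rfl,
      fun a ha iR hiR sR hsR Z hZ P => absurd ⟨P⟩ hP⟩⟩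

/-- the same under the name and with the (unused) hypothesis `0 < δ` of the architect's split -/
theorem theoremA_local (hx : IsFF K x) (h : IsModel f D0) (hli : LinearIndependent K f) {δ : ℕ}
    (hδ : Divisor.degree D0 = δ) (_hd0 : 0 < δ) : LocalA hx f δ :=
  localA hx h hli hδ

end Main

end Fermat.Agent.S17.Model.TheoremA
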