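import Mathlib
import Fermat.Agent.S17.Model.Global
import Fermat.Agent.S17.Model.TheoremAStmt
import Fermat.Agent.S17.Ht.StarCongr

/-!
# PROJECT H (S17), Part A ⟹ Part B: THEOREM A for one absolute value gives the hand-over `(A*)`

`Φ : RatFrame N δ` a rational frame of `X₀(N)`, `ix`, `sp` a choice of admissible indices and of
uniformizers.  From the local THEOREM A for the model `Φ.f` over `ℚ̄` (`LocalA`, statement in
`Model/TheoremAStmt.lean`) we get ONE function `gam : Pl → ℝ`, zero at almost all places, with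

`|starDefect (xt Φ ix) (w Φ ix) (tau Φ ix sp) 1 a (Zdiv Φ a) (lcG Φ ix sp a) v P| ≤ gam v`

for every form `a ≠ 0`, every place `v` of `ℚ` and every point `P`: literally the hypotheses `hgam`,
`hA` of `Model/Global.abs_Bil_Zdiv_sub_le` (for all `a ≠ 0`, rational or not).
-/

set_option autoImplicit false

noncomputable section

namespace Fermat.Agent.S17.Model.TheoremAGlobal

open AlgebraicCurve ModularCurve
open Fermat.Agent.S17.Model.Lift Fermat.Agent.S17.Model.Embed
open Fermat.Agent.S17.B.Frame Fermat.Agent.S17.Ht Fermat.Agent.S17.Model.Global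
open Fermat.Agent.S17.Model.TheoremAStmt Fermat.Agent.S17.Local
open Fermat.Agent.S17.Local.PencilsExt Fermat.Agent.S17.Local.GeneralPosition

local notation "Kb" => AlgebraicClosure ℚ

variable {N : ℕ} [NeZero N] {δ : ℕ} (Φ : RatFrame N δ)
variable (ix : X N → Fin (Φ.n + 1)) (sp : X N → modularFunctionFieldBar N)

/-- every fixed absolute value of `ℚ̄` is nonarchimedean or comes from an embedding into `ℂ` -/
theorem absAt_dichotomy (v : Pl) :
    IsNonarchimedean (absAt v) ∨ ∃ φ : Qbar →+* ℂ, ∀ c, absAt v c = ‖φ c‖ := by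
  rcases v with _ | p
  · exact Or.inr ⟨complexEmbedding, fun c => absAt_none c⟩
  · exact Or.inl (isNonarchimedean_absAt_some p)

/-- the support of the zero divisor -/
theorem mem_support_Zdiv {a : Fin (Φ.n + 1) → Qbar} (ha : a ≠ 0) (P : X N) :
    P ∈ (Zdiv Φ a).support ↔ 0 < multAt Φ.f a P := by
  rw [Finsupp.mem_support_iff, Zdiv_apply Φ ha]
  omega

/-- the norms of the `Fin r` bivectors of THEOREM A are those of the global chord vectors -/
theorem nrm_Wv_of_ne (v : Pl) {P R : X N} (h : R ≠ P) :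
    nrm v (Wv (hxN N) Φ.f ix sp P R) = nrm v (w Φ ix P R) := by
  rw [Wv_of_ne (hxN N) Φ.f ix sp h, nrm_wedgeFin, nrm_wedge_swap]
  rfl

/-- the norm of the `Fin r` tangent bivector of THEOREM A is the one of the global tangent vector -/
theorem nrm_Wv_self (v : Pl) (P : X N) :
    nrm v (Wv (hxN N) Φ.f ix sp P P) = nrm v (tau Φ ix sp P) := by
  rw [Wv_self (hxN N) Φ.f ix sp P, nrm_wedgeFin]
  rfl

open scoped Classical in
/-- **THEOREM A ⟹ (A\*)**: the hand-over to Part B -/
theorem exists_gam (hδ : 0 < δ) (hadm : ∀ P, Admissible Φ.f P (ix P))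
    (hsp : ∀ P : X N, P.ord (sp P) = 1) (hA : LocalA (hxN N) Φ.f δ) :
    ∃ gam : Pl → ℝ, AZ gam ∧ (∀ v, 0 ≤ gam v) ∧
      ∀ a : Fin (Φ.n + 1) → Qbar, a ≠ 0 → ∀ (v : Pl) (P : X N),
        |starDefect (xt Φ ix) (w Φ ix) (tau Φ ix sp) 1 a (Zdiv Φ a) (lcG Φ ix sp a) v P| ≤
          gam v := by
  obtain ⟨T, hT⟩ := hA
  choose C hC0 hC1 hC using fun v : Pl => hT (absAt v) (absAt_dichotomy v)
  refine ⟨C, ?_, hC0, fun a ha v P => ?_⟩
  · refine az_of_finite (finite_setOf_exists_one_lt_absAt T) fun p hp => ?_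
    refine hC1 (some p) (isNonarchimedean_absAt_some p) fun c hc => ?_
    by_contra hlt
    exact hp ⟨c, hc, not_le.mp hlt⟩
  · have hZ : ∑ R ∈ (Zdiv Φ a).support, Zdiv Φ a R = δ := by
      rw [sum_Zdiv Φ ha, one_mul]
    refine abs_starDefect_le_of_star_log_gen (xt Φ ix) (w Φ ix) (tau Φ ix sp) δ hδ a (Zdiv Φ a) hZ
      (lcG Φ ix sp a) v P (fun R => Wv (hxN N) Φ.f ix sp P R) ?_ ?_ ?_
    · unfold lam
      rw [nrm_Wv_self]
    · intro R hR
      unfold lam
      rw [nrm_Wv_of_ne Φ ix sp v hR]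
    · have key := hC v a ha ix hadm sp hsp (Zdiv Φ a).support (fun R => mem_support_Zdiv Φ ha R) P
      have hsum : ∑ R ∈ (Zdiv Φ a).support, ((Zdiv Φ a R : ℕ) : ℝ) *
            (lam v (Wv (hxN N) Φ.f ix sp P R) - lam v (xt Φ ix R)) =
          ∑ R ∈ (Zdiv Φ a).support, ((multAt Φ.f a R).toNat : ℝ) *
            (Real.log (supN (absAt v) (Wv (hxN N) Φ.f ix sp P R)) -
              Real.log (supN (absAt v) (zvec (hxN N) R Φ.f (ix R)))) := by
        refine Finset.sum_congr rfl fun R _ => ?_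
        rw [Zdiv_apply Φ ha]
        rfl
      rw [hsum]
      exact key

end Fermat.Agent.S17.Model.TheoremAGlobal
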