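import Mathlib
import Fermat.Agent.S17.Abs.PairQuad
import Fermat.Agent.S17.Model.Reduced
import Fermat.Agent.S36.K0Descent

/-!
# S17 (project H), Part B, B.5 at divisor level: reciprocity for principal differences

Abstract frame: `F / K` a function field with Riemann's theorem, `H` a group of semilinear
automorphisms (the Galois group), `oo` a base place, `lc` a leading coefficient for `H`
(main's `S36.K0Descent.LeadingCoeff`).

* `exists_fixed_of_isPrincipal` : an `H`-stable principal divisor is the divisor of an `H`-FIXED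
  function (normalised by `lc φ = 1`; no Hilbert 90).
* `ZZ H oo δ` : the zero divisors `Z = div s + δ oo ≥ 0` of the nonzero `H`-fixed `s ∈ L(δ oo)`
  (the zero divisors `Z(a)` of the rational linear forms).
* `EE H d` : the principal divisors `A - A'` with `A, A' ≥ 0` stable of degree `≤ d`.
* `EE_subset_sub` : if `L(δ oo - A)` contains a nonzero fixed function for every stable effective
  `A` of degree `≤ d`, then every `E ∈ EE H d` is a difference `Z - Z'` with `Z, Z' ∈ ZZ H oo δ`.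
* `reciprocity` : the bound `|⟨D, Z⟩| ≤ γ |D|₁` for stable `D` of degree `0` and `Z ∈ ZZ` (B.4)
  gives `|⟨D, E⟩| ≤ 2 γ |D|₁` for `E ∈ EE H d` — hypothesis `hR` of `PairQuad.class_invariance'`.
-/

set_option autoImplicit false

noncomputable section

namespace Fermat.Agent.S17.Model.Reciprocity

open AlgebraicCurve Fermat.Agent.S18.NonSpecial Fermat.Agent.S17.Abs.PairQuad
open Fermat.Agent.S36.K0Descent

universe u v

variable {K : Type u} {F : Type v} [Field K] [Field F] [Algebra K F]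
variable (H : Subgroup (SemilinearAut K F))

/-- the divisor `D` is stable under `H` -/
def IsStable (D : Divisor K F) : Prop := ∀ h ∈ H, h • D = D

/-- the function `f` is fixed by `H` -/
def IsFixed (f : F) : Prop := ∀ h ∈ H, h • f = f

variable {H}

theorem IsStable.add {D E : Divisor K F} (hD : IsStable H D) (hE : IsStable H E) :
    IsStable H (D + E) := fun h hh => by rw [smul_add, hD h hh, hE h hh]

theorem IsStable.neg {D : Divisor K F} (hD : IsStable H D) : IsStable H (-D) :=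
  fun h hh => by rw [smul_neg, hD h hh]

theorem IsStable.sub {D E : Divisor K F} (hD : IsStable H D) (hE : IsStable H E) :
    IsStable H (D - E) := fun h hh => by rw [smul_sub, hD h hh, hE h hh]

theorem isStable_zero : IsStable H (0 : Divisor K F) := fun h _ => smul_zero h

theorem isStable_single {oo : Place K F} (hoo : ∀ h ∈ H, h • oo = oo) (n : ℤ) :
    IsStable H (Finsupp.single oo n) := fun h hh => by
  rw [SemilinearAut.smul_single, hoo h hh]

theorem IsStable.apply_smul {D : Divisor K F} (hD : IsStable H D) {h : SemilinearAut K F}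
    (hh : h ∈ H) (v : Place K F) : D (h • v) = D v := by
  have e := SemilinearAut.divisor_smul_apply_smul h D v
  rwa [hD h hh] at e

theorem IsFixed.mul {f f' : F} (hf : IsFixed H f) (hf' : IsFixed H f') : IsFixed H (f * f') :=
  fun h hh => by rw [smul_mul', hf h hh, hf' h hh]

theorem IsFixed.inv {f : F} (hf : IsFixed H f) : IsFixed H f⁻¹ :=
  fun h hh => by rw [smul_inv'', hf h hh]

variable (H)

/-- the stable divisors -/
def stableDiv : AddSubgroup (Divisor K F) where
  carrier := {D | IsStable H D}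
  zero_mem' := isStable_zero
  add_mem' := fun hD hE => hD.add hE
  neg_mem' := fun hD => hD.neg

theorem mem_stableDiv {D : Divisor K F} : D ∈ stableDiv H ↔ IsStable H D := Iff.rfl

/-! ### stable principal divisors are divisors of fixed functions -/

variable {H}

theorem ord_algebraMap_eq_zero (w : Place K F) {c : K} (hc : c ≠ 0) :
    w.ord (algebraMap K F c) = 0 := by
  have hmem : algebraMap K F c ∈ w.toValuationSubring := w.algebraMap_mem' _
  have hmem' : algebraMap K F c⁻¹ ∈ w.toValuationSubring := w.algebraMap_mem' _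
  have e1 : algebraMap K F c * algebraMap K F c⁻¹ = 1 := by
    rw [← map_mul, mul_inv_cancel₀ hc, map_one]
  have e2 : algebraMap K F c⁻¹ * algebraMap K F c = 1 := by
    rw [mul_comm]; exact e1
  let u : w.toValuationSubringˣ := ⟨⟨_, hmem⟩, ⟨_, hmem'⟩, Subtype.ext e1, Subtype.ext e2⟩
  exact w.ord_coe_unit u

/-- **A stable principal divisor is the divisor of a fixed function.** -/
theorem exists_fixed_of_isPrincipal {g : ℕ} (hR : RiemannHyp K F g) {lc : F → K}
    (hlc : LeadingCoeff H lc) {E : Divisor K F} (hE : IsStable H E)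
    (hprin : Divisor.IsPrincipal E) :
    ∃ φ : F, φ ≠ 0 ∧ (∀ v : Place K F, E v = v.ord φ) ∧ IsFixed H φ ∧ lc φ = 1 := by
  obtain ⟨f0, hf0, hf0E⟩ := hprin
  have hc0 : lc f0 ≠ 0 := hlc.ne_zero f0 hf0
  set f : F := algebraMap K F (lc f0)⁻¹ * f0 with hf
  have hcF : algebraMap K F (lc f0)⁻¹ ≠ 0 := by
    rw [Ne, map_eq_zero]; exact inv_ne_zero hc0
  have hfne : f ≠ 0 := mul_ne_zero hcF hf0
  have hlcf : lc f = 1 := by rw [hf, hlc.const_mul, inv_mul_cancel₀ hc0]
  have hordf : ∀ w : Place K F, E w = w.ord f := fun w => by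
    rw [hf, w.ord_mul hcF hf0, ord_algebraMap_eq_zero w (inv_ne_zero hc0), zero_add, hf0E w]
  refine ⟨f, hfne, hordf, fun h hh => ?_, hlcf⟩
  have hhf : h • f ≠ 0 := by
    rw [Ne, smul_eq_zero_iff_eq]; exact hfne
  have hord : ∀ w : Place K F, w.ord (h • f * f⁻¹) = 0 := fun w => by
    rw [w.ord_mul hhf (inv_ne_zero hfne), w.ord_inv, ← hordf w]
    have e1 : w.ord (h • f) = (h⁻¹ • w).ord f := by
      have e := SemilinearAut.ord_smul h (h⁻¹ • w) f
      rwa [smul_inv_smul] at e
    rw [e1, ← hordf (h⁻¹ • w)]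
    have e2 : E (h⁻¹ • w) = E w := by
      have e := SemilinearAut.divisor_smul_apply h E w
      rw [hE h hh] at e
      exact e.symm
    rw [e2]; ring
  obtain ⟨c, hc, hcu⟩ := exists_const_of_ord_eq_zero hR (mul_ne_zero hhf (inv_ne_zero hfne)) hord
  have hhfc : h • f = algebraMap K F c * f := by
    rw [← hcu, mul_assoc, inv_mul_cancel₀ hfne, mul_one]
  have hc1 : c = 1 := by
    have e1 : lc (h • f) = 1 := by rw [hlc.equivariant h hh, hlcf, map_one]
    rw [hhfc, hlc.const_mul, hlcf, mul_one] at e1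
    exact e1
  rw [hhfc, hc1, map_one, one_mul]

/-! ### the zero divisors of rational sections and the principal differences -/

variable (H)

/-- the zero divisors `div s + δ oo ≥ 0` of the nonzero `H`-fixed `s ∈ L(δ oo)` -/
def ZZ (oo : Place K F) (δ : ℕ) : Set (Divisor K F) :=
  {Z | ∃ s : F, s ≠ 0 ∧ IsFixed H s ∧ 0 ≤ Z ∧
    ∃ Ds : Divisor K F, (∀ v : Place K F, Ds v = v.ord s) ∧ Z = Ds + Finsupp.single oo (δ : ℤ)}

/-- the principal divisors `A - A'`, with `A, A' ≥ 0` stable of degree `≤ d` -/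
def EE (d : ℕ) : Set (Divisor K F) :=
  {E | Divisor.IsPrincipal E ∧ ∃ A A' : Divisor K F, 0 ≤ A ∧ 0 ≤ A' ∧ IsStable H A ∧
    IsStable H A' ∧ Divisor.degree A ≤ d ∧ Divisor.degree A' ≤ d ∧ E = A - A'}

variable {H}

theorem isStable_of_mem_ZZ {oo : Place K F} (hoo : ∀ h ∈ H, h • oo = oo) {δ : ℕ}
    {Z : Divisor K F} (hZ : Z ∈ ZZ H oo δ) : IsStable H Z := by
  obtain ⟨s, hs0, hs, -, Ds, hDs, rfl⟩ := hZ
  refine IsStable.add (fun h hh => ?_) (isStable_single hoo _)
  ext w
  rw [SemilinearAut.divisor_smul_apply, hDs, hDs]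
  have e := SemilinearAut.ord_smul h (h⁻¹ • w) s
  rw [smul_inv_smul, hs h hh] at e
  exact e.symm

theorem degree_of_mem_ZZ [HasPrincipalDivisors K F] {oo : Place K F} (hoo : oo.deg = 1) {δ : ℕ}
    {Z : Divisor K F} (hZ : Z ∈ ZZ H oo δ) : Divisor.degree Z = δ := by
  obtain ⟨s, hs0, -, -, Ds, hDs, rfl⟩ := hZ
  have h0 : Divisor.degree Ds = 0 :=
    Reduced.isPrincipal_degree ⟨s, hs0, hDs⟩
  rw [map_add, h0, Divisor.degree_single, hoo]
  simp

theorem EE_neg {d : ℕ} {E : Divisor K F} (hE : E ∈ EE H d) : -E ∈ EE H d := by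
  obtain ⟨hp, A, A', hA, hA', hsA, hsA', hdA, hdA', rfl⟩ := hE
  exact ⟨Reduced.isPrincipal_neg' hp, A', A, hA', hA, hsA', hsA, hdA', hdA, by abel⟩

theorem isStable_of_mem_EE {d : ℕ} {E : Divisor K F} (hE : E ∈ EE H d) : IsStable H E := by
  obtain ⟨-, A, A', -, -, hsA, hsA', -, -, rfl⟩ := hE
  exact hsA.sub hsA'

theorem degree_of_mem_EE [HasPrincipalDivisors K F] {d : ℕ} {E : Divisor K F} (hE : E ∈ EE H d) :
    Divisor.degree E = 0 :=
  Reduced.isPrincipal_degree hE.1

/-- **Every principal difference is a difference of zero divisors of rational sections**, as soon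
as `L(δ oo - A)` contains a nonzero fixed function for every stable effective `A` of degree `≤ d`. -/
theorem EE_subset_sub {g : ℕ} (hR : RiemannHyp K F g) [HasPrincipalDivisors K F] {lc : F → K}
    (hlc : LeadingCoeff H lc) (oo : Place K F) (δ d : ℕ)
    (hsec : ∀ A : Divisor K F, 0 ≤ A → IsStable H A → Divisor.degree A ≤ d →
      ∃ s : F, s ≠ 0 ∧ IsFixed H s ∧ s ∈ riemannRochSpace (Finsupp.single oo (δ : ℤ) - A))
    {E : Divisor K F} (hE : E ∈ EE H d) :
    ∃ Z ∈ ZZ H oo δ, ∃ Z' ∈ ZZ H oo δ, E = Z - Z' := by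
  have hEst := isStable_of_mem_EE hE
  obtain ⟨hp, A, A', hA, hA', hsA, hsA', hdA, hdA', rfl⟩ := hE
  obtain ⟨φ, hφ0, hφE, hφfix, -⟩ := exists_fixed_of_isPrincipal hR hlc hEst hp
  obtain ⟨s, hs0, hsfix, hsmem⟩ := hsec A hA hsA hdA
  obtain ⟨Ds, hDs, -⟩ := HasPrincipalDivisors.exists_divisor (K := K) s hs0
  -- `Z = div s + δ oo ≥ A`
  have hZA : A ≤ Ds + Finsupp.single oo (δ : ℤ) := by
    rw [Finsupp.le_def]
    intro v
    have h1 := (mem_rr_iff_of_ne_zero hs0).mp hsmem v
    rw [Finsupp.add_apply, hDs v]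
    rw [Finsupp.sub_apply] at h1
    linarith
  have hZ0 : 0 ≤ Ds + Finsupp.single oo (δ : ℤ) := hA.trans hZA
  refine ⟨Ds + Finsupp.single oo (δ : ℤ), ⟨s, hs0, hsfix, hZ0, Ds, hDs, rfl⟩,
    Ds - (A - A') + Finsupp.single oo (δ : ℤ), ⟨s * φ⁻¹, mul_ne_zero hs0 (inv_ne_zero hφ0),
      hsfix.mul hφfix.inv, ?_, Ds - (A - A'), fun v => ?_, rfl⟩, by abel⟩
  · have e : Ds - (A - A') + Finsupp.single oo (δ : ℤ)
        = (Ds + Finsupp.single oo (δ : ℤ) - A) + A' := by abel
    rw [e]
    exact add_nonneg (sub_nonneg.mpr hZA) hA'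
  · rw [Finsupp.sub_apply, hDs v, hφE v, v.ord_mul hs0 (inv_ne_zero hφ0), v.ord_inv]
    ring

/-! ### reciprocity -/

/-- **Reciprocity for principal differences** (B.5): from the bound of B.4 on stable divisors of
degree zero against the zero divisors of rational sections. -/
theorem reciprocity {g : ℕ} (hR : RiemannHyp K F g) [HasPrincipalDivisors K F] {lc : F → K}
    (hlc : LeadingCoeff H lc) (oo : Place K F) (δ d : ℕ)
    (hsec : ∀ A : Divisor K F, 0 ≤ A → IsStable H A → Divisor.degree A ≤ d →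
      ∃ s : F, s ≠ 0 ∧ IsFixed H s ∧ s ∈ riemannRochSpace (Finsupp.single oo (δ : ℤ) - A))
    (b : Place K F → Place K F → ℝ) {γ : ℝ}
    (hB4 : ∀ D ∈ stableDiv H ⊓ Divisor.degZero, ∀ Z ∈ ZZ H oo δ, |Bil b D Z| ≤ γ * nrm1 D) :
    ∀ D ∈ stableDiv H ⊓ Divisor.degZero, ∀ E ∈ EE H d, |Bil b D E| ≤ 2 * γ * nrm1 D := by
  intro D hD E hE
  obtain ⟨Z, hZ, Z', hZ', rfl⟩ := EE_subset_sub hR hlc oo δ d hsec hE
  have h1 := hB4 D hD Z hZ
  have h2 := hB4 D hD Z' hZ'
  rw [Bil_sub_right]
  rw [abs_le] at h1 h2 ⊢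
  constructor <;> linarith [h1.1, h1.2, h2.1, h2.2]

/-- the hypothesis `hB4` of `reciprocity` from the literal shape of B.4 (main term
`deg D * κ Z`, for all stable `D`) -/
theorem hB4_of_kappa (oo : Place K F) (δ : ℕ) (b : Place K F → Place K F → ℝ)
    (κ : Divisor K F → ℝ) {γ : ℝ}
    (h : ∀ D ∈ stableDiv H, ∀ Z ∈ ZZ H oo δ,
      |Bil b D Z - ((Divisor.degree D : ℤ) : ℝ) * κ Z| ≤ γ * nrm1 D) :
    ∀ D ∈ stableDiv H ⊓ Divisor.degZero, ∀ Z ∈ ZZ H oo δ, |Bil b D Z| ≤ γ * nrm1 D := by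
  rintro D ⟨hD, hD0⟩ Z hZ
  have h1 := h D hD Z hZ
  have h0 : Divisor.degree D = 0 := hD0
  rw [h0] at h1
  simpa using h1

end Fermat.Agent.S17.Model.Reciprocity
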