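import Mathlib
import Fermat.Agent.S17.Model.Reciprocity
import Fermat.Agent.S17.Model.ReducedX0

/-!
# S17 (project H), Part B, B.6 = H0.15: the approximate parallelogram law from reciprocity

Abstract frame of `Model/Reciprocity`.  For a class `x` put `rho x := D_x - r(x) oo` (reduced
representative).  If `x` is `H`-fixed, `rho x` is a stable divisor of degree `0` with
`|rho x|₁ ≤ 2 g`, and `rho (x ± y) = rho x ± rho y + E` with `E ∈ EE H (3 g)` a principal
difference of stable effective divisors of degree `≤ 3 g`, `|E|₁ ≤ 6 g`.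

* `parallelogram` : for a symmetric pairing `b` on places satisfying the reciprocity bound
  `|⟨D, E⟩| ≤ C |D|₁` (`D` stable of degree `0`, `E ∈ EE H (3 g)`), the function
  `q x := Qf b (rho x)` satisfies `|q (x+y) + q (x-y) - 2 (q x + q y)| ≤ 14 C g` on every subgroup
  `Γ` of `H`-fixed classes.
* `parallelogram_X0` : the instance `Γ = J₀(N)(ℚ̄)^{G_ℚ}`, i.e. hypothesis `hpar` of
  `Final.Descent.fg_Gam_of_le`.
-/

set_option autoImplicit false

noncomputable section

namespace Fermat.Agent.S17.Model.Parallelogram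

open AlgebraicCurve Fermat.Agent.S18.NonSpecial Fermat.Agent.S17.Abs.PairQuad
open Fermat.Agent.S17.Model.Reduced Fermat.Agent.S17.Model.Reciprocity

universe u v

section Abstract

variable {K : Type u} {F : Type v} [Field K] [Field F] [Algebra K F]
variable {g : ℕ} (hR : RiemannHyp K F g) [HasPrincipalDivisors K F]
variable (H : Subgroup (SemilinearAut K F)) (oo : Place K F)

/-- the degree-zero representative `D_x - r(x) oo` -/
def rho (x : Pic0 K F) : Divisor K F :=
  redDiv hR oo x - Finsupp.single oo (redDeg hR oo x : ℤ)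

include hR in
omit [HasPrincipalDivisors K F] in
/-- for an effective divisor the `ℓ¹`-norm is the degree -/
theorem nrm1_eq_degree {D : Divisor K F} (hD : 0 ≤ D) :
    nrm1 D = ((Divisor.degree D : ℤ) : ℝ) := by
  rw [← sum_abs_eq_degree hR hD]
  unfold nrm1
  push_cast
  rfl

theorem nrm1_rho_le (x : Pic0 K F) : nrm1 (rho hR oo x) ≤ 2 * g := by
  have h1 := nrm1_sub_le (redDiv hR oo x) (Finsupp.single oo (redDeg hR oo x : ℤ))
  have h2 : nrm1 (redDiv hR oo x) = (redDeg hR oo x : ℝ) := by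
    rw [nrm1_eq_degree hR (isRep_redDiv hR oo x).nonneg, (isRep_redDiv hR oo x).degree_eq]
    simp
  have h3 : nrm1 (Finsupp.single oo (redDeg hR oo x : ℤ)) = (redDeg hR oo x : ℝ) := by
    rw [nrm1_single]
    simp
  have h4 : (redDeg hR oo x : ℝ) ≤ g := by exact_mod_cast redDeg_le hR oo x
  unfold rho
  linarith

variable {H} {oo}

theorem isStable_redDiv (hoo : ∀ h ∈ H, h • oo = oo) {x : Pic0 K F}
    (hx : ∀ h ∈ H, h • x = x) : IsStable H (redDiv hR oo x) :=
  fun h hh => smul_redDiv_of_fixed hR oo h (hoo h hh) (hx h hh)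

theorem rho_mem (hoo : ∀ h ∈ H, h • oo = oo) {x : Pic0 K F} (hx : ∀ h ∈ H, h • x = x) :
    rho hR oo x ∈ stableDiv H ⊓ Divisor.degZero := by
  refine ⟨(isStable_redDiv hR hoo hx).sub (isStable_single hoo _), ?_⟩
  show Divisor.degree (rho hR oo x) = 0
  unfold rho
  rw [map_sub, (isRep_redDiv hR oo x).degree_eq, Divisor.degree_single, hR.deg_one oo]
  simp

/-- `rho (x + y) = rho x + rho y + E`, `E` a principal difference -/
theorem rho_add (hoo : ∀ h ∈ H, h • oo = oo) {x y : Pic0 K F} (hx : ∀ h ∈ H, h • x = x)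
    (hy : ∀ h ∈ H, h • y = y) :
    ∃ E ∈ EE H (3 * g), rho hR oo (x + y) = rho hR oo x + rho hR oo y + E := by
  have hxy : ∀ h ∈ H, h • (x + y) = x + y := fun h hh => by rw [smul_add, hx h hh, hy h hh]
  have hp := isPrincipal_add hR oo (isRep_redDiv hR oo x) (isRep_redDiv hR oo y)
    (isRep_redDiv hR oo (x + y))
  set r := redDeg hR oo x
  set s := redDeg hR oo y
  set t := redDeg hR oo (x + y)
  have hr : r ≤ g := redDeg_le hR oo x
  have hs : s ≤ g := redDeg_le hR oo y
  have ht : t ≤ g := redDeg_le hR oo (x + y)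
  have hdoo : ∀ n : ℕ, Divisor.degree (Finsupp.single oo (n : ℤ)) = n := fun n => by
    rw [Divisor.degree_single, hR.deg_one oo]; simp
  refine ⟨(redDiv hR oo (x + y) + Finsupp.single oo ((r + s : ℕ) : ℤ)) -
      (redDiv hR oo x + redDiv hR oo y + Finsupp.single oo (t : ℤ)), ⟨?_, _, _, ?_, ?_, ?_, ?_, ?_,
        ?_, rfl⟩, ?_⟩
  · have := isPrincipal_neg' hp
    rwa [neg_sub] at this
  · exact add_nonneg (isRep_redDiv hR oo (x + y)).nonneg (Finsupp.single_nonneg.mpr (by positivity))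
  · exact add_nonneg (add_nonneg (isRep_redDiv hR oo x).nonneg (isRep_redDiv hR oo y).nonneg)
      (Finsupp.single_nonneg.mpr (by positivity))
  · exact (isStable_redDiv hR hoo hxy).add (isStable_single hoo _)
  · exact ((isStable_redDiv hR hoo hx).add (isStable_redDiv hR hoo hy)).add (isStable_single hoo _)
  · rw [map_add, (isRep_redDiv hR oo (x + y)).degree_eq, hdoo]
    push_cast
    have : ((t : ℕ) : ℤ) + ((r : ℤ) + s) ≤ 3 * g := by exact_mod_cast (by omega : t + (r + s) ≤ 3 * g)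
    linarith
  · rw [map_add, map_add, (isRep_redDiv hR oo x).degree_eq, (isRep_redDiv hR oo y).degree_eq, hdoo]
    have : ((r : ℕ) : ℤ) + s + t ≤ 3 * g := by exact_mod_cast (by omega : r + s + t ≤ 3 * g)
    push_cast
    linarith
  · unfold rho
    rw [Nat.cast_add, Finsupp.single_add]
    abel

/-- `rho (x - y) = rho x - rho y + E`, `E` a principal difference -/
theorem rho_sub (hoo : ∀ h ∈ H, h • oo = oo) {x y : Pic0 K F} (hx : ∀ h ∈ H, h • x = x)
    (hy : ∀ h ∈ H, h • y = y) :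
    ∃ E ∈ EE H (3 * g), rho hR oo (x - y) = rho hR oo x - rho hR oo y + E := by
  have hxy : ∀ h ∈ H, h • (x - y) = x - y := fun h hh => by rw [smul_sub, hx h hh, hy h hh]
  have hp := isPrincipal_sub hR oo (isRep_redDiv hR oo x) (isRep_redDiv hR oo y)
    (isRep_redDiv hR oo (x - y))
  set r := redDeg hR oo x
  set s := redDeg hR oo y
  set t := redDeg hR oo (x - y)
  have hr : r ≤ g := redDeg_le hR oo x
  have hs : s ≤ g := redDeg_le hR oo y
  have ht : t ≤ g := redDeg_le hR oo (x - y)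
  have hdoo : ∀ n : ℕ, Divisor.degree (Finsupp.single oo (n : ℤ)) = n := fun n => by
    rw [Divisor.degree_single, hR.deg_one oo]; simp
  refine ⟨(redDiv hR oo (x - y) + redDiv hR oo y + Finsupp.single oo (r : ℤ)) -
      (redDiv hR oo x + Finsupp.single oo ((s + t : ℕ) : ℤ)), ⟨?_, _, _, ?_, ?_, ?_, ?_, ?_,
        ?_, rfl⟩, ?_⟩
  · have := isPrincipal_neg' hp
    rwa [neg_sub] at this
  · exact add_nonneg (add_nonneg (isRep_redDiv hR oo (x - y)).nonneg (isRep_redDiv hR oo y).nonneg)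
      (Finsupp.single_nonneg.mpr (by positivity))
  · exact add_nonneg (isRep_redDiv hR oo x).nonneg (Finsupp.single_nonneg.mpr (by positivity))
  · exact ((isStable_redDiv hR hoo hxy).add (isStable_redDiv hR hoo hy)).add (isStable_single hoo _)
  · exact (isStable_redDiv hR hoo hx).add (isStable_single hoo _)
  · rw [map_add, map_add, (isRep_redDiv hR oo (x - y)).degree_eq,
      (isRep_redDiv hR oo y).degree_eq, hdoo]
    have : ((t : ℕ) : ℤ) + s + r ≤ 3 * g := by exact_mod_cast (by omega : t + s + r ≤ 3 * g)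
    push_cast
    linarith
  · rw [map_add, (isRep_redDiv hR oo x).degree_eq, hdoo]
    push_cast
    have : ((r : ℕ) : ℤ) + ((s : ℤ) + t) ≤ 3 * g := by exact_mod_cast (by omega : r + (s + t) ≤ 3 * g)
    linarith
  · unfold rho
    rw [Nat.cast_add, Finsupp.single_add]
    abel

include hR in
omit [HasPrincipalDivisors K F] in
theorem nrm1_le_of_mem_EE {d : ℕ} {E : Divisor K F} (hE : E ∈ EE H d) : nrm1 E ≤ 2 * d := by
  obtain ⟨-, A, A', hA, hA', -, -, hdA, hdA', rfl⟩ := hE
  have h1 := nrm1_sub_le A A'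
  rw [nrm1_eq_degree hR hA, nrm1_eq_degree hR hA'] at h1
  have h2 : ((Divisor.degree A : ℤ) : ℝ) ≤ d := by exact_mod_cast hdA
  have h3 : ((Divisor.degree A' : ℤ) : ℝ) ≤ d := by exact_mod_cast hdA'
  linarith

/-- **The approximate parallelogram law** (B.6 = H0.15) on a group `Γ` of `H`-fixed classes, from
the reciprocity bound. -/
theorem parallelogram (hoo : ∀ h ∈ H, h • oo = oo) (Γ : AddSubgroup (Pic0 K F))
    (hΓ : ∀ x ∈ Γ, ∀ h ∈ H, h • x = x) {b : Place K F → Place K F → ℝ}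
    (hb : ∀ P R, b P R = b R P) {C : ℝ} (hC : 0 ≤ C)
    (hRec : ∀ D ∈ stableDiv H ⊓ Divisor.degZero, ∀ E ∈ EE H (3 * g), |Bil b D E| ≤ C * nrm1 D)
    (x y : Γ) :
    |Qf b (rho hR oo ((x + y : Γ) : Pic0 K F)) + Qf b (rho hR oo ((x - y : Γ) : Pic0 K F))
        - 2 * (Qf b (rho hR oo (x : Pic0 K F)) + Qf b (rho hR oo (y : Pic0 K F)))|
      ≤ 14 * C * g := by
  have key := approx_parallelogram' (J := Γ) hb (stableDiv H ⊓ Divisor.degZero) (EE H (3 * g))
    (fun E hE => ⟨isStable_of_mem_EE hE, degree_of_mem_EE hE⟩)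
    (n := 2 * (3 * g : ℕ)) (C := C) (s := 2 * g)
    (fun E hE => nrm1_le_of_mem_EE hR hE) hC hRec
    (fun z : Γ => rho hR oo (z : Pic0 K F))
    (fun z => rho_mem hR hoo (hΓ z z.2))
    (fun z => nrm1_rho_le hR oo z)
    (fun z w => rho_add hR hoo (hΓ z z.2) (hΓ w w.2))
    (fun z w => rho_sub hR hoo (hΓ z z.2) (hΓ w w.2)) x y
  refine key.trans (le_of_eq ?_)
  push_cast
  ring

end Abstract

/-! ### the instance `X₀(N)` -/

section X0

set_option linter.unusedSectionVars false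

open ModularCurve Fermat.Agent.S17.Model.ReducedX0

local notation "Kb" => AlgebraicClosure ℚ
local notation "GQ" => (AlgebraicClosure ℚ ≃ₐ[ℚ] AlgebraicClosure ℚ)

variable (N : ℕ) [NeZero N]

/-- the image of `G_ℚ` in the semilinear automorphisms of `ℚ̄(X₀(N))` -/
def HX0 : Subgroup (SemilinearAut Kb (modularFunctionFieldBar N)) :=
  (⊤ : Subgroup GQ).map (arithmeticGalois (modularFunctionFieldFull N))

theorem mem_HX0 {h : SemilinearAut Kb (modularFunctionFieldBar N)} :
    h ∈ HX0 N ↔ ∃ σ : GQ, galAut N σ = h := by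
  constructor
  · rintro ⟨σ, -, rfl⟩
    exact ⟨σ, rfl⟩
  · rintro ⟨σ, rfl⟩
    exact ⟨σ, Subgroup.mem_top σ, rfl⟩

theorem galAut_mem_HX0 (σ : GQ) : galAut N σ ∈ HX0 N := (mem_HX0 N).mpr ⟨σ, rfl⟩

theorem HX0_smul_oo : ∀ h ∈ HX0 N, h • oo N = oo N := by
  rintro h ⟨σ, -, rfl⟩
  exact galAut_smul_oo N σ

theorem HX0_smul_of_mem_Gam : ∀ x ∈ Gam N, ∀ h ∈ HX0 N, h • x = x := by
  rintro x hx h ⟨σ, -, rfl⟩
  exact hx σ

/-- the `q`-expansion leading coefficient is a leading coefficient for `G_ℚ` -/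
theorem leadingCoeff_HX0 :
    Fermat.Agent.S36.K0Descent.LeadingCoeff (HX0 N)
      (Fermat.Agent.S36.K0DescentLaurent.qLead (L := Kb) (modularFunctionFieldFull N)) :=
  Fermat.Agent.S36.K0DescentLaurent.leadingCoeff_qLead (modularFunctionFieldFull N) ⊤

theorem isStable_HX0_iff {D : Divisor Kb (modularFunctionFieldBar N)} :
    IsStable (HX0 N) D ↔ ∀ σ : GQ, galAut N σ • D = D := by
  constructor
  · intro h σ
    exact h _ (galAut_mem_HX0 N σ)
  · rintro h _ ⟨σ, -, rfl⟩
    exact h σ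

theorem isFixed_HX0_iff {f : modularFunctionFieldBar N} :
    IsFixed (HX0 N) f ↔ ∀ σ : GQ, galAut N σ • f = f := by
  constructor
  · intro h σ
    exact h _ (galAut_mem_HX0 N σ)
  · rintro h _ ⟨σ, -, rfl⟩
    exact h σ

attribute [local instance] Fermat.Agent.S18.A.Instances.hasPrincipalDivisors_bar

variable {N}
variable {g : ℕ} (hR : RiemannHyp Kb (modularFunctionFieldBar N) g)

/-- the quadratic function on `Γ = J₀(N)(ℚ)` attached to a pairing `b` on the places -/
def qX0 (b : Place Kb (modularFunctionFieldBar N) → Place Kb (modularFunctionFieldBar N) → ℝ)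
    (x : Gam N) : ℝ :=
  Qf b (Dx hR (x : JZero N) - Finsupp.single (oo N) (rx hR (x : JZero N) : ℤ))

/-- **The approximate parallelogram law on `J₀(N)(ℚ)`** (B.6 = H0.15), from reciprocity:
hypothesis `hpar` of `Final.Descent.fg_Gam_of_le`. -/
theorem parallelogram_X0
    {b : Place Kb (modularFunctionFieldBar N) → Place Kb (modularFunctionFieldBar N) → ℝ}
    (hb : ∀ P R, b P R = b R P) {C : ℝ} (hC : 0 ≤ C)
    (hRec : ∀ D ∈ stableDiv (HX0 N) ⊓ Divisor.degZero, ∀ E ∈ EE (HX0 N) (3 * g),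
      |Bil b D E| ≤ C * nrm1 D) (x y : Gam N) :
    |qX0 hR b (x + y) + qX0 hR b (x - y) - 2 * (qX0 hR b x + qX0 hR b y)| ≤ 14 * C * g :=
  parallelogram hR (HX0_smul_oo N) (Gam N) (HX0_smul_of_mem_Gam N) hb hC hRec x y

/-- the same, directly from B.4 on stable degree-zero divisors and the existence of rational
sections (`hsec`, from the `ℚ`-structure of `L(δ ∞ - A)`) -/
theorem parallelogram_X0_of_B4 (δ : ℕ)
    (hsec : ∀ A : Divisor Kb (modularFunctionFieldBar N), 0 ≤ A → IsStable (HX0 N) A →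
      Divisor.degree A ≤ (3 * g : ℕ) →
      ∃ s : modularFunctionFieldBar N, s ≠ 0 ∧ IsFixed (HX0 N) s ∧
        s ∈ riemannRochSpace (Finsupp.single (oo N) (δ : ℤ) - A))
    {b : Place Kb (modularFunctionFieldBar N) → Place Kb (modularFunctionFieldBar N) → ℝ}
    (hb : ∀ P R, b P R = b R P) {γ : ℝ} (hγ : 0 ≤ γ)
    (hB4 : ∀ D ∈ stableDiv (HX0 N) ⊓ Divisor.degZero, ∀ Z ∈ ZZ (HX0 N) (oo N) δ,
      |Bil b D Z| ≤ γ * nrm1 D) (x y : Gam N) :
    |qX0 hR b (x + y) + qX0 hR b (x - y) - 2 * (qX0 hR b x + qX0 hR b y)|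
      ≤ 14 * (2 * γ) * g :=
  parallelogram_X0 hR hb (by positivity)
    (reciprocity hR (leadingCoeff_HX0 N) (oo N) δ (3 * g) hsec b hB4) x y

end X0

end Fermat.Agent.S17.Model.Parallelogram
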