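import Mathlib
import Fermat.Agent.S17.Model.Parallelogram
import Fermat.Agent.S17.Dict.QStructure

/-!
# S17 (project H), Part B, P5: the frame `ρ : Γ → Div` on `X₀(N)`

* abstract frame (`Model/Reciprocity`): `isPrincipal_of_isRep_isRep` (two representatives of one
  class), `sub_sub_rho_mem_EE` (`P, Q ≥ 0` stable of degree `w`: `P - Q = ρ [P - Q] + E` with
  `E ∈ EE H (w + g)`; cases `Q = w oo`, `P = w oo`), `rho_two_nsmul` (doubling);
* `X₀(N)`: `exists_fixed_section_X0` (Fr4: for `δ ≥ d + g` every stable effective `A` of degree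
  `≤ d` lies on the zero divisor of a nonzero rational section of `L(δ ∞)`), and the frame
  `rhoX0 : Γ(N) → Div` with the hypotheses of `PairQuad.approx_parallelogram'` in literal form.
-/

set_option autoImplicit false

noncomputable section

namespace Fermat.Agent.S17.Model.FrameGamma

open AlgebraicCurve Fermat.Agent.S18.NonSpecial Fermat.Agent.S17.Abs.PairQuad
open Fermat.Agent.S17.Model.Reduced Fermat.Agent.S17.Model.Reciprocity
open Fermat.Agent.S17.Model.Parallelogram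

universe u v

section Abstract

variable {K : Type u} {F : Type v} [Field K] [Field F] [Algebra K F]
variable {g : ℕ} (hR : RiemannHyp K F g) [HasPrincipalDivisors K F]
variable {H : Subgroup (SemilinearAut K F)} {oo : Place K F}

include hR in
omit [HasPrincipalDivisors K F] in
/-- two representatives of the same class are linearly equivalent after adding multiples of
`oo` -/
theorem isPrincipal_of_isRep_isRep {x : Pic0 K F} {r s : ℕ} {D E : Divisor K F}
    (hD : IsRep oo x r D) (hE : IsRep oo x s E) :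
    Divisor.IsPrincipal ((D + Finsupp.single oo (s : ℤ)) - (E + Finsupp.single oo (r : ℤ))) := by
  obtain ⟨X, rfl⟩ := Pic0.mk_surjective x
  have hoo := hR.deg_one oo
  obtain ⟨-, -, h1⟩ := (isRep_iff hoo X r D).mp hD
  obtain ⟨-, -, h2⟩ := (isRep_iff hoo X s E).mp hE
  have : (D + Finsupp.single oo (s : ℤ)) - (E + Finsupp.single oo (r : ℤ)) =
      (shift oo r D - (X : Divisor K F)) - (shift oo s E - (X : Divisor K F)) := by
    rw [shift, shift]
    abel
  rw [this]
  exact isPrincipal_sub' h1 h2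

omit [HasPrincipalDivisors K F] in
/-- the class of a stable divisor of degree zero is fixed -/
theorem smul_mk_of_isStable {X : Divisor K F} (hX : IsStable H X)
    (hmem : X ∈ Divisor.degZero (K := K) (F := F)) :
    ∀ h ∈ H, h • Pic0.mk ⟨X, hmem⟩ = Pic0.mk ⟨X, hmem⟩ := by
  intro h hh
  rw [SemilinearAut.pic0_smul_mk]
  refine congrArg Pic0.mk (Subtype.ext ?_)
  rw [SemilinearAut.coe_degZeroSMulHom]
  exact hX h hh

/-- **A difference of stable effective divisors against the frame**: for `P, Q ≥ 0` stable of the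
same degree `w`, `P - Q = ρ [P - Q] + E` with `E = (P + r oo) - (Q + D_y)` a principal difference
of stable effective divisors of degree `≤ w + g`. -/
theorem sub_sub_rho_mem_EE (hoo : ∀ h ∈ H, h • oo = oo) {P Q : Divisor K F} (hP0 : 0 ≤ P)
    (hQ0 : 0 ≤ Q) (hP : IsStable H P) (hQ : IsStable H Q) {w : ℕ}
    (hdP : Divisor.degree P = w) (hdQ : Divisor.degree Q = w)
    (hmem : P - Q ∈ Divisor.degZero (K := K) (F := F)) :
    (P - Q) - rho hR oo (Pic0.mk ⟨_, hmem⟩) ∈ EE H (w + g) := by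
  set y : Pic0 K F := Pic0.mk ⟨_, hmem⟩ with hy
  have hyfix : ∀ h ∈ H, h • y = y := smul_mk_of_isStable (hP.sub hQ) hmem
  have hrepD := isRep_redDiv hR oo y
  set r := redDeg hR oo y
  have hr : r ≤ g := redDeg_le hR oo y
  have hdoo : ∀ n : ℕ, Divisor.degree (Finsupp.single oo (n : ℤ)) = n := fun n => by
    rw [Divisor.degree_single, hR.deg_one oo]; simp
  refine ⟨?_, P + Finsupp.single oo (r : ℤ), Q + redDiv hR oo y,
    ?_, ?_, ?_, ?_, ?_, ?_, ?_⟩
  · obtain ⟨hm, hcl⟩ := hrepD.class_eq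
    have h1 := (mk_eq_mk_iff ⟨_, hm⟩ ⟨_, hmem⟩).mp hcl
    have h2 := isPrincipal_neg' h1
    have e : (P - Q) - rho hR oo y
        = -((shift oo r (redDiv hR oo y)) - (P - Q)) := by
      unfold rho shift
      abel
    rw [e]
    exact h2
  · exact add_nonneg hP0 (Finsupp.single_nonneg.mpr (by positivity))
  · exact add_nonneg hQ0 hrepD.nonneg
  · exact hP.add (isStable_single hoo _)
  · exact hQ.add (isStable_redDiv hR hoo hyfix)
  · rw [map_add, hdP, hdoo]
    push_cast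
    have : (r : ℤ) ≤ g := by exact_mod_cast hr
    linarith
  · rw [map_add, hdQ, hrepD.degree_eq]
    push_cast
    have : (r : ℤ) ≤ g := by exact_mod_cast hr
    linarith
  · unfold rho
    abel

/-- the case `Q = w oo`: a stable effective `W` of degree `w` and `y = [W - w oo]` -/
theorem sub_rho_mem_EE (hoo : ∀ h ∈ H, h • oo = oo) {W : Divisor K F} (hW0 : 0 ≤ W)
    (hW : IsStable H W) {w : ℕ} (hdeg : Divisor.degree W = w)
    (hmem : W - Finsupp.single oo (w : ℤ) ∈ Divisor.degZero (K := K) (F := F)) :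
    (W - Finsupp.single oo (w : ℤ)) - rho hR oo (Pic0.mk ⟨_, hmem⟩) ∈ EE H (w + g) :=
  sub_sub_rho_mem_EE hR hoo hW0 (Finsupp.single_nonneg.mpr (by positivity)) hW
    (isStable_single hoo _) hdeg (by rw [Divisor.degree_single, hR.deg_one oo]; simp) hmem

/-- the case `P = w oo`: a stable effective `W` of degree `w` and `y = [w oo - W]` -/
theorem single_sub_rho_mem_EE (hoo : ∀ h ∈ H, h • oo = oo) {W : Divisor K F} (hW0 : 0 ≤ W)
    (hW : IsStable H W) {w : ℕ} (hdeg : Divisor.degree W = w)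
    (hmem : Finsupp.single oo (w : ℤ) - W ∈ Divisor.degZero (K := K) (F := F)) :
    (Finsupp.single oo (w : ℤ) - W) - rho hR oo (Pic0.mk ⟨_, hmem⟩) ∈ EE H (w + g) :=
  sub_sub_rho_mem_EE hR hoo (Finsupp.single_nonneg.mpr (by positivity)) hW0
    (isStable_single hoo _) hW (by rw [Divisor.degree_single, hR.deg_one oo]; simp) hdeg hmem

/-- doubling: `ρ (z + z) = ρ z + ρ z + E` -/
theorem rho_two_nsmul (hoo : ∀ h ∈ H, h • oo = oo) {z : Pic0 K F} (hz : ∀ h ∈ H, h • z = z) :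
    ∃ E ∈ EE H (3 * g), rho hR oo (z + z) = rho hR oo z + rho hR oo z + E :=
  rho_add hR hoo hz hz

end Abstract

/-! ### `X₀(N)` -/

section X0

set_option linter.unusedSectionVars false

open ModularCurve Fermat.Agent.S17.Model.ReducedX0

local notation "Kb" => AlgebraicClosure ℚ
local notation "GQ" => (AlgebraicClosure ℚ ≃ₐ[ℚ] AlgebraicClosure ℚ)

variable {N : ℕ} [NeZero N]

attribute [local instance] Fermat.Agent.S18.A.Instances.hasPrincipalDivisors_bar

variable {g : ℕ} (hR : RiemannHyp Kb (modularFunctionFieldBar N) g)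

include hR in
/-- **(Fr4)** for `δ ≥ d + g`, every stable effective `A` of degree `≤ d` lies on the zero divisor
of a nonzero RATIONAL section of `L(δ ∞)`: there is a nonzero `G_ℚ`-fixed `s ∈ L(δ ∞ - A)`. -/
theorem exists_fixed_section_X0 {δ d : ℕ} (hδ : d + g ≤ δ)
    (A : Divisor Kb (modularFunctionFieldBar N)) (_hA : 0 ≤ A) (hAst : IsStable (HX0 N) A)
    (hdeg : Divisor.degree A ≤ d) :
    ∃ s : modularFunctionFieldBar N, s ≠ 0 ∧ IsFixed (HX0 N) s ∧
      s ∈ riemannRochSpace (Finsupp.single (oo N) (δ : ℤ) - A) := by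
  set D : Divisor Kb (modularFunctionFieldBar N) := Finsupp.single (oo N) (δ : ℤ) - A with hD
  have hDst : IsStable (HX0 N) D := (isStable_single (HX0_smul_oo N) _).sub hAst
  obtain ⟨d', v, -, -, -, hfix⟩ :=
    Fermat.Agent.S17.Dict.QStructure.exists_rational_basis_rr_X0 N D
      ((isStable_HX0_iff N).mp hDst)
  have hell : (1 : ℤ) ≤ ell D := by
    have h1 := riemann_ineq hR D
    have h2 : Divisor.degree D = δ - Divisor.degree A := by
      rw [hD, map_sub, Divisor.degree_single, deg_oo N]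
      simp
    have h3 : ((d + g : ℕ) : ℤ) ≤ δ := by exact_mod_cast hδ
    push_cast at h3
    linarith
  have hd' : d' = ell D := by
    have := Module.finrank_eq_card_basis v
    rw [Fintype.card_fin] at this
    exact this.symm
  have hpos : 0 < d' := by
    rw [hd']
    exact_mod_cast hell
  refine ⟨((v ⟨0, hpos⟩ : riemannRochSpace D) : modularFunctionFieldBar N), ?_, ?_,
    (v ⟨0, hpos⟩).2⟩
  · intro h0
    exact v.ne_zero ⟨0, hpos⟩ (Subtype.ext h0)
  · exact (isFixed_HX0_iff N).mpr fun σ => hfix σ ⟨0, hpos⟩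

/-- the frame `ρ x = D_x - r(x) ∞` on `Γ = J₀(N)(ℚ)` -/
def rhoX0 (x : Gam N) : Divisor Kb (modularFunctionFieldBar N) :=
  rho hR (oo N) (x : JZero N)

theorem rhoX0_eq (x : Gam N) :
    rhoX0 hR x = Dx hR (x : JZero N) - Finsupp.single (oo N) (rx hR (x : JZero N) : ℤ) := rfl

theorem qX0_eq (b : Place Kb (modularFunctionFieldBar N) → Place Kb (modularFunctionFieldBar N) → ℝ)
    (x : Gam N) : qX0 hR b x = Qf b (rhoX0 hR x) := rfl

theorem rhoX0_mem (x : Gam N) : rhoX0 hR x ∈ stableDiv (HX0 N) ⊓ Divisor.degZero :=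
  rho_mem hR (HX0_smul_oo N) (HX0_smul_of_mem_Gam N x x.2)

theorem nrm1_rhoX0_le (x : Gam N) : nrm1 (rhoX0 hR x) ≤ 2 * g := nrm1_rho_le hR (oo N) _

theorem rhoX0_add (x y : Gam N) :
    ∃ E ∈ EE (HX0 N) (3 * g), rhoX0 hR (x + y) = rhoX0 hR x + rhoX0 hR y + E :=
  rho_add hR (HX0_smul_oo N) (HX0_smul_of_mem_Gam N x x.2) (HX0_smul_of_mem_Gam N y y.2)

theorem rhoX0_sub (x y : Gam N) :
    ∃ E ∈ EE (HX0 N) (3 * g), rhoX0 hR (x - y) = rhoX0 hR x - rhoX0 hR y + E :=
  rho_sub hR (HX0_smul_oo N) (HX0_smul_of_mem_Gam N x x.2) (HX0_smul_of_mem_Gam N y y.2)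

theorem rhoX0_two_nsmul (z : Gam N) :
    ∃ E ∈ EE (HX0 N) (3 * g), rhoX0 hR (z + z) = rhoX0 hR z + rhoX0 hR z + E :=
  rhoX0_add hR z z

include hR in
/-- every member of `EE` is a difference of zero divisors of rational sections of `L(δ ∞)`,
`δ ≥ d + g` -/
theorem EE_subset_sub_X0 {δ d : ℕ} (hδ : d + g ≤ δ)
    {E : Divisor Kb (modularFunctionFieldBar N)} (hE : E ∈ EE (HX0 N) d) :
    ∃ Z ∈ ZZ (HX0 N) (oo N) δ, ∃ Z' ∈ ZZ (HX0 N) (oo N) δ, E = Z - Z' :=
  EE_subset_sub hR (leadingCoeff_HX0 N) (oo N) δ d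
    (fun A hA hAst hdeg => exists_fixed_section_X0 hR hδ A hA hAst hdeg) hE

include hR in
/-- **reciprocity on `X₀(N)`** with `δ ≥ d + g`, from B.4 alone -/
theorem reciprocity_X0 {δ d : ℕ} (hδ : d + g ≤ δ)
    (b : Place Kb (modularFunctionFieldBar N) → Place Kb (modularFunctionFieldBar N) → ℝ) {γ : ℝ}
    (hB4 : ∀ D ∈ stableDiv (HX0 N) ⊓ Divisor.degZero, ∀ Z ∈ ZZ (HX0 N) (oo N) δ,
      |Bil b D Z| ≤ γ * nrm1 D) :
    ∀ D ∈ stableDiv (HX0 N) ⊓ Divisor.degZero, ∀ E ∈ EE (HX0 N) d,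
      |Bil b D E| ≤ 2 * γ * nrm1 D :=
  reciprocity hR (leadingCoeff_HX0 N) (oo N) δ d
    (fun A hA hAst hdeg => exists_fixed_section_X0 hR hδ A hA hAst hdeg) b hB4

/-- **the approximate parallelogram law on `J₀(N)(ℚ)`** with `δ ≥ 4 g`, from B.4 alone -/
theorem parallelogram_X0_of_B4' {δ : ℕ} (hδ : 4 * g ≤ δ)
    {b : Place Kb (modularFunctionFieldBar N) → Place Kb (modularFunctionFieldBar N) → ℝ}
    (hb : ∀ P R, b P R = b R P) {γ : ℝ} (hγ : 0 ≤ γ)
    (hB4 : ∀ D ∈ stableDiv (HX0 N) ⊓ Divisor.degZero, ∀ Z ∈ ZZ (HX0 N) (oo N) δ,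
      |Bil b D Z| ≤ γ * nrm1 D) (x y : Gam N) :
    |qX0 hR b (x + y) + qX0 hR b (x - y) - 2 * (qX0 hR b x + qX0 hR b y)|
      ≤ 14 * (2 * γ) * g :=
  parallelogram_X0_of_B4 hR δ
    (fun A hA hAst hdeg => exists_fixed_section_X0 hR (by omega) A hA hAst hdeg) hb hγ hB4 x y

/-- **a difference of stable effective divisors of the same degree against the frame** (the
RR-membership facts of (A1), (A2)): `y := [P - Q] ∈ Γ` and `P - Q = ρ y + E`, `E ∈ EE (w + g)`. -/
theorem sub_sub_rhoX0_mem_EE {P Q : Divisor Kb (modularFunctionFieldBar N)} (hP0 : 0 ≤ P)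
    (hQ0 : 0 ≤ Q) (hP : IsStable (HX0 N) P) (hQ : IsStable (HX0 N) Q) {w : ℕ}
    (hdP : Divisor.degree P = w) (hdQ : Divisor.degree Q = w) :
    ∃ (hmem : P - Q ∈ Divisor.degZero (K := Kb) (F := modularFunctionFieldBar N)) (y : Gam N),
      (y : JZero N) = Pic0.mk ⟨_, hmem⟩ ∧ (P - Q) - rhoX0 hR y ∈ EE (HX0 N) (w + g) := by
  have hmem : P - Q ∈ Divisor.degZero (K := Kb) (F := modularFunctionFieldBar N) := by
    show Divisor.degree (P - Q) = 0
    rw [map_sub, hdP, hdQ, sub_self]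
  have hfix := smul_mk_of_isStable (hP.sub hQ) hmem
  exact ⟨hmem, ⟨Pic0.mk ⟨_, hmem⟩, fun σ => hfix _ (galAut_mem_HX0 N σ)⟩, rfl,
    sub_sub_rho_mem_EE hR (HX0_smul_oo N) hP0 hQ0 hP hQ hdP hdQ hmem⟩

/-- (A2): a stable effective `O` of degree `m` and `y_O := [O - m ∞]` -/
theorem sub_rhoX0_mem_EE {W : Divisor Kb (modularFunctionFieldBar N)} (hW0 : 0 ≤ W)
    (hW : IsStable (HX0 N) W) {w : ℕ} (hdeg : Divisor.degree W = w) :
    ∃ y : Gam N, (W - Finsupp.single (oo N) (w : ℤ)) - rhoX0 hR y ∈ EE (HX0 N) (w + g) := by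
  obtain ⟨-, y, -, h⟩ := sub_sub_rhoX0_mem_EE hR hW0
    (Finsupp.single_nonneg.mpr (by positivity : (0 : ℤ) ≤ (w : ℤ))) hW
    (isStable_single (HX0_smul_oo N) _) hdeg
    (by rw [Divisor.degree_single, deg_oo N]; simp)
  exact ⟨y, h⟩

/-- (A1): a stable effective `K₀` of degree `w` and `y_K := [w ∞ - K₀]` -/
theorem single_sub_rhoX0_mem_EE {W : Divisor Kb (modularFunctionFieldBar N)} (hW0 : 0 ≤ W)
    (hW : IsStable (HX0 N) W) {w : ℕ} (hdeg : Divisor.degree W = w) :
    ∃ y : Gam N, (Finsupp.single (oo N) (w : ℤ) - W) - rhoX0 hR y ∈ EE (HX0 N) (w + g) := by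
  obtain ⟨-, y, -, h⟩ := sub_sub_rhoX0_mem_EE hR
    (Finsupp.single_nonneg.mpr (by positivity : (0 : ℤ) ≤ (w : ℤ))) hW0
    (isStable_single (HX0_smul_oo N) _) hW
    (by rw [Divisor.degree_single, deg_oo N]; simp) hdeg
  exact ⟨y, h⟩

/-- `x` is determined by `D_x` -/
theorem Dx_injective : Function.Injective (Dx hR : JZero N → Divisor Kb (modularFunctionFieldBar N)) := by
  intro x y hxy
  have hr : rx hR x = rx hR y := by
    have h1 := degree_Dx hR x
    have h2 := degree_Dx hR y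
    rw [hxy, h2] at h1
    exact_mod_cast h1.symm
  obtain ⟨hm, hx⟩ := mk_Dx hR x
  obtain ⟨hm', hy⟩ := mk_Dx hR y
  rw [← hx, ← hy]
  refine congrArg Pic0.mk (Subtype.ext ?_)
  show Dx hR x - Finsupp.single (oo N) (rx hR x : ℤ) = Dx hR y - Finsupp.single (oo N) (rx hR y : ℤ)
  rw [hxy, hr]

theorem rhoX0_injective : Function.Injective (rhoX0 hR : Gam N → _) := by
  intro x y hxy
  apply Subtype.ext
  apply Dx_injective hR
  have h1 : rhoX0 hR x (oo N) = rhoX0 hR y (oo N) := by rw [hxy]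
  rw [rhoX0_eq, rhoX0_eq, Finsupp.sub_apply, Finsupp.sub_apply, Dx_apply_oo, Dx_apply_oo,
    Finsupp.single_eq_same, Finsupp.single_eq_same] at h1
  have hr : (rx hR (x : JZero N) : ℤ) = rx hR (y : JZero N) := by linarith
  rw [rhoX0_eq, rhoX0_eq, hr] at hxy
  exact sub_left_injective hxy

end X0

end Fermat.Agent.S17.Model.FrameGamma
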