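import Mathlib
import Fermat.Agent.S17.Model.Global
import Fermat.Agent.S17.Model.FrameGamma

/-!
# S17 (project H), Part B: the bridge between the global frame (P4) and the frame on `Γ` (P5)

`Φ : RatFrame N δ` a rational frame of `X₀(N)`.

* `stable_iff_isStable` : `Ht.Stable` for the action `actX N` is `IsStable (HX0 N)`;
* `zInt_Zdiv_mem_ZZ` / `exists_rat_of_mem_ZZ` :
  `ZZ (HX0 N) (oo N) δ = { zInt (Zdiv Φ a) | a ≠ 0 rational }` — the zero divisors of the nonzero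
  `G_ℚ`-fixed sections of `L(δ ∞)` are the zero divisors of the rational linear forms;
* `hB4_of_starDefect` : the hand-over hypothesis (A*) for all rational forms gives the hypothesis
  `hB4` of `FrameGamma.reciprocity_X0`;
* `reciprocity_of_starDefect`, `parallelogram_of_starDefect` : (R) and the approximate
  parallelogram law (B.6) for `q x = Qf (bGlob …) (ρ x)` on `Γ = J₀(N)(ℚ)`, from (A*) alone.
-/

set_option autoImplicit false
set_option linter.unusedSectionVars false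

noncomputable section

namespace Fermat.Agent.S17.Model.FrameBridge

open AlgebraicCurve AlgebraicCurve.SemilinearAut ModularCurve
open Fermat.Agent.S18.NonSpecial Fermat.Agent.S17.Model.Lift Fermat.Agent.S17.Model.Embed
open Fermat.Agent.S17.Dict.QStructure Fermat.Agent.S17.B.Frame Fermat.Agent.S17.Ht
open Fermat.Agent.S17.Abs.PairQuad Fermat.Agent.S17.Model.Global
open Fermat.Agent.S17.Model.Reciprocity Fermat.Agent.S17.Model.Parallelogram
open Fermat.Agent.S17.Model.FrameGamma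
open Fermat.Agent.S36.K0Descent (mem_rr_iff_of_ne_zero)

local notation "Kb" => AlgebraicClosure ℚ

variable {N : ℕ} [NeZero N]

/-- the two names of the cusp `∞` agree -/
theorem oo_eq : Fermat.Agent.S17.Dict.QStructure.oo N = Fermat.Agent.S17.Model.ReducedX0.oo N :=
  rfl

theorem dOO_eq (δ : ℕ) :
    dOO N δ = Finsupp.single (Fermat.Agent.S17.Model.ReducedX0.oo N) (δ : ℤ) := rfl

/-- `Ht.Stable` for the Galois action on the places is `IsStable (HX0 N)` -/
theorem stable_iff_isStable (D : X N →₀ ℤ) :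
    (letI := actX N; Stable D) ↔ IsStable (HX0 N) D := by
  let _ := actX N
  constructor
  · intro h
    rw [isStable_HX0_iff]
    intro σ
    ext P
    rw [SemilinearAut.divisor_smul_apply, ← map_inv]
    exact h σ⁻¹ P
  · intro h σ P
    exact h.apply_smul (galAut_mem_HX0 N σ) P

variable {δ : ℕ} (Φ : RatFrame N δ)

/-- a rational coefficient vector -/
def IsRat (a : Fin (Φ.n + 1) → Qbar) : Prop := ∀ (σ : GQ) (j : Fin (Φ.n + 1)), σ (a j) = a j

theorem gal_smul_formOf (σ : GQ) (a : Fin (Φ.n + 1) → Qbar) :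
    gal N σ • formOf Φ.f a = formOf Φ.f (fun j => σ (a j)) := by
  unfold formOf
  rw [Finset.smul_sum]
  refine Finset.sum_congr rfl fun j _ => ?_
  rw [smul_mul', SemilinearAut.smul_algebraMap, Φ.fixed σ j, baseAut_arithmeticGalois]
  rfl

theorem isFixed_formOf {a : Fin (Φ.n + 1) → Qbar} (hrat : IsRat Φ a) :
    IsFixed (HX0 N) (formOf Φ.f a) := by
  rw [isFixed_HX0_iff]
  intro σ
  show gal N σ • formOf Φ.f a = formOf Φ.f a
  rw [gal_smul_formOf]
  congr 1
  funext j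
  exact hrat σ j

/-- **the zero divisor of a rational linear form lies in `ZZ`** -/
theorem zInt_Zdiv_mem_ZZ {a : Fin (Φ.n + 1) → Qbar} (ha : a ≠ 0) (hrat : IsRat Φ a) :
    zInt (Zdiv Φ a) ∈ ZZ (HX0 N) (Fermat.Agent.S17.Model.ReducedX0.oo N) δ := by
  have := Fermat.Agent.S18.A.Instances.hasPrincipalDivisors_bar N
  have hs0 := Global.formOf_ne_zero Φ ha
  obtain ⟨Ds, hDs, -⟩ := HasPrincipalDivisors.exists_divisor (K := Kb) (formOf Φ.f a) hs0
  refine ⟨formOf Φ.f a, hs0, isFixed_formOf Φ hrat, ?_, Ds, hDs, ?_⟩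
  · intro P
    show (0 : ℤ) ≤ zInt (Zdiv Φ a) P
    rw [zInt_apply]
    exact_mod_cast Nat.zero_le _
  · ext P
    rw [zInt_apply, Zdiv_apply_eq_ord Φ ha, Finsupp.add_apply, hDs P, dOO_eq]

/-- **every member of `ZZ` is the zero divisor of a rational linear form** -/
theorem exists_rat_of_mem_ZZ {Z : Divisor Kb (modularFunctionFieldBar N)}
    (hZ : Z ∈ ZZ (HX0 N) (Fermat.Agent.S17.Model.ReducedX0.oo N) δ) :
    ∃ a : Fin (Φ.n + 1) → Qbar, a ≠ 0 ∧ IsRat Φ a ∧ Z = zInt (Zdiv Φ a) := by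
  obtain ⟨s, hs0, hsfix, hZ0, Ds, hDs, rfl⟩ := hZ
  have hsmem : s ∈ riemannRochSpace (dOO N δ) := by
    rw [mem_rr_iff_of_ne_zero hs0]
    intro v
    have h := hZ0 v
    rw [Finsupp.add_apply, hDs v, ← dOO_eq] at h
    have h0 : (0 : Divisor Kb (modularFunctionFieldBar N)) v = 0 := rfl
    rw [h0] at h
    linarith
  obtain ⟨a, rfl⟩ := Φ.model.span s hsmem
  have ha : a ≠ 0 := by
    rintro rfl
    apply hs0
    unfold formOf
    simp
  have hrat : IsRat Φ a := by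
    intro σ j
    have h1 : gal N σ • formOf Φ.f a = formOf Φ.f a := (isFixed_HX0_iff N).mp hsfix σ
    rw [gal_smul_formOf] at h1
    have h2 : formOf Φ.f (fun j => σ (a j) - a j) = 0 := by
      have e : (fun j => σ (a j) - a j) = (fun j => σ (a j)) + (-1 : Qbar) • a := by
        funext j
        simp [sub_eq_add_neg]
      rw [e, Fermat.Agent.S17.Model.EmbedRR.formOf_add, Fermat.Agent.S17.Model.EmbedRR.formOf_smul,
        h1]
      simp
    have h3 := Fermat.Agent.S17.Model.EmbedRR.formOf_injective Φ.linInd h2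
    have h4 := congrFun h3 j
    exact sub_eq_zero.mp h4
  refine ⟨a, ha, hrat, ?_⟩
  ext P
  rw [zInt_apply, Zdiv_apply_eq_ord Φ ha, Finsupp.add_apply, hDs P, dOO_eq]

/-- the sum of the coefficients is the degree -/
theorem sum_eq_degree (D : X N →₀ ℤ) : (∑ P ∈ D.support, D P : ℤ) = Divisor.degree D := by
  rw [Fermat.Agent.S17.Model.Reduced.degree_eq_sum (Fermat.Agent.S18.A.Instances.deg_one_bar N) D]
  rfl

variable {Φ}
variable {ix : X N → Fin (Φ.n + 1)} {sp : X N → modularFunctionFieldBar N}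

open scoped Classical

/-- **B.4 in the shape consumed by `FrameGamma.reciprocity_X0`**: the hand-over hypothesis (A*)
for every rational linear form gives `|⟨D, Z⟩| ≤ γ |D|₁` for stable `D` of degree `0` and
`Z ∈ ZZ`. -/
theorem hB4_of_starDefect (hch : IsEquivChoice Φ ix sp) (hδ : δ ≠ 0) {gam : Pl → ℝ}
    (hgam : AZ gam)
    (hA : ∀ a : Fin (Φ.n + 1) → Qbar, a ≠ 0 → IsRat Φ a → ∀ v P,
      |starDefect (xt Φ ix) (w Φ ix) (tau Φ ix sp) 1 a (Zdiv Φ a) (lcG Φ ix sp a) v P| ≤ gam v) :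
    ∀ D ∈ stableDiv (HX0 N) ⊓ Divisor.degZero,
      ∀ Z ∈ ZZ (HX0 N) (Fermat.Agent.S17.Model.ReducedX0.oo N) δ,
        |Bil (bGlob (xt Φ ix) (w Φ ix) (tau Φ ix sp) δ) D Z| ≤ tot gam * nrm1 D := by
  rintro D ⟨hDst, hD0⟩ Z hZ
  obtain ⟨a, ha, hrat, rfl⟩ := exists_rat_of_mem_ZZ Φ hZ
  have h := abs_Bil_Zdiv_sub_le hch hδ ha hrat hgam (hA a ha hrat)
    ((stable_iff_isStable D).mpr hDst)
  have h0 : Divisor.degree D = 0 := hD0
  rw [sum_eq_degree, h0] at h
  simpa using h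

/-- the constants `gam v` of (A*) are nonnegative -/
theorem gam_nonneg {gam : Pl → ℝ}
    (hA : ∀ a : Fin (Φ.n + 1) → Qbar, a ≠ 0 → IsRat Φ a → ∀ v P,
      |starDefect (xt Φ ix) (w Φ ix) (tau Φ ix sp) 1 a (Zdiv Φ a) (lcG Φ ix sp a) v P| ≤ gam v)
    (v : Pl) : 0 ≤ gam v := by
  set a0 : Fin (Φ.n + 1) → Qbar := fun _ => 1 with ha0
  have ha : a0 ≠ 0 := by
    intro h
    have := congrFun h 0
    simp [ha0] at this
  have hrat : IsRat Φ a0 := fun σ j => map_one σ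
  exact (abs_nonneg _).trans (hA _ ha hrat v (Fermat.Agent.S17.Model.ReducedX0.oo N))

variable {g : ℕ} (hR : RiemannHyp Kb (modularFunctionFieldBar N) g)

include hR in
/-- **reciprocity (R) on `X₀(N)` from (A*)**: for `δ ≥ d + g`, every stable `D` of degree `0` and
every principal difference `E` of stable effective divisors of degree `≤ d`. -/
theorem reciprocity_of_starDefect (hch : IsEquivChoice Φ ix sp) {d : ℕ} (hδ : d + g ≤ δ)
    (hδ0 : δ ≠ 0) {gam : Pl → ℝ} (hgam : AZ gam)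
    (hA : ∀ a : Fin (Φ.n + 1) → Qbar, a ≠ 0 → IsRat Φ a → ∀ v P,
      |starDefect (xt Φ ix) (w Φ ix) (tau Φ ix sp) 1 a (Zdiv Φ a) (lcG Φ ix sp a) v P| ≤ gam v) :
    ∀ D ∈ stableDiv (HX0 N) ⊓ Divisor.degZero, ∀ E ∈ EE (HX0 N) d,
      |Bil (bGlob (xt Φ ix) (w Φ ix) (tau Φ ix sp) δ) D E| ≤ 2 * tot gam * nrm1 D :=
  reciprocity_X0 hR hδ _ (hB4_of_starDefect hch hδ0 hgam hA)

/-- **the approximate parallelogram law (B.6 = H0.15) on `J₀(N)(ℚ)` from (A*)**, for
`q x := Qf (bGlob …) (D_x - r(x) ∞)`; `δ ≥ 4 g`, `δ ≠ 0`. -/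
theorem parallelogram_of_starDefect (hch : IsEquivChoice Φ ix sp) (hδ : 4 * g ≤ δ)
    (hδ0 : δ ≠ 0) {gam : Pl → ℝ} (hgam : AZ gam)
    (hA : ∀ a : Fin (Φ.n + 1) → Qbar, a ≠ 0 → IsRat Φ a → ∀ v P,
      |starDefect (xt Φ ix) (w Φ ix) (tau Φ ix sp) 1 a (Zdiv Φ a) (lcG Φ ix sp a) v P| ≤ gam v)
    (x y : Fermat.Agent.S17.Model.ReducedX0.Gam N) :
    |qX0 hR (bGlob (xt Φ ix) (w Φ ix) (tau Φ ix sp) δ) (x + y)
        + qX0 hR (bGlob (xt Φ ix) (w Φ ix) (tau Φ ix sp) δ) (x - y)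
        - 2 * (qX0 hR (bGlob (xt Φ ix) (w Φ ix) (tau Φ ix sp) δ) x
          + qX0 hR (bGlob (xt Φ ix) (w Φ ix) (tau Φ ix sp) δ) y)|
      ≤ 14 * (2 * tot gam) * g :=
  parallelogram_X0_of_B4' hR hδ (fun P R => bGlob_symm' P R)
    (tot_nonneg (gam_nonneg hA)) (hB4_of_starDefect hch hδ0 hgam hA) x y

end Fermat.Agent.S17.Model.FrameBridge
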