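import Mathlib
import Fermat.Agent.S17.Model.FrameBridge
import Fermat.Agent.S17.Pos.DegZeroHt

/-!
# S17 (project H), Part B: the frame-side inputs of B.13′ on `X₀(N)`

`Φ : RatFrame N δ`, `b := bGlob (xt Φ ix) (w Φ ix) (tau Φ ix sp) δ`,
`PP := stableDiv (HX0 N)`, `PP0 := PP ⊓ degZero`, `ρ := rhoX0 hR`, `EE := EE (HX0 N) (3 g)`.

* `exists_rat_ge` (Fr4 / LEMMA T (ii)) : every stable effective `A` of degree `≤ d`, `d + g ≤ δ`,
  lies under the zero divisor of a nonzero rational linear form;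
* `abs_Bil_Zdiv_sub_le_degR` : B.4 with `degR`, for `D ∈ stableDiv (HX0 N)`;
* `zInt_Zdiv_e0` : `Z(e₀) = δ ∞`; `hB4oo`; `hPP0`; `hrho` : the hypotheses of
  `Pos.DegZeroHt.degZero_bGlob` in literal form;
* `degZero_X0` : **B.13′ on `X₀(N)`** (with the corrections), from (A*) for rational forms and the
  two elementary bounds `hlam`, `hh`.
-/

set_option autoImplicit false
set_option linter.unusedSectionVars false

noncomputable section

namespace Fermat.Agent.S17.Model.FrameSection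

open AlgebraicCurve AlgebraicCurve.SemilinearAut ModularCurve
open Fermat.Agent.S18.NonSpecial Fermat.Agent.S17.Model.Lift Fermat.Agent.S17.Model.Embed
open Fermat.Agent.S17.Dict.QStructure Fermat.Agent.S17.B.Frame Fermat.Agent.S17.Ht
open Fermat.Agent.S17.Abs.PairQuad Fermat.Agent.S17.Model.Global
open Fermat.Agent.S17.Model.Reciprocity Fermat.Agent.S17.Model.Parallelogram
open Fermat.Agent.S17.Model.FrameGamma Fermat.Agent.S17.Model.FrameBridge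
open Fermat.Agent.S17.Model.ReducedX0 (Gam Dx rx)
open Fermat.Agent.S36.K0Descent (mem_rr_iff_of_ne_zero)

local notation "Kb" => AlgebraicClosure ℚ
local notation "ooN" => Fermat.Agent.S17.Model.ReducedX0.oo

variable {N : ℕ} [NeZero N] {δ : ℕ} (Φ : RatFrame N δ)
variable {g : ℕ} (hR : RiemannHyp Kb (modularFunctionFieldBar N) g)

include hR in
/-- **(Fr4) / LEMMA T (ii)**: a stable effective divisor of degree `≤ d`, `d + g ≤ δ`, lies under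
the zero divisor of a nonzero rational linear form. -/
theorem exists_rat_ge {d : ℕ} (hδ : d + g ≤ δ) {A : Divisor Kb (modularFunctionFieldBar N)}
    (hA : 0 ≤ A) (hAst : IsStable (HX0 N) A) (hdeg : Divisor.degree A ≤ d) :
    ∃ a : Fin (Φ.n + 1) → Qbar, a ≠ 0 ∧ IsRat Φ a ∧ A ≤ zInt (Zdiv Φ a) := by
  have := Fermat.Agent.S18.A.Instances.hasPrincipalDivisors_bar N
  obtain ⟨s, hs0, hsfix, hsmem⟩ := exists_fixed_section_X0 hR hδ A hA hAst hdeg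
  obtain ⟨Ds, hDs, -⟩ := HasPrincipalDivisors.exists_divisor (K := Kb) s hs0
  have hZA : A ≤ Ds + Finsupp.single (ooN N) (δ : ℤ) := by
    rw [Finsupp.le_def]
    intro v
    have h1 := (mem_rr_iff_of_ne_zero hs0).mp hsmem v
    rw [Finsupp.add_apply, hDs v]
    rw [Finsupp.sub_apply] at h1
    linarith
  have hZmem : Ds + Finsupp.single (ooN N) (δ : ℤ) ∈ ZZ (HX0 N) (ooN N) δ :=
    ⟨s, hs0, hsfix, hA.trans hZA, Ds, hDs, rfl⟩
  obtain ⟨a, ha, hrat, hZ⟩ := exists_rat_of_mem_ZZ Φ hZmem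
  exact ⟨a, ha, hrat, hZ ▸ hZA⟩

variable {Φ}
variable {ix : X N → Fin (Φ.n + 1)} {sp : X N → modularFunctionFieldBar N}

open scoped Classical

theorem degR_eq_cast (D : X N →₀ ℤ) : degR D = ((∑ P ∈ D.support, D P : ℤ) : ℝ) := by
  unfold degR
  push_cast
  rfl

theorem degR_eq_degree (D : X N →₀ ℤ) : degR D = ((Divisor.degree D : ℤ) : ℝ) := by
  rw [degR_eq_cast, sum_eq_degree]

/-- **B.4 with `degR`** for a stable divisor in the sense of `Model/Reciprocity` -/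
theorem abs_Bil_Zdiv_sub_le_degR (hch : IsEquivChoice Φ ix sp) (hδ0 : δ ≠ 0)
    {a : Fin (Φ.n + 1) → Qbar} (ha : a ≠ 0) (hrat : IsRat Φ a) {gam : Pl → ℝ} (hgam : AZ gam)
    (hA : ∀ v P,
      |starDefect (xt Φ ix) (w Φ ix) (tau Φ ix sp) 1 a (Zdiv Φ a) (lcG Φ ix sp a) v P| ≤ gam v)
    {D : X N →₀ ℤ} (hD : D ∈ stableDiv (HX0 N)) :
    |Bil (bGlob (xt Φ ix) (w Φ ix) (tau Φ ix sp) δ) D (zInt (Zdiv Φ a))
        - degR D * kap (xt Φ ix) δ a (Zdiv Φ a)| ≤ tot gam * nrm1 D := by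
  rw [degR_eq_cast]
  exact abs_Bil_Zdiv_sub_le hch hδ0 ha hrat hgam hA ((stable_iff_isStable D).mpr hD)

/-- the degree of the zero divisor of a linear form -/
theorem degR_zInt_Zdiv {a : Fin (Φ.n + 1) → Qbar} (ha : a ≠ 0) :
    degR (zInt (Zdiv Φ a)) = δ := by
  unfold degR
  rw [support_zInt]
  have h := sum_Zdiv Φ ha
  rw [one_mul] at h
  have h2 : ((∑ R ∈ (Zdiv Φ a).support, Zdiv Φ a R : ℕ) : ℝ) = (δ : ℝ) := by rw [h]
  rw [← h2]
  push_cast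
  rfl

variable (Φ)

/-- the linear form `x₀ = 1` -/
def e0 : Fin (Φ.n + 1) → Qbar := Pi.single 0 1

theorem e0_ne_zero : e0 Φ ≠ 0 := by
  intro h
  have := congrFun h 0
  simp [e0] at this

theorem isRat_e0 : IsRat Φ (e0 Φ) := by
  intro σ j
  unfold e0
  by_cases hj : j = 0
  · subst hj
    rw [Pi.single_eq_same, map_one]
  · rw [Pi.single_eq_of_ne hj, map_zero]

theorem formOf_e0 : formOf Φ.f (e0 Φ) = 1 := by
  unfold e0
  rw [Fermat.Agent.S17.Model.EmbedRR.formOf_single, Φ.f_zero]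

/-- `Z(e₀) = δ ∞` -/
theorem zInt_Zdiv_e0 : zInt (Zdiv Φ (e0 Φ)) = Finsupp.single (ooN N) (δ : ℤ) := by
  ext P
  rw [zInt_apply, Zdiv_apply_eq_ord Φ (e0_ne_zero Φ), formOf_e0, dOO_eq]
  have h1 : P.ord (1 : modularFunctionFieldBar N) = 0 := by
    have := ord_algebraMap_eq_zero P (one_ne_zero : (1 : Kb) ≠ 0)
    rwa [map_one] at this
  rw [h1, zero_add]

variable {Φ}

/-- **`hB4oo`** of `degZero_bGlob`, literally -/
theorem hB4oo (hch : IsEquivChoice Φ ix sp) (hδ0 : δ ≠ 0) {gam : Pl → ℝ} (hgam : AZ gam)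
    (hA : ∀ a : Fin (Φ.n + 1) → Qbar, a ≠ 0 → IsRat Φ a → ∀ v P,
      |starDefect (xt Φ ix) (w Φ ix) (tau Φ ix sp) 1 a (Zdiv Φ a) (lcG Φ ix sp a) v P| ≤ gam v) :
    ∀ D ∈ stableDiv (HX0 N),
      |Bil (bGlob (xt Φ ix) (w Φ ix) (tau Φ ix sp) δ) D (Finsupp.single (ooN N) (δ : ℤ))
        - degR D * kap (xt Φ ix) δ (e0 Φ) (Zdiv Φ (e0 Φ))| ≤ tot gam * nrm1 D := by
  intro D hD
  rw [← zInt_Zdiv_e0 Φ]
  exact abs_Bil_Zdiv_sub_le_degR hch hδ0 (e0_ne_zero Φ) (isRat_e0 Φ) hgam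
    (hA _ (e0_ne_zero Φ) (isRat_e0 Φ)) hD

/-- **`hPP0`** of `degZero_bGlob`, literally -/
theorem hPP0 : ∀ D ∈ stableDiv (HX0 N), ∀ r : ℤ, (r : ℝ) = degR D →
    D - Finsupp.single (ooN N) r ∈ stableDiv (HX0 N) ⊓ Divisor.degZero := by
  intro D hD r hr
  refine ⟨IsStable.sub hD (isStable_single (HX0_smul_oo N) _), ?_⟩
  show Divisor.degree (D - Finsupp.single (ooN N) r) = 0
  rw [degR_eq_degree] at hr
  have hr' : r = Divisor.degree D := by exact_mod_cast hr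
  rw [map_sub, Divisor.degree_single, Fermat.Agent.S17.Model.ReducedX0.deg_oo N, hr']
  simp

include hR in
/-- **`hρ`** of `degZero_bGlob`, literally: `ρ y = D_y - r_y ∞` with `D_y ≤ Z(a)` for a rational
form `a`, and B.4 for `Z(a)`. -/
theorem hrho (hch : IsEquivChoice Φ ix sp) (hδ : g + g ≤ δ) (hδ0 : δ ≠ 0) {gam : Pl → ℝ}
    (hgam : AZ gam)
    (hA : ∀ a : Fin (Φ.n + 1) → Qbar, a ≠ 0 → IsRat Φ a → ∀ v P,
      |starDefect (xt Φ ix) (w Φ ix) (tau Φ ix sp) 1 a (Zdiv Φ a) (lcG Φ ix sp a) v P| ≤ gam v) :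
    ∀ y : Gam N, ∃ W Z : X N →₀ ℤ, ∃ κZ : ℝ, ∃ ry : ℤ, 0 ≤ W ∧ W ≤ Z ∧ degR Z = δ ∧
      (∀ D ∈ stableDiv (HX0 N),
        |Bil (bGlob (xt Φ ix) (w Φ ix) (tau Φ ix sp) δ) D Z - degR D * κZ| ≤ tot gam * nrm1 D) ∧
      rhoX0 hR y = W - Finsupp.single (ooN N) ry := by
  intro y
  have hst : IsStable (HX0 N) (Dx hR (y : JZero N)) :=
    (isStable_HX0_iff N).mpr fun σ =>
      Fermat.Agent.S17.Model.ReducedX0.galAut_smul_Dx_of_mem hR y.2 σ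
  have hdeg : Divisor.degree (Dx hR (y : JZero N)) ≤ (g : ℕ) := by
    rw [Fermat.Agent.S17.Model.ReducedX0.degree_Dx]
    exact_mod_cast Fermat.Agent.S17.Model.ReducedX0.rx_le hR (y : JZero N)
  obtain ⟨a, ha, hrat, hle⟩ := exists_rat_ge Φ hR hδ
    (Fermat.Agent.S17.Model.ReducedX0.Dx_nonneg hR (y : JZero N)) hst hdeg
  exact ⟨Dx hR (y : JZero N), zInt (Zdiv Φ a), kap (xt Φ ix) δ a (Zdiv Φ a),
    (rx hR (y : JZero N) : ℤ), Fermat.Agent.S17.Model.ReducedX0.Dx_nonneg hR _, hle,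
    degR_zInt_Zdiv ha,
    fun D hD => abs_Bil_Zdiv_sub_le_degR hch hδ0 ha hrat hgam (hA a ha hrat) hD, rfl⟩

include hR in
/-- **B.13′ on `X₀(N)`** (with the corrections of (A1)): for `E₀ = ρ y + ∑ ± E_j`, `E_j ∈ EE`,
and `ε > 0` there is `C₁` with `|B(D - r ∞, E₀)| ≤ ε N(D) + C₁` for every stable effective `D` of
degree `r ≤ g` off `∞`. -/
theorem degZero_X0 (hch : IsEquivChoice Φ ix sp) (hδ : 4 * g ≤ δ) (hδ0 : 0 < δ) {gam : Pl → ℝ}
    (hgam : AZ gam)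
    (hA : ∀ a : Fin (Φ.n + 1) → Qbar, a ≠ 0 → IsRat Φ a → ∀ v P,
      |starDefect (xt Φ ix) (w Φ ix) (tau Φ ix sp) 1 a (Zdiv Φ a) (lcG Φ ix sp a) v P| ≤ gam v)
    (hlam : ∀ P R : X N, P ≠ R → -Real.log 2 ≤ lamG (xt Φ ix) (w Φ ix) P R)
    (hh : ∀ P : X N, 0 ≤ totalLam (xt Φ ix P))
    (y : Gam N) (l : List (X N →₀ ℤ))
    (hl : ∀ E ∈ l, E ∈ EE (HX0 N) (3 * g) ∨ -E ∈ EE (HX0 N) (3 * g)) {E0 : X N →₀ ℤ}
    (hE0 : E0 = rhoX0 hR y + l.sum) {ε : ℝ} (hε : 0 < ε) :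
    ∃ C1 : ℝ, ∀ D ∈ stableDiv (HX0 N), 0 ≤ D → degR D ≤ g → D (ooN N) = 0 →
      ∀ r : ℤ, (r : ℝ) = degR D →
        |Bil (bGlob (xt Φ ix) (w Φ ix) (tau Φ ix sp) δ) (D - Finsupp.single (ooN N) r) E0|
          ≤ ε * Nht (xt Φ ix) δ D + C1 := by
  have hδ0' : δ ≠ 0 := hδ0.ne'
  have hgd := goodData hch
  exact Fermat.Agent.S17.Pos.DegZeroHt.degZero_bGlob (xt Φ ix) (w Φ ix) (tau Φ ix sp) δ
    (γ := tot gam) hδ0 (tot_nonneg (gam_nonneg hA)) hgd.1 hgd.2.1 hlam hh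
    (stableDiv (HX0 N)) (stableDiv (HX0 N) ⊓ Divisor.degZero) (ooN N)
    (kap (xt Φ ix) δ (e0 Φ) (Zdiv Φ (e0 Φ))) (hB4oo hch hδ0' hgam hA) hPP0
    (EE (HX0 N) (3 * g)) (C := 2 * tot gam)
    (mul_nonneg zero_le_two (tot_nonneg (gam_nonneg hA)))
    (reciprocity_of_starDefect hR hch (by omega) hδ0' hgam hA)
    (rhoX0 hR) (rhoX0_two_nsmul hR)
    (hrho hR hch (by omega) hδ0' hgam hA) (g : ℝ) y l hl hE0 hε

end Fermat.Agent.S17.Model.FrameSection
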