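import Mathlib
import Fermat.Agent.S17.Model.FrameSection
import Fermat.Agent.S17.Ht.Wedge
import Fermat.Agent.S17.Ht.Rational

/-!
# S17 (project H), Part B: B.13′ on `X₀(N)` in its final forms, the residual form of `h13`, `hoo`

Frame of `Model/FrameSection`: `Φ : RatFrame N δ`, `b := bGlob (xt Φ ix) (w Φ ix) (tau Φ ix sp) δ`,
(A*) for the rational linear forms as the hypothesis `hA`.

* `EE_mono` : `EE H d ⊆ EE H d'` for `d ≤ d'`;
* `hlam_X0`, `hh_X0` : the two elementary bounds of LEMMA T (i);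
* `exists_kappa_B4` : B.4 on `stableDiv (HX0 N) × ZZ (HX0 N) ∞ δ` with main term `deg D · κ(Z)`;
* `degZero_X0'` : `FrameSection.degZero_X0` without the hypotheses `hlam`, `hh`;
* `degZero_X0_stable` : B.13′ against `W - w ∞`, `W ≥ 0` stable of degree `w ≤ 2 g`;
* `degZero_X0_residual` : B.13′ against `E - (δ - w) ∞` where `Z(a₁) = E + W` for a rational
  linear form `a₁` and `W ≥ 0` stable of degree `w ≤ 2 g` (the hypothesis `h13` of `pos_main`);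
* `hoo_X0` : `|B(D, ∞)| ≤ C_∞ r` for stable effective `D` of degree `r`.
-/

set_option autoImplicit false
set_option linter.unusedSectionVars false

noncomputable section

namespace Fermat.Agent.S17.Model.FrameResidual

open AlgebraicCurve AlgebraicCurve.SemilinearAut ModularCurve
open Fermat.Agent.S18.NonSpecial Fermat.Agent.S17.Model.Lift Fermat.Agent.S17.Model.Embed
open Fermat.Agent.S17.Dict.QStructure Fermat.Agent.S17.B.Frame Fermat.Agent.S17.Ht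
open Fermat.Agent.S17.Abs.PairQuad Fermat.Agent.S17.Model.Global
open Fermat.Agent.S17.Model.Reciprocity Fermat.Agent.S17.Model.Parallelogram
open Fermat.Agent.S17.Model.FrameGamma Fermat.Agent.S17.Model.FrameBridge
open Fermat.Agent.S17.Model.FrameSection
open Fermat.Agent.S17.Model.ReducedX0 (Gam Dx rx)

local notation "Kb" => AlgebraicClosure ℚ
local notation "ooN" => Fermat.Agent.S17.Model.ReducedX0.oo

/-! ### monotonicity of `EE` -/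

section Abstract

variable {K F : Type*} [Field K] [Field F] [Algebra K F]
variable {H : Subgroup (SemilinearAut K F)}

/-- `EE H d` grows with `d` -/
theorem EE_mono {d d' : ℕ} (h : d ≤ d') : EE H d ⊆ EE H d' := by
  rintro E ⟨hE, A, A', hA, hA', hAs, hAs', hd, hd', rfl⟩
  have hc : ((d : ℕ) : ℤ) ≤ (d' : ℤ) := by exact_mod_cast h
  exact ⟨hE, A, A', hA, hA', hAs, hAs', hd.trans hc, hd'.trans hc, rfl⟩

theorem neg_mem_or_of_mem_EE_mono {d d' : ℕ} (h : d ≤ d') {E : Divisor K F} (hE : E ∈ EE H d) :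
    E ∈ EE H d' ∨ -E ∈ EE H d' := Or.inl (EE_mono h hE)

end Abstract

variable {N : ℕ} [NeZero N] {δ : ℕ} {Φ : RatFrame N δ}
variable {ix : X N → Fin (Φ.n + 1)} {sp : X N → modularFunctionFieldBar N}

open scoped Classical

/-! ### the elementary bounds -/

/-- the chord vectors of `Model/Global` are the canonical wedge of `Ht/Wedge` -/
theorem w_eq_wAt : w Φ ix = wAt (xt Φ ix) := rfl

/-- LEMMA T (i), lower bound for the global chord symbol -/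
theorem hlam_X0 (hch : IsEquivChoice Φ ix sp) :
    ∀ P R : X N, P ≠ R → -Real.log 2 ≤ lamG (xt Φ ix) (w Φ ix) P R := by
  intro P R hPR
  have hgd := goodData hch
  exact neg_log_two_le_lamG_wAt (xt Φ ix) hgd.1 (hgd.2.1 P R hPR)

/-- the height of a point of the model is nonnegative: one coordinate of the lift is `1` -/
theorem hh_X0 : ∀ P : X N, 0 ≤ totalLam (xt Φ ix P) := fun P =>
  totalLam_nonneg_of_eq_one (i := ix P) (zvec_self (hxN N) P Φ.model.ne_zero (ix P))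

/-! ### `nrm1` and `degR` of an effective divisor -/

theorem nrm1_eq_degR_of_nonneg {D : X N →₀ ℤ} (hD : 0 ≤ D) : nrm1 D = degR D := by
  unfold nrm1 degR
  refine Finset.sum_congr rfl fun P _ => ?_
  have h : (0 : ℤ) ≤ D P := hD P
  rw [abs_of_nonneg (by exact_mod_cast h)]

theorem degR_nonneg_of_nonneg {D : X N →₀ ℤ} (hD : 0 ≤ D) : 0 ≤ degR D := by
  rw [← nrm1_eq_degR_of_nonneg hD]
  exact nrm1_nonneg D

/-- `|D - r ∞|₁ ≤ 2 r` for an effective `D` of degree `r` -/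
theorem nrm1_sub_single_le {D : X N →₀ ℤ} (hD : 0 ≤ D) {r : ℤ} (hr : (r : ℝ) = degR D) :
    nrm1 (D - Finsupp.single (ooN N) r) ≤ 2 * degR D := by
  have h1 := nrm1_sub_le D (Finsupp.single (ooN N) r)
  rw [nrm1_single, nrm1_eq_degR_of_nonneg hD, hr, abs_of_nonneg (degR_nonneg_of_nonneg hD)] at h1
  linarith

/-! ### B.4 with a main term `κ(Z)` depending only on `Z` -/

/-- **B.4 on `stableDiv (HX0 N) × ZZ (HX0 N) ∞ δ`** with main term `deg D · κ(Z)`: literally the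
hypothesis `hB4` of `Pos/DegZeroX0.degZero_X0` and `Pos/DegZeroX0Ht.degZero_X0_bGlob`. -/
theorem exists_kappa_B4 (hch : IsEquivChoice Φ ix sp) (hδ0 : δ ≠ 0) {gam : Pl → ℝ}
    (hgam : AZ gam)
    (hA : ∀ a : Fin (Φ.n + 1) → Qbar, a ≠ 0 → IsRat Φ a → ∀ v P,
      |starDefect (xt Φ ix) (w Φ ix) (tau Φ ix sp) 1 a (Zdiv Φ a) (lcG Φ ix sp a) v P| ≤ gam v) :
    ∃ κ : Divisor Kb (modularFunctionFieldBar N) → ℝ,
      ∀ D ∈ stableDiv (HX0 N), ∀ Z ∈ ZZ (HX0 N) (ooN N) δ,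
        |Bil (bGlob (xt Φ ix) (w Φ ix) (tau Φ ix sp) δ) D Z
          - ((Divisor.degree D : ℤ) : ℝ) * κ Z| ≤ tot gam * nrm1 D := by
  refine ⟨fun Z => if hZ : Z ∈ ZZ (HX0 N) (ooN N) δ then
      kap (xt Φ ix) δ (exists_rat_of_mem_ZZ Φ hZ).choose
        (Zdiv Φ (exists_rat_of_mem_ZZ Φ hZ).choose) else 0, ?_⟩
  intro D hD Z hZ
  obtain ⟨ha, hrat, hZa⟩ := (exists_rat_of_mem_ZZ Φ hZ).choose_spec
  beta_reduce
  rw [dif_pos hZ, ← degR_eq_degree]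
  have h := abs_Bil_Zdiv_sub_le_degR hch hδ0 ha hrat hgam (hA _ ha hrat) hD
  rw [← hZa] at h
  exact h

variable {g : ℕ} (hR : RiemannHyp Kb (modularFunctionFieldBar N) g)

/-! ### B.13′ in its final forms -/

include hR in
/-- **B.13′ on `X₀(N)`**: `FrameSection.degZero_X0` with `hlam`, `hh` discharged -/
theorem degZero_X0' (hch : IsEquivChoice Φ ix sp) (hδ : 4 * g ≤ δ) (hδ0 : 0 < δ) {gam : Pl → ℝ}
    (hgam : AZ gam)
    (hA : ∀ a : Fin (Φ.n + 1) → Qbar, a ≠ 0 → IsRat Φ a → ∀ v P,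
      |starDefect (xt Φ ix) (w Φ ix) (tau Φ ix sp) 1 a (Zdiv Φ a) (lcG Φ ix sp a) v P| ≤ gam v)
    (y : Gam N) (l : List (X N →₀ ℤ))
    (hl : ∀ E ∈ l, E ∈ EE (HX0 N) (3 * g) ∨ -E ∈ EE (HX0 N) (3 * g)) {E0 : X N →₀ ℤ}
    (hE0 : E0 = rhoX0 hR y + l.sum) {ε : ℝ} (hε : 0 < ε) :
    ∃ C1 : ℝ, ∀ D ∈ stableDiv (HX0 N), 0 ≤ D → degR D ≤ g → D (ooN N) = 0 →
      ∀ r : ℤ, (r : ℝ) = degR D →
        |Bil (bGlob (xt Φ ix) (w Φ ix) (tau Φ ix sp) δ) (D - Finsupp.single (ooN N) r) E0|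
          ≤ ε * Nht (xt Φ ix) δ D + C1 :=
  degZero_X0 hR hch hδ hδ0 hgam hA (hlam_X0 hch) hh_X0 y l hl hE0 hε

include hR in
/-- **B.13′ against `W - w ∞`** for a stable effective `W` of degree `w ≤ 2 g` (amendment (A2)) -/
theorem degZero_X0_stable (hch : IsEquivChoice Φ ix sp) (hδ : 4 * g ≤ δ) (hδ0 : 0 < δ)
    {gam : Pl → ℝ} (hgam : AZ gam)
    (hA : ∀ a : Fin (Φ.n + 1) → Qbar, a ≠ 0 → IsRat Φ a → ∀ v P,
      |starDefect (xt Φ ix) (w Φ ix) (tau Φ ix sp) 1 a (Zdiv Φ a) (lcG Φ ix sp a) v P| ≤ gam v)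
    {W : X N →₀ ℤ} (hW0 : 0 ≤ W) (hWst : IsStable (HX0 N) W) {wd : ℕ}
    (hdeg : Divisor.degree W = wd) (hwd : wd ≤ 2 * g) {ε : ℝ} (hε : 0 < ε) :
    ∃ C1 : ℝ, ∀ D ∈ stableDiv (HX0 N), 0 ≤ D → degR D ≤ g → D (ooN N) = 0 →
      ∀ r : ℤ, (r : ℝ) = degR D →
        |Bil (bGlob (xt Φ ix) (w Φ ix) (tau Φ ix sp) δ) (D - Finsupp.single (ooN N) r)
            (W - Finsupp.single (ooN N) (wd : ℤ))|
          ≤ ε * Nht (xt Φ ix) δ D + C1 := by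
  obtain ⟨y, hy⟩ := sub_rhoX0_mem_EE hR hW0 hWst hdeg
  have hy' : (W - Finsupp.single (ooN N) (wd : ℤ)) - rhoX0 hR y ∈ EE (HX0 N) (3 * g) :=
    EE_mono (by omega) hy
  refine degZero_X0' hR hch hδ hδ0 hgam hA y
    [(W - Finsupp.single (ooN N) (wd : ℤ)) - rhoX0 hR y] ?_ ?_ hε
  · intro E hE
    rw [List.mem_singleton] at hE
    subst hE
    exact Or.inl hy'
  · rw [List.sum_cons, List.sum_nil, add_zero]
    abel

include hR in
/-- **`h13` of `pos_main` through the residual**: if `Z(a₁) = E + W` for a rational linear form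
`a₁ ≠ 0` and a stable effective `W` of degree `w ≤ 2 g`, then
`|B(D - r ∞, E - (δ - w) ∞)| ≤ ε N(D) + C`. -/
theorem degZero_X0_residual (hch : IsEquivChoice Φ ix sp) (hδ : 4 * g ≤ δ) (hδ0 : 0 < δ)
    {gam : Pl → ℝ} (hgam : AZ gam)
    (hA : ∀ a : Fin (Φ.n + 1) → Qbar, a ≠ 0 → IsRat Φ a → ∀ v P,
      |starDefect (xt Φ ix) (w Φ ix) (tau Φ ix sp) 1 a (Zdiv Φ a) (lcG Φ ix sp a) v P| ≤ gam v)
    {a1 : Fin (Φ.n + 1) → Qbar} (ha1 : a1 ≠ 0) (hrat : IsRat Φ a1) {E W : X N →₀ ℤ}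
    (hsum : zInt (Zdiv Φ a1) = E + W)
    (hW0 : 0 ≤ W) (hWst : IsStable (HX0 N) W) {wd : ℕ}
    (hdeg : Divisor.degree W = wd) (hwd : wd ≤ 2 * g) {ε : ℝ} (hε : 0 < ε) :
    ∃ C1 : ℝ, ∀ D ∈ stableDiv (HX0 N), 0 ≤ D → degR D ≤ g → D (ooN N) = 0 →
      ∀ r : ℤ, (r : ℝ) = degR D →
        |Bil (bGlob (xt Φ ix) (w Φ ix) (tau Φ ix sp) δ) (D - Finsupp.single (ooN N) r)
            (E - Finsupp.single (ooN N) ((δ : ℤ) - (wd : ℤ)))|
          ≤ ε * Nht (xt Φ ix) δ D + C1 := by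
  have hδ0' : δ ≠ 0 := hδ0.ne'
  obtain ⟨C1, hC1⟩ := degZero_X0_stable hR hch hδ hδ0 hgam hA hW0 hWst hdeg hwd hε
  have hB4 := hB4_of_starDefect hch hδ0' hgam hA
  have htot : 0 ≤ tot gam := tot_nonneg (gam_nonneg hA)
  refine ⟨C1 + 2 * (tot gam * (2 * g)), ?_⟩
  intro D hD hD0 hDg hDoo r hr
  have hmem := hPP0 D hD r hr
  have hn : nrm1 (D - Finsupp.single (ooN N) r) ≤ 2 * g := by
    have := nrm1_sub_single_le hD0 hr
    linarith
  have h1 := hB4 _ hmem _ (zInt_Zdiv_mem_ZZ Φ ha1 hrat)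
  have h2 := hB4 _ hmem _ (zInt_Zdiv_mem_ZZ Φ (e0_ne_zero Φ) (isRat_e0 Φ))
  rw [zInt_Zdiv_e0] at h2
  have h3 := hC1 D hD hD0 hDg hDoo r hr
  have e : E - Finsupp.single (ooN N) ((δ : ℤ) - (wd : ℤ))
      = zInt (Zdiv Φ a1) - Finsupp.single (ooN N) (δ : ℤ)
        - (W - Finsupp.single (ooN N) (wd : ℤ)) := by
    rw [hsum, Finsupp.single_sub]
    abel
  rw [e, Bil_sub_right, Bil_sub_right]
  have b1 : tot gam * nrm1 (D - Finsupp.single (ooN N) r) ≤ tot gam * (2 * g) :=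
    mul_le_mul_of_nonneg_left hn htot
  have a1' := abs_le.mp (h1.trans b1)
  have a2' := abs_le.mp (h2.trans b1)
  have a3' := abs_le.mp h3
  rw [abs_le]
  constructor <;> linarith [a1'.1, a1'.2, a2'.1, a2'.2, a3'.1, a3'.2]

/-! ### `hoo` -/

/-- `B(D, δ ∞) = δ B(D, ∞)` -/
theorem Bil_single_nat (b : X N → X N → ℝ) (D : X N →₀ ℤ) (P : X N) (m : ℕ) :
    Bil b D (Finsupp.single P (m : ℤ)) = (m : ℝ) * Bil b D (Finsupp.single P 1) := by
  induction m with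
  | zero => simp [Bil_zero_right]
  | succ k ih =>
    have e : Finsupp.single P ((k + 1 : ℕ) : ℤ)
        = Finsupp.single P (k : ℤ) + Finsupp.single P (1 : ℤ) := by
      rw [← Finsupp.single_add]
      push_cast
      rfl
    rw [e, Bil_add_right, ih]
    push_cast
    ring

/-- **`hoo` of `pos_main`**: `|B(D, ∞)| ≤ C_∞ r` for every stable effective `D` of degree `r` -/
theorem hoo_X0 (hch : IsEquivChoice Φ ix sp) (hδ0 : 0 < δ) {gam : Pl → ℝ} (hgam : AZ gam)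
    (hA : ∀ a : Fin (Φ.n + 1) → Qbar, a ≠ 0 → IsRat Φ a → ∀ v P,
      |starDefect (xt Φ ix) (w Φ ix) (tau Φ ix sp) 1 a (Zdiv Φ a) (lcG Φ ix sp a) v P| ≤ gam v) :
    ∃ Coo : ℝ, 0 ≤ Coo ∧ ∀ D ∈ stableDiv (HX0 N), 0 ≤ D → ∀ r : ℤ, (r : ℝ) = degR D →
      |Bil (bGlob (xt Φ ix) (w Φ ix) (tau Φ ix sp) δ) D (Finsupp.single (ooN N) 1)|
        ≤ Coo * r := by
  have hδ0' : δ ≠ 0 := hδ0.ne'
  have hδR : (0 : ℝ) < (δ : ℝ) := by exact_mod_cast hδ0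
  have htot : 0 ≤ tot gam := tot_nonneg (gam_nonneg hA)
  set κ0 : ℝ := kap (xt Φ ix) δ (e0 Φ) (Zdiv Φ (e0 Φ)) with hκ0
  refine ⟨(|κ0| + tot gam) / δ, div_nonneg (add_nonneg (abs_nonneg _) htot) hδR.le, ?_⟩
  intro D hD hD0 r hr
  have h := hB4oo hch hδ0' hgam hA D hD
  rw [← hκ0, Bil_single_nat, nrm1_eq_degR_of_nonneg hD0] at h
  have hd0 := degR_nonneg_of_nonneg hD0
  set B1 : ℝ := Bil (bGlob (xt Φ ix) (w Φ ix) (tau Φ ix sp) δ) D (Finsupp.single (ooN N) 1)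
    with hB1
  have h2 : |(δ : ℝ) * B1| ≤ (|κ0| + tot gam) * degR D := by
    have t1 : |(δ : ℝ) * B1| ≤ |(δ : ℝ) * B1 - degR D * κ0| + |degR D * κ0| := by
      have := abs_add_le ((δ : ℝ) * B1 - degR D * κ0) (degR D * κ0)
      simpa using this
    have t2 : |degR D * κ0| = degR D * |κ0| := by rw [abs_mul, abs_of_nonneg hd0]
    rw [t2] at t1
    linarith
  rw [abs_mul, abs_of_pos hδR] at h2
  rw [hr, div_mul_eq_mul_div, le_div_iff₀ hδR]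
  linarith

include hR in
/-- `hoo` for the reduced divisors `D_x`, `x ∈ Γ` -/
theorem hoo_Dx (hch : IsEquivChoice Φ ix sp) (hδ0 : 0 < δ) {gam : Pl → ℝ} (hgam : AZ gam)
    (hA : ∀ a : Fin (Φ.n + 1) → Qbar, a ≠ 0 → IsRat Φ a → ∀ v P,
      |starDefect (xt Φ ix) (w Φ ix) (tau Φ ix sp) 1 a (Zdiv Φ a) (lcG Φ ix sp a) v P| ≤ gam v) :
    ∃ Coo : ℝ, 0 ≤ Coo ∧ ∀ x : Gam N,
      |Bil (bGlob (xt Φ ix) (w Φ ix) (tau Φ ix sp) δ) (Dx hR (x : JZero N))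
          (Finsupp.single (ooN N) 1)| ≤ Coo * ((rx hR (x : JZero N) : ℤ) : ℝ) := by
  obtain ⟨Coo, hC0, hC⟩ := hoo_X0 hch hδ0 hgam hA
  refine ⟨Coo, hC0, fun x => ?_⟩
  have hst : IsStable (HX0 N) (Dx hR (x : JZero N)) :=
    (isStable_HX0_iff N).mpr fun σ =>
      Fermat.Agent.S17.Model.ReducedX0.galAut_smul_Dx_of_mem hR x.2 σ
  refine hC _ hst (Fermat.Agent.S17.Model.ReducedX0.Dx_nonneg hR _) _ ?_
  rw [degR_eq_degree, Fermat.Agent.S17.Model.ReducedX0.degree_Dx]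

/-! ### the `x`-forms -/

include hR in
/-- the data of `D_x`, `x ∈ Γ`, in the shape of the hypotheses above -/
theorem Dx_data (x : Gam N) :
    Dx hR (x : JZero N) ∈ stableDiv (HX0 N) ∧ 0 ≤ Dx hR (x : JZero N) ∧
      degR (Dx hR (x : JZero N)) ≤ g ∧ Dx hR (x : JZero N) (ooN N) = 0 ∧
      (((rx hR (x : JZero N) : ℕ) : ℤ) : ℝ) = degR (Dx hR (x : JZero N)) := by
  have hst : IsStable (HX0 N) (Dx hR (x : JZero N)) :=
    (isStable_HX0_iff N).mpr fun σ =>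
      Fermat.Agent.S17.Model.ReducedX0.galAut_smul_Dx_of_mem hR x.2 σ
  have hdeg : degR (Dx hR (x : JZero N)) = (((rx hR (x : JZero N) : ℕ) : ℤ) : ℝ) := by
    rw [degR_eq_degree, Fermat.Agent.S17.Model.ReducedX0.degree_Dx]
  refine ⟨hst, Fermat.Agent.S17.Model.ReducedX0.Dx_nonneg hR _, ?_,
    Fermat.Agent.S17.Model.ReducedX0.Dx_apply_oo hR _, hdeg.symm⟩
  rw [hdeg]
  exact_mod_cast Fermat.Agent.S17.Model.ReducedX0.rx_le hR (x : JZero N)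

include hR in
/-- **B.13′ against `W - w ∞`, `x`-form** (the literal target of the Part-B architect) -/
theorem degZero_X0_stable_Dx (hch : IsEquivChoice Φ ix sp) (hδ : 4 * g ≤ δ) (hδ0 : 0 < δ)
    {gam : Pl → ℝ} (hgam : AZ gam)
    (hA : ∀ a : Fin (Φ.n + 1) → Qbar, a ≠ 0 → IsRat Φ a → ∀ v P,
      |starDefect (xt Φ ix) (w Φ ix) (tau Φ ix sp) 1 a (Zdiv Φ a) (lcG Φ ix sp a) v P| ≤ gam v)
    {W : X N →₀ ℤ} (hW0 : 0 ≤ W) (hWst : IsStable (HX0 N) W) {wd : ℕ}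
    (hdeg : Divisor.degree W = wd) (hwd : wd ≤ 2 * g) {ε : ℝ} (hε : 0 < ε) :
    ∃ C1 : ℝ, ∀ x : Gam N,
      |Bil (bGlob (xt Φ ix) (w Φ ix) (tau Φ ix sp) δ)
          (Dx hR (x : JZero N) - Finsupp.single (ooN N) ((rx hR (x : JZero N) : ℕ) : ℤ))
          (W - Finsupp.single (ooN N) (wd : ℤ))|
        ≤ ε * Nht (xt Φ ix) δ (Dx hR (x : JZero N)) + C1 := by
  obtain ⟨C1, hC1⟩ := degZero_X0_stable hR hch hδ hδ0 hgam hA hW0 hWst hdeg hwd hε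
  refine ⟨C1, fun x => ?_⟩
  obtain ⟨h1, h2, h3, h4, h5⟩ := Dx_data hR x
  exact hC1 _ h1 h2 h3 h4 _ h5

include hR in
/-- **`h13` through the residual, `x`-form** -/
theorem degZero_X0_residual_Dx (hch : IsEquivChoice Φ ix sp) (hδ : 4 * g ≤ δ) (hδ0 : 0 < δ)
    {gam : Pl → ℝ} (hgam : AZ gam)
    (hA : ∀ a : Fin (Φ.n + 1) → Qbar, a ≠ 0 → IsRat Φ a → ∀ v P,
      |starDefect (xt Φ ix) (w Φ ix) (tau Φ ix sp) 1 a (Zdiv Φ a) (lcG Φ ix sp a) v P| ≤ gam v)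
    {a1 : Fin (Φ.n + 1) → Qbar} (ha1 : a1 ≠ 0) (hrat : IsRat Φ a1) {E W : X N →₀ ℤ}
    (hsum : zInt (Zdiv Φ a1) = E + W)
    (hW0 : 0 ≤ W) (hWst : IsStable (HX0 N) W) {wd : ℕ}
    (hdeg : Divisor.degree W = wd) (hwd : wd ≤ 2 * g) {ε : ℝ} (hε : 0 < ε) :
    ∃ C1 : ℝ, ∀ x : Gam N,
      |Bil (bGlob (xt Φ ix) (w Φ ix) (tau Φ ix sp) δ)
          (Dx hR (x : JZero N) - Finsupp.single (ooN N) ((rx hR (x : JZero N) : ℕ) : ℤ))
          (E - Finsupp.single (ooN N) ((δ : ℤ) - (wd : ℤ)))|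
        ≤ ε * Nht (xt Φ ix) δ (Dx hR (x : JZero N)) + C1 := by
  obtain ⟨C1, hC1⟩ := degZero_X0_residual hR hch hδ hδ0 hgam hA ha1 hrat hsum hW0 hWst hdeg
    hwd hε
  refine ⟨C1, fun x => ?_⟩
  obtain ⟨h1, h2, h3, h4, h5⟩ := Dx_data hR x
  exact hC1 _ h1 h2 h3 h4 _ h5

end Fermat.Agent.S17.Model.FrameResidual
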