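import Mathlib
import Fermat.Agent.S17.Ht.Recip

/-!
# PROJECT H (S17), Part B: the upper half of (A*) in multiplicative form

In the abstract frame of `Ht/Recip.lean` (`xt`, `w`, `tau`), the hand-over hypothesis (A*) is the
bound `|starDefect| ≤ γ`.  Its upper half, exponentiated, is the inequality consumed by the
confluent determinant bound B.10 (`Abs/ConfluentDet.UpperHypConf`):

`|lc P|_v ≤ e^γ ‖a‖_v ‖z_P‖_v θ_v(P)^μ ∏_{R ≠ P} d_v(P,R)^{Z R}`,  `μ = Z P`.
-/

set_option autoImplicit false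

noncomputable section

namespace Fermat.Agent.S17.Model.GlobalUpper

open Fermat.Agent.S17.Ht

variable {X : Type*} [DecidableEq X] {ι κ α : Type*} [Finite ι] [Finite κ] [Finite α]
variable (xt : X → ι → Qbar) (w : X → X → κ → Qbar) (tau : X → κ → Qbar)

/-- the chordal distance `d_v(P,R) = ‖z_P ∧ z_R‖ / (‖z_P‖ ‖z_R‖)` -/
def chordG (v : Pl) (P R : X) : ℝ := nrm v (w P R) / (nrm v (xt P) * nrm v (xt R))

/-- the tangent ratio `θ_v(P) = ‖τ_P‖ / ‖z_P‖²` -/
def thG (v : Pl) (P : X) : ℝ := nrm v (tau P) / nrm v (xt P) ^ 2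

variable {xt w tau}

theorem chordG_pos (hdata : GoodData xt w tau) (v : Pl) {P R : X} (hPR : P ≠ R) :
    0 < chordG xt w v P R :=
  div_pos (nrm_pos (hdata.2.1 P R hPR)) (mul_pos (nrm_pos (hdata.1 P)) (nrm_pos (hdata.1 R)))

theorem chordG_nonneg (v : Pl) (P R : X) : 0 ≤ chordG xt w v P R :=
  div_nonneg (nrm_nonneg _ _) (mul_nonneg (nrm_nonneg _ _) (nrm_nonneg _ _))

theorem thG_pos (hdata : GoodData xt w tau) (v : Pl) (P : X) : 0 < thG xt tau v P :=
  div_pos (nrm_pos (hdata.2.2 P)) (pow_pos (nrm_pos (hdata.1 P)) 2)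

theorem thG_nonneg (v : Pl) (P : X) : 0 ≤ thG xt tau v P :=
  div_nonneg (nrm_nonneg _ _) (pow_nonneg (nrm_nonneg _ _) 2)

theorem log_chordG (hdata : GoodData xt w tau) (v : Pl) {P R : X} (hPR : P ≠ R) :
    Real.log (chordG xt w v P R) = - lamD xt w v P R := by
  unfold chordG lamD lam
  rw [Real.log_div (nrm_pos (hdata.2.1 P R hPR)).ne'
    (mul_pos (nrm_pos (hdata.1 P)) (nrm_pos (hdata.1 R))).ne',
    Real.log_mul (nrm_pos (hdata.1 P)).ne' (nrm_pos (hdata.1 R)).ne']
  ring

theorem log_thG (hdata : GoodData xt w tau) (v : Pl) (P : X) :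
    Real.log (thG xt tau v P) = lam v (tau P) - 2 * lam v (xt P) := by
  unfold thG lam
  rw [Real.log_div (nrm_pos (hdata.2.2 P)).ne' (pow_pos (nrm_pos (hdata.1 P)) 2).ne',
    Real.log_pow]
  push_cast
  ring

/-- **the upper half of (A*), multiplicative form** (`e = 1`) -/
theorem absAt_lc_le (hdata : GoodData xt w tau) {a : α → Qbar} (ha : a ≠ 0) (Z : X →₀ ℕ)
    (lc : X → Qbar) (v : Pl) (P : X) (hlc : lc P ≠ 0) {γ : ℝ}
    (h : starDefect xt w tau 1 a Z lc v P ≤ γ) :
    absAt v (lc P) ≤ Real.exp γ * nrm v a * nrm v (xt P) * thG xt tau v P ^ Z P *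
      ∏ R ∈ Z.support.erase P, chordG xt w v P R ^ Z R := by
  have hposa : 0 < nrm v a := nrm_pos ha
  have hposx : 0 < nrm v (xt P) := nrm_pos (hdata.1 P)
  have hposth : 0 < thG xt tau v P ^ Z P := pow_pos (thG_pos hdata v P) _
  have hposprod : 0 < ∏ R ∈ Z.support.erase P, chordG xt w v P R ^ Z R :=
    Finset.prod_pos fun R hR => pow_pos (chordG_pos hdata v (Finset.ne_of_mem_erase hR).symm) _
  have hposR : 0 < Real.exp γ * nrm v a * nrm v (xt P) * thG xt tau v P ^ Z P *
      ∏ R ∈ Z.support.erase P, chordG xt w v P R ^ Z R :=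
    mul_pos (mul_pos (mul_pos (mul_pos (Real.exp_pos γ) hposa) hposx) hposth) hposprod
  have hlog : Real.log (Real.exp γ * nrm v a * nrm v (xt P) * thG xt tau v P ^ Z P *
      ∏ R ∈ Z.support.erase P, chordG xt w v P R ^ Z R) =
      γ + lam v a + lam v (xt P) + (Z P : ℝ) * (lam v (tau P) - 2 * lam v (xt P))
        - ∑ R ∈ Z.support.erase P, (Z R : ℝ) * lamD xt w v P R := by
    rw [Real.log_mul (mul_pos (mul_pos (mul_pos (Real.exp_pos γ) hposa) hposx) hposth).ne'
      hposprod.ne',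
      Real.log_mul (mul_pos (mul_pos (Real.exp_pos γ) hposa) hposx).ne' hposth.ne',
      Real.log_mul (mul_pos (Real.exp_pos γ) hposa).ne' hposx.ne',
      Real.log_mul (Real.exp_pos γ).ne' hposa.ne', Real.log_exp, Real.log_pow, log_thG hdata,
      Real.log_prod fun R hR =>
        (pow_pos (chordG_pos hdata v (Finset.ne_of_mem_erase hR).symm) _).ne']
    have hsum : ∑ R ∈ Z.support.erase P, Real.log (chordG xt w v P R ^ Z R) =
        - ∑ R ∈ Z.support.erase P, (Z R : ℝ) * lamD xt w v P R := by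
      rw [← Finset.sum_neg_distrib]
      refine Finset.sum_congr rfl fun R hR => ?_
      rw [Real.log_pow, log_chordG hdata v (Finset.ne_of_mem_erase hR).symm]
      ring
    rw [hsum]
    unfold lam
    ring
  have hle : Real.log (absAt v (lc P)) ≤ Real.log (Real.exp γ * nrm v a * nrm v (xt P) *
      thG xt tau v P ^ Z P * ∏ R ∈ Z.support.erase P, chordG xt w v P R ^ Z R) := by
    rw [hlog]
    unfold starDefect at h
    have : logAbs v (lc P) = Real.log (absAt v (lc P)) := rfl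
    rw [this] at h
    push_cast at h
    linarith
  exact (Real.log_le_log_iff (absAt_pos hlc) hposR).mp hle

end Fermat.Agent.S17.Model.GlobalUpper
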