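import Mathlib
import Fermat.Agent.S17.Model.Jet
import Fermat.Agent.S17.Model.Lift

/-!
# PROJECT H (S17), seam S-3 (dictionary): Hasse coefficients of linear forms

Glue between `Model/Jet.lean` (Hasse coefficients `hasse hx v s k g` at a place) and
`Model/Lift.lean` (projective lifts `zvec`, tangent `dvec`, linear forms `formOf f a`, multiplicity
`multAt f a v`, leading coefficient `lcAt hx v f a i s`).

* `jet hx v f i s k a = ∑ j, a j * hasse hx v s k (f j / f i)`: the `k`-th Hasse coefficient of the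
  linear form `a` at `v` in the chart `i`; linear in `a`;
* `jet_eq_hasse`, `jet_zero` (`= a · zvec`), `jet_one` (`= a · dvec`);
* `multAt_ge_iff`    `k ≤ multAt f a v ↔ ∀ l < k, jet l a = 0`;
* `jet_eq_lcAt`      at `k = multAt f a v` the coefficient is the leading coefficient `lcAt`;
* `jet_dichotomy`    the case split used by the confluent determinant bound (B.10);
* `jet_map`          Galois equivariance.
-/

set_option autoImplicit false

namespace Fermat.Agent.S17.Model.JetLift

open AlgebraicCurve Fermat.Agent.S24.FF Fermat.Agent.S24.Ord Fermat.Agent.S18.C.PlaceEval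
  Fermat.Agent.S17.Model.Lift Fermat.Agent.S17.Model.Jet

universe u w

variable {K : Type w} {F : Type u} [Field K] [Field F] [Algebra K F] [IsAlgClosed K] {x : F}

section

variable (hx : IsFF K x) (v : Place K F)

/-- the `0`-th Hasse coefficient is the (total) value -/
theorem hasse_zero_eq_ev {s : F} (hs : v.ord s = 1) (g : F) :
    hasse hx v s 0 g = ev hx v g := by
  by_cases hg : g ∈ v.toValuationSubring
  · rw [hasse_zero hx v hs hg, ev_of_mem hx v hg]
  · rw [hasse_of_not_mem hx v s 0 hg, ev_of_not_mem hx v hg]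

variable {n : ℕ} (f : Fin (n + 1) → F)

/-- the `k`-th Hasse coefficient at `v` (chart `i`, parameter `s`) of the linear form with
coefficient vector `a` -/
noncomputable def jet (i : Fin (n + 1)) (s : F) (k : ℕ) (a : Fin (n + 1) → K) : K :=
  ∑ j, a j * hasse hx v s k (f j / f i)

theorem jet_add (i : Fin (n + 1)) (s : F) (k : ℕ) (a b : Fin (n + 1) → K) :
    jet hx v f i s k (a + b) = jet hx v f i s k a + jet hx v f i s k b := by
  unfold jet
  rw [← Finset.sum_add_distrib]
  refine Finset.sum_congr rfl fun j _ => ?_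
  rw [Pi.add_apply, add_mul]

theorem jet_smul (i : Fin (n + 1)) (s : F) (k : ℕ) (c : K) (a : Fin (n + 1) → K) :
    jet hx v f i s k (c • a) = c * jet hx v f i s k a := by
  unfold jet
  rw [Finset.mul_sum]
  refine Finset.sum_congr rfl fun j _ => ?_
  rw [Pi.smul_apply, smul_eq_mul, mul_assoc]

theorem jet_zero_right (i : Fin (n + 1)) (s : F) (k : ℕ) : jet hx v f i s k 0 = 0 := by
  unfold jet
  simp

theorem jet_sum {ι : Type*} (t : Finset ι) (i : Fin (n + 1)) (s : F) (k : ℕ)
    (a : ι → Fin (n + 1) → K) :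
    jet hx v f i s k (∑ b ∈ t, a b) = ∑ b ∈ t, jet hx v f i s k (a b) := by
  classical
  induction t using Finset.induction_on with
  | empty => simp [jet_zero_right]
  | insert b t hb ih => rw [Finset.sum_insert hb, Finset.sum_insert hb, jet_add, ih]

/-- `∑_b c_b * jet k (A b) = jet k (∑_b c_b • A b)`: the coefficient of the combination `F*` -/
theorem sum_mul_jet {ι : Type*} (t : Finset ι) (i : Fin (n + 1)) (s : F) (k : ℕ) (c : ι → K)
    (A : ι → Fin (n + 1) → K) :
    ∑ b ∈ t, c b * jet hx v f i s k (A b) = jet hx v f i s k (∑ b ∈ t, c b • A b) := by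
  rw [jet_sum]
  refine Finset.sum_congr rfl fun b _ => ?_
  rw [jet_smul]

/-- the `K`-linear map `a ↦ jet k a` -/
noncomputable def jetₗ (i : Fin (n + 1)) (s : F) (k : ℕ) : (Fin (n + 1) → K) →ₗ[K] K where
  toFun := jet hx v f i s k
  map_add' := jet_add hx v f i s k
  map_smul' c a := by rw [jet_smul, RingHom.id_apply, smul_eq_mul]

@[simp] theorem jetₗ_apply (i : Fin (n + 1)) (s : F) (k : ℕ) (a : Fin (n + 1) → K) :
    jetₗ hx v f i s k a = jet hx v f i s k a := rfl

variable {f}
variable (hf : ∀ j, f j ≠ 0) {i : Fin (n + 1)} (hi : Admissible f v i) {s : F}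
  (hs : v.ord s = 1)

include hf hi hs

/-- `jet k a` is the `k`-th Hasse coefficient of `F_a / f_i` -/
theorem jet_eq_hasse (k : ℕ) (a : Fin (n + 1) → K) :
    jet hx v f i s k a = hasse hx v s k (formOf f a / f i) := by
  rw [formOf_div hf, hasse_sum hx v hs _ k fun j _ =>
    mul_mem (v.algebraMap_mem' _) (div_mem v hf hi j)]
  unfold jet
  refine Finset.sum_congr rfl fun j _ => ?_
  rw [hasse_algebraMap_mul hx v hs k (a j) (div_mem v hf hi j)]

omit hf hi in
theorem hasse_zero_div (j : Fin (n + 1)) : hasse hx v s 0 (f j / f i) = zvec hx v f i j := by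
  rw [hasse_zero_eq_ev hx v hs]
  rfl

theorem hasse_one_div (j : Fin (n + 1)) : hasse hx v s 1 (f j / f i) = dvec hx v f i s j := by
  rw [hasse_one_eq hx v hs (div_mem v hf hi j), hasse_zero_eq_ev hx v hs,
    hasse_zero_eq_ev hx v hs]
  rfl

omit hf hi in
theorem jet_zero (a : Fin (n + 1) → K) :
    jet hx v f i s 0 a = ∑ j, a j * zvec hx v f i j := by
  unfold jet
  refine Finset.sum_congr rfl fun j _ => ?_
  rw [hasse_zero_div hx v hs]

theorem jet_one (a : Fin (n + 1) → K) :
    jet hx v f i s 1 a = ∑ j, a j * dvec hx v f i s j := by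
  unfold jet
  refine Finset.sum_congr rfl fun j _ => ?_
  rw [hasse_one_div hx v hf hi hs]

/-- **conditions ⟺ multiplicity**: `k ≤ Z(a)(v)` iff the first `k` Hasse coefficients vanish -/
theorem multAt_ge_iff {a : Fin (n + 1) → K} (ha : formOf f a ≠ 0) (k : ℕ) :
    (k : ℤ) ≤ multAt f a v ↔ ∀ l < k, jet hx v f i s l a = 0 := by
  rw [multAt_eq v hf a hi ha,
    ord_ge_iff hx v hs (formOf_div_mem v hf a hi) (div_ne_zero ha (hf i)) k]
  refine forall₂_congr fun l _ => ?_
  rw [jet_eq_hasse hx v hf hi hs]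

/-- below the multiplicity the coefficients vanish -/
theorem jet_eq_zero_of_lt {a : Fin (n + 1) → K} (ha : formOf f a ≠ 0) {k : ℕ}
    (hk : (k : ℤ) < multAt f a v) : jet hx v f i s k a = 0 := by
  have h : ((k + 1 : ℕ) : ℤ) ≤ multAt f a v := by push_cast; omega
  exact (multAt_ge_iff hx v hf hi hs ha (k + 1)).mp h k (Nat.lt_succ_self k)

/-- **the coefficient at the exact multiplicity is the leading coefficient** -/
theorem jet_eq_lcAt {a : Fin (n + 1) → K} (ha : formOf f a ≠ 0) {k : ℕ}
    (hk : multAt f a v = k) : jet hx v f i s k a = lcAt hx v f a i s := by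
  have hord : ((k : ℕ) : ℤ) ≤ v.ord (formOf f a / f i) := by
    rw [← multAt_eq v hf a hi ha, hk]
  rw [jet_eq_hasse hx v hf hi hs, hasse_eq_hasse_zero_div hx v hs (div_ne_zero ha (hf i)) hord,
    hasse_zero_eq_ev hx v hs]
  unfold lcAt
  rw [hk, zpow_natCast, div_div]

/-- the coefficient at the exact multiplicity does not vanish -/
theorem jet_ne_zero {a : Fin (n + 1) → K} (ha : formOf f a ≠ 0) {k : ℕ}
    (hk : multAt f a v = k) : jet hx v f i s k a ≠ 0 := by
  rw [jet_eq_lcAt hx v hf hi hs ha hk]
  exact lcAt_ne_zero hx v hf a hi ha hs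

/-- **the case split of the confluent determinant bound (B.10)**: if the Hasse coefficients of a
nonzero form vanish below `j0`, then either the `j0`-th one vanishes too, or `j0` is the exact
multiplicity and the `j0`-th coefficient is the leading coefficient of THEOREM A -/
theorem jet_dichotomy {a : Fin (n + 1) → K} (ha : formOf f a ≠ 0) (j0 : ℕ)
    (h : ∀ l < j0, jet hx v f i s l a = 0) :
    jet hx v f i s j0 a = 0 ∨
      (multAt f a v = j0 ∧ jet hx v f i s j0 a = lcAt hx v f a i s) := by
  have hge : (j0 : ℤ) ≤ multAt f a v := (multAt_ge_iff hx v hf hi hs ha j0).mpr h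
  rcases hge.lt_or_eq with hlt | heq
  · exact Or.inl (jet_eq_zero_of_lt hx v hf hi hs ha hlt)
  · exact Or.inr ⟨heq.symm, jet_eq_lcAt hx v hf hi hs ha heq.symm⟩

end

/-! ### equivariance -/

section equivariance

variable {K' : Type*} {F' : Type*} [Field K'] [Field F'] [Algebra K' F'] [IsAlgClosed K']
  {x' : F'} {n : ℕ}

/-- **Galois equivariance of the Hasse coefficients of linear forms**: `φ : F → F'` semilinear over
`σ : K → K'`, carrying the place `v` to `v'` and the coordinate functions `f` to `f'`.  Then the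
jet of `σ ∘ a` at `(v', φ s)` is `σ` of the jet of `a` at `(v, s)`. -/
theorem jet_map (hx : IsFF K x) (hx' : IsFF K' x') (v : Place K F) (v' : Place K' F')
    (φ : F →+* F') (σ : K →+* K')
    (hφ : ∀ c : K, φ (algebraMap K F c) = algebraMap K' F' (σ c))
    (hv : ∀ g : F, g ∈ v.toValuationSubring ↔ φ g ∈ v'.toValuationSubring)
    (f : Fin (n + 1) → F) (f' : Fin (n + 1) → F') (hff' : ∀ j, φ (f j) = f' j)
    (i : Fin (n + 1)) {s : F} (hs : v.ord s = 1) (hs' : v'.ord (φ s) = 1) (k : ℕ)
    (a : Fin (n + 1) → K) :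
    jet hx' v' f' i (φ s) k (fun j => σ (a j)) = σ (jet hx v f i s k a) := by
  unfold jet
  rw [map_sum]
  refine Finset.sum_congr rfl fun j _ => ?_
  rw [map_mul, ← hasse_map hx hx' v v' φ σ hφ hv hs hs' k (f j / f i), map_div₀, hff', hff']

end equivariance

end Fermat.Agent.S17.Model.JetLift
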