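import Mathlib
import Fermat.Agent.S17.Model.TheoremA
import Fermat.Agent.S17.Model.TheoremAGlobal

/-!
# PROJECT H (S17): the hand-over `(A*)` of Part A to Part B for `X₀(N)`, hypothesis-free

`Model/TheoremA.localA` (THEOREM A for one absolute value) applied to the rational frame
`Φ : RatFrame N δ` of `X₀(N)` over `ℚ̄`, through `Model/TheoremAGlobal.exists_gam`: for every
admissible choice `(ix, sp)` there is ONE `gam : Pl → ℝ`, zero at almost all places, bounding the
`(A*)`-defect of every nonzero linear form at every place and every point.  With an equivariant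
choice this gives B.4 (`exists_gam_B4`) in the literal shape of `Model/Global.abs_Bil_Zdiv_sub_le`.
-/

set_option autoImplicit false

noncomputable section

namespace Fermat.Agent.S17.Model.TheoremAX0

open AlgebraicCurve ModularCurve
open Fermat.Agent.S17.Model.Lift Fermat.Agent.S17.Model.Embed
open Fermat.Agent.S17.Dict.QStructure
open Fermat.Agent.S17.B.Frame Fermat.Agent.S17.Ht Fermat.Agent.S17.Model.Global
open Fermat.Agent.S17.Model.TheoremAStmt Fermat.Agent.S17.Abs.PairQuad

local notation "Kb" => AlgebraicClosure ℚ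

variable {N : ℕ} [NeZero N] {δ : ℕ} (Φ : RatFrame N δ)
variable (ix : X N → Fin (Φ.n + 1)) (sp : X N → modularFunctionFieldBar N)

/-- the divisor `δ·∞` has degree `δ` -/
theorem degree_dOO {δ : ℕ} (Φ : RatFrame N δ) : Divisor.degree (dOO N δ) = (δ : ℤ) := by
  unfold dOO
  rw [Divisor.degree_single, Φ.model.deg_one]
  simp

/-- **THEOREM A for the model of `X₀(N)`** -/
theorem localA_X0 : LocalA (hxN N) Φ.f δ := by
  have := Fermat.Agent.S18.A.Instances.hasPrincipalDivisors_bar N
  exact TheoremA.localA (hxN N) Φ.model Φ.linInd (degree_dOO Φ)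

open scoped Classical in
/-- **the hand-over (A\*)**, hypothesis-free -/
theorem exists_gam_X0 (hδ : 0 < δ) (hadm : ∀ P, Admissible Φ.f P (ix P))
    (hsp : ∀ P : X N, P.ord (sp P) = 1) :
    ∃ gam : Pl → ℝ, AZ gam ∧ (∀ v, 0 ≤ gam v) ∧
      ∀ a : Fin (Φ.n + 1) → Qbar, a ≠ 0 → ∀ (v : Pl) (P : X N),
        |starDefect (xt Φ ix) (w Φ ix) (tau Φ ix sp) 1 a (Zdiv Φ a) (lcG Φ ix sp a) v P| ≤
          gam v :=
  TheoremAGlobal.exists_gam Φ ix sp hδ hadm hsp (localA_X0 Φ)

open scoped Classical in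
/-- **B.4 for every rational form**, one `gam` for all forms and all stable divisors -/
theorem exists_gam_B4 {ix : X N → Fin (Φ.n + 1)} {sp : X N → modularFunctionFieldBar N}
    (hch : IsEquivChoice Φ ix sp) (hδ : 0 < δ) :
    ∃ gam : Pl → ℝ, AZ gam ∧ (∀ v, 0 ≤ gam v) ∧
      ∀ a : Fin (Φ.n + 1) → Qbar, a ≠ 0 → (∀ (σ : GQ) j, σ (a j) = a j) →
      ∀ D : X N →₀ ℤ, (letI := actX N; Stable D) →
        |Bil (bGlob (xt Φ ix) (w Φ ix) (tau Φ ix sp) δ) D (zInt (Zdiv Φ a))
          - ((∑ P ∈ D.support, D P : ℤ) : ℝ) * kap (xt Φ ix) δ a (Zdiv Φ a)| ≤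
            tot gam * nrm1 D := by
  obtain ⟨gam, hgam, hnn, h⟩ := exists_gam_X0 Φ ix sp hδ hch.adm hch.ord_sp
  exact ⟨gam, hgam, hnn, fun a ha hrat D hD =>
    abs_Bil_Zdiv_sub_le hch hδ.ne' ha hrat hgam (fun v P => h a ha v P) hD⟩

end Fermat.Agent.S17.Model.TheoremAX0
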